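import Mathlib
import Fermat.Prelude.Def_CuspForm_HeckeLocal
import Fermat.Prelude.Def_CuspForm_HeckeEvalForms
import Fermat.Prelude.Def_HeckeGalois_EichlerShimura
import Fermat.Prelude.Def_ModularCurve_ModularUnit

/-!
# S16 project: shared definitions

S16: `#(𝕋 / I) = (p - 1) / gcd (p - 1, 12)` for the weight 2, level `p` integral Hecke algebra `𝕋`
and the image `I` of the Eisenstein ideal.  Everything here is a definition; the mathematics
lives in the other files of `Fermat/Agent/S16/`.  See table `s16_doc` of the team database for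
the blueprint.
-/

set_option autoImplicit false

open UpperHalfPlane ModularForm CongruenceSubgroup
open scoped MatrixGroups Manifold

namespace Fermat.Agent.S16

/-- `σ'(k) = ∑_{d ∣ k, p ∤ d} d`, the `k`-th coefficient (`k ≥ 1`) of the weight 2 Eisenstein
series of level `p`. -/
def sigmaP (p k : ℕ) : ℕ := ∑ d ∈ k.divisors with ¬ p ∣ d, d

/-- `BadForm p ℓ s`: there is a weight 2 modular form on `Γ₀(p)` whose constant coefficient is an
integer prime to `ℓ` and whose higher coefficients are integers divisible by `ℓ ^ s`. -/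
def BadForm (p ℓ s : ℕ) : Prop :=
  ∃ (H : ModularForm (Gamma0 p) 2) (u : ℤ) (c : ℕ → ℤ), ¬ (ℓ : ℤ) ∣ u ∧
    ModularFormClass.qCoeff (⇑H) 0 = (u : ℂ) ∧
    ∀ k : ℕ, 1 ≤ k → ModularFormClass.qCoeff (⇑H) k = (ℓ : ℂ) ^ s * (c k : ℂ)

/-- `W` is the Fricke transform of `H`: `(H ∣[2] S)(z) = p⁻¹ W(z / p)`
(classically `W = H ∣ W_p = - U_p H`). -/
def IsFricke (p : ℕ) (H W : ModularForm (Gamma0 p) 2) : Prop :=
  ∀ z : ℍ, ((⇑H) ∣[(2 : ℤ)] ModularGroup.S) z = (p : ℂ)⁻¹ * W (ofComplex ((z : ℂ) / p))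

/-- Representatives of the cosets `Γ₀(p) \ SL(2, ℤ)`: `∞ ↦ 1`, `j ↦ S * T ^ j`. -/
noncomputable def cosetRep (p : ℕ) (x : OnePoint (ZMod p)) : SL(2, ℤ) :=
  x.elim 1 (fun j => ModularGroup.S * ModularGroup.T ^ (j.val : ℤ))

/-- `A` is (the Gram matrix of) an even positive definite quaternary lattice of determinant `p²`
and level `p`; `B = p A⁻¹`. -/
def IsQuatLattice (p : ℕ) (A B : Matrix (Fin 4) (Fin 4) ℤ) : Prop :=
  A.IsSymm ∧ (∀ i, Even (A i i)) ∧ (A.map (Int.cast : ℤ → ℝ)).PosDef ∧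
    A * B = (p : ℤ) • (1 : Matrix (Fin 4) (Fin 4) ℤ) ∧ A.det = (p : ℤ) ^ 2

/-- The theta function `Θ_A(z) = ∑_{x ∈ ℤ⁴} exp(π i (xᵀ A x) z)`. -/
noncomputable def thetaFun (A : Matrix (Fin 4) (Fin 4) ℤ) (z : ℍ) : ℂ :=
  ∑' x : Fin 4 → ℤ, Complex.exp (Real.pi * Complex.I * ((x ⬝ᵥ A.mulVec x : ℤ) : ℂ) * (z : ℂ))

end Fermat.Agent.S16
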