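import Mathlib
import Fermat.Agent.Lib.JDict
import Fermat.Prelude.Def_FLTPrelim_Modularity

/-!
# The weight-2 Eisenstein series of prime level `p`

`E'(τ) = (p E₂(pτ) - E₂(τ)) / 24 = (p-1)/24 + ∑_{n ≥ 1} σ'(n) qⁿ`, where `σ'(n)` is the sum of the
divisors of `n` prime to `p`, is a modular form of weight 2 on `Γ₀(p)`.

Main statement: `Fermat.Agent.S16.exists_eisP`.
-/

set_option autoImplicit false

open UpperHalfPlane ModularForm EisensteinSeries MatrixGroups Filter Topology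
open scoped Manifold Real

namespace Fermat.Agent.S16

/-- `E₂(τ) - p E₂(pτ)`. -/
noncomputable def eisPFun (p : ℕ) : ℍ → ℂ :=
  fun τ => E2 τ - (p : ℂ) * E2 (heckeDiagMatrix p • τ)

theorem eisP_E2_smul (γ : SL(2, ℤ)) (z : ℍ) :
    E2 (γ • z) = (E2 z - (1 / (2 * riemannZeta 2)) * D2 γ z) * denom γ z ^ 2 := by
  have h := congrFun (E2_slash_action γ) z
  rw [SL_slash_apply] at h
  have hd : denom γ (z : ℂ) ≠ 0 := UpperHalfPlane.denom_ne_zero γ z
  have h2 : E2 (γ • z) = (E2 ∣[(2 : ℤ)] γ) z * denom γ z ^ 2 := by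
    rw [SL_slash_apply]
    have : (denom γ (z : ℂ)) ^ (-(2 : ℤ)) * denom γ z ^ 2 = 1 := by
      rw [zpow_neg, zpow_ofNat]
      exact inv_mul_cancel₀ (pow_ne_zero 2 hd)
    rw [mul_assoc, this, mul_one]
  rw [h2, E2_slash_action]
  simp [Pi.sub_apply, Pi.smul_apply, smul_eq_mul]

theorem eisP_denom (γ : SL(2, ℤ)) (z : ℍ) : denom γ z = (γ 1 0 : ℂ) * z + γ 1 1 := by
  simp [denom]

theorem eisP_coe_smul (γ : SL(2, ℤ)) (z : ℍ) :
    ((γ • z : ℍ) : ℂ) = ((γ 0 0 : ℂ) * z + γ 0 1) / ((γ 1 0 : ℂ) * z + γ 1 1) := by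
  rw [UpperHalfPlane.coe_specialLinearGroup_apply]
  simp

theorem eisP_D2 (γ : SL(2, ℤ)) (z : ℍ) :
    D2 γ z = (2 * Real.pi * Complex.I * γ 1 0) / ((γ 1 0 : ℂ) * z + γ 1 1) := by
  show (2 * Real.pi * Complex.I * γ 1 0) / (denom γ z) = _
  rw [eisP_denom]

theorem eisP_denom_ne (γ : SL(2, ℤ)) (z : ℍ) : (γ 1 0 : ℂ) * z + γ 1 1 ≠ 0 := by
  rw [← eisP_denom]
  exact UpperHalfPlane.denom_ne_zero γ z

/-- the conjugate `diag(p,1) γ diag(p,1)⁻¹` of an element of `Γ₀(p)`. -/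
def eisPConj (p : ℕ) (γ : SL(2, ℤ)) (c' : ℤ) (hc : γ 1 0 = p * c') : SL(2, ℤ) :=
  ⟨!![γ 0 0, p * γ 0 1; c', γ 1 1], by
    have h := γ.det_coe
    rw [Matrix.det_fin_two] at h
    rw [Matrix.det_fin_two_of]
    rw [hc] at h
    linarith⟩

theorem eisP_conj_smul (p : ℕ) (hp : p ≠ 0) (γ : SL(2, ℤ)) (c' : ℤ) (hc : γ 1 0 = p * c')
    (z : ℍ) :
    heckeDiagMatrix p • (γ • z) = eisPConj p γ c' hc • (heckeDiagMatrix p • z) := by
  apply UpperHalfPlane.ext
  rw [coe_heckeDiagMatrix_smul hp, eisP_coe_smul, eisP_coe_smul, coe_heckeDiagMatrix_smul hp]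
  have h1 := eisP_denom_ne γ z
  have hc2 : (γ 1 0 : ℂ) = p * c' := by exact_mod_cast congrArg (Int.cast : ℤ → ℂ) hc
  simp only [eisPConj, Matrix.SpecialLinearGroup.coe_mk, Matrix.of_apply, Matrix.cons_val',
    Matrix.cons_val_zero, Matrix.cons_val_one, Matrix.cons_val_fin_one]
  have h2 : (c' : ℂ) * ((p : ℂ) * z) + γ 1 1 = (γ 1 0 : ℂ) * z + γ 1 1 := by
    rw [hc2]; ring
  rw [h2]
  push_cast
  field_simp

/-- `eisPFun p` is invariant of weight 2 under `Γ₀(p)`. -/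
theorem eisPFun_slash (p : ℕ) (hp : p ≠ 0) (γ : SL(2, ℤ)) (hγ : γ ∈ CongruenceSubgroup.Gamma0 p) :
    eisPFun p ∣[(2 : ℤ)] γ = eisPFun p := by
  rw [CongruenceSubgroup.Gamma0_mem, ZMod.intCast_zmod_eq_zero_iff_dvd] at hγ
  obtain ⟨c', hc⟩ := hγ
  funext z
  rw [SL_slash_apply]
  have hd := eisP_denom_ne γ z
  rw [eisP_denom]
  show (E2 (γ • z) - (p : ℂ) * E2 (heckeDiagMatrix p • (γ • z))) * _ = E2 z - (p : ℂ) * E2 (heckeDiagMatrix p • z)
  rw [eisP_conj_smul p hp γ c' hc z, eisP_E2_smul γ z, eisP_E2_smul (eisPConj p γ c' hc), eisP_D2,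
    eisP_D2, eisP_denom, eisP_denom, coe_heckeDiagMatrix_smul hp]
  have hc2 : (γ 1 0 : ℂ) = p * c' := by exact_mod_cast congrArg (Int.cast : ℤ → ℂ) hc
  simp only [eisPConj, Matrix.SpecialLinearGroup.coe_mk, Matrix.of_apply, Matrix.cons_val',
    Matrix.cons_val_zero, Matrix.cons_val_one, Matrix.cons_val_fin_one]
  have h2 : (c' : ℂ) * ((p : ℂ) * z) + γ 1 1 = (γ 1 0 : ℂ) * z + γ 1 1 := by
    rw [hc2]; ring
  rw [h2, zpow_neg, zpow_ofNat]
  rw [hc2] at hd ⊢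
  field_simp
  ring

/-- `z / p` as a point of the upper half plane. -/
noncomputable def eisPDiv (p : ℕ) (hp : p ≠ 0) (z : ℍ) : ℍ :=
  ⟨(z : ℂ) / p, by
    have h : ((z : ℂ) / p).im = z.im / p := by
      rw [Complex.div_natCast_im]; rfl
    rw [h]
    exact div_pos z.im_pos (by exact_mod_cast Nat.pos_of_ne_zero hp)⟩

theorem eisPDiv_coe (p : ℕ) (hp : p ≠ 0) (z : ℍ) : (eisPDiv p hp z : ℂ) = (z : ℂ) / p := rfl

theorem eisPDiv_im (p : ℕ) (hp : p ≠ 0) (z : ℍ) : (eisPDiv p hp z).im = z.im / p := by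
  show ((z : ℂ) / p).im = z.im / p
  rw [Complex.div_natCast_im]; rfl

theorem eisP_E2_S (z : ℍ) :
    E2 (ModularGroup.S • z) = (E2 z - (1 / (2 * riemannZeta 2)) * (2 * Real.pi * Complex.I / z)) *
      (z : ℂ) ^ 2 := by
  rw [eisP_E2_smul ModularGroup.S z, D2_S, eisP_denom]
  simp [ModularGroup.S]

theorem eisP_diag_S (p : ℕ) (hp : p ≠ 0) (z : ℍ) :
    heckeDiagMatrix p • (ModularGroup.S • z) = ModularGroup.S • eisPDiv p hp z := by
  apply UpperHalfPlane.ext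
  rw [coe_heckeDiagMatrix_smul hp, modular_S_smul, modular_S_smul]
  show (p : ℂ) * (-(z : ℂ))⁻¹ = (-((z : ℂ) / p))⁻¹
  have hz : (z : ℂ) ≠ 0 := z.ne_zero
  have hp' : (p : ℂ) ≠ 0 := by exact_mod_cast hp
  field_simp

/-- the transform of `eisPFun p` under `S`. -/
theorem eisPFun_slash_S (p : ℕ) (hp : p ≠ 0) (z : ℍ) :
    (eisPFun p ∣[(2 : ℤ)] ModularGroup.S) z = E2 z - (p : ℂ)⁻¹ * E2 (eisPDiv p hp z) := by
  rw [SlashInvariantForm.slash_S_apply]
  have e : (⟨(-(z : ℂ))⁻¹, _⟩ : ℍ) = ModularGroup.S • z := (modular_S_smul z).symm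
  show (E2 ⟨(-(z : ℂ))⁻¹, _⟩ - (p : ℂ) * E2 (heckeDiagMatrix p • ⟨(-(z : ℂ))⁻¹, _⟩)) * _ = _
  rw [e, eisP_diag_S p hp z, eisP_E2_S z, eisP_E2_S (eisPDiv p hp z), eisPDiv_coe]
  have hz : (z : ℂ) ≠ 0 := z.ne_zero
  have hp' : (p : ℂ) ≠ 0 := by exact_mod_cast hp
  rw [zpow_neg, zpow_ofNat]
  field_simp
  ring

theorem eisP_E2_periodic : Function.Periodic (E2 ∘ ofComplex) 1 := by
  intro w
  by_cases hw : 0 < w.im
  · have hw1 : 0 < (w + 1).im := by simpa using hw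
    simp only [Function.comp_apply, ofComplex_apply_of_im_pos hw1, ofComplex_apply_of_im_pos hw]
    have h1 := hasSum_qExpansion_E2 (z := ⟨w + 1, hw1⟩)
    have h2 := hasSum_qExpansion_E2 (z := ⟨w, hw⟩)
    have e : Complex.exp (2 * ↑Real.pi * Complex.I * ((⟨w + 1, hw1⟩ : ℍ) : ℂ)) =
        Complex.exp (2 * ↑Real.pi * Complex.I * ((⟨w, hw⟩ : ℍ) : ℂ)) := by
      show Complex.exp (2 * ↑Real.pi * Complex.I * (w + 1)) = Complex.exp (2 * ↑Real.pi * Complex.I * w)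
      rw [mul_add, mul_one, Complex.exp_add, Complex.exp_two_pi_mul_I, mul_one]
    rw [e] at h1
    exact h1.unique h2
  · have hw' : w.im ≤ 0 := not_lt.mp hw
    have hw1 : (w + 1).im ≤ 0 := by simpa using hw'
    simp only [Function.comp_apply]
    rw [ofComplex_apply_eq_of_im_nonpos hw1 hw']

theorem eisPFun_mdiff (p : ℕ) : MDiff (eisPFun p) := by
  have h1 : MDiff E2 := E2_mdifferentiable
  have h2 : MDiff (Fermat.Agent.Lib.JDict.vd p E2) := Fermat.Agent.Lib.JDict.vd_mdiff p h1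
  have h3 : eisPFun p = E2 - (fun _ => (p : ℂ)) * Fermat.Agent.Lib.JDict.vd p E2 := by
    funext z; rfl
  rw [h3]
  exact h1.sub (mdifferentiable_const.mul h2)

theorem eisPFun_bdd (p : ℕ) (hp : p ≠ 0) : IsBoundedAtImInfty (eisPFun p) := by
  have h1 : IsBoundedAtImInfty E2 := isBoundedAtImInfty_E2
  have h2 : IsBoundedAtImInfty (Fermat.Agent.Lib.JDict.vd p E2) :=
    Fermat.Agent.Lib.JDict.vd_bdd hp h1
  rw [UpperHalfPlane.isBoundedAtImInfty_iff] at h1 h2 ⊢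
  obtain ⟨M1, A1, h1⟩ := h1
  obtain ⟨M2, A2, h2⟩ := h2
  refine ⟨M1 + p * M2, max A1 A2, fun z hz => ?_⟩
  have e1 := h1 z ((le_max_left _ _).trans hz)
  have e2 := h2 z ((le_max_right _ _).trans hz)
  show ‖E2 z - (p : ℂ) * Fermat.Agent.Lib.JDict.vd p E2 z‖ ≤ _
  calc ‖E2 z - (p : ℂ) * Fermat.Agent.Lib.JDict.vd p E2 z‖
      ≤ ‖E2 z‖ + ‖(p : ℂ) * Fermat.Agent.Lib.JDict.vd p E2 z‖ := norm_sub_le _ _
    _ = ‖E2 z‖ + p * ‖Fermat.Agent.Lib.JDict.vd p E2 z‖ := by rw [norm_mul, Complex.norm_natCast]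
    _ ≤ M1 + p * M2 := by gcongr

theorem eisPFun_slash_S_bdd (p : ℕ) (hp : p ≠ 0) :
    IsBoundedAtImInfty (eisPFun p ∣[(2 : ℤ)] ModularGroup.S) := by
  have h1 : IsBoundedAtImInfty E2 := isBoundedAtImInfty_E2
  rw [UpperHalfPlane.isBoundedAtImInfty_iff] at h1 ⊢
  obtain ⟨M, A, h⟩ := h1
  have hp0 : (0 : ℝ) < p := by exact_mod_cast Nat.pos_of_ne_zero hp
  refine ⟨M + (p : ℝ)⁻¹ * M, max (p * A) A, fun z hz => ?_⟩
  rw [eisPFun_slash_S p hp z]
  have e1 := h z ((le_max_right _ _).trans hz)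
  have e2 : A ≤ (eisPDiv p hp z).im := by
    rw [eisPDiv_im, le_div_iff₀ hp0, mul_comm]
    exact (le_max_left _ _).trans hz
  have e3 := h _ e2
  calc ‖E2 z - (p : ℂ)⁻¹ * E2 (eisPDiv p hp z)‖
      ≤ ‖E2 z‖ + ‖(p : ℂ)⁻¹ * E2 (eisPDiv p hp z)‖ := norm_sub_le _ _
    _ = ‖E2 z‖ + (p : ℝ)⁻¹ * ‖E2 (eisPDiv p hp z)‖ := by
        rw [norm_mul, norm_inv, Complex.norm_natCast]
    _ ≤ M + (p : ℝ)⁻¹ * M := by gcongr

theorem eisP_decomp_entry (γ : SL(2, ℤ)) (j : ℤ) :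
    (γ * (ModularGroup.S * ModularGroup.T ^ j)⁻¹) 1 0 = γ 1 0 * j - γ 1 1 := by
  have hinv : (ModularGroup.S * ModularGroup.T ^ j)⁻¹ =
      ModularGroup.T ^ (-j) * ModularGroup.S⁻¹ := by
    rw [mul_inv_rev, zpow_neg]
  rw [hinv]
  have hT := ModularGroup.coe_T_zpow (-j)
  have hS : (ModularGroup.S⁻¹ : SL(2, ℤ)).1 = !![0, 1; -1, 0] := by
    rw [Matrix.SpecialLinearGroup.coe_inv, ModularGroup.S]
    simp [Matrix.adjugate_fin_two]
  rw [Matrix.SpecialLinearGroup.coe_mul, Matrix.SpecialLinearGroup.coe_mul, hT, hS]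
  simp [Matrix.mul_apply, Fin.sum_univ_two]
  ring

/-- coset decomposition: an element of `SL(2, ℤ)` whose lower left entry is prime to `p` lies in
`Γ₀(p) S T^j` for some `j`. -/
theorem eisP_exists_decomp (p : ℕ) (hp : p.Prime) (γ : SL(2, ℤ)) (hγ : ¬ (p : ℤ) ∣ γ 1 0) :
    ∃ (γ₀ : SL(2, ℤ)) (j : ℤ), γ₀ ∈ CongruenceSubgroup.Gamma0 p ∧
      γ = γ₀ * ModularGroup.S * ModularGroup.T ^ j := by
  have hcop : IsCoprime (γ 1 0) (p : ℤ) := by
    rw [isCoprime_comm]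
    exact (Int.prime_iff_natAbs_prime.mpr (by simpa using hp)).coprime_iff_not_dvd.mpr hγ
  obtain ⟨u, v, huv⟩ := hcop
  -- `u * c + v * p = 1`; take `j = d * u`
  have hmem : γ * (ModularGroup.S * ModularGroup.T ^ (γ 1 1 * u))⁻¹ ∈
      CongruenceSubgroup.Gamma0 p := by
    rw [CongruenceSubgroup.Gamma0_mem, ZMod.intCast_zmod_eq_zero_iff_dvd, eisP_decomp_entry]
    refine ⟨-(γ 1 1 * v), ?_⟩
    linear_combination (γ 1 1) * huv
  refine ⟨_, γ 1 1 * u, hmem, ?_⟩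
  generalize ModularGroup.T ^ (γ 1 1 * u) = t
  group

/-- `eisPFun p` is bounded at every cusp. -/
theorem eisPFun_slash_bdd (p : ℕ) (hp : p.Prime) (γ : SL(2, ℤ)) :
    IsBoundedAtImInfty (eisPFun p ∣[(2 : ℤ)] γ) := by
  by_cases hγ : (p : ℤ) ∣ γ 1 0
  · have hmem : γ ∈ CongruenceSubgroup.Gamma0 p := by
      rw [CongruenceSubgroup.Gamma0_mem, ZMod.intCast_zmod_eq_zero_iff_dvd]
      exact hγ
    rw [eisPFun_slash p hp.ne_zero γ hmem]
    exact eisPFun_bdd p hp.ne_zero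
  · obtain ⟨γ₀, j, hγ₀, rfl⟩ := eisP_exists_decomp p hp γ hγ
    rw [SlashAction.slash_mul, SlashAction.slash_mul, eisPFun_slash p hp.ne_zero γ₀ hγ₀]
    rw [SL_slash (eisPFun p ∣[(2 : ℤ)] ModularGroup.S) (ModularGroup.T ^ j)]
    refine IsBoundedAtImInfty.slash 2 ?_ (eisPFun_slash_S_bdd p hp.ne_zero)
    have hT := ModularGroup.coe_T_zpow j
    show ((Matrix.SpecialLinearGroup.map (Int.castRingHom ℝ)) (ModularGroup.T ^ j)).1 1 0 = 0
    rw [Matrix.SpecialLinearGroup.map_apply_coe, hT]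
    simp

/-- The weight-2 Eisenstein series of level `p`, unnormalised: `E₂(τ) - p E₂(pτ)`. -/
noncomputable def eisPForm (p : ℕ) [Fact p.Prime] : ModularForm (CongruenceSubgroup.Gamma0 p) 2 where
  toFun := eisPFun p
  slash_action_eq' := by
    rintro _ ⟨γ, hγ, rfl⟩
    exact eisPFun_slash p (Fact.out : p.Prime).ne_zero γ hγ
  holo' := eisPFun_mdiff p
  bdd_at_cusps' := fun {c} hc => by
    rw [Subgroup.IsArithmetic.isCusp_iff_isCusp_SL2Z] at hc
    rw [OnePoint.isBoundedAt_iff_forall_SL2Z hc]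
    intro γ _
    exact eisPFun_slash_bdd p Fact.out γ

/-! ### q-expansion -/

theorem eisP_E2_analytic : AnalyticAt ℂ (cuspFunction 1 E2) 0 :=
  UpperHalfPlane.analyticAt_cuspFunction_zero one_pos (by simpa using eisP_E2_periodic)
    E2_mdifferentiable isBoundedAtImInfty_E2

theorem eisP_qExpansion_E2 (m : ℕ) :
    (qExpansion 1 E2).coeff m = if m = 0 then 1 else -24 * (ArithmeticFunction.sigma 1 m : ℂ) := by
  symm
  refine Fermat.Agent.Lib.JDict.qExpansion_coeff_unique_fun (f := E2) eisP_E2_analytic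
    (c := fun m => if m = 0 then 1 else -24 * (ArithmeticFunction.sigma 1 m : ℂ)) ?_ m
  intro τ
  simpa only [Function.Periodic.qParam, Complex.ofReal_one, div_one] using
    hasSum_qExpansion_E2 (z := τ)

theorem eisP_vd_analytic (p : ℕ) (hp : p ≠ 0) :
    AnalyticAt ℂ (cuspFunction 1 (Fermat.Agent.Lib.JDict.vd p E2)) 0 :=
  UpperHalfPlane.analyticAt_cuspFunction_zero one_pos
    (by simpa using Fermat.Agent.Lib.JDict.vd_periodic hp eisP_E2_periodic)
    (Fermat.Agent.Lib.JDict.vd_mdiff p E2_mdifferentiable)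
    (Fermat.Agent.Lib.JDict.vd_bdd hp isBoundedAtImInfty_E2)

theorem eisPFun_eq (p : ℕ) :
    eisPFun p = E2 - (p : ℂ) • Fermat.Agent.Lib.JDict.vd p E2 := by
  funext z; rfl

theorem eisP_qExpansion_fun (p : ℕ) (hp : p ≠ 0) (n : ℕ) :
    (qExpansion 1 (eisPFun p)).coeff n =
      (qExpansion 1 E2).coeff n -
        (p : ℂ) * (if p ∣ n then (qExpansion 1 E2).coeff (n / p) else 0) := by
  rw [eisPFun_eq, qExpansion_sub eisP_E2_analytic
    (by
      have := (eisP_vd_analytic p hp)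
      have h2 : cuspFunction 1 ((p : ℂ) • Fermat.Agent.Lib.JDict.vd p E2) =
          (p : ℂ) • cuspFunction 1 (Fermat.Agent.Lib.JDict.vd p E2) :=
        cuspFunction_smul this.continuousAt _
      rw [h2]
      exact this.const_smul),
    qExpansion_smul (eisP_vd_analytic p hp), map_sub, PowerSeries.coeff_smul,
    Fermat.Agent.Lib.JDict.qExpansion_vd_coeff hp (by simpa using eisP_E2_periodic)
      E2_mdifferentiable isBoundedAtImInfty_E2, smul_eq_mul]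

/-- the sum of the divisors of `n` prime to `p`. -/
def eisPSigma (p n : ℕ) : ℕ := ∑ d ∈ n.divisors with ¬ p ∣ d, d

theorem eisP_sigma_eq (p n : ℕ) (hp : p ≠ 0) (hn : n ≠ 0) :
    (ArithmeticFunction.sigma 1 n : ℤ) - (p : ℤ) * (if p ∣ n then (ArithmeticFunction.sigma 1 (n / p) : ℤ) else 0)
      = (eisPSigma p n : ℤ) := by
  have h1 : (ArithmeticFunction.sigma 1 n : ℕ) =
      ∑ d ∈ n.divisors with p ∣ d, d + ∑ d ∈ n.divisors with ¬ p ∣ d, d := by
    rw [ArithmeticFunction.sigma_one_apply, Finset.sum_filter_add_sum_filter_not]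
  have h2 : ∑ d ∈ n.divisors with p ∣ d, d =
      p * (if p ∣ n then (ArithmeticFunction.sigma 1 (n / p) : ℕ) else 0) := by
    by_cases hpn : p ∣ n
    · rw [if_pos hpn, ArithmeticFunction.sigma_one_apply, Finset.mul_sum]
      obtain ⟨m, rfl⟩ := hpn
      have hm : m ≠ 0 := fun h => hn (by rw [h, mul_zero])
      rw [Nat.mul_div_cancel_left m (Nat.pos_of_ne_zero hp)]
      refine Finset.sum_bij' (fun d _ => d / p) (fun e _ => p * e) ?_ ?_ ?_ ?_ ?_
      · intro d hd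
        rw [Finset.mem_filter, Nat.mem_divisors] at hd
        obtain ⟨⟨hd1, -⟩, e, rfl⟩ := hd
        rw [Nat.mul_div_cancel_left e (Nat.pos_of_ne_zero hp), Nat.mem_divisors]
        exact ⟨(Nat.mul_dvd_mul_iff_left (Nat.pos_of_ne_zero hp)).mp hd1, hm⟩
      · intro e he
        rw [Nat.mem_divisors] at he
        rw [Finset.mem_filter, Nat.mem_divisors]
        exact ⟨⟨Nat.mul_dvd_mul_left p he.1, hn⟩, dvd_mul_right p e⟩
      · intro d hd
        rw [Finset.mem_filter] at hd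
        exact Nat.mul_div_cancel' hd.2
      · intro e _
        exact Nat.mul_div_cancel_left e (Nat.pos_of_ne_zero hp)
      · intro d hd
        rw [Finset.mem_filter] at hd
        exact (Nat.mul_div_cancel' hd.2).symm
    · rw [if_neg hpn, mul_zero]
      refine Finset.sum_eq_zero fun d hd => ?_
      rw [Finset.mem_filter, Nat.mem_divisors] at hd
      exact absurd (hd.2.trans hd.1.1) hpn
  rw [eisPSigma]
  have h3 : (ArithmeticFunction.sigma 1 n : ℤ) =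
      (p : ℤ) * (if p ∣ n then (ArithmeticFunction.sigma 1 (n / p) : ℤ) else 0) +
        ((∑ d ∈ n.divisors with ¬ p ∣ d, d : ℕ) : ℤ) := by
    rw [h1, h2]
    push_cast
    split_ifs <;> simp
  rw [h3]
  ring

/-- The weight-2 Eisenstein series of level `p`, normalised: `(p E₂(pτ) - E₂(τ)) / 24`. -/
noncomputable def eisP (p : ℕ) [Fact p.Prime] : ModularForm (CongruenceSubgroup.Gamma0 p) 2 :=
  (-1 / 24 : ℂ) • eisPForm p

theorem eisP_apply (p : ℕ) [Fact p.Prime] (τ : ℍ) :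
    eisP p τ = (-1 / 24 : ℂ) * (E2 τ - (p : ℂ) * E2 (heckeDiagMatrix p • τ)) := rfl

/-- **The weight-2 Eisenstein series of prime level**: q-expansion
`(p-1)/24 + ∑_{n ≥ 1} σ'(n) qⁿ`, `σ'(n)` the sum of the divisors of `n` prime to `p`. -/
theorem eisP_qCoeff (p : ℕ) [Fact p.Prime] (n : ℕ) :
    ModularFormClass.qCoeff (eisP p) n =
      if n = 0 then ((p : ℂ) - 1) / 24 else ((∑ d ∈ n.divisors with ¬ p ∣ d, d : ℕ) : ℂ) := by
  have hp : p ≠ 0 := (Fact.out : p.Prime).ne_zero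
  rw [eisP]
  have hcoe : (⇑((-1 / 24 : ℂ) • eisPForm p) : ℍ → ℂ) = (-1 / 24 : ℂ) • eisPFun p := rfl
  have han : AnalyticAt ℂ (cuspFunction 1 (eisPFun p)) 0 :=
    UpperHalfPlane.analyticAt_cuspFunction_zero one_pos
      (by
        have h := (eisP_vd_analytic p hp)
        rw [eisPFun_eq]
        intro w
        have h1 := eisP_E2_periodic w
        have h2 := Fermat.Agent.Lib.JDict.vd_periodic hp eisP_E2_periodic w
        simp only [Function.comp_apply, Pi.sub_apply, Pi.smul_apply] at h1 h2 ⊢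
        rw [Complex.ofReal_one, h1, h2])
      (eisPFun_mdiff p) (eisPFun_bdd p hp)
  rw [ModularFormClass.qCoeff, hcoe, qExpansion_smul han, PowerSeries.coeff_smul,
    eisP_qExpansion_fun p hp n, eisP_qExpansion_E2, smul_eq_mul]
  by_cases hn : n = 0
  · subst hn
    simp only [if_true, dvd_zero, Nat.zero_div, eisP_qExpansion_E2]
    ring
  · rw [if_neg hn, if_neg hn]
    have key := eisP_sigma_eq p n hp hn
    have key' : ((ArithmeticFunction.sigma 1 n : ℕ) : ℂ) -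
        (p : ℂ) * (if p ∣ n then ((ArithmeticFunction.sigma 1 (n / p) : ℕ) : ℂ) else 0)
          = ((eisPSigma p n : ℕ) : ℂ) := by
      have := congrArg (Int.cast : ℤ → ℂ) key
      push_cast at this
      rw [← this]
    rw [eisPSigma] at key'
    rw [← key']
    by_cases hpn : p ∣ n
    · rw [if_pos hpn, if_pos hpn, eisP_qExpansion_E2]
      have hnp : n / p ≠ 0 := by
        obtain ⟨m, rfl⟩ := hpn
        rw [Nat.mul_div_cancel_left m (Nat.pos_of_ne_zero hp)]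
        exact fun h => hn (by rw [h, mul_zero])
      rw [if_neg hnp]
      ring
    · rw [if_neg hpn, if_neg hpn]
      ring

/-- existence form of `eisP_qCoeff`. -/
theorem exists_eisP (p : ℕ) [Fact p.Prime] :
    ∃ E : ModularForm (CongruenceSubgroup.Gamma0 p) 2, ∀ n : ℕ,
      ModularFormClass.qCoeff E n =
        if n = 0 then ((p : ℂ) - 1) / 24 else ((∑ d ∈ n.divisors with ¬ p ∣ d, d : ℕ) : ℂ) :=
  ⟨eisP p, eisP_qCoeff p⟩

end Fermat.Agent.S16

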