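import Mathlib
import Fermat.Prelude.Def_ModularCurve_PeriodMap
import Fermat.Agent.S20.Period

/-!
# S16, lower bound: integral parabolic lifts of torsion-killing characters of `Γ₀(p)`

A homomorphism `ψ : Γ₀(p) → ℤ/n` which kills the elements of order dividing `12` and the
translation `T` lifts to a parabolic homomorphism `χ : Γ₀(p) → ℤ`.

The lift is a "crossing number" with the Farey tessellation, written in integer arithmetic:
for `h = [[a, b], [c, d]]` the sign of `liftQ h = 2ac + ad + bc + 2bd` is the sign of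
`Re (h z₀)` for `z₀ = e^{π i / 3}`, which never lies on an edge of the tessellation.
-/

set_option autoImplicit false

open scoped MatrixGroups
open CongruenceSubgroup ModularGroup

namespace Fermat.Agent.S16

/-! ### Entries -/

theorem lift_det (h : SL(2, ℤ)) : h 0 0 * h 1 1 - h 0 1 * h 1 0 = 1 := by
  have := h.det_coe
  rw [Matrix.det_fin_two] at this
  exact this

theorem lift_ext {g h : SL(2, ℤ)} (h00 : g 0 0 = h 0 0) (h01 : g 0 1 = h 0 1)
    (h10 : g 1 0 = h 1 0) (h11 : g 1 1 = h 1 1) : g = h := by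
  ext i j
  fin_cases i <;> fin_cases j
  · exact h00
  · exact h01
  · exact h10
  · exact h11

theorem lift_mul_apply (g h : SL(2, ℤ)) (i j : Fin 2) :
    (g * h) i j = g i 0 * h 0 j + g i 1 * h 1 j := by
  rw [Matrix.SpecialLinearGroup.coe_mul, Matrix.mul_apply, Fin.sum_univ_two]

theorem lift_S_entries : (S : SL(2, ℤ)) 0 0 = 0 ∧ (S : SL(2, ℤ)) 0 1 = -1 ∧
    (S : SL(2, ℤ)) 1 0 = 1 ∧ (S : SL(2, ℤ)) 1 1 = 0 := by
  refine ⟨?_, ?_, ?_, ?_⟩ <;> simp [coe_S]

theorem lift_T_zpow_entries (n : ℤ) : (T ^ n : SL(2, ℤ)) 0 0 = 1 ∧ (T ^ n : SL(2, ℤ)) 0 1 = n ∧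
    (T ^ n : SL(2, ℤ)) 1 0 = 0 ∧ (T ^ n : SL(2, ℤ)) 1 1 = 1 := by
  have h := coe_T_zpow n
  refine ⟨?_, ?_, ?_, ?_⟩
  · show (T ^ n).1 0 0 = 1; rw [h]; rfl
  · show (T ^ n).1 0 1 = n; rw [h]; rfl
  · show (T ^ n).1 1 0 = 0; rw [h]; rfl
  · show (T ^ n).1 1 1 = 1; rw [h]; rfl

theorem lift_T_entries : (T : SL(2, ℤ)) 0 0 = 1 ∧ (T : SL(2, ℤ)) 0 1 = 1 ∧
    (T : SL(2, ℤ)) 1 0 = 0 ∧ (T : SL(2, ℤ)) 1 1 = 1 := by
  refine ⟨?_, ?_, ?_, ?_⟩ <;> simp [coe_T]

theorem lift_mul_S (h : SL(2, ℤ)) : (h * S) 0 0 = h 0 1 ∧ (h * S) 0 1 = -h 0 0 ∧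
    (h * S) 1 0 = h 1 1 ∧ (h * S) 1 1 = -h 1 0 := by
  obtain ⟨s00, s01, s10, s11⟩ := lift_S_entries
  refine ⟨?_, ?_, ?_, ?_⟩ <;> simp only [lift_mul_apply, s00, s01, s10, s11] <;> ring

theorem lift_mul_T_zpow (h : SL(2, ℤ)) (n : ℤ) : (h * T ^ n) 0 0 = h 0 0 ∧
    (h * T ^ n) 0 1 = h 0 0 * n + h 0 1 ∧ (h * T ^ n) 1 0 = h 1 0 ∧
    (h * T ^ n) 1 1 = h 1 0 * n + h 1 1 := by
  obtain ⟨s00, s01, s10, s11⟩ := lift_T_zpow_entries n
  refine ⟨?_, ?_, ?_, ?_⟩ <;> simp only [lift_mul_apply, s00, s01, s10, s11] <;> ring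

theorem lift_mul_T (h : SL(2, ℤ)) : (h * T) 0 0 = h 0 0 ∧
    (h * T) 0 1 = h 0 0 + h 0 1 ∧ (h * T) 1 0 = h 1 0 ∧
    (h * T) 1 1 = h 1 0 + h 1 1 := by
  obtain ⟨s00, s01, s10, s11⟩ := lift_T_entries
  refine ⟨?_, ?_, ?_, ?_⟩ <;> simp only [lift_mul_apply, s00, s01, s10, s11] <;> ring

theorem lift_neg_apply (h : SL(2, ℤ)) (i j : Fin 2) : (-h) i j = -(h i j) := by
  rw [Matrix.SpecialLinearGroup.coe_neg]
  rfl

theorem lift_inv_entries (h : SL(2, ℤ)) : h⁻¹ 0 0 = h 1 1 ∧ h⁻¹ 0 1 = -h 0 1 ∧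
    h⁻¹ 1 0 = -h 1 0 ∧ h⁻¹ 1 1 = h 0 0 := by
  refine ⟨?_, ?_, ?_, ?_⟩ <;>
    simp [Matrix.SpecialLinearGroup.coe_inv, Matrix.adjugate_fin_two]

/-! ### The sign function -/

/-- the quadratic form whose sign is the sign of `Re (h z₀)`, `z₀ = e^{π i / 3}` -/
def liftQ (h : SL(2, ℤ)) : ℤ :=
  2 * (h 0 0 * h 1 0) + (h 0 0 * h 1 1 + h 0 1 * h 1 0) + 2 * (h 0 1 * h 1 1)

/-- `1` if `h z₀` lies in the right half plane, `0` otherwise -/
def liftS (h : SL(2, ℤ)) : ℤ := if 0 < liftQ h then 1 else 0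

theorem liftQ_neg (h : SL(2, ℤ)) : liftQ (-h) = liftQ h := by
  simp only [liftQ, lift_neg_apply]
  ring

theorem liftS_neg (h : SL(2, ℤ)) : liftS (-h) = liftS h := by
  rw [liftS, liftS, liftQ_neg]

theorem liftQ_mul_S (h : SL(2, ℤ)) :
    liftQ (h * S) = 2 * (h 0 0 * h 1 0) - (h 0 0 * h 1 1 + h 0 1 * h 1 0) + 2 * (h 0 1 * h 1 1) := by
  obtain ⟨s00, s01, s10, s11⟩ := lift_mul_S h
  rw [liftQ, s00, s01, s10, s11]
  ring

theorem liftQ_mul_T (h : SL(2, ℤ)) :
    liftQ (h * T) = 6 * (h 0 0 * h 1 0) + 3 * (h 0 0 * h 1 1 + h 0 1 * h 1 0)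
      + 2 * (h 0 1 * h 1 1) := by
  obtain ⟨s00, s01, s10, s11⟩ := lift_mul_T h
  rw [liftQ, s00, s01, s10, s11]
  ring

/-- the sign of the three forms is the sign of `A` when `A ≠ 0` -/
theorem lift_core_sign (A B C : ℤ) (h : B ^ 2 - 4 * A * C = 1) (hA : A ≠ 0) :
    (0 < 2 * A + B + 2 * C ↔ 0 < A) ∧ (0 < 6 * A + 3 * B + 2 * C ↔ 0 < A) ∧
      (0 < 2 * A - B + 2 * C ↔ 0 < A) := by
  have hA2 : 1 ≤ A ^ 2 := by
    have : 0 < A ^ 2 := by positivity
    linarith
  have k1 : 0 < A * (2 * A + B + 2 * C) := by nlinarith [sq_nonneg (A + B)]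
  have k2 : 0 < A * (6 * A + 3 * B + 2 * C) := by nlinarith [sq_nonneg (3 * A + B)]
  have k3 : 0 < A * (2 * A - B + 2 * C) := by nlinarith [sq_nonneg (A - B)]
  have aux : ∀ X : ℤ, 0 < A * X → (0 < X ↔ 0 < A) := by
    intro X hX
    constructor
    · intro hX0
      by_contra hA0
      have : A < 0 := lt_of_le_of_ne (not_lt.mp hA0) hA
      nlinarith
    · intro hA0
      by_contra hX0
      have : X ≤ 0 := not_lt.mp hX0
      nlinarith
  exact ⟨aux _ k1, aux _ k2, aux _ k3⟩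

theorem lift_disc (h : SL(2, ℤ)) :
    (h 0 0 * h 1 1 + h 0 1 * h 1 0) ^ 2 - 4 * (h 0 0 * h 1 0) * (h 0 1 * h 1 1) = 1 := by
  have hd := lift_det h
  have : (h 0 0 * h 1 1 + h 0 1 * h 1 0) ^ 2 - 4 * (h 0 0 * h 1 0) * (h 0 1 * h 1 1)
      = (h 0 0 * h 1 1 - h 0 1 * h 1 0) ^ 2 := by ring
  rw [this, hd]
  ring

theorem liftS_eq_of_iff {g h : SL(2, ℤ)} (hiff : 0 < liftQ g ↔ 0 < liftQ h) :
    liftS g = liftS h := by
  unfold liftS
  simp only [hiff]

theorem lift_one_entries : (1 : SL(2, ℤ)) 0 0 = 1 ∧ (1 : SL(2, ℤ)) 0 1 = 0 ∧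
    (1 : SL(2, ℤ)) 1 0 = 0 ∧ (1 : SL(2, ℤ)) 1 1 = 1 := by
  refine ⟨?_, ?_, ?_, ?_⟩ <;> simp

theorem lift_mul_eq_one_cases {x y : ℤ} (h : x * y = 1) : (x = 1 ∧ y = 1) ∨ (x = -1 ∧ y = -1) :=
  Int.eq_one_or_neg_one_of_mul_eq_one' h

theorem lift_mul_eq_neg_one_cases {x y : ℤ} (h : x * y = -1) :
    (x = 1 ∧ y = -1) ∨ (x = -1 ∧ y = 1) := by
  have h' : x * (-y) = 1 := by rw [mul_neg, h, neg_neg]
  rcases Int.eq_one_or_neg_one_of_mul_eq_one' h' with ⟨h1, h2⟩ | ⟨h1, h2⟩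
  · left; exact ⟨h1, by omega⟩
  · right; exact ⟨h1, by omega⟩

/-- the only edges separating `z₀` and `S z₀ = z₀ - 1` -/
theorem liftS_mul_S_ne (h : SL(2, ℤ)) (hne : liftS (h * S) ≠ liftS h) :
    h = 1 ∨ h = -1 ∨ h = S ∨ h = -S := by
  have hdet := lift_det h
  obtain ⟨o00, o01, o10, o11⟩ := lift_one_entries
  obtain ⟨s00, s01, s10, s11⟩ := lift_S_entries
  by_cases hA : h 0 0 * h 1 0 = 0
  · rcases mul_eq_zero.mp hA with ha | hc
    · -- a = 0
      rw [ha, zero_mul, zero_sub] at hdet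
      have hbc : h 0 1 * h 1 0 = -1 := by omega
      have hd : h 1 1 = 0 := by
        by_contra hd
        apply hne
        apply liftS_eq_of_iff
        rw [liftQ_mul_S, liftQ, ha]
        rcases lift_mul_eq_neg_one_cases hbc with ⟨hb, hc⟩ | ⟨hb, hc⟩ <;> rw [hb, hc] <;> omega
      rcases lift_mul_eq_neg_one_cases hbc with ⟨hb, hc⟩ | ⟨hb, hc⟩
      · right; right; right
        apply lift_ext <;> simp only [lift_neg_apply, s00, s01, s10, s11, ha, hb, hc, hd] <;> rfl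
      · right; right; left
        apply lift_ext <;> simp only [s00, s01, s10, s11, ha, hb, hc, hd]
    · -- c = 0
      rw [hc, mul_zero, sub_zero] at hdet
      have hb : h 0 1 = 0 := by
        by_contra hb
        apply hne
        apply liftS_eq_of_iff
        rw [liftQ_mul_S, liftQ, hc]
        rcases lift_mul_eq_one_cases hdet with ⟨ha, hd⟩ | ⟨ha, hd⟩ <;> rw [ha, hd] <;> omega
      rcases lift_mul_eq_one_cases hdet with ⟨ha, hd⟩ | ⟨ha, hd⟩
      · left
        apply lift_ext <;> simp only [o00, o01, o10, o11, ha, hb, hc, hd]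
      · right; left
        apply lift_ext <;> simp only [lift_neg_apply, o00, o01, o10, o11, ha, hb, hc, hd] <;> rfl
  · exfalso
    apply hne
    apply liftS_eq_of_iff
    obtain ⟨k1, -, k3⟩ := lift_core_sign _ _ _ (lift_disc h) hA
    rw [liftQ_mul_S, liftQ]
    rw [k1, ← k3]

/-- the only edges separating `z₀` and `T z₀ = z₀ + 1` -/
theorem liftS_mul_T_ne (h : SL(2, ℤ)) (hne : liftS (h * T) ≠ liftS h) :
    h = T⁻¹ ∨ h = -T⁻¹ ∨ h = (T * S)⁻¹ ∨ h = -(T * S)⁻¹ := by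
  have hdet := lift_det h
  obtain ⟨t00, t01, t10, t11⟩ := lift_inv_entries T
  obtain ⟨u00, u01, u10, u11⟩ := lift_inv_entries (T * S)
  obtain ⟨v00, v01, v10, v11⟩ := lift_mul_S T
  obtain ⟨w00, w01, w10, w11⟩ := lift_T_entries
  rw [v00, w01] at u11
  rw [v01, w00] at u01
  rw [v10, w11] at u10
  rw [v11, w10] at u00
  rw [w11] at t00
  rw [w01] at t01
  rw [w10] at t10
  rw [w00] at t11
  by_cases hA : h 0 0 * h 1 0 = 0
  · rcases mul_eq_zero.mp hA with ha | hc
    · -- a = 0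
      rw [ha, zero_mul, zero_sub] at hdet
      have hbc : h 0 1 * h 1 0 = -1 := by omega
      rcases lift_mul_eq_neg_one_cases hbc with ⟨hb, hc⟩ | ⟨hb, hc⟩
      · have hd : h 1 1 = 1 := by
          by_contra hd
          apply hne
          apply liftS_eq_of_iff
          rw [liftQ_mul_T, liftQ, ha, hb, hc]
          omega
        right; right; left
        apply lift_ext <;> simp only [u00, u01, u10, u11, ha, hb, hc, hd] <;> norm_num
      · have hd : h 1 1 = -1 := by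
          by_contra hd
          apply hne
          apply liftS_eq_of_iff
          rw [liftQ_mul_T, liftQ, ha, hb, hc]
          omega
        right; right; right
        apply lift_ext <;> simp only [lift_neg_apply, u00, u01, u10, u11, ha, hb, hc, hd] <;>
          norm_num
    · -- c = 0
      rw [hc, mul_zero, sub_zero] at hdet
      rcases lift_mul_eq_one_cases hdet with ⟨ha, hd⟩ | ⟨ha, hd⟩
      · have hb : h 0 1 = -1 := by
          by_contra hb
          apply hne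
          apply liftS_eq_of_iff
          rw [liftQ_mul_T, liftQ, ha, hc, hd]
          omega
        left
        apply lift_ext <;> simp only [t00, t01, t10, t11, ha, hb, hc, hd] <;> norm_num
      · have hb : h 0 1 = 1 := by
          by_contra hb
          apply hne
          apply liftS_eq_of_iff
          rw [liftQ_mul_T, liftQ, ha, hc, hd]
          omega
        right; left
        apply lift_ext <;> simp only [lift_neg_apply, t00, t01, t10, t11, ha, hb, hc, hd] <;>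
          norm_num
  · exfalso
    apply hne
    apply liftS_eq_of_iff
    obtain ⟨k1, k2, -⟩ := lift_core_sign _ _ _ (lift_disc h) hA
    rw [liftQ_mul_T, liftQ]
    rw [k1, ← k2]

/-! ### Crossing sets and crossing numbers -/

/-- the edges separating `z₀` and `x z₀` -/
def liftD (x : SL(2, ℤ)) : Set SL(2, ℤ) := {h | liftS (h * x) ≠ liftS h}

theorem liftD_one : liftD 1 = ∅ := by
  ext h
  simp [liftD]

theorem liftD_mul_subset (x y : SL(2, ℤ)) :
    liftD (x * y) ⊆ liftD x ∪ (fun h => h * x⁻¹) '' liftD y := by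
  intro h hh
  by_cases h1 : liftS (h * x) = liftS h
  · right
    refine ⟨h * x, ?_, by group⟩
    show liftS (h * x * y) ≠ liftS (h * x)
    rw [h1, mul_assoc]
    exact hh
  · left
    exact h1

theorem liftD_inv_subset (x : SL(2, ℤ)) : liftD x⁻¹ ⊆ (fun h => h * x) '' liftD x := by
  intro h hh
  refine ⟨h * x⁻¹, ?_, by group⟩
  show liftS (h * x⁻¹ * x) ≠ liftS (h * x⁻¹)
  rw [inv_mul_cancel_right]
  exact fun e => hh e.symm

theorem liftD_finite (x : SL(2, ℤ)) : (liftD x).Finite := by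
  have hx : x ∈ Subgroup.closure ({S, T} : Set SL(2, ℤ)) := by
    rw [SpecialLinearGroup.SL2Z_generators]
    trivial
  induction hx using Subgroup.closure_induction with
  | mem x hx =>
    rcases hx with rfl | rfl
    · refine (Set.toFinite ({1, -1, S, -S} : Set SL(2, ℤ))).subset fun h hh => ?_
      simpa using liftS_mul_S_ne h hh
    · refine (Set.toFinite ({T⁻¹, -T⁻¹, (T * S)⁻¹, -(T * S)⁻¹} : Set SL(2, ℤ))).subset
        fun h hh => ?_
      simpa using liftS_mul_T_ne h hh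
  | one =>
    rw [liftD_one]
    exact Set.finite_empty
  | mul x y _ _ hx hy => exact (hx.union (hy.image _)).subset (liftD_mul_subset x y)
  | inv x _ hx => exact (hx.image _).subset (liftD_inv_subset x)

/-- the weighted crossing number -/
noncomputable def liftN (w : SL(2, ℤ) → ℤ) (x : SL(2, ℤ)) : ℤ :=
  ∑ᶠ h : SL(2, ℤ), w h⁻¹ * (liftS (h * x) - liftS h)

theorem liftN_support (w : SL(2, ℤ) → ℤ) (x : SL(2, ℤ)) :
    Function.support (fun h : SL(2, ℤ) => w h⁻¹ * (liftS (h * x) - liftS h)) ⊆ liftD x := by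
  intro h hh heq
  apply hh
  show w h⁻¹ * (liftS (h * x) - liftS h) = 0
  rw [heq, sub_self, mul_zero]

/-- the cocycle identity -/
theorem liftN_mul (w : SL(2, ℤ) → ℤ) (x y : SL(2, ℤ)) :
    liftN w (x * y) = liftN w x + liftN (fun g => w (x * g)) y := by
  have h1 : (Function.support
      (fun h : SL(2, ℤ) => w h⁻¹ * (liftS (h * x) - liftS h))).Finite :=
    (liftD_finite x).subset (liftN_support w x)
  have h2 : (Function.support
      (fun h : SL(2, ℤ) => w h⁻¹ * (liftS (h * x * y) - liftS (h * x)))).Finite := by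
    refine ((liftD_finite y).image (fun h => h * x⁻¹)).subset ?_
    intro h hh
    refine ⟨h * x, ?_, by group⟩
    intro heq
    apply hh
    show w h⁻¹ * (liftS (h * x * y) - liftS (h * x)) = 0
    rw [heq, sub_self, mul_zero]
  have h3 : liftN (fun g => w (x * g)) y
      = ∑ᶠ h : SL(2, ℤ), w h⁻¹ * (liftS (h * x * y) - liftS (h * x)) := by
    unfold liftN
    rw [← finsum_comp_equiv (Equiv.mulRight x)]
    refine finsum_congr fun h => ?_
    simp only [Equiv.coe_mulRight, _root_.mul_inv_rev, mul_inv_cancel_left]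
  rw [h3]
  unfold liftN
  rw [← finsum_add_distrib h1 h2]
  refine finsum_congr fun h => ?_
  rw [mul_assoc]
  ring

theorem liftN_one (w : SL(2, ℤ) → ℤ) : liftN w 1 = 0 := by
  unfold liftN
  simp

theorem liftN_neg (w : SL(2, ℤ) → ℤ) (x : SL(2, ℤ)) : liftN w (-x) = liftN w x := by
  unfold liftN
  refine finsum_congr fun h => ?_
  rw [mul_neg, liftS_neg]

theorem liftN_S (w : SL(2, ℤ) → ℤ) (hw : ∀ g, w (-g) = w g) :
    liftN w S = 2 * (w S - w 1) := by
  unfold liftN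
  rw [finsum_eq_sum_of_support_subset (s := {1, -1, S, -S}) _ (by
    intro h hh
    have := liftS_mul_S_ne h (liftN_support w S hh)
    simpa using this)]
  rw [Finset.sum_insert (by decide), Finset.sum_insert (by decide),
    Finset.sum_insert (by decide), Finset.sum_singleton]
  have e1 : liftS (1 * S) - liftS 1 = -1 := by decide
  have e2 : liftS (-1 * S) - liftS (-1) = -1 := by decide
  have e3 : liftS (S * S) - liftS S = 1 := by decide
  have e4 : liftS (-S * S) - liftS (-S) = 1 := by decide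
  have i2 : (-1 : SL(2, ℤ))⁻¹ = -1 := by decide
  have i3 : (S : SL(2, ℤ))⁻¹ = -S := by decide
  have i4 : (-S : SL(2, ℤ))⁻¹ = S := by decide
  rw [e1, e2, e3, e4, inv_one, i2, i3, i4, hw, hw]
  ring

theorem liftN_T (w : SL(2, ℤ) → ℤ) (hw : ∀ g, w (-g) = w g) :
    liftN w T = 2 * (w T - w (T * S)) := by
  unfold liftN
  rw [finsum_eq_sum_of_support_subset (s := {T⁻¹, -T⁻¹, (T * S)⁻¹, -(T * S)⁻¹}) _ (by
    intro h hh
    have := liftS_mul_T_ne h (liftN_support w T hh)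
    simpa using this)]
  rw [Finset.sum_insert (by decide), Finset.sum_insert (by decide),
    Finset.sum_insert (by decide), Finset.sum_singleton]
  have e1 : liftS (T⁻¹ * T) - liftS T⁻¹ = 1 := by decide
  have e2 : liftS (-T⁻¹ * T) - liftS (-T⁻¹) = 1 := by decide
  have e3 : liftS ((T * S)⁻¹ * T) - liftS (T * S)⁻¹ = -1 := by decide
  have e4 : liftS (-(T * S)⁻¹ * T) - liftS (-(T * S)⁻¹) = -1 := by decide
  have i2 : (-T⁻¹ : SL(2, ℤ))⁻¹ = -T := by decide
  have i4 : (-(T * S)⁻¹ : SL(2, ℤ))⁻¹ = -(T * S) := by decide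
  rw [e1, e2, e3, e4, inv_inv, i2, inv_inv, i4, hw, hw]
  ring

/-! ### Equivariant functions -/

/-- a `ψ`-equivariant function on `SL(2, ℤ)`, right invariant under an element of finite
order -/
theorem lift_exists_equivariant {p n : ℕ} (ψ : Additive (Gamma0 p) →+ ZMod n)
    (h12 : ∀ γ : Gamma0 p, γ ^ 12 = 1 → ψ (Additive.ofMul γ) = 0)
    (u : SL(2, ℤ)) (hu : u ^ 12 = 1) :
    ∃ F : SL(2, ℤ) → ZMod n,
      (∀ (γ : Gamma0 p) (g : SL(2, ℤ)), F ((γ : SL(2, ℤ)) * g) = ψ (Additive.ofMul γ) + F g) ∧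
      (∀ g, F (g * u) = F g) ∧ F 1 = 0 := by
  classical
  let r : Setoid SL(2, ℤ) :=
    { r := fun a b => ∃ (γ : Gamma0 p) (k : ℤ), b = (γ : SL(2, ℤ)) * a * u ^ k
      iseqv :=
        ⟨fun a => ⟨1, 0, by simp⟩,
          fun {a b} ⟨γ, k, h⟩ => ⟨γ⁻¹, -k, by
            rw [h, Subgroup.coe_inv, zpow_neg]
            group⟩,
          fun {a b c} ⟨γ, k, h⟩ ⟨γ', k', h'⟩ => ⟨γ' * γ, k + k', by
            rw [h', h, zpow_add, Subgroup.coe_mul]
            group⟩⟩ }
  have key : ∀ (γ₁ γ₂ : Gamma0 p) (ρ : SL(2, ℤ)) (k₁ k₂ : ℤ),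
      (γ₁ : SL(2, ℤ)) * ρ * u ^ k₁ = (γ₂ : SL(2, ℤ)) * ρ * u ^ k₂ →
      ψ (Additive.ofMul γ₁) = ψ (Additive.ofMul γ₂) := by
    intro γ₁ γ₂ ρ k₁ k₂ h
    have e : ((γ₂⁻¹ * γ₁ : Gamma0 p) : SL(2, ℤ)) = ρ * u ^ (k₂ - k₁) * ρ⁻¹ := by
      rw [Subgroup.coe_mul, Subgroup.coe_inv, zpow_sub]
      have h' : (γ₁ : SL(2, ℤ)) = (γ₂ : SL(2, ℤ)) * ρ * u ^ k₂ * (u ^ k₁)⁻¹ * ρ⁻¹ := by
        rw [← h]
        group
      rw [h']
      group
    have e12 : (γ₂⁻¹ * γ₁ : Gamma0 p) ^ 12 = 1 := by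
      apply Subtype.ext
      rw [Subgroup.coe_pow, e, conj_pow, ← zpow_natCast, ← zpow_mul, mul_comm, zpow_mul,
        zpow_natCast, hu, one_zpow, mul_one, mul_inv_cancel]
      rfl
    have h0 := h12 _ e12
    have h1 : Additive.ofMul (γ₂⁻¹ * γ₁) = -Additive.ofMul γ₂ + Additive.ofMul γ₁ := rfl
    rw [h1, map_add, map_neg] at h0
    exact (neg_add_eq_zero.mp h0).symm
  let ρ : SL(2, ℤ) → SL(2, ℤ) := fun g => (Quotient.mk r g).out
  have hρ : ∀ g, ∃ (γ : Gamma0 p) (k : ℤ), g = (γ : SL(2, ℤ)) * ρ g * u ^ k :=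
    fun g => Quotient.mk_out (s := r) g
  choose γf kf hγf using hρ
  have hρ1 : ∀ (γ : Gamma0 p) (g : SL(2, ℤ)), ρ ((γ : SL(2, ℤ)) * g) = ρ g := by
    intro γ g
    have : (Quotient.mk r ((γ : SL(2, ℤ)) * g)) = Quotient.mk r g :=
      Quotient.sound (show r.r _ _ from ⟨γ⁻¹, 0, by simp⟩)
    show (Quotient.mk r ((γ : SL(2, ℤ)) * g)).out = (Quotient.mk r g).out
    rw [this]
  have hρ2 : ∀ g : SL(2, ℤ), ρ (g * u) = ρ g := by
    intro g
    have : (Quotient.mk r (g * u)) = Quotient.mk r g :=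
      Quotient.sound (show r.r _ _ from ⟨1, -1, by simp⟩)
    show (Quotient.mk r (g * u)).out = (Quotient.mk r g).out
    rw [this]
  have hF1 : ∀ (γ : Gamma0 p) (g : SL(2, ℤ)),
      ψ (Additive.ofMul (γf ((γ : SL(2, ℤ)) * g)))
        = ψ (Additive.ofMul γ) + ψ (Additive.ofMul (γf g)) := by
    intro γ g
    have e1 := hγf ((γ : SL(2, ℤ)) * g)
    rw [hρ1 γ g] at e1
    have e2 := hγf g
    have e3 : ((γ * γf g : Gamma0 p) : SL(2, ℤ)) * ρ g * u ^ kf g
        = (γf ((γ : SL(2, ℤ)) * g) : SL(2, ℤ)) * ρ g * u ^ kf ((γ : SL(2, ℤ)) * g) := by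
      rw [← e1, Subgroup.coe_mul, mul_assoc, mul_assoc, ← mul_assoc (γf g : SL(2, ℤ)), ← e2]
    have e4 := key _ _ _ _ _ e3
    have e5 : Additive.ofMul (γ * γf g) = Additive.ofMul γ + Additive.ofMul (γf g) := rfl
    rw [← e4, e5, map_add]
  have hF2 : ∀ g : SL(2, ℤ), ψ (Additive.ofMul (γf (g * u))) = ψ (Additive.ofMul (γf g)) := by
    intro g
    have e1 := hγf (g * u)
    rw [hρ2 g] at e1
    have e2 := hγf g
    have e3 : (γf g : SL(2, ℤ)) * ρ g * u ^ (kf g + 1)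
        = (γf (g * u) : SL(2, ℤ)) * ρ g * u ^ kf (g * u) := by
      rw [← e1, zpow_add_one, ← mul_assoc, ← e2]
    exact (key _ _ _ _ _ e3).symm
  refine ⟨fun g => ψ (Additive.ofMul (γf g)) - ψ (Additive.ofMul (γf 1)), fun γ g => ?_,
    fun g => ?_, sub_self _⟩
  · show ψ (Additive.ofMul (γf ((γ : SL(2, ℤ)) * g))) - ψ (Additive.ofMul (γf 1))
      = ψ (Additive.ofMul γ) + (ψ (Additive.ofMul (γf g)) - ψ (Additive.ofMul (γf 1)))
    rw [hF1]
    ring
  · show ψ (Additive.ofMul (γf (g * u))) - ψ (Additive.ofMul (γf 1))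
      = ψ (Additive.ofMul (γf g)) - ψ (Additive.ofMul (γf 1))
    rw [hF2]

/-! ### The word induction -/

theorem lift_word {n : ℕ} (w : SL(2, ℤ) → ℤ) (F : SL(2, ℤ) → ZMod n)
    (hneg : ∀ x g : SL(2, ℤ), w (x * -g) = w (x * g))
    (hS : ∀ x : SL(2, ℤ), ((w (x * S) - w x : ℤ) : ZMod n) = F (x * S) - F x)
    (hTS : ∀ x : SL(2, ℤ), F (x * T * S) = F x) (x : SL(2, ℤ)) :
    ∃ m : ℤ, liftN w x = 2 * m ∧ (m : ZMod n) = F x - F 1 := by
  have hx : x ∈ Subgroup.closure ({S, T} : Set SL(2, ℤ)) := by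
    rw [SpecialLinearGroup.SL2Z_generators]
    trivial
  have stepS : ∀ z : SL(2, ℤ), liftN w (z * S) = liftN w z + 2 * (w (z * S) - w z) := by
    intro z
    rw [liftN_mul, liftN_S _ (hneg z), mul_one]
  have stepT : ∀ z : SL(2, ℤ),
      liftN w (z * T) = liftN w z + 2 * (w (z * T) - w (z * T * S)) := by
    intro z
    rw [liftN_mul, liftN_T _ (hneg z), mul_assoc]
  induction hx using Subgroup.closure_induction_right with
  | one => exact ⟨0, by rw [liftN_one]; ring, by simp⟩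
  | mul_right x hx y hy ih =>
    obtain ⟨m, hm, hmF⟩ := ih
    rcases hy with rfl | rfl
    · refine ⟨m + (w (x * S) - w x), by rw [stepS, hm]; ring, ?_⟩
      rw [Int.cast_add, hmF, hS]
      ring
    · refine ⟨m + (w (x * T) - w (x * T * S)), by rw [stepT, hm]; ring, ?_⟩
      have h1 := hS (x * T)
      rw [hTS] at h1
      have h2 : ((w (x * T) - w (x * T * S) : ℤ) : ZMod n) = F (x * T) - F x := by
        have : (w (x * T) - w (x * T * S) : ℤ) = -(w (x * T * S) - w (x * T)) := by ring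
        rw [this, Int.cast_neg, h1]
        ring
      rw [Int.cast_add, hmF, h2]
      ring
  | mul_inv_cancel x hx y hy ih =>
    obtain ⟨m, hm, hmF⟩ := ih
    rcases hy with rfl | rfl
    · have h1 := stepS (x * S⁻¹)
      rw [inv_mul_cancel_right] at h1
      refine ⟨m - (w x - w (x * S⁻¹)), by rw [hm] at h1; linarith, ?_⟩
      have h2 := hS (x * S⁻¹)
      rw [inv_mul_cancel_right] at h2
      rw [Int.cast_sub, hmF, h2]
      ring
    · have h1 := stepT (x * T⁻¹)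
      rw [inv_mul_cancel_right] at h1
      refine ⟨m - (w x - w (x * S)), by rw [hm] at h1; linarith, ?_⟩
      have h2 := hS x
      have h3 := hTS (x * T⁻¹)
      rw [inv_mul_cancel_right] at h3
      have h4 : ((w x - w (x * S) : ℤ) : ZMod n) = F x - F (x * T⁻¹) := by
        have : (w x - w (x * S) : ℤ) = -(w (x * S) - w x) := by ring
        rw [this, Int.cast_neg, h2, h3]
        ring
      rw [Int.cast_sub, hmF, h4]
      ring

/-! ### Cosets of `Γ₀(p)` -/

/-- left `Γ₀(p)`-invariant functions only depend on the bottom row mod `p` up to scaling -/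
theorem lift_coset_eq {p : ℕ} (w : SL(2, ℤ) → ℤ)
    (hw : ∀ (γ : Gamma0 p) (g : SL(2, ℤ)), w ((γ : SL(2, ℤ)) * g) = w g) (g g' : SL(2, ℤ))
    (h : ((g 1 0 * g' 1 1 - g 1 1 * g' 1 0 : ℤ) : ZMod p) = 0) : w g = w g' := by
  have hmem : g * g'⁻¹ ∈ Gamma0 p := by
    rw [Gamma0_mem]
    obtain ⟨i00, i01, i10, i11⟩ := lift_inv_entries g'
    rw [lift_mul_apply, i00, i10]
    have : g 1 0 * g' 1 1 + g 1 1 * -g' 1 0 = g 1 0 * g' 1 1 - g 1 1 * g' 1 0 := by ring
    rw [this]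
    exact h
  have := hw ⟨_, hmem⟩ g'
  rw [← this]
  congr 1
  simp

theorem liftN_T_zpow_succ (w : SL(2, ℤ) → ℤ) (hneg : ∀ x g : SL(2, ℤ), w (x * -g) = w (x * g))
    (δ : SL(2, ℤ)) (k : ℤ) :
    liftN (fun g => w (δ * g)) (T ^ (k + 1)) = liftN (fun g => w (δ * g)) (T ^ k)
      + 2 * (w (δ * T ^ (k + 1)) - w (δ * T ^ (k + 1) * S)) := by
  rw [zpow_add_one, liftN_mul, liftN_T]
  · simp only [mul_assoc]
  · intro g
    show w (δ * (T ^ k * -g)) = w (δ * (T ^ k * g))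
    rw [← mul_assoc, ← mul_assoc]
    exact hneg _ g

/-- the sum of the crossing weights over a full period of the second cusp -/
theorem lift_period_sum {p : ℕ} [Fact p.Prime] (w : SL(2, ℤ) → ℤ)
    (hw : ∀ (γ : Gamma0 p) (g : SL(2, ℤ)), w ((γ : SL(2, ℤ)) * g) = w g) (h1S : w 1 = w S)
    (δ : SL(2, ℤ)) (hc : ((δ 1 0 : ℤ) : ZMod p) ≠ 0) (k : ℤ) :
    ∑ t ∈ Finset.range p, (w (δ * T ^ (k + t + 1)) - w (δ * T ^ (k + t + 1) * S)) = 0 := by
  classical
  haveI : NeZero p := ⟨(Fact.out : p.Prime).ne_zero⟩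
  set c : ZMod p := ((δ 1 0 : ℤ) : ZMod p) with hcdef
  set d : ZMod p := ((δ 1 1 : ℤ) : ZMod p) with hddef
  let kk : ZMod p → ℤ := fun u => (((u - d) / c).val : ℤ)
  have hkk : ∀ u, c * ((kk u : ℤ) : ZMod p) + d = u := by
    intro u
    show c * ((((u - d) / c).val : ℤ) : ZMod p) + d = u
    rw [Int.cast_natCast, ZMod.natCast_zmod_val]
    field_simp
    ring
  let A : ZMod p → ℤ := fun u => w (δ * T ^ (kk u))
  have hA : ∀ i : ℤ, w (δ * T ^ i) = A (c * (i : ZMod p) + d) := by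
    intro i
    apply lift_coset_eq w hw
    obtain ⟨-, -, e10, e11⟩ := lift_mul_T_zpow δ i
    obtain ⟨-, -, f10, f11⟩ := lift_mul_T_zpow δ (kk (c * (i : ZMod p) + d))
    rw [e10, e11, f10, f11]
    push_cast
    have := hkk (c * (i : ZMod p) + d)
    linear_combination c * this
  have hAS0 : ∀ i : ℤ, c * (i : ZMod p) + d = 0 → w (δ * T ^ i * S) = w 1 := by
    intro i hi
    apply lift_coset_eq w hw
    obtain ⟨-, -, e10, e11⟩ := lift_mul_S (δ * T ^ i)
    obtain ⟨-, -, f10, f11⟩ := lift_mul_T_zpow δ i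
    obtain ⟨-, -, o10, o11⟩ := lift_one_entries
    rw [e10, e11, f10, f11, o10, o11]
    push_cast
    linear_combination hi
  have hAS : ∀ i : ℤ, c * (i : ZMod p) + d ≠ 0 →
      w (δ * T ^ i * S) = A (-c ^ 2 / (c * (i : ZMod p) + d)) := by
    intro i hi
    apply lift_coset_eq w hw
    obtain ⟨-, -, e10, e11⟩ := lift_mul_S (δ * T ^ i)
    obtain ⟨-, -, f10, f11⟩ := lift_mul_T_zpow δ i
    obtain ⟨-, -, g10, g11⟩ := lift_mul_T_zpow δ (kk (-c ^ 2 / (c * (i : ZMod p) + d)))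
    rw [e10, e11, f10, f11, g10, g11]
    push_cast
    have := hkk (-c ^ 2 / (c * (i : ZMod p) + d))
    have h2 : (c * (i : ZMod p) + d) * (-c ^ 2 / (c * (i : ZMod p) + d)) = -c ^ 2 := by
      field_simp
    linear_combination (c * (i : ZMod p) + d) * this + h2
  have hA0 : A 0 = w S := by
    apply lift_coset_eq w hw
    obtain ⟨-, -, f10, f11⟩ := lift_mul_T_zpow δ (kk 0)
    obtain ⟨-, -, s10, s11⟩ := lift_S_entries
    rw [f10, f11, s10, s11]
    push_cast
    have := hkk 0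
    linear_combination -this
  let E : ZMod p → ℤ := fun u => A u - (if u = 0 then w 1 else A (-c ^ 2 / u))
  have hterm : ∀ i : ℤ, w (δ * T ^ i) - w (δ * T ^ i * S) = E (c * (i : ZMod p) + d) := by
    intro i
    show _ = A (c * (i : ZMod p) + d)
      - (if c * (i : ZMod p) + d = 0 then w 1 else A (-c ^ 2 / (c * (i : ZMod p) + d)))
    rw [hA i]
    by_cases hi : c * (i : ZMod p) + d = 0
    · rw [if_pos hi, hAS0 i hi]
    · rw [if_neg hi, hAS i hi]
  have h1 : ∑ t ∈ Finset.range p, (w (δ * T ^ (k + t + 1)) - w (δ * T ^ (k + t + 1) * S))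
      = ∑ x : ZMod p, E (c * ((k : ZMod p) + x + 1) + d) := by
    refine Finset.sum_nbij' (fun t : ℕ => (t : ZMod p)) (fun x : ZMod p => x.val) ?_ ?_ ?_ ?_ ?_
    · intro a _
      exact Finset.mem_univ _
    · intro a _
      exact Finset.mem_range.mpr (ZMod.val_lt a)
    · intro a ha
      exact ZMod.val_natCast_of_lt (Finset.mem_range.mp ha)
    · intro a _
      exact ZMod.natCast_zmod_val a
    · intro a _
      rw [hterm]
      push_cast
      rfl
  let e : ZMod p ≃ ZMod p :=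
    { toFun := fun x => c * ((k : ZMod p) + x + 1) + d
      invFun := fun u => (u - d) / c - (k : ZMod p) - 1
      left_inv := by
        intro x
        field_simp
        ring
      right_inv := by
        intro u
        field_simp
        ring }
  have h2 : ∑ x : ZMod p, E (c * ((k : ZMod p) + x + 1) + d) = ∑ u : ZMod p, E u :=
    Equiv.sum_comp e E
  have h3 : ∑ u : ZMod p, A u = A 0 + ∑ u ∈ (Finset.univ : Finset (ZMod p)).erase 0, A u :=
    (Finset.add_sum_erase _ _ (Finset.mem_univ 0)).symm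
  have h4 : ∑ u : ZMod p, (if u = 0 then w 1 else A (-c ^ 2 / u))
      = w 1 + ∑ u ∈ (Finset.univ : Finset (ZMod p)).erase 0, A (-c ^ 2 / u) := by
    rw [← Finset.add_sum_erase _ _ (Finset.mem_univ (0 : ZMod p)), if_pos rfl]
    congr 1
    refine Finset.sum_congr rfl fun u hu => ?_
    rw [if_neg (Finset.ne_of_mem_erase hu)]
  have hc2 : -c ^ 2 ≠ 0 := neg_ne_zero.mpr (pow_ne_zero 2 hc)
  have h5 : ∑ u ∈ (Finset.univ : Finset (ZMod p)).erase 0, A (-c ^ 2 / u)
      = ∑ u ∈ (Finset.univ : Finset (ZMod p)).erase 0, A u := by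
    refine Finset.sum_nbij' (fun u => -c ^ 2 / u) (fun u => -c ^ 2 / u) ?_ ?_ ?_ ?_ ?_
    · intro a ha
      exact Finset.mem_erase.mpr ⟨div_ne_zero hc2 (Finset.ne_of_mem_erase ha), Finset.mem_univ _⟩
    · intro a ha
      exact Finset.mem_erase.mpr ⟨div_ne_zero hc2 (Finset.ne_of_mem_erase ha), Finset.mem_univ _⟩
    · intro a ha
      have ha0 : a ≠ 0 := Finset.ne_of_mem_erase ha
      field_simp
    · intro a ha
      have ha0 : a ≠ 0 := Finset.ne_of_mem_erase ha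
      field_simp
    · intro a _
      rfl
  rw [h1, h2]
  show ∑ u : ZMod p, (A u - (if u = 0 then w 1 else A (-c ^ 2 / u))) = 0
  rw [Finset.sum_sub_distrib, h3, h4, h5, hA0, h1S]
  ring

/-- crossing numbers along parabolic elements vanish -/
theorem lift_parabolic_core {p : ℕ} [Fact p.Prime] (w : SL(2, ℤ) → ℤ)
    (hw : ∀ (γ : Gamma0 p) (g : SL(2, ℤ)), w ((γ : SL(2, ℤ)) * g) = w g)
    (hneg : ∀ x g : SL(2, ℤ), w (x * -g) = w (x * g)) (h1S : w 1 = w S)
    (δ τ : SL(2, ℤ)) (hτ : τ 1 0 = 0) (hmem : δ * τ * δ⁻¹ ∈ Gamma0 p) :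
    liftN (fun g => w (δ * g)) τ = 0 := by
  have hdet := lift_det τ
  rw [hτ, mul_zero, sub_zero] at hdet
  obtain ⟨m, hm⟩ : ∃ m : ℤ, τ = T ^ m ∨ τ = -T ^ m := by
    rcases lift_mul_eq_one_cases hdet with ⟨h0, h1⟩ | ⟨h0, h1⟩
    · refine ⟨τ 0 1, Or.inl ?_⟩
      obtain ⟨t00, t01, t10, t11⟩ := lift_T_zpow_entries (τ 0 1)
      apply lift_ext <;> simp only [t00, t01, t10, t11, h0, h1, hτ]
    · refine ⟨-τ 0 1, Or.inr ?_⟩
      obtain ⟨t00, t01, t10, t11⟩ := lift_T_zpow_entries (-τ 0 1)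
      apply lift_ext <;> simp only [lift_neg_apply, t00, t01, t10, t11, h0, h1, hτ] <;> ring
  have hN : liftN (fun g => w (δ * g)) τ = liftN (fun g => w (δ * g)) (T ^ m) := by
    rcases hm with rfl | rfl
    · rfl
    · exact liftN_neg _ _
  rw [hN]
  have hcm : ((δ 1 0 : ℤ) : ZMod p) ^ 2 * ((m : ℤ) : ZMod p) = 0 := by
    have h0 := Gamma0_mem.mp hmem
    obtain ⟨i00, i01, i10, i11⟩ := lift_inv_entries δ
    rw [lift_mul_apply, i00, i10] at h0
    rcases hm with rfl | rfl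
    · obtain ⟨-, -, e10, e11⟩ := lift_mul_T_zpow δ m
      rw [e10, e11] at h0
      push_cast at h0
      linear_combination -h0
    · rw [mul_neg, lift_neg_apply, lift_neg_apply] at h0
      obtain ⟨-, -, e10, e11⟩ := lift_mul_T_zpow δ m
      rw [e10, e11] at h0
      push_cast at h0
      linear_combination h0
  by_cases hc : ((δ 1 0 : ℤ) : ZMod p) = 0
  · have hstep : ∀ k : ℤ, liftN (fun g => w (δ * g)) (T ^ (k + 1))
        = liftN (fun g => w (δ * g)) (T ^ k) := by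
      intro k
      rw [liftN_T_zpow_succ w hneg δ k]
      have e1 : w (δ * T ^ (k + 1)) = w 1 := by
        apply lift_coset_eq w hw
        obtain ⟨-, -, e10, e11⟩ := lift_mul_T_zpow δ (k + 1)
        obtain ⟨-, -, o10, o11⟩ := lift_one_entries
        rw [e10, e11, o10, o11]
        push_cast
        rw [hc]
        ring
      have e2 : w (δ * T ^ (k + 1) * S) = w S := by
        apply lift_coset_eq w hw
        obtain ⟨-, -, e10, e11⟩ := lift_mul_S (δ * T ^ (k + 1))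
        obtain ⟨-, -, f10, f11⟩ := lift_mul_T_zpow δ (k + 1)
        obtain ⟨-, -, s10, s11⟩ := lift_S_entries
        rw [e10, e11, f10, s10, s11]
        push_cast
        rw [hc]
        ring
      rw [e1, e2, h1S]
      ring
    have hall : ∀ m : ℤ, liftN (fun g => w (δ * g)) (T ^ m) = 0 := by
      intro m
      induction m using Int.induction_on with
      | zero =>
        rw [zpow_zero]
        exact liftN_one _
      | succ i ih =>
        rw [hstep]
        exact ih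
      | pred i ih =>
        have := hstep (-(i : ℤ) - 1)
        rw [sub_add_cancel] at this
        rw [← this]
        exact ih
    exact hall m
  · have hm0 : ((m : ℤ) : ZMod p) = 0 := by
      rcases mul_eq_zero.mp hcm with h | h
      · exact absurd (pow_eq_zero_iff two_ne_zero |>.mp h) hc
      · exact h
    obtain ⟨j, rfl⟩ : ∃ j : ℤ, m = p * j := (ZMod.intCast_zmod_eq_zero_iff_dvd m p).mp hm0
    have hstepp : ∀ k : ℤ, liftN (fun g => w (δ * g)) (T ^ (k + p))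
        = liftN (fun g => w (δ * g)) (T ^ k) := by
      intro k
      have hsum : ∀ i : ℕ, liftN (fun g => w (δ * g)) (T ^ (k + i))
          = liftN (fun g => w (δ * g)) (T ^ k) + 2 * ∑ t ∈ Finset.range i,
            (w (δ * T ^ (k + t + 1)) - w (δ * T ^ (k + t + 1) * S)) := by
        intro i
        induction i with
        | zero => simp
        | succ i ih =>
          rw [Finset.sum_range_succ, Nat.cast_succ, ← add_assoc,
            liftN_T_zpow_succ w hneg δ (k + i), ih]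
          ring
      rw [hsum p, lift_period_sum w hw h1S δ hc k]
      ring
    have hall : ∀ j : ℤ, liftN (fun g => w (δ * g)) (T ^ ((p : ℤ) * j)) = 0 := by
      intro j
      induction j using Int.induction_on with
      | zero =>
        rw [mul_zero, zpow_zero]
        exact liftN_one _
      | succ i ih =>
        rw [mul_add, mul_one, hstepp]
        exact ih
      | pred i ih =>
        have := hstepp ((p : ℤ) * (-(i : ℤ) - 1))
        have e : (p : ℤ) * (-(i : ℤ) - 1) + p = (p : ℤ) * (-(i : ℤ)) := by ring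
        rw [e] at this
        rw [← this]
        exact ih
    exact hall j

/-! ### The lift -/

/-- **Integral parabolic lift.** A character `ψ : Γ₀(p) → ℤ/n` killing the elements of order
dividing `12` and the translation `T` is the reduction of a parabolic homomorphism
`Γ₀(p) → ℤ`. -/
theorem exists_parabolic_lift (p : ℕ) [Fact p.Prime] (n : ℕ)
    (ψ : Additive (Gamma0 p) →+ ZMod n)
    (h12 : ∀ γ : Gamma0 p, γ ^ 12 = 1 → ψ (Additive.ofMul γ) = 0)
    (hT : ∀ γ : Gamma0 p, (γ : SL(2, ℤ)) = T → ψ (Additive.ofMul γ) = 0) :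
    ∃ χ : Additive (Gamma0 p) →+ ℤ,
      χ ∈ ModularCurve.Period.parabolicHoms ℤ (Gamma0 p) ℤ ∧
      ∀ γ, ((χ γ : ℤ) : ZMod n) = ψ γ := by
  obtain ⟨F, hF1, hF2, hF3⟩ := lift_exists_equivariant ψ h12 (T * S) (by decide)
  obtain ⟨F', hF'1, hF'2, hF'3⟩ := lift_exists_equivariant ψ h12 S (by decide)
  set w : SL(2, ℤ) → ℤ := fun g => (F g - F' g).cast with hwdef
  have hw : ∀ (γ : Gamma0 p) (g : SL(2, ℤ)), w ((γ : SL(2, ℤ)) * g) = w g := by
    intro γ g
    show (F ((γ : SL(2, ℤ)) * g) - F' ((γ : SL(2, ℤ)) * g)).cast = (F g - F' g).cast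
    rw [hF1, hF'1]
    congr 1
    ring
  have hnegmem : (-1 : SL(2, ℤ)) ∈ Gamma0 p := by
    rw [Gamma0_mem, lift_neg_apply]
    simp
  have hneg : ∀ x g : SL(2, ℤ), w (x * -g) = w (x * g) := by
    intro x g
    have := hw ⟨-1, hnegmem⟩ (x * g)
    rw [← this]
    congr 1
    show x * -g = -1 * (x * g)
    rw [mul_neg, neg_one_mul]
  have hS : ∀ x : SL(2, ℤ), ((w (x * S) - w x : ℤ) : ZMod n) = F (x * S) - F x := by
    intro x
    show (((F (x * S) - F' (x * S)).cast - (F x - F' x).cast : ℤ) : ZMod n) = F (x * S) - F x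
    rw [Int.cast_sub, ZMod.intCast_zmod_cast, ZMod.intCast_zmod_cast, hF'2]
    ring
  have hTS : ∀ x : SL(2, ℤ), F (x * T * S) = F x := by
    intro x
    rw [mul_assoc]
    exact hF2 x
  have hTmem : (T : SL(2, ℤ)) ∈ Gamma0 p := by
    rw [Gamma0_mem, lift_T_entries.2.2.1]
    simp
  have hw1 : w 1 = 0 := by
    show (F 1 - F' 1).cast = (0 : ℤ)
    rw [hF3, hF'3, sub_zero, ZMod.cast_zero]
  have hwS : w S = 0 := by
    show (F S - F' S).cast = (0 : ℤ)
    have e1 : F' S = 0 := by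
      have := hF'2 1
      rw [one_mul] at this
      rw [this, hF'3]
    have e2 : F S = 0 := by
      have h1 : (S : SL(2, ℤ)) = T⁻¹ * (T * S) := by group
      have h2 := hF2 T⁻¹
      have h3 := hF1 (⟨T, hTmem⟩⁻¹ : Gamma0 p) 1
      rw [mul_one, hF3, add_zero] at h3
      have h4 : ψ (Additive.ofMul (⟨T, hTmem⟩⁻¹ : Gamma0 p)) = 0 := by
        have : Additive.ofMul (⟨T, hTmem⟩⁻¹ : Gamma0 p)
            = -Additive.ofMul (⟨T, hTmem⟩ : Gamma0 p) := rfl
        rw [this, map_neg, hT ⟨T, hTmem⟩ rfl, neg_zero]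
      rw [h1, h2]
      rw [h4] at h3
      exact h3
    rw [e1, e2, sub_zero, ZMod.cast_zero]
  have hword := lift_word w F hneg hS hTS
  have hadd : ∀ γ γ' : Gamma0 p, liftN w ((γ : SL(2, ℤ)) * γ')
      = liftN w γ + liftN w γ' := by
    intro γ γ'
    rw [liftN_mul]
    congr 2
    funext g
    exact hw γ g
  let χ : Additive (Gamma0 p) →+ ℤ :=
    AddMonoidHom.mk' (fun a => liftN w ((Additive.toMul a : Gamma0 p) : SL(2, ℤ)) / 2) (by
      intro a b
      show liftN w (((Additive.toMul a * Additive.toMul b : Gamma0 p)) : SL(2, ℤ)) / 2 = _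
      rw [Subgroup.coe_mul, hadd]
      obtain ⟨m₁, h₁, -⟩ := hword ((Additive.toMul a : Gamma0 p) : SL(2, ℤ))
      obtain ⟨m₂, h₂, -⟩ := hword ((Additive.toMul b : Gamma0 p) : SL(2, ℤ))
      rw [h₁, h₂]
      omega)
  have hχ : ∀ γ : Gamma0 p, χ (Additive.ofMul γ) = liftN w (γ : SL(2, ℤ)) / 2 := fun γ => rfl
  refine ⟨χ, ?_, ?_⟩
  · rw [ModularCurve.Period.mem_parabolicHoms_iff]
    intro γ hγ
    obtain ⟨δ, hδ⟩ := Fermat.Agent.S20.period_exists_conj (γ : SL(2, ℤ)) hγ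
    have hmem : δ * (δ⁻¹ * (γ : SL(2, ℤ)) * δ) * δ⁻¹ ∈ Gamma0 p := by
      have : δ * (δ⁻¹ * (γ : SL(2, ℤ)) * δ) * δ⁻¹ = γ := by group
      rw [this]
      exact γ.2
    have hcore := lift_parabolic_core w hw hneg (by rw [hw1, hwS]) δ _ hδ hmem
    have e1 : liftN w ((γ : SL(2, ℤ)) * δ) = liftN w γ + liftN w δ := by
      rw [liftN_mul]
      congr 2
      funext g
      exact hw γ g
    have e2 : liftN w (δ * (δ⁻¹ * (γ : SL(2, ℤ)) * δ))
        = liftN w δ + liftN (fun g => w (δ * g)) (δ⁻¹ * (γ : SL(2, ℤ)) * δ) := liftN_mul _ _ _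
    have e3 : δ * (δ⁻¹ * (γ : SL(2, ℤ)) * δ) = (γ : SL(2, ℤ)) * δ := by group
    rw [e3, e1, hcore, add_zero] at e2
    have e4 : liftN w (γ : SL(2, ℤ)) = 0 := by linarith
    rw [hχ, e4]
    rfl
  · intro a
    obtain ⟨m, hm, hmF⟩ := hword ((Additive.toMul a : Gamma0 p) : SL(2, ℤ))
    have e1 : χ a = m := by
      show liftN w ((Additive.toMul a : Gamma0 p) : SL(2, ℤ)) / 2 = m
      rw [hm]
      omega
    have e2 := hF1 (Additive.toMul a) 1
    rw [mul_one, hF3, add_zero] at e2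
    rw [e1, hmF, hF3, sub_zero, e2]
    rfl

end Fermat.Agent.S16
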