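import Mathlib
import Fermat.Prelude.Def_CuspForm_HeckeEvalForms
import Fermat.Agent.S21
import Fermat.Agent.S22.Hecke
import Fermat.Agent.S20.Period

/-!
# S16, lower bound via the Shimura class: the Hecke-equivariance core

`lbs_core`: if `ψ : Γ₀(p) → ℤ/n` is a surjective homomorphism which
* lifts to an integral parabolic homomorphism, and
* is an "Eisenstein eigenclass" for the transfer formula of every upper triangular
  Hecke family (`∑ ψ(γ'ₓ) = (#ι) • ψ(γ)`), with `p • x = x` in `ℤ/n`,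
then every Hecke polynomial `P` which kills `S₂(Γ₀(p))` satisfies `n ∣ P(1 + ℓ, U_p = 1)`.

No operator on `Hom(Γ₀(p), A)` is defined: we propagate the set of triples `(f, g, c)`
such that the period class of `(f, g)` is integral and congruent to `c • ψ` mod `n`.
-/

set_option autoImplicit false

open UpperHalfPlane ModularForm CongruenceSubgroup ModularCurve ModularCurve.Period
open scoped MatrixGroups

namespace Fermat.Agent.S16

open Fermat.Agent.S22 Fermat.Agent.S20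

section Bridge

variable {N : ℕ}

/-- The two normalised primitives of a weight two cusp form agree. -/
theorem lbs_Gm_eq_periodPrim (f : CuspForm (Gamma0 N) 2) (τ : ℍ) :
    Gm (gf f) 0 (τ : ℂ) = periodPrim f τ := by
  obtain ⟨c, hc⟩ := PP.exists_const_of_hasDerivAt
    (G₁ := Gm (gf f) 0) (G₂ := PP.pprim 1 (gf f)) (Φ₁ := gf f) (Φ₂ := gf f)
    (fun z hz => by
      have := Gm_isPrimOn (admissible_gf f) 0 z hz
      simpa using this)
    (fun z hz => PP.hasDerivAt_pprim one_pos (period_cuspLike_gf f) hz)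
    (fun _ _ => rfl)
  -- the constant vanishes: look along the imaginary axis
  obtain ⟨C, c', A, hC, hc', hA, hb⟩ := Gm_stripDecay (admissible_gf f) 0 0
  let pt : ℕ → ℍ := fun n => ⟨((n : ℝ) + 1 : ℝ) * Complex.I, by simp; positivity⟩
  have hpt : Filter.Tendsto pt Filter.atTop atImInfty := by
    rw [atImInfty, Filter.tendsto_comap_iff]
    have : (UpperHalfPlane.im ∘ pt) = fun n : ℕ => (n : ℝ) + 1 := by
      funext n
      simp [pt, UpperHalfPlane.im]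
    rw [this]
    exact Filter.tendsto_atTop_add_const_right _ _ tendsto_natCast_atTop_atTop
  have h1 : Filter.Tendsto (fun n => periodPrim f (pt n)) Filter.atTop (nhds 0) :=
    (period_tendsto_zero f).comp hpt
  have h2 : Filter.Tendsto (fun n => Gm (gf f) 0 (pt n : ℂ)) Filter.atTop (nhds 0) := by
    rw [tendsto_zero_iff_norm_tendsto_zero]
    have hbound : ∀ᶠ n : ℕ in Filter.atTop,
        ‖Gm (gf f) 0 (pt n : ℂ)‖ ≤ C * Real.exp (-c' * ((n : ℝ) + 1)) := by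
      filter_upwards [Filter.eventually_ge_atTop (Nat.ceil A)] with n hn
      have hA' : A ≤ (n : ℝ) + 1 := by
        have := Nat.le_ceil A
        have hn' : (Nat.ceil A : ℝ) ≤ (n : ℝ) := by exact_mod_cast hn
        linarith
      have := hb (pt n : ℂ) (by simp [pt]) (by simpa [pt] using hA')
      simpa [pt] using this
    have hlim : Filter.Tendsto (fun n : ℕ => C * Real.exp (-c' * ((n : ℝ) + 1))) Filter.atTop
        (nhds 0) := by
      have h3 : Filter.Tendsto (fun n : ℕ => -c' * ((n : ℝ) + 1)) Filter.atTop Filter.atBot := by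
        have h4 : Filter.Tendsto (fun n : ℕ => c' * ((n : ℝ) + 1)) Filter.atTop Filter.atTop :=
          (Filter.tendsto_atTop_add_const_right _ _ tendsto_natCast_atTop_atTop).const_mul_atTop hc'
        have := Filter.tendsto_neg_atTop_atBot.comp h4
        refine this.congr fun n => ?_
        simp
      have := (Real.tendsto_exp_atBot.comp h3).const_mul C
      simpa using this
    exact squeeze_zero' (Filter.Eventually.of_forall fun n => norm_nonneg _) hbound hlim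
  have h3 : Filter.Tendsto (fun n => Gm (gf f) 0 (pt n : ℂ) - periodPrim f (pt n)) Filter.atTop
      (nhds (0 - 0)) := h2.sub h1
  have h4 : ∀ n, Gm (gf f) 0 (pt n : ℂ) - periodPrim f (pt n) = c := fun n => by
    rw [periodPrim_apply]
    exact hc (pt n : ℂ) (pt n).im_pos
  have h5 : c = 0 := by
    have := tendsto_nhds_unique (h3.congr h4) tendsto_const_nhds
    simpa using this.symm
  have := hc (τ : ℂ) τ.im_pos
  rw [h5, sub_eq_zero] at this
  rw [this, periodPrim_apply]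

/-- In weight two the period cocycle of S22 is the period map of the Prelude. -/
theorem lbs_psi_eq_periodMap [NeZero N] (f : CuspForm (Gamma0 N) 2) (γ : Gamma0 N) (u v : ℂ) :
    psi f (γ : SL(2, ℤ)) u v = periodMap N f (Additive.ofMul γ) := by
  have hI : (0 : ℝ) < Complex.I.im := by simp
  have hspec := psi_spec f (admissible_gf f) (le_refl 2) γ.2 u v hI
  have hn : ((2 : ℤ) - 2).toNat = 0 := by simp
  rw [hn] at hspec
  have hPhi : ∀ (u v z : ℂ), Phi (gf f) 0 u v z = Gm (gf f) 0 z := by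
    intro u v z
    simp [Phi]
  rw [hPhi, hPhi] at hspec
  have e1 : mob (γ : SL(2, ℤ)) Complex.I = (((γ : SL(2, ℤ)) • UpperHalfPlane.I : ℍ) : ℂ) :=
    mob_coe (γ : SL(2, ℤ)) UpperHalfPlane.I
  have e2 : (Complex.I : ℂ) = ((UpperHalfPlane.I : ℍ) : ℂ) := rfl
  rw [e1, lbs_Gm_eq_periodPrim] at hspec
  rw [e2, lbs_Gm_eq_periodPrim] at hspec
  rw [period_periodMap_apply f γ UpperHalfPlane.I, hspec]
  ring

end Bridge

/-! ### Coset data for upper triangular families -/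

/-- Valid coset data of `γ` for a family of upper triangular matrices `[[a x, b x], [0, d x]]`:
the identity `Mₓ γ = γ'ₓ M_{σ x}`, written out entrywise over `ℤ`. -/
def LbsValid {ι : Type} (a b d : ι → ℤ) (γ : SL(2, ℤ)) (σ : Equiv.Perm ι)
    (γ' : ι → SL(2, ℤ)) : Prop :=
  ∀ x,
    a x * γ 0 0 + b x * γ 1 0 = γ' x 0 0 * a (σ x) ∧
    a x * γ 0 1 + b x * γ 1 1 = γ' x 0 0 * b (σ x) + γ' x 0 1 * d (σ x) ∧
    d x * γ 1 0 = γ' x 1 0 * a (σ x) ∧
    d x * γ 1 1 = γ' x 1 0 * b (σ x) + γ' x 1 1 * d (σ x)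

theorem lbs_entries_of_mul {M M' : GL (Fin 2) ℝ} {a b d a' b' d' : ℤ} (hM : IsUT M a b d)
    (hM' : IsUT M' a' b' d') {γ γ' : SL(2, ℤ)}
    (hmul : M * Matrix.SpecialLinearGroup.mapGL ℝ γ
      = Matrix.SpecialLinearGroup.mapGL ℝ γ' * M') :
    a * γ 0 0 + b * γ 1 0 = γ' 0 0 * a' ∧
    a * γ 0 1 + b * γ 1 1 = γ' 0 0 * b' + γ' 0 1 * d' ∧
    d * γ 1 0 = γ' 1 0 * a' ∧
    d * γ 1 1 = γ' 1 0 * b' + γ' 1 1 * d' := by
  have e := congrArg (fun x : GL (Fin 2) ℝ => (x : Matrix (Fin 2) (Fin 2) ℝ)) hmul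
  simp only [Matrix.GeneralLinearGroup.coe_mul, hM.val, hM'.val] at e
  have e00 := congrFun (congrFun e 0) 0
  have e01 := congrFun (congrFun e 0) 1
  have e10 := congrFun (congrFun e 1) 0
  have e11 := congrFun (congrFun e 1) 1
  simp only [Matrix.mul_apply, Fin.sum_univ_two, mapGL_coe_apply, Matrix.of_apply,
    Matrix.cons_val_zero, Matrix.cons_val_one, Matrix.cons_val', Matrix.cons_val_fin_one]
    at e00 e01 e10 e11
  refine ⟨?_, ?_, ?_, ?_⟩
  · have : ((a * γ 0 0 + b * γ 1 0 : ℤ) : ℝ) = ((γ' 0 0 * a' : ℤ) : ℝ) := by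
      push_cast; linarith
    exact_mod_cast this
  · have : ((a * γ 0 1 + b * γ 1 1 : ℤ) : ℝ) = ((γ' 0 0 * b' + γ' 0 1 * d' : ℤ) : ℝ) := by
      push_cast; linarith
    exact_mod_cast this
  · have : ((d * γ 1 0 : ℤ) : ℝ) = ((γ' 1 0 * a' : ℤ) : ℝ) := by
      push_cast; linarith
    exact_mod_cast this
  · have : ((d * γ 1 1 : ℤ) : ℝ) = ((γ' 1 0 * b' + γ' 1 1 * d' : ℤ) : ℝ) := by
      push_cast; linarith
    exact_mod_cast this

theorem lbs_mul_of_entries {M M' : GL (Fin 2) ℝ} {a b d a' b' d' : ℤ} (hM : IsUT M a b d)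
    (hM' : IsUT M' a' b' d') {γ γ' : SL(2, ℤ)}
    (h : a * γ 0 0 + b * γ 1 0 = γ' 0 0 * a' ∧
      a * γ 0 1 + b * γ 1 1 = γ' 0 0 * b' + γ' 0 1 * d' ∧
      d * γ 1 0 = γ' 1 0 * a' ∧
      d * γ 1 1 = γ' 1 0 * b' + γ' 1 1 * d') :
    M * Matrix.SpecialLinearGroup.mapGL ℝ γ = Matrix.SpecialLinearGroup.mapGL ℝ γ' * M' := by
  obtain ⟨h00, h01, h10, h11⟩ := h
  have r00 : ((a : ℝ) * γ 0 0 + b * γ 1 0) = γ' 0 0 * a' := by exact_mod_cast h00
  have r01 : ((a : ℝ) * γ 0 1 + b * γ 1 1) = γ' 0 0 * b' + γ' 0 1 * d' := by exact_mod_cast h01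
  have r10 : ((d : ℝ) * γ 1 0) = γ' 1 0 * a' := by exact_mod_cast h10
  have r11 : ((d : ℝ) * γ 1 1) = γ' 1 0 * b' + γ' 1 1 * d' := by exact_mod_cast h11
  apply Units.ext
  rw [Units.val_mul, Units.val_mul, hM.val, hM'.val]
  ext i j
  fin_cases i <;> fin_cases j <;>
    simp only [Matrix.mul_apply, Fin.sum_univ_two, mapGL_coe_apply, Matrix.of_apply,
      Matrix.cons_val_zero, Matrix.cons_val_one, Matrix.cons_val', Matrix.cons_val_fin_one,
      Fin.zero_eta, Fin.mk_one] <;> linarith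

theorem lbs_intMatrix_of_entries {a b d a' b' d' : ℤ} {γ γ' : SL(2, ℤ)}
    (h : a * γ 0 0 + b * γ 1 0 = γ' 0 0 * a' ∧
      a * γ 0 1 + b * γ 1 1 = γ' 0 0 * b' + γ' 0 1 * d' ∧
      d * γ 1 0 = γ' 1 0 * a' ∧
      d * γ 1 1 = γ' 1 0 * b' + γ' 1 1 * d') :
    (!![a, b; 0, d] : Matrix (Fin 2) (Fin 2) ℤ) * (γ : Matrix (Fin 2) (Fin 2) ℤ)
      = (γ' : Matrix (Fin 2) (Fin 2) ℤ) * !![a', b'; 0, d'] := by
  obtain ⟨h00, h01, h10, h11⟩ := h
  ext i j
  fin_cases i <;> fin_cases j <;>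
    simp only [Matrix.mul_apply, Fin.sum_univ_two, Matrix.of_apply,
      Matrix.cons_val_zero, Matrix.cons_val_one, Matrix.cons_val', Matrix.cons_val_fin_one,
      Fin.zero_eta, Fin.mk_one] <;> linarith

section Hecke

variable {N : ℕ} [NeZero N]

/-- **Hecke equivariance of the period map** (weight two): for a Hecke operator
`T f = ∑ₓ f ∣ Mₓ` given by an upper triangular family and valid coset data of `γ`. -/
theorem lbs_period_hecke {ι : Type} [Fintype ι] (M : ι → GL (Fin 2) ℝ) (a b d : ι → ℤ)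
    (hM : ∀ x, IsUT (M x) (a x) (b x) (d x))
    (f Tf : CuspForm (Gamma0 N) 2) (hT : (⇑Tf : ℍ → ℂ) = ∑ x, (⇑f ∣[(2 : ℤ)] M x))
    (γ : Gamma0 N) (σ : Equiv.Perm ι) (γ' : ι → Gamma0 N)
    (hv : LbsValid a b d (γ : SL(2, ℤ)) σ (fun x => (γ' x : SL(2, ℤ)))) :
    periodMap N Tf (Additive.ofMul γ) = ∑ x, periodMap N f (Additive.ofMul (γ' x)) := by
  rw [← lbs_psi_eq_periodMap Tf γ 0 0,
    psi_hecke_sum (n := 0) (by norm_num) M (fun x => (a x : ℝ)) (fun x => (b x : ℝ))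
      (fun x => (d x : ℝ)) hM f Tf hT γ.2 σ (fun x => (γ' x : SL(2, ℤ))) (fun x => (γ' x).2)
      (fun x => lbs_mul_of_entries (hM x) (hM (σ x)) (hv x)) 0 0]
  exact Finset.sum_congr rfl fun x _ => lbs_psi_eq_periodMap f (γ' x) _ _

/-- The translation `T ^ e` as an element of `Gamma0 N`. -/
def lbsT (N : ℕ) (e : ℤ) : Gamma0 N :=
  ⟨ModularGroup.T ^ e, by
    rw [Gamma0_mem, ModularGroup.coe_T_zpow]
    simp⟩

omit [NeZero N] in
theorem lbsT_coe (e : ℤ) : ((lbsT N e : Gamma0 N) : SL(2, ℤ)) = ModularGroup.T ^ e := rfl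

theorem lbs_period_lbsT (f : CuspForm (Gamma0 N) 2) (e : ℤ) :
    periodMap N f (Additive.ofMul (lbsT N e)) = 0 := by
  have h := periodMap_mem_parabolicHoms N f
  rw [mem_parabolicHoms_iff] at h
  refine h (lbsT N e) ?_
  rw [lbsT_coe, ModularGroup.coe_T_zpow, Matrix.trace_fin_two_of]
  norm_num

/-- Entries of `T ^ m * J g J * T ^ k`. -/
theorem lbs_conj_entries (g : SL(2, ℤ)) (m k : ℤ) :
    (ModularGroup.T ^ m * jConjSL g * ModularGroup.T ^ k) 0 0 = g 0 0 + m * (-g 1 0) ∧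
    (ModularGroup.T ^ m * jConjSL g * ModularGroup.T ^ k) 0 1
      = (g 0 0 + m * (-g 1 0)) * k + (-g 0 1 + m * g 1 1) ∧
    (ModularGroup.T ^ m * jConjSL g * ModularGroup.T ^ k) 1 0 = -g 1 0 ∧
    (ModularGroup.T ^ m * jConjSL g * ModularGroup.T ^ k) 1 1 = -g 1 0 * k + g 1 1 := by
  refine ⟨?_, ?_, ?_, ?_⟩ <;>
    simp [Matrix.SpecialLinearGroup.coe_mul, Matrix.mul_apply, Fin.sum_univ_two,
      ModularGroup.coe_T_zpow, jConjSL_coe, Matrix.vecMul, dotProduct]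

/-- **Hecke equivariance of the conjugated periods**: the family is assumed to be symmetric
under `J = diag(1, -1)` up to translations: `J M_x J = T ^ (e x) M_{bar x}`. -/
theorem lbs_period_hecke_conj {ι : Type} [Fintype ι] (M : ι → GL (Fin 2) ℝ) (a b d : ι → ℤ)
    (hM : ∀ x, IsUT (M x) (a x) (b x) (d x))
    (bar : Equiv.Perm ι) (e : ι → ℤ) (ha : ∀ x, a (bar x) = a x) (hd : ∀ x, d (bar x) = d x)
    (hb : ∀ x, b (bar x) = -b x - e x * d x)
    (f Tf : CuspForm (Gamma0 N) 2) (hT : (⇑Tf : ℍ → ℂ) = ∑ x, (⇑f ∣[(2 : ℤ)] M x))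
    (γ : Gamma0 N) (σ : Equiv.Perm ι) (γ' : ι → Gamma0 N)
    (hv : LbsValid a b d (γ : SL(2, ℤ)) σ (fun x => (γ' x : SL(2, ℤ)))) :
    periodMap N Tf (Additive.ofMul (jConjGamma0 N γ))
      = ∑ x, periodMap N f (Additive.ofMul (jConjGamma0 N (γ' x))) := by
  -- transported coset data for `J γ J`
  let σ' : Equiv.Perm ι := (bar.symm.trans σ).trans bar
  let δ : ι → Gamma0 N := fun y =>
    lbsT N (-e (bar.symm y)) * jConjGamma0 N (γ' (bar.symm y)) * lbsT N (e (σ (bar.symm y)))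
  have hv' : LbsValid a b d ((jConjGamma0 N γ : Gamma0 N) : SL(2, ℤ)) σ'
      (fun y => (δ y : SL(2, ℤ))) := by
    intro y
    obtain ⟨x, rfl⟩ := bar.surjective y
    have hσ' : σ' (bar x) = bar (σ x) := by simp [σ']
    have hδ : ((δ (bar x) : Gamma0 N) : SL(2, ℤ))
        = ModularGroup.T ^ (-e x) * jConjSL (γ' x : SL(2, ℤ)) * ModularGroup.T ^ (e (σ x)) := by
      simp [δ, lbsT_coe]
    obtain ⟨c00, c01, c10, c11⟩ := lbs_conj_entries (γ' x : SL(2, ℤ)) (-e x) (e (σ x))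
    obtain ⟨h00, h01, h10, h11⟩ := hv x
    have j00 : ((jConjGamma0 N γ : Gamma0 N) : SL(2, ℤ)) 0 0 = (γ : SL(2, ℤ)) 0 0 := by
      simp [jConjSL_coe]
    have j01 : ((jConjGamma0 N γ : Gamma0 N) : SL(2, ℤ)) 0 1 = -(γ : SL(2, ℤ)) 0 1 := by
      simp [jConjSL_coe]
    have j10 : ((jConjGamma0 N γ : Gamma0 N) : SL(2, ℤ)) 1 0 = -(γ : SL(2, ℤ)) 1 0 := by
      simp [jConjSL_coe]
    have j11 : ((jConjGamma0 N γ : Gamma0 N) : SL(2, ℤ)) 1 1 = (γ : SL(2, ℤ)) 1 1 := by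
      simp [jConjSL_coe]
    simp only [hσ', hδ, c00, c01, c10, c11, j00, j01, j10, j11, ha, hd, hb]
    refine ⟨?_, ?_, ?_, ?_⟩
    · linear_combination h00 + e x * h10
    · linear_combination -h01 - e x * h11
    · linear_combination -h10
    · linear_combination h11
  rw [lbs_period_hecke M a b d hM f Tf hT (jConjGamma0 N γ) σ' δ hv']
  have hδ : ∀ y, periodMap N f (Additive.ofMul (δ y))
      = periodMap N f (Additive.ofMul (jConjGamma0 N (γ' (bar.symm y)))) := by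
    intro y
    show periodMap N f (Additive.ofMul (lbsT N (-e (bar.symm y))
      * jConjGamma0 N (γ' (bar.symm y)) * lbsT N (e (σ (bar.symm y))))) = _
    rw [ofMul_mul, ofMul_mul, map_add, map_add, lbs_period_lbsT, lbs_period_lbsT, zero_add,
      add_zero]
  rw [Finset.sum_congr rfl fun y _ => hδ y]
  exact Equiv.sum_comp bar.symm (fun x => periodMap N f (Additive.ofMul (jConjGamma0 N (γ' x))))

theorem lbs_periodHomPair_apply (f g : CuspForm (Gamma0 N) 2) (γ : Gamma0 N) :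
    periodHomPair N (f, g) (Additive.ofMul γ)
      = periodMap N f (Additive.ofMul γ) + periodMap N f (Additive.ofMul (jConjGamma0 N γ))
        + (periodMap N g (Additive.ofMul γ)
          - periodMap N g (Additive.ofMul (jConjGamma0 N γ))) := by
  obtain ⟨pml, hpml, hdef⟩ := periodHomPair_def N (existsPeriodMapLinear N)
  rw [hdef]
  simp [LinearMap.coprod_apply, hpml]

/-- Hecke equivariance of the period pairing. -/
theorem lbs_pair_hecke {ι : Type} [Fintype ι] (M : ι → GL (Fin 2) ℝ) (a b d : ι → ℤ)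
    (hM : ∀ x, IsUT (M x) (a x) (b x) (d x))
    (bar : Equiv.Perm ι) (e : ι → ℤ) (ha : ∀ x, a (bar x) = a x) (hd : ∀ x, d (bar x) = d x)
    (hb : ∀ x, b (bar x) = -b x - e x * d x)
    (f Tf g Tg : CuspForm (Gamma0 N) 2) (hTf : (⇑Tf : ℍ → ℂ) = ∑ x, (⇑f ∣[(2 : ℤ)] M x))
    (hTg : (⇑Tg : ℍ → ℂ) = ∑ x, (⇑g ∣[(2 : ℤ)] M x))
    (γ : Gamma0 N) (σ : Equiv.Perm ι) (γ' : ι → Gamma0 N)
    (hv : LbsValid a b d (γ : SL(2, ℤ)) σ (fun x => (γ' x : SL(2, ℤ)))) :
    periodHomPair N (Tf, Tg) (Additive.ofMul γ)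
      = ∑ x, periodHomPair N (f, g) (Additive.ofMul (γ' x)) := by
  rw [lbs_periodHomPair_apply, lbs_period_hecke M a b d hM f Tf hTf γ σ γ' hv,
    lbs_period_hecke M a b d hM g Tg hTg γ σ γ' hv,
    lbs_period_hecke_conj M a b d hM bar e ha hd hb f Tf hTf γ σ γ' hv,
    lbs_period_hecke_conj M a b d hM bar e ha hd hb g Tg hTg γ σ γ' hv]
  simp only [lbs_periodHomPair_apply, Finset.sum_add_distrib, Finset.sum_sub_distrib]

/-! ### The propagated relation -/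

/-- The period class of `(f, g)` is integral and congruent to `c • ψ` modulo `n`. -/
def LbsRel (N : ℕ) {n : ℕ} (ψ : Additive (Gamma0 N) →+ ZMod n)
    (f g : CuspForm (Gamma0 N) 2) (c : ℤ) : Prop :=
  ∃ χ : Gamma0 N → ℤ, (∀ γ, periodHomPair N (f, g) (Additive.ofMul γ) = (χ γ : ℂ)) ∧
    ∀ γ, ((χ γ : ℤ) : ZMod n) = c • ψ (Additive.ofMul γ)

variable {n : ℕ} (ψ : Additive (Gamma0 N) →+ ZMod n)

omit [NeZero N] in
theorem lbs_rel_add {f g f' g' : CuspForm (Gamma0 N) 2} {c c' : ℤ}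
    (h : LbsRel N ψ f g c) (h' : LbsRel N ψ f' g' c') :
    LbsRel N ψ (f + f') (g + g') (c + c') := by
  obtain ⟨χ, h1, h2⟩ := h
  obtain ⟨χ', h1', h2'⟩ := h'
  refine ⟨fun γ => χ γ + χ' γ, fun γ => ?_, fun γ => ?_⟩
  · have e : ((f + f', g + g') : CuspForm (Gamma0 N) 2 × CuspForm (Gamma0 N) 2)
        = (f, g) + (f', g') := rfl
    rw [e, map_add, AddMonoidHom.add_apply, h1, h1']
    push_cast
    ring
  · push_cast
    rw [h2, h2', add_smul]

omit [NeZero N] in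
theorem lbs_rel_zsmul {f g : CuspForm (Gamma0 N) 2} {c : ℤ} (m : ℤ)
    (h : LbsRel N ψ f g c) : LbsRel N ψ (m • f) (m • g) (m * c) := by
  obtain ⟨χ, h1, h2⟩ := h
  refine ⟨fun γ => m * χ γ, fun γ => ?_, fun γ => ?_⟩
  · have e : ((m • f, m • g) : CuspForm (Gamma0 N) 2 × CuspForm (Gamma0 N) 2)
        = m • (f, g) := rfl
    rw [e, map_zsmul, AddMonoidHom.zsmul_apply, h1]
    push_cast
    rw [zsmul_eq_mul]
  · push_cast
    rw [h2, mul_smul, zsmul_eq_mul, zsmul_eq_mul]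

omit [NeZero N] in
theorem lbs_rel_dvd (hsurj : Function.Surjective ψ) {c : ℤ}
    (h : LbsRel N ψ (0 : CuspForm (Gamma0 N) 2) 0 c) : (n : ℤ) ∣ c := by
  obtain ⟨χ, h1, h2⟩ := h
  obtain ⟨γ, hγ⟩ := hsurj 1
  have h3 := h1 (Additive.toMul γ)
  have e : ((0, 0) : CuspForm (Gamma0 N) 2 × CuspForm (Gamma0 N) 2) = 0 := rfl
  rw [e, map_zero, AddMonoidHom.zero_apply] at h3
  have h4 : χ (Additive.toMul γ) = 0 := by exact_mod_cast h3.symm
  have h5 := h2 (Additive.toMul γ)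
  rw [h4] at h5
  have e2 : Additive.ofMul (Additive.toMul γ) = γ := rfl
  rw [e2, hγ, zsmul_eq_mul, mul_one, Int.cast_zero] at h5
  exact (ZMod.intCast_zmod_eq_zero_iff_dvd c n).mp h5.symm

/-- **The propagation step** for one Hecke operator given by a symmetric upper triangular
family, when `ψ` satisfies the corresponding transfer identity with multiplier `m`. -/
theorem lbs_rel_step {ι : Type} [Fintype ι] (M : ι → GL (Fin 2) ℝ) (a b d : ι → ℤ)
    (hM : ∀ x, IsUT (M x) (a x) (b x) (d x))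
    (bar : Equiv.Perm ι) (e : ι → ℤ) (ha : ∀ x, a (bar x) = a x) (hd : ∀ x, d (bar x) = d x)
    (hb : ∀ x, b (bar x) = -b x - e x * d x)
    (hcos : ∀ γ : Gamma0 N, ∃ (σ : Equiv.Perm ι) (γ' : ι → Gamma0 N),
      LbsValid a b d (γ : SL(2, ℤ)) σ (fun x => (γ' x : SL(2, ℤ))))
    (m : ℤ)
    (hψ : ∀ (γ : Gamma0 N) (σ : Equiv.Perm ι) (γ' : ι → Gamma0 N),
      LbsValid a b d (γ : SL(2, ℤ)) σ (fun x => (γ' x : SL(2, ℤ))) →
      ∑ x, ψ (Additive.ofMul (γ' x)) = m • ψ (Additive.ofMul γ))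
    (f Tf g Tg : CuspForm (Gamma0 N) 2) (hTf : (⇑Tf : ℍ → ℂ) = ∑ x, (⇑f ∣[(2 : ℤ)] M x))
    (hTg : (⇑Tg : ℍ → ℂ) = ∑ x, (⇑g ∣[(2 : ℤ)] M x)) {c : ℤ}
    (h : LbsRel N ψ f g c) : LbsRel N ψ Tf Tg (m * c) := by
  obtain ⟨χ, h1, h2⟩ := h
  choose σ γ' hv using hcos
  refine ⟨fun γ => ∑ x, χ (γ' γ x), fun γ => ?_, fun γ => ?_⟩
  · rw [lbs_pair_hecke M a b d hM bar e ha hd hb f Tf g Tg hTf hTg γ (σ γ) (γ' γ) (hv γ)]
    push_cast
    exact Finset.sum_congr rfl fun x _ => h1 _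
  · push_cast
    rw [Finset.sum_congr rfl fun x _ => h2 (γ' γ x), ← Finset.smul_sum,
      hψ γ (σ γ) (γ' γ) (hv γ), mul_comm, mul_smul]

/-! ### The two concrete families -/

/-- The integer `e` with `(-j).val = -j.val - e * q`. -/
def lbsE (q : ℕ) (j : ZMod q) : ℤ := -(((j.val : ℤ) + ((-j).val : ℤ)) / q)

omit [NeZero N] in
theorem lbsE_spec (q : ℕ) [NeZero q] (j : ZMod q) :
    ((-j).val : ℤ) = -(j.val : ℤ) - lbsE q j * q := by
  have hdvd : (q : ℤ) ∣ (j.val : ℤ) + ((-j).val : ℤ) := by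
    rw [← ZMod.intCast_zmod_eq_zero_iff_dvd]
    push_cast
    rw [ZMod.natCast_zmod_val, ZMod.natCast_zmod_val]
    ring
  rw [lbsE, neg_mul, Int.ediv_mul_cancel hdvd]
  ring

open P2MW.S_ModularForm_heckeT_slash_eq_self_of_mem_Gamma0.ModularForm.HeckeSlashInvariance in
/-- The propagation step for `U_q`, `q ∣ N`. -/
theorem lbs_rel_heckeU {q : ℕ} [NeZero q] (hqN : q ∣ N) (m : ℤ)
    (hψ : ∀ (γ : Gamma0 N) (σ : Equiv.Perm (ZMod q)) (γ' : ZMod q → Gamma0 N),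
      LbsValid (fun _ => 1) (fun x : ZMod q => (x.val : ℤ)) (fun _ => (q : ℤ))
        (γ : SL(2, ℤ)) σ (fun x => (γ' x : SL(2, ℤ))) →
      ∑ x, ψ (Additive.ofMul (γ' x)) = m • ψ (Additive.ofMul γ))
    {f g : CuspForm (Gamma0 N) 2} {c : ℤ} (h : LbsRel N ψ f g c) :
    LbsRel N ψ (CuspForm.heckeULin 2 hqN f) (CuspForm.heckeULin 2 hqN g) (m * c) := by
  have hq0 : q ≠ 0 := NeZero.ne q
  have hq0' : (0 : ℝ) < q := by exact_mod_cast Nat.pos_of_ne_zero hq0
  have hM : ∀ x : ZMod q, IsUT (heckeMatrix q x.val) ((1 : ℤ) : ℝ) ((x.val : ℤ) : ℝ)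
      ((q : ℤ) : ℝ) := by
    intro x
    refine ⟨by simp, by simpa using hq0', ?_⟩
    simp [val_heckeMatrix hq0]
  refine lbs_rel_step ψ (fun x : ZMod q => heckeMatrix q x.val) (fun _ => 1)
    (fun x => (x.val : ℤ)) (fun _ => (q : ℤ)) hM (Equiv.neg (ZMod q)) (lbsE q)
    (fun _ => rfl) (fun _ => rfl) ?_ ?_ m hψ f _ g _ ?_ ?_ h
  · intro x
    simpa using lbsE_spec q x
  · intro γ
    have hγN : (N : ℤ) ∣ (γ : SL(2, ℤ)) 1 0 :=
      (ZMod.intCast_zmod_eq_zero_iff_dvd _ _).mp (Gamma0_mem.mp γ.2)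
    have hc : (q : ℤ) ∣ (γ : SL(2, ℤ)) 1 0 := (Int.natCast_dvd_natCast.mpr hqN).trans hγN
    choose γ' hγ'10 hmul using heckeMatrix_mul_of_dvd (γ : SL(2, ℤ)) hc
    refine ⟨affinePerm (γ : SL(2, ℤ)) ((ZMod.intCast_zmod_eq_zero_iff_dvd _ _).mpr hc),
      fun x => ⟨γ' x, ?_⟩, fun x => ?_⟩
    · rw [Gamma0_mem, hγ'10 x]
      push_cast
      rw [Gamma0_mem.mp γ.2, mul_zero]
    · exact lbs_entries_of_mul (hM x) (hM _) (hmul x)
  · rw [CuspForm.coe_heckeULin_apply, heckeU_eq_sum_zmod]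
  · rw [CuspForm.coe_heckeULin_apply, heckeU_eq_sum_zmod]

/-- The `J`-symmetry of the index set of `T_ℓ`. -/
def lbsBar (ℓ : ℕ) : Equiv.Perm (OnePoint (ZMod ℓ)) :=
  Equiv.optionCongr (Equiv.neg (ZMod ℓ))

omit [NeZero N] in
theorem lbsBar_infty (ℓ : ℕ) : lbsBar ℓ (OnePoint.infty) = OnePoint.infty := rfl

omit [NeZero N] in
theorem lbsBar_coe (ℓ : ℕ) (j : ZMod ℓ) : lbsBar ℓ (j : OnePoint (ZMod ℓ)) = ((-j : ZMod ℓ) : OnePoint (ZMod ℓ)) := rfl

open P2MW.S_ModularForm_heckeT_slash_eq_self_of_mem_Gamma0.ModularForm.HeckeSlashInvariance in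
/-- The propagation step for `T_ℓ`, `ℓ ∤ N`. -/
theorem lbs_rel_heckeT {ℓ : ℕ} [NeZero ℓ] (hℓ : ℓ.Prime) (hℓN : ¬ ℓ ∣ N) (m : ℤ)
    (hψ : ∀ (γ : Gamma0 N) (σ : Equiv.Perm (OnePoint (ZMod ℓ)))
      (γ' : OnePoint (ZMod ℓ) → Gamma0 N),
      LbsValid (fun x : OnePoint (ZMod ℓ) => x.elim (ℓ : ℤ) (fun _ => 1))
        (fun x => x.elim 0 (fun j => (j.val : ℤ))) (fun x => x.elim 1 (fun _ => (ℓ : ℤ)))
        (γ : SL(2, ℤ)) σ (fun x => (γ' x : SL(2, ℤ))) →
      ∑ x, ψ (Additive.ofMul (γ' x)) = m • ψ (Additive.ofMul γ))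
    {f g : CuspForm (Gamma0 N) 2} {c : ℤ} (h : LbsRel N ψ f g c) :
    LbsRel N ψ (CuspForm.heckeTLin 2 hℓ hℓN f) (CuspForm.heckeTLin 2 hℓ hℓN g) (m * c) := by
  have : Fact ℓ.Prime := ⟨hℓ⟩
  have hℓ0 : (0 : ℝ) < ℓ := by exact_mod_cast hℓ.pos
  have hM : ∀ x : OnePoint (ZMod ℓ), IsUT (heckeRep ℓ x)
      ((x.elim (ℓ : ℤ) (fun _ => 1) : ℤ) : ℝ) ((x.elim 0 (fun j => (j.val : ℤ)) : ℤ) : ℝ)
      ((x.elim 1 (fun _ => (ℓ : ℤ)) : ℤ) : ℝ) := by
    intro x
    induction x using OnePoint.rec with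
    | infty =>
      refine ⟨by simpa using hℓ0, by simp, ?_⟩
      simp [val_heckeDiagMatrix hℓ.ne_zero]
    | coe j =>
      refine ⟨by simp, by simpa using hℓ0, ?_⟩
      simp [val_heckeMatrix hℓ.ne_zero]
  refine lbs_rel_step ψ (heckeRep ℓ) (fun x => x.elim (ℓ : ℤ) (fun _ => 1))
    (fun x => x.elim 0 (fun j => (j.val : ℤ))) (fun x => x.elim 1 (fun _ => (ℓ : ℤ))) hM
    (lbsBar ℓ) (fun x => x.elim 0 (lbsE ℓ)) ?_ ?_ ?_ ?_ m hψ f _ g _ ?_ ?_ h
  · intro x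
    induction x using OnePoint.rec with
    | infty => rfl
    | coe j => rfl
  · intro x
    induction x using OnePoint.rec with
    | infty => rfl
    | coe j => rfl
  · intro x
    induction x using OnePoint.rec with
    | infty => simp [lbsBar_infty]
    | coe j =>
      rw [lbsBar_coe]
      simpa using lbsE_spec ℓ j
  · intro γ
    have hγN : (N : ℤ) ∣ (γ : SL(2, ℤ)) 1 0 :=
      (ZMod.intCast_zmod_eq_zero_iff_dvd _ _).mp (Gamma0_mem.mp γ.2)
    choose γ' hγ'N hmul using heckeRep_mul hℓN (γ : SL(2, ℤ)) hγN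
    refine ⟨MulAction.toPerm (redMatrix ℓ (γ : SL(2, ℤ))),
      fun x => ⟨γ' x, Gamma0_mem.mpr ((ZMod.intCast_zmod_eq_zero_iff_dvd _ _).mpr (hγ'N x))⟩,
      fun x => ?_⟩
    exact lbs_entries_of_mul (hM x) (hM _) (hmul x)
  · rw [CuspForm.coe_heckeTLin_apply, heckeT_eq_sum_onePoint]
  · rw [CuspForm.coe_heckeTLin_apply, heckeT_eq_sum_onePoint]

end Hecke

/-! ### The main theorem -/

section Main

open CuspForm

/-- **Lower bound core.** A surjective `ψ : Γ₀(p) → ℤ/n` with an integral parabolic lift which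
satisfies the Eisenstein transfer identities forces `n ∣ P(1 + ℓ, U_p = 1)` for every Hecke
polynomial `P` killing `S₂(Γ₀(p))`. -/
theorem lbs_core (p : ℕ) [Fact p.Prime] {n : ℕ} (ψ : Additive (Gamma0 p) →+ ZMod n)
    (hsurj : Function.Surjective ψ)
    (hlift : ∃ χ : Additive (Gamma0 p) →+ ℤ,
      χ ∈ parabolicHoms ℤ (Gamma0 p) ℤ ∧ ∀ γ, ((χ γ : ℤ) : ZMod n) = ψ γ)
    (hhecke : ∀ {ι : Type} [Fintype ι] (α : ι → Matrix (Fin 2) (Fin 2) ℤ),
      (∀ i, (p : ℤ) ∣ α i 1 0 ∧ ¬ (p : ℤ) ∣ α i 0 0) →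
      ∀ (g : Gamma0 p) (σ : Equiv.Perm ι) (g' : ι → Gamma0 p),
      (∀ i, α i * (↑(g : SL(2, ℤ)) : Matrix (Fin 2) (Fin 2) ℤ) =
        (↑(g' i : SL(2, ℤ)) : Matrix (Fin 2) (Fin 2) ℤ) * α (σ i)) →
      ∑ i, ψ (Additive.ofMul (g' i)) = Fintype.card ι • ψ (Additive.ofMul g))
    (hp : ∀ x : ZMod n, p • x = x) (P : HeckeAlg) (hP : heckeEvalForms p 2 P = 0) :
    (n : ℤ) ∣ MvPolynomial.aeval (eisensteinSystem p) P := by
  have hpp : p.Prime := Fact.out
  -- the start: the integral lift is a period class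
  obtain ⟨χ, hχpar, hχ⟩ := hlift
  have hS21 := (Fermat.Agent.S21.result p).2
  let χC : Additive (Gamma0 p) →+ ℂ := (Int.castAddHom ℂ).comp χ
  have hχC : χC ∈ parabolicHoms ℂ (Gamma0 p) ℂ := by
    rw [mem_parabolicHoms_iff] at hχpar ⊢
    intro γ hγ
    show ((χ (Additive.ofMul γ) : ℤ) : ℂ) = 0
    rw [hχpar γ hγ]
    simp
  rw [← hS21] at hχC
  obtain ⟨⟨f0, g0⟩, hfg⟩ := hχC
  have hstart : LbsRel p ψ f0 g0 1 :=
    ⟨fun γ => χ (Additive.ofMul γ), fun γ => by rw [hfg]; rfl,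
      fun γ => by rw [one_smul]; exact hχ _⟩
  -- the generators
  have hgen : ∀ (ℓ : Nat.Primes) (f g : CuspForm (Gamma0 p) 2) (c : ℤ), LbsRel p ψ f g c →
      LbsRel p ψ
        (((heckeFormsGen p 2 ℓ : heckeAlgebra p 2 ∅) : Module.End ℂ (CuspForm (Gamma0 p) 2)) f)
        (((heckeFormsGen p 2 ℓ : heckeAlgebra p 2 ∅) : Module.End ℂ (CuspForm (Gamma0 p) 2)) g)
        (eisensteinSystem p ℓ * c) := by
    intro ℓ f g c h
    have : NeZero (ℓ : ℕ) := ⟨ℓ.2.ne_zero⟩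
    have hp1 : ¬ (p : ℤ) ∣ 1 := by
      rw [← Nat.cast_one, Int.natCast_dvd_natCast]
      simpa using hpp.one_lt.ne'
    by_cases hdvd : (ℓ : ℕ) ∣ p
    · rw [heckeFormsGen_of_dvd hdvd, eisensteinSystem_of_dvd hdvd]
      simp only [heckeAlgebra.coe_U]
      refine lbs_rel_heckeU ψ hdvd 1 ?_ h
      intro γ σ γ' hv
      have hℓp : (ℓ : ℕ) = p := (Nat.prime_dvd_prime_iff_eq ℓ.2 hpp).mp hdvd
      have h1 := hhecke (fun x : ZMod (ℓ : ℕ) => !![1, (x.val : ℤ); 0, ((ℓ : ℕ) : ℤ)])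
        (fun i => ⟨by simp, by simpa using hp1⟩) γ σ γ'
        (fun x => lbs_intMatrix_of_entries (hv x))
      rw [h1, ZMod.card, one_smul, hℓp]
      exact hp _
    · rw [heckeFormsGen_of_not_dvd hdvd, eisensteinSystem_of_not_dvd hdvd]
      simp only [heckeAlgebra.coe_T]
      refine lbs_rel_heckeT ψ ℓ.2 hdvd (1 + ((ℓ : ℕ) : ℤ)) ?_ h
      intro γ σ γ' hv
      have hpℓ : ¬ (p : ℤ) ∣ ((ℓ : ℕ) : ℤ) := by
        rw [Int.natCast_dvd_natCast]
        intro h'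
        exact hdvd (((Nat.prime_dvd_prime_iff_eq hpp ℓ.2).mp h') ▸ dvd_refl _)
      have h1 := hhecke (fun x : OnePoint (ZMod (ℓ : ℕ)) =>
          !![x.elim ((ℓ : ℕ) : ℤ) (fun _ => 1), x.elim 0 (fun j => (j.val : ℤ)); 0,
            x.elim 1 (fun _ => ((ℓ : ℕ) : ℤ))])
        (fun i => by
          induction i using OnePoint.rec with
          | infty => exact ⟨by simp, by simpa using hpℓ⟩
          | coe j => exact ⟨by simp, by simpa using hp1⟩) γ σ γ'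
        (fun x => lbs_intMatrix_of_entries (hv x))
      rw [h1]
      have hcard : Fintype.card (OnePoint (ZMod (ℓ : ℕ))) = (ℓ : ℕ) + 1 := by
        show Fintype.card (Option (ZMod (ℓ : ℕ))) = _
        rw [Fintype.card_option, ZMod.card]
      rw [hcard, ← natCast_zsmul]
      congr 1
      push_cast
      ring
  -- induction on the Hecke polynomial
  have key : ∀ (Q : HeckeAlg) (f g : CuspForm (Gamma0 p) 2) (c : ℤ), LbsRel p ψ f g c →
      LbsRel p ψ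
        (((heckeEvalForms p 2 Q : heckeAlgebra p 2 ∅) : Module.End ℂ (CuspForm (Gamma0 p) 2)) f)
        (((heckeEvalForms p 2 Q : heckeAlgebra p 2 ∅) : Module.End ℂ (CuspForm (Gamma0 p) 2)) g)
        (MvPolynomial.aeval (eisensteinSystem p) Q * c) := by
    intro Q
    induction Q using MvPolynomial.induction_on with
    | C a =>
      intro f g c h
      have e1 : ((heckeEvalForms p 2 (MvPolynomial.C a) : heckeAlgebra p 2 ∅) :
          Module.End ℂ (CuspForm (Gamma0 p) 2)) = (a : Module.End ℂ (CuspForm (Gamma0 p) 2)) := by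
        rw [heckeEvalForms_C, eq_intCast]
        rfl
      rw [e1, Module.End.intCast_apply, Module.End.intCast_apply, MvPolynomial.aeval_C,
        eq_intCast, Int.cast_id]
      exact lbs_rel_zsmul ψ a h
    | add Q₁ Q₂ h₁ h₂ =>
      intro f g c h
      have e1 : ((heckeEvalForms p 2 (Q₁ + Q₂) : heckeAlgebra p 2 ∅) :
          Module.End ℂ (CuspForm (Gamma0 p) 2))
          = ((heckeEvalForms p 2 Q₁ : heckeAlgebra p 2 ∅) : Module.End ℂ _)
            + ((heckeEvalForms p 2 Q₂ : heckeAlgebra p 2 ∅) : Module.End ℂ _) := by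
        rw [map_add]
        rfl
      rw [e1, LinearMap.add_apply, LinearMap.add_apply, map_add, add_mul]
      exact lbs_rel_add ψ (h₁ f g c h) (h₂ f g c h)
    | mul_X Q ℓ hQ =>
      intro f g c h
      have e1 : ((heckeEvalForms p 2 (Q * MvPolynomial.X ℓ) : heckeAlgebra p 2 ∅) :
          Module.End ℂ (CuspForm (Gamma0 p) 2))
          = ((heckeEvalForms p 2 Q : heckeAlgebra p 2 ∅) : Module.End ℂ _)
            * ((heckeFormsGen p 2 ℓ : heckeAlgebra p 2 ∅) : Module.End ℂ _) := by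
        rw [map_mul]
        have e2 : heckeEvalForms p 2 (MvPolynomial.X ℓ) = heckeFormsGen p 2 ℓ :=
          heckeEvalForms_heckeGen p 2 ℓ
        rw [e2]
        rfl
      rw [e1, Module.End.mul_apply, Module.End.mul_apply, map_mul, MvPolynomial.aeval_X,
        mul_assoc]
      exact hQ _ _ _ (hgen ℓ f g c h)
  have hfin := key P f0 g0 1 hstart
  rw [hP] at hfin
  have e0 : (((0 : heckeAlgebra p 2 ∅) : Module.End ℂ (CuspForm (Gamma0 p) 2))) = 0 := rfl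
  rw [e0, LinearMap.zero_apply, LinearMap.zero_apply, mul_one] at hfin
  exact lbs_rel_dvd ψ hsurj hfin

end Main

end Fermat.Agent.S16
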