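import Mathlib
import Fermat.Prelude.Def_ModularCurve_ModularUnit

/-!
# S16, lower bound: the Shimura class

`shimuraClass p : Additive (Gamma0 p) →+ ZMod n` with `n = eisensteinNumerator p`
(`= (p - 1) / gcd (p - 1) 12`), `g ↦ L (d mod p) = - L (a mod p)` where
`L : (ZMod p)ˣ → ZMod n` is a surjective homomorphism.  It is surjective, kills `T` and every
element of order dividing `12`, and satisfies the "Eisenstein" transfer identity for every family of
integer matrices that are upper triangular modulo `p` with upper left entry prime to `p`.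
-/

set_option autoImplicit false

open scoped MatrixGroups
open CongruenceSubgroup

namespace Fermat.Agent.S16

noncomputable section

variable (p : ℕ) [Fact p.Prime]

/-- Upper-left entry modulo `p`, a monoid homomorphism on `Gamma0 p`. -/
def shimuraA : Gamma0 p →* ZMod p where
  toFun g := ((g.1 0 0 : ℤ) : ZMod p)
  map_one' := by simp
  map_mul' := by
    rintro ⟨A, hA⟩ ⟨B, hB⟩
    have hB' : ((B 1 0 : ℤ) : ZMod p) = 0 := Gamma0_mem.mp hB
    have h00 : ((A * B : SL(2, ℤ)) 0 0 : ℤ) = A 0 0 * B 0 0 + A 0 1 * B 1 0 := by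
      rw [Matrix.SpecialLinearGroup.coe_mul, Matrix.mul_apply, Fin.sum_univ_two]
    show (((A * B : SL(2, ℤ)) 0 0 : ℤ) : ZMod p) = ((A 0 0 : ℤ) : ZMod p) * ((B 0 0 : ℤ) : ZMod p)
    rw [h00]
    push_cast
    rw [hB', mul_zero, add_zero]

theorem shimuraA_apply (g : Gamma0 p) : shimuraA p g = ((g.1 0 0 : ℤ) : ZMod p) := rfl

/-- Upper-left entry modulo `p` as a unit. -/
def shimuraAUnit : Gamma0 p →* (ZMod p)ˣ := (shimuraA p).toHomUnits

theorem shimuraAUnit_coe (g : Gamma0 p) :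
    ((shimuraAUnit p g : (ZMod p)ˣ) : ZMod p) = ((g.1 0 0 : ℤ) : ZMod p) := rfl

theorem shimura_card : Nat.card (Additive (ZMod p)ˣ) = p - 1 := by
  rw [Nat.card_congr (Additive.toMul (α := (ZMod p)ˣ)), Nat.card_eq_fintype_card]
  exact ZMod.card_units p

theorem shimura_dvd : ModularCurve.eisensteinNumerator p ∣ Nat.card (Additive (ZMod p)ˣ) := by
  rw [shimura_card]
  exact ModularCurve.eisensteinNumerator_dvd p

instance shimura_neZero_card : NeZero (Nat.card (Additive (ZMod p)ˣ)) :=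
  ⟨Nat.card_pos.ne'⟩

/-- The "logarithm" `(ZMod p)ˣ → ZMod n`. -/
def shimuraLogHom : Additive (ZMod p)ˣ →+ ZMod (ModularCurve.eisensteinNumerator p) :=
  (ZMod.castHom (shimura_dvd p) (ZMod (ModularCurve.eisensteinNumerator p))).toAddMonoidHom.comp
    (zmodAddCyclicAddEquiv (G := Additive (ZMod p)ˣ) inferInstance).symm.toAddMonoidHom

theorem shimuraLogHom_surjective : Function.Surjective (shimuraLogHom p) := by
  intro y
  obtain ⟨k, hk⟩ := ZMod.ringHom_surjective
    (ZMod.castHom (shimura_dvd p) (ZMod (ModularCurve.eisensteinNumerator p))) y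
  refine ⟨zmodAddCyclicAddEquiv (G := Additive (ZMod p)ˣ) inferInstance k, ?_⟩
  show (ZMod.castHom (shimura_dvd p) (ZMod (ModularCurve.eisensteinNumerator p)))
    ((zmodAddCyclicAddEquiv (G := Additive (ZMod p)ˣ) inferInstance).symm
      (zmodAddCyclicAddEquiv (G := Additive (ZMod p)ˣ) inferInstance k)) = y
  rw [AddEquiv.symm_apply_apply, hk]

theorem shimuraLogHom_of_twelve (x : Additive (ZMod p)ˣ) (hx : 12 • x = 0) :
    shimuraLogHom p x = 0 := by
  set e := (zmodAddCyclicAddEquiv (G := Additive (ZMod p)ˣ) inferInstance) with he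
  set k := e.symm x with hk
  have h12 : 12 • k = 0 := by
    rw [hk, ← map_nsmul, hx, map_zero]
  show (ZMod.castHom (shimura_dvd p) (ZMod (ModularCurve.eisensteinNumerator p))) k = 0
  rw [ZMod.castHom_apply, ← ZMod.natCast_val, ZMod.natCast_eq_zero_iff]
  -- `card ∣ 12 * k.val`
  have hdvd : Nat.card (Additive (ZMod p)ˣ) ∣ 12 * k.val := by
    rw [← ZMod.natCast_eq_zero_iff]
    push_cast
    rw [ZMod.natCast_zmod_val]
    simpa [nsmul_eq_mul] using h12
  have hdvd' : p - 1 ∣ 12 * k.val := by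
    obtain ⟨c, hc⟩ := hdvd
    exact ⟨c, by rw [hc, shimura_card]⟩
  unfold ModularCurve.eisensteinNumerator
  set m := p - 1 with hm
  have hg : 0 < Nat.gcd m 12 := Nat.gcd_pos_of_pos_right _ (by norm_num)
  have hcop : Nat.Coprime (m / Nat.gcd m 12) (12 / Nat.gcd m 12) :=
    Nat.coprime_div_gcd_div_gcd hg
  have hm' : m = Nat.gcd m 12 * (m / Nat.gcd m 12) :=
    (Nat.mul_div_cancel' (Nat.gcd_dvd_left m 12)).symm
  have h12' : 12 = Nat.gcd m 12 * (12 / Nat.gcd m 12) :=
    (Nat.mul_div_cancel' (Nat.gcd_dvd_right m 12)).symm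
  have h2 : Nat.gcd m 12 * (m / Nat.gcd m 12) ∣
      Nat.gcd m 12 * ((12 / Nat.gcd m 12) * k.val) := by
    rw [← mul_assoc, ← h12', ← hm']; exact hdvd'
  have h3 : m / Nat.gcd m 12 ∣ (12 / Nat.gcd m 12) * k.val :=
    Nat.dvd_of_mul_dvd_mul_left hg h2
  exact hcop.dvd_of_dvd_mul_left h3

/-- The Shimura class `Gamma0 p → ZMod n`, `g ↦ L (d mod p) = - L (a mod p)`. -/
def shimuraClass : Additive (Gamma0 p) →+ ZMod (ModularCurve.eisensteinNumerator p) :=
  -((shimuraLogHom p).comp (MonoidHom.toAdditive (shimuraAUnit p)))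

theorem shimuraClass_apply (g : Gamma0 p) :
    shimuraClass p (Additive.ofMul g) =
      -shimuraLogHom p (Additive.ofMul (shimuraAUnit p g)) := rfl

/-- every unit modulo `p` is the upper left entry of an element of `Gamma0 p`. -/
theorem shimuraAUnit_surjective : Function.Surjective (shimuraAUnit p) := by
  intro u
  have hp : p.Prime := Fact.out
  -- integer representative of `u`
  set a : ℕ := (u : ZMod p).val with ha
  have hau : ((a : ℕ) : ZMod p) = (u : ZMod p) := ZMod.natCast_zmod_val _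
  have hcop : Nat.Coprime a p := by
    rw [Nat.coprime_comm, hp.coprime_iff_not_dvd]
    intro hdvd
    have h0 : ((a : ℕ) : ZMod p) = 0 := (ZMod.natCast_eq_zero_iff _ _).2 hdvd
    rw [hau] at h0
    exact u.ne_zero h0
  -- Bezout: `a * x + p * y = 1`
  have hbez : (a : ℤ) * Nat.gcdA a p + (p : ℤ) * Nat.gcdB a p = 1 := by
    have := Nat.gcd_eq_gcd_ab a p
    rw [hcop] at this
    push_cast at this
    linarith
  set x : ℤ := Nat.gcdA a p
  set y : ℤ := Nat.gcdB a p
  -- the matrix `[[a, -y], [p, x]]` has determinant `a x + p y = 1`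
  let M : Matrix (Fin 2) (Fin 2) ℤ := !![(a : ℤ), -y; (p : ℤ), x]
  have hdet : M.det = 1 := by
    rw [Matrix.det_fin_two_of]; linarith
  let g : SL(2, ℤ) := ⟨M, hdet⟩
  have hg : g ∈ Gamma0 p := by
    rw [Gamma0_mem]
    show (((M 1 0 : ℤ)) : ZMod p) = 0
    simp [M]
  refine ⟨⟨g, hg⟩, Units.ext ?_⟩
  rw [shimuraAUnit_coe]
  show (((M 0 0 : ℤ)) : ZMod p) = (u : ZMod p)
  simp [M, hau]

theorem shimuraClass_surjective : Function.Surjective (shimuraClass p) := by
  intro y
  obtain ⟨x, hx⟩ := shimuraLogHom_surjective p (-y)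
  obtain ⟨g, hg⟩ := shimuraAUnit_surjective p (Additive.toMul x)
  refine ⟨Additive.ofMul g, ?_⟩
  rw [shimuraClass_apply, hg]
  show -shimuraLogHom p x = y
  rw [hx, neg_neg]

theorem shimuraClass_of_pow_twelve (g : Gamma0 p) (h : g ^ 12 = 1) :
    shimuraClass p (Additive.ofMul g) = 0 := by
  rw [shimuraClass_apply, neg_eq_zero]
  apply shimuraLogHom_of_twelve
  show Additive.ofMul ((shimuraAUnit p g) ^ 12) = 0
  rw [← map_pow, h, map_one]
  rfl

theorem shimuraClass_of_T (g : Gamma0 p) (h : (g : SL(2, ℤ)) = ModularGroup.T) :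
    shimuraClass p (Additive.ofMul g) = 0 := by
  rw [shimuraClass_apply, neg_eq_zero]
  have h1 : shimuraAUnit p g = 1 := by
    apply Units.ext
    rw [shimuraAUnit_coe]
    have : ((g : SL(2, ℤ)) 0 0 : ℤ) = 1 := by
      rw [h]; simp [ModularGroup.T]
    rw [this]; simp
  rw [h1]
  exact map_zero _

theorem shimuraClass_prime_smul (x : ZMod (ModularCurve.eisensteinNumerator p)) :
    p • x = x := by
  have hp : p.Prime := Fact.out
  have h1 : ((p : ℕ) : ZMod (ModularCurve.eisensteinNumerator p)) = 1 := by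
    have hdvd := ModularCurve.eisensteinNumerator_dvd p
    have hp1 : (p - 1) + 1 = p := Nat.sub_add_cancel hp.one_le
    have h0 : (((p - 1 : ℕ) : ℕ) : ZMod (ModularCurve.eisensteinNumerator p)) = 0 :=
      (ZMod.natCast_eq_zero_iff _ _).2 hdvd
    have h2 : (((p - 1 + 1 : ℕ) : ℕ) : ZMod (ModularCurve.eisensteinNumerator p)) = 1 := by
      rw [Nat.cast_add, h0, zero_add, Nat.cast_one]
    rw [hp1] at h2
    exact h2
  rw [nsmul_eq_mul, h1, one_mul]

/-- Core of the transfer identity, on the level of units. -/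
theorem shimura_unit_prod {ι : Type*} [Fintype ι] (u : ι → (ZMod p)ˣ) (A : (ZMod p)ˣ)
    (A' : ι → (ZMod p)ˣ) (σ : Equiv.Perm ι) (h : ∀ i, u i * A = A' i * u (σ i)) :
    ∑ i, shimuraLogHom p (Additive.ofMul (A' i)) =
      Fintype.card ι • shimuraLogHom p (Additive.ofMul A) := by
  have h1 : ∀ i, shimuraLogHom p (Additive.ofMul (A' i)) =
      shimuraLogHom p (Additive.ofMul (u i)) + shimuraLogHom p (Additive.ofMul A)
        - shimuraLogHom p (Additive.ofMul (u (σ i))) := by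
    intro i
    have h2 : Additive.ofMul (u i) + Additive.ofMul A =
        Additive.ofMul (A' i) + Additive.ofMul (u (σ i)) := congrArg Additive.ofMul (h i)
    have h3 := congrArg (shimuraLogHom p) h2
    rw [map_add, map_add] at h3
    rw [h3]; ring
  rw [Finset.sum_congr rfl (fun i _ => h1 i), Finset.sum_sub_distrib, Finset.sum_add_distrib,
    Equiv.sum_comp σ (fun i => shimuraLogHom p (Additive.ofMul (u i))), Finset.sum_const,
    Finset.card_univ]
  ring

/-- **Transfer identity for the Shimura class** (coset convention `α i * g = g' i * α (σ i)`).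
For the representatives `[[1, j], [0, l]]` (`j < l`), `[[l, 0], [0, 1]]` of `T_l` (`l ≠ p`) this gives
`(l + 1) • ψ g`; for the representatives `[[1, j], [0, p]]` of `U_p` it gives `p • ψ g = ψ g`. -/
theorem shimuraClass_hecke_sum {ι : Type*} [Fintype ι] (α : ι → Matrix (Fin 2) (Fin 2) ℤ)
    (hα : ∀ i, (p : ℤ) ∣ α i 1 0 ∧ ¬ (p : ℤ) ∣ α i 0 0)
    (g : Gamma0 p) (σ : Equiv.Perm ι) (g' : ι → Gamma0 p)
    (h : ∀ i, α i * (↑(g : SL(2, ℤ)) : Matrix (Fin 2) (Fin 2) ℤ) =
      (↑(g' i : SL(2, ℤ)) : Matrix (Fin 2) (Fin 2) ℤ) * α (σ i)) :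
    ∑ i, shimuraClass p (Additive.ofMul (g' i)) =
      Fintype.card ι • shimuraClass p (Additive.ofMul g) := by
  have hp : p.Prime := Fact.out
  have hu0 : ∀ i, ((α i 0 0 : ℤ) : ZMod p) ≠ 0 := by
    intro i h0
    exact (hα i).2 ((ZMod.intCast_zmod_eq_zero_iff_dvd _ _).1 h0)
  have hc0 : ∀ i, ((α i 1 0 : ℤ) : ZMod p) = 0 := fun i =>
    (ZMod.intCast_zmod_eq_zero_iff_dvd _ _).2 (hα i).1
  let u : ι → (ZMod p)ˣ := fun i => Units.mk0 _ (hu0 i)
  have hkey : ∀ i, u i * shimuraAUnit p g = shimuraAUnit p (g' i) * u (σ i) := by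
    intro i
    apply Units.ext
    rw [Units.val_mul, Units.val_mul, shimuraAUnit_coe, shimuraAUnit_coe]
    show ((α i 0 0 : ℤ) : ZMod p) * _ = _ * ((α (σ i) 0 0 : ℤ) : ZMod p)
    have h00 := congrFun (congrFun (h i) 0) 0
    rw [Matrix.mul_apply, Matrix.mul_apply, Fin.sum_univ_two, Fin.sum_univ_two] at h00
    have h00' := congrArg (Int.cast : ℤ → ZMod p) h00
    push_cast at h00'
    have hg0 : (((g : SL(2, ℤ)) 1 0 : ℤ) : ZMod p) = 0 := Gamma0_mem.mp g.2
    rw [hg0, hc0 (σ i), mul_zero, mul_zero, add_zero, add_zero] at h00'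
    exact h00'
  have hsum := shimura_unit_prod p u (shimuraAUnit p g) (fun i => shimuraAUnit p (g' i)) σ hkey
  simp only [shimuraClass_apply, Finset.sum_neg_distrib, hsum, smul_neg]

/-- **Transfer identity for the Shimura class**, other coset convention
`g * α i = α (σ i) * g' i`. -/
theorem shimuraClass_hecke_sum' {ι : Type*} [Fintype ι] (α : ι → Matrix (Fin 2) (Fin 2) ℤ)
    (hα : ∀ i, (p : ℤ) ∣ α i 1 0 ∧ ¬ (p : ℤ) ∣ α i 0 0)
    (g : Gamma0 p) (σ : Equiv.Perm ι) (g' : ι → Gamma0 p)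
    (h : ∀ i, (↑(g : SL(2, ℤ)) : Matrix (Fin 2) (Fin 2) ℤ) * α i =
      α (σ i) * (↑(g' i : SL(2, ℤ)) : Matrix (Fin 2) (Fin 2) ℤ)) :
    ∑ i, shimuraClass p (Additive.ofMul (g' i)) =
      Fintype.card ι • shimuraClass p (Additive.ofMul g) := by
  have hp : p.Prime := Fact.out
  have hu0 : ∀ i, ((α i 0 0 : ℤ) : ZMod p) ≠ 0 := by
    intro i h0
    exact (hα i).2 ((ZMod.intCast_zmod_eq_zero_iff_dvd _ _).1 h0)
  have hc0 : ∀ i, ((α i 1 0 : ℤ) : ZMod p) = 0 := fun i =>
    (ZMod.intCast_zmod_eq_zero_iff_dvd _ _).2 (hα i).1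
  let u : ι → (ZMod p)ˣ := fun i => Units.mk0 _ (hu0 i)
  have hkey : ∀ i, u i * shimuraAUnit p g = shimuraAUnit p (g' i) * u (σ i) := by
    intro i
    apply Units.ext
    rw [Units.val_mul, Units.val_mul, shimuraAUnit_coe, shimuraAUnit_coe]
    show ((α i 0 0 : ℤ) : ZMod p) * _ = _ * ((α (σ i) 0 0 : ℤ) : ZMod p)
    have h00 := congrFun (congrFun (h i) 0) 0
    rw [Matrix.mul_apply, Matrix.mul_apply, Fin.sum_univ_two, Fin.sum_univ_two] at h00
    have h00' := congrArg (Int.cast : ℤ → ZMod p) h00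
    push_cast at h00'
    have hg0 : (((g' i : SL(2, ℤ)) 1 0 : ℤ) : ZMod p) = 0 := Gamma0_mem.mp (g' i).2
    rw [hg0, hc0 i, mul_zero, mul_zero, add_zero, add_zero] at h00'
    rw [mul_comm, h00', mul_comm]
  have hsum := shimura_unit_prod p u (shimuraAUnit p g) (fun i => shimuraAUnit p (g' i)) σ hkey
  simp only [shimuraClass_apply, Finset.sum_neg_distrib, hsum, smul_neg]

end

end Fermat.Agent.S16
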