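import Mathlib
import Fermat.Prelude.Def_CuspForm_HeckeEvalForms
import Fermat.Prelude.Def_ModularCurve_ModularUnit
import Fermat.Agent.S16.LowerShimuraCore
import Fermat.Agent.S16.Lift
import Fermat.Agent.S16.Shimura

/-!
# S16, lower bound (Shimura class route)

`lbs_main`: a Hecke polynomial `P` which kills `S₂(Γ₀(p))` satisfies
`eisensteinNumerator p ∣ P(T_ℓ = 1 + ℓ, U_p = 1)`.  This is the hypothesis `hLB` of the reduction
`red_main`.

Ingredients: the Shimura class (`Shimura.lean`), its integral parabolic lift (`Lift.lean`),
Eichler–Shimura (`S21`), and the Hecke equivariance of periods (`LowerShimuraCore.lean`).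
-/

set_option autoImplicit false

open ModularCurve CuspForm CongruenceSubgroup
open scoped MatrixGroups

namespace Fermat.Agent.S16

/-- **Lower bound for the Eisenstein ideal.** -/
theorem lbs_main (p : ℕ) [Fact p.Prime] :
    ∀ P : HeckeAlg, heckeEvalForms p 2 P = 0 →
      (eisensteinNumerator p : ℤ) ∣ MvPolynomial.aeval (eisensteinSystem p) P := by
  intro P hP
  exact lbs_core p (shimuraClass p) (shimuraClass_surjective p)
    (exists_parabolic_lift p _ (shimuraClass p) (shimuraClass_of_pow_twelve p)
      (shimuraClass_of_T p))
    (fun α hα g σ g' h => shimuraClass_hecke_sum p α hα g σ g' h)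
    (shimuraClass_prime_smul p) P hP

end Fermat.Agent.S16
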