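import Mathlib
import Fermat.Prelude.Def_CuspForm_HeckeLocal
import Fermat.Prelude.Def_CuspForm_HeckeEvalForms
import Fermat.Prelude.Def_ModularCurve_ModularUnit
import Fermat.Agent.Lib.HeckeEigenform
import Fermat.Agent.S23.Main

/-!
# S16, package (R): the reduction

`T := heckeLatticeAlgebra p ∅` is a quotient of the polynomial ring `HeckeAlg = ℤ[X_ℓ]` via
`redPsi p`, and the quotient of `T` by the image of the Eisenstein ideal is `ℤ / ε(ker ψ)`,
where `ε = redEps p` is the Eisenstein evaluation (`red_card`).  By the duality between `T` and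
the lattice `L` of integral cusp forms (`redPair_flip_surjective`: `L = Hom(T, ℤ)` via
`(t, f) ↦ a_1(t f)`), the index is controlled by congruences between integral cusp forms and
the Eisenstein q-series `∑ σ'(i) q^i` (`red_exists_form`, `red_dvd_of_form`).

Main result: `red_main` (S16 from a lower bound and an upper bound stated on forms).
-/

set_option autoImplicit false

open ModularCurve CuspForm ModularFormClass CongruenceSubgroup

namespace Fermat.Agent.S16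







noncomputable def redPsi (p : ℕ) [Fact p.Prime] : HeckeAlg →+* ↥(heckeLatticeAlgebra p ∅) :=
  (latticeRestrictHom p ∅).toRingHom.comp (heckeEvalForms p 2)

noncomputable def redEps (p : ℕ) : HeckeAlg →ₐ[ℤ] ℤ :=
  MvPolynomial.aeval (eisensteinSystem p)

def redSigma (p i : ℕ) : ℤ :=
  (ArithmeticFunction.sigma 1 i : ℤ) - if p ∣ i then (p : ℤ) * (ArithmeticFunction.sigma 1 (i / p) : ℤ) else 0

section basic

variable (p : ℕ) [Fact p.Prime]

example : NeZero p := inferInstance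

/-- The action of `redPsi p P` on a lattice element, viewed in the space of cusp forms. -/
theorem red_psi_apply (P : HeckeAlg) (f : ↥(intLattice p 2)) :
    (((redPsi p P : ↥(heckeLatticeAlgebra p ∅)) : Module.End ℤ ↥(intLattice p 2)) f :
      CuspForm (Gamma0 p) 2) =
    ((heckeEvalForms p 2 P : ↥(heckeAlgebra p 2 ∅)) :
      Module.End ℂ (CuspForm (Gamma0 p) 2)) (f : CuspForm (Gamma0 p) 2) := rfl

theorem red_evalForms_surjective : Function.Surjective (heckeEvalForms p 2) := by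
  rintro ⟨x, hx⟩
  suffices h : ∃ P : HeckeAlg, ((heckeEvalForms p 2 P : ↥(heckeAlgebra p 2 ∅)) :
      Module.End ℂ (CuspForm (Gamma0 p) 2)) = x by
    obtain ⟨P, hP⟩ := h
    exact ⟨P, Subtype.ext hP⟩
  induction hx using Algebra.adjoin_induction with
  | mem x hx =>
    rcases hx with ⟨ℓ, hℓ, hℓN, -, rfl⟩ | ⟨q, hqN, hq, -, rfl⟩
    · refine ⟨heckeGen ⟨ℓ, hℓ⟩, ?_⟩
      rw [heckeEvalForms_heckeGen_of_not_dvd (N := p) (k := 2) (ℓ := ⟨ℓ, hℓ⟩) hℓN]
      rfl
    · refine ⟨heckeGen ⟨q, hq⟩, ?_⟩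
      rw [heckeEvalForms_heckeGen_of_dvd (N := p) (k := 2) (q := ⟨q, hq⟩) hqN]
      rfl
  | algebraMap r =>
    refine ⟨MvPolynomial.C r, ?_⟩
    rw [heckeEvalForms_C]
    rfl
  | add x y hx hy ihx ihy =>
    obtain ⟨P, rfl⟩ := ihx
    obtain ⟨Q, rfl⟩ := ihy
    exact ⟨P + Q, by rw [map_add]; rfl⟩
  | mul x y hx hy ihx ihy =>
    obtain ⟨P, rfl⟩ := ihx
    obtain ⟨Q, rfl⟩ := ihy
    exact ⟨P * Q, by rw [map_mul]; rfl⟩

theorem red_psi_surjective : Function.Surjective (redPsi p) :=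
  (latticeRestrictHom_surjective p ∅).comp (red_evalForms_surjective p)

theorem red_psi_eq_zero_iff (P : HeckeAlg) :
    redPsi p P = 0 ↔ heckeEvalForms p 2 P = 0 := by
  have hbij := latticeRestrictHom_bijective p ∅ (Fermat.Agent.S23.hasIntegralStructure p 2)
  constructor
  · intro h
    apply hbij.1
    rw [map_zero]
    exact h
  · intro h
    show (latticeRestrictHom p ∅) (heckeEvalForms p 2 P) = 0
    rw [h, map_zero]

end basic



/-- Abstract form of the index computation: if `ψ : A → T` is onto and `ε : A → ℤ` is a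
retraction of `ℤ → A`, then `T / ψ(ker ε) ≅ ℤ / ε(ker ψ)`. -/
theorem red_card_aux {A T : Type*} [CommRing A] [CommRing T] (ψ : A →+* T)
    (hψ : Function.Surjective ψ) (ε : A →+* ℤ) (hε : ∀ a : ℤ, ε (a : A) = a) (m : ℕ)
    (h1 : ∀ P : A, ψ P = 0 → (m : ℤ) ∣ ε P) (h2 : ∃ P : A, ψ P = 0 ∧ ε P = (m : ℤ)) :
    Nat.card (T ⧸ Ideal.map ψ (RingHom.ker ε)) = m := by
  set I := Ideal.map ψ (RingHom.ker ε) with hI
  have hmemI : ∀ a : ℤ, ((a : T) ∈ I) ↔ (m : ℤ) ∣ a := by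
    intro a
    rw [hI, Ideal.mem_map_iff_of_surjective _ hψ]
    constructor
    · rintro ⟨Q, hQ, hQa⟩
      rw [RingHom.mem_ker] at hQ
      have := h1 ((a : A) - Q) (by rw [map_sub, map_intCast, hQa, sub_self])
      rwa [map_sub, hε, hQ, sub_zero] at this
    · rintro ⟨b, rfl⟩
      obtain ⟨P₀, hP₀, hP₀m⟩ := h2
      refine ⟨(((m : ℤ) * b : ℤ) : A) - ((b : ℤ) : A) * P₀, ?_, ?_⟩
      · rw [RingHom.mem_ker, map_sub, hε, map_mul, hε, hP₀m]
        ring
      · rw [map_sub, map_intCast, map_mul, hP₀, mul_zero, sub_zero]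
  let g : ℤ →+* (T ⧸ I) := Int.castRingHom _
  have hg : Function.Surjective g := by
    intro x
    obtain ⟨t, rfl⟩ := Ideal.Quotient.mk_surjective x
    obtain ⟨P, rfl⟩ := hψ t
    refine ⟨ε P, ?_⟩
    have hmem : ψ P - ((ε P : ℤ) : T) ∈ I := by
      rw [← map_intCast ψ, ← map_sub]
      apply Ideal.mem_map_of_mem
      rw [RingHom.mem_ker, map_sub, hε, sub_self]
    have := Ideal.Quotient.eq.mpr hmem
    rw [this]
    simp [g]
  have hker : RingHom.ker g = Ideal.span {(m : ℤ)} := by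
    ext a
    rw [RingHom.mem_ker, Ideal.mem_span_singleton, ← hmemI a, ← Ideal.Quotient.eq_zero_iff_mem]
    simp [g]
  have e1 : (ℤ ⧸ RingHom.ker g) ≃+* (T ⧸ I) :=
    RingHom.quotientKerEquivOfSurjective hg
  rw [← Nat.card_congr e1.toEquiv, hker, Nat.card_congr (Int.quotientSpanNatEquivZMod m).toEquiv,
    Nat.card_zmod]

section card

variable (p : ℕ) [Fact p.Prime]

omit [Fact p.Prime] in
theorem red_eps_intCast (a : ℤ) : redEps p ((a : ℤ) : HeckeAlg) = a := by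
  simp [redEps]

/-- The quotient of `T` by the Eisenstein ideal is `ℤ / ε(ker ψ)`. -/
theorem red_card (m : ℕ)
    (h1 : ∀ P : HeckeAlg, redPsi p P = 0 → (m : ℤ) ∣ redEps p P)
    (h2 : ∃ P : HeckeAlg, redPsi p P = 0 ∧ redEps p P = (m : ℤ)) :
    Nat.card (↥(heckeLatticeAlgebra p ∅) ⧸
        Ideal.map ((latticeRestrictHom p ∅).toRingHom.comp (heckeEvalForms p 2))
          (eisensteinIdeal p)) = m :=
  red_card_aux (redPsi p) (red_psi_surjective p) (redEps p : HeckeAlg →+* ℤ)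
    (red_eps_intCast p) m h1 h2

end card



open ArithmeticFunction in
/-- The Hecke relation for `σ₁` at a prime `ℓ`. -/
theorem red_sigma_hecke {ℓ : ℕ} (hℓ : ℓ.Prime) (j : ℕ) :
    (sigma 1 (j * ℓ) : ℤ) + (if ℓ ∣ j then (ℓ : ℤ) * (sigma 1 (j / ℓ) : ℤ) else 0) =
      (1 + (ℓ : ℤ)) * (sigma 1 j : ℤ) := by
  rcases Nat.eq_zero_or_pos j with rfl | hj
  · simp
  obtain ⟨a, u, hu, rfl⟩ := Nat.exists_eq_pow_mul_and_not_dvd hj.ne' ℓ hℓ.ne_one
  have hcop : ∀ b : ℕ, Nat.Coprime (ℓ ^ b) u := fun b =>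
    Nat.Coprime.pow_left b ((Nat.Prime.coprime_iff_not_dvd hℓ).mpr hu)
  have hS : ∀ b : ℕ, (sigma 1 (ℓ ^ b * u) : ℤ) = (∑ k ∈ Finset.range (b + 1), (ℓ : ℤ) ^ k) *
      (sigma 1 u : ℤ) := by
    intro b
    rw [isMultiplicative_sigma.map_mul_of_coprime (hcop b), sigma_one_apply_prime_pow hℓ]
    push_cast
    ring
  have h1 : ℓ ^ a * u * ℓ = ℓ ^ (a + 1) * u := by ring
  rw [h1, hS, hS]
  rcases Nat.eq_zero_or_pos a with rfl | ha
  · have hnd : ¬ ℓ ∣ ℓ ^ 0 * u := by simpa using hu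
    rw [if_neg hnd]
    simp [Finset.sum_range_succ]
  · obtain ⟨b, rfl⟩ : ∃ b, a = b + 1 := ⟨a - 1, by omega⟩
    have hd : ℓ ∣ ℓ ^ (b + 1) * u := Dvd.dvd.mul_right (dvd_pow_self ℓ (by omega)) u
    have hdiv : ℓ ^ (b + 1) * u / ℓ = ℓ ^ b * u := by
      rw [pow_succ, mul_assoc, mul_comm ℓ u, ← mul_assoc, Nat.mul_div_cancel _ hℓ.pos]
    rw [if_pos hd, hdiv, hS]
    have geo : ∀ n : ℕ, (∑ k ∈ Finset.range (n + 1), (ℓ : ℤ) ^ k) =
        1 + (ℓ : ℤ) * ∑ k ∈ Finset.range n, (ℓ : ℤ) ^ k := by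
      intro n
      rw [Finset.sum_range_succ', Finset.mul_sum, pow_zero, add_comm]
      congr 1
      apply Finset.sum_congr rfl
      intro k _
      ring
    have e1 := geo (b + 1 + 1)
    have e2 := geo (b + 1)
    rw [e1]
    linear_combination (-(sigma 1 u : ℤ)) * e2

theorem red_sigma_one (p : ℕ) (hp : p.Prime) : redSigma p 1 = 1 := by
  unfold redSigma
  rw [if_neg (by simpa using hp.ne_one)]
  simp

/-- `σ'(j p) = σ'(j)`. -/
theorem red_sigma_mul_self {p : ℕ} (hp : p.Prime) (j : ℕ) :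
    redSigma p (j * p) = redSigma p j := by
  unfold redSigma
  have h := red_sigma_hecke hp j
  rw [if_pos (Dvd.intro_left j rfl), Nat.mul_div_cancel _ hp.pos]
  split_ifs at h ⊢ with hd
  · linear_combination h
  · linear_combination h

/-- `σ'(j ℓ) = (1 + ℓ) σ'(j) - [ℓ ∣ j] ℓ σ'(j / ℓ)` for a prime `ℓ ≠ p`. -/
theorem red_sigma_mul_prime {p ℓ : ℕ} (hp : p.Prime) (hℓ : ℓ.Prime) (hne : ℓ ≠ p) (j : ℕ) :
    redSigma p (j * ℓ) + (if ℓ ∣ j then (ℓ : ℤ) * redSigma p (j / ℓ) else 0) =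
      (1 + (ℓ : ℤ)) * redSigma p j := by
  unfold redSigma
  have hpℓ : ¬ p ∣ ℓ := fun h => hne ((Nat.prime_dvd_prime_iff_eq hp hℓ).mp h).symm
  have hℓp : ¬ ℓ ∣ p := fun h => hne ((Nat.prime_dvd_prime_iff_eq hℓ hp).mp h)
  have h := red_sigma_hecke hℓ j
  by_cases hpj : p ∣ j
  · obtain ⟨j', rfl⟩ := hpj
    have h' := red_sigma_hecke hℓ j'
    have hd1 : p ∣ p * j' * ℓ := Dvd.dvd.mul_right (Dvd.intro j' rfl) ℓ
    have hdiv1 : p * j' * ℓ / p = j' * ℓ := by
      rw [mul_assoc, Nat.mul_div_cancel_left _ hp.pos]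
    have hdiv2 : p * j' / p = j' := Nat.mul_div_cancel_left _ hp.pos
    have hiff : ℓ ∣ p * j' ↔ ℓ ∣ j' :=
      ⟨fun hd => (hℓ.dvd_mul.mp hd).resolve_left hℓp, fun hd => Dvd.dvd.mul_left hd p⟩
    rw [if_pos hd1, hdiv1, if_pos (Dvd.intro j' rfl), hdiv2]
    by_cases hℓj : ℓ ∣ j'
    · have hℓj2 : ℓ ∣ p * j' := hiff.mpr hℓj
      obtain ⟨j'', rfl⟩ := hℓj
      have hd3 : p ∣ p * (ℓ * j'') / ℓ := by
        rw [show p * (ℓ * j'') = ℓ * (p * j'') by ring, Nat.mul_div_cancel_left _ hℓ.pos]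
        exact Dvd.intro j'' rfl
      have hdiv3 : p * (ℓ * j'') / ℓ / p = ℓ * j'' / ℓ := by
        rw [show p * (ℓ * j'') = ℓ * (p * j'') by ring, Nat.mul_div_cancel_left _ hℓ.pos,
          Nat.mul_div_cancel_left _ hp.pos, Nat.mul_div_cancel_left _ hℓ.pos]
      rw [if_pos hℓj2, if_pos hd3, hdiv3]
      rw [if_pos hℓj2] at h
      rw [if_pos (Dvd.intro j'' rfl)] at h'
      linear_combination h - (p : ℤ) * h'
    · have hℓj2 : ¬ ℓ ∣ p * j' := fun hd => hℓj (hiff.mp hd)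
      rw [if_neg hℓj2]
      rw [if_neg hℓj2] at h
      rw [if_neg hℓj] at h'
      linear_combination h - (p : ℤ) * h'
  · have hd1 : ¬ p ∣ j * ℓ := fun hd => (hp.dvd_mul.mp hd).elim hpj hpℓ
    rw [if_neg hd1, if_neg hpj]
    by_cases hℓj : ℓ ∣ j
    · have hd3 : ¬ p ∣ j / ℓ := fun hd => hpj (dvd_trans hd (Nat.div_dvd_of_dvd hℓj))
      rw [if_pos hℓj, if_neg hd3]
      rw [if_pos hℓj] at h
      linear_combination h
    · rw [if_neg hℓj]
      rw [if_neg hℓj] at h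
      linear_combination h




section hecke

variable (p : ℕ) [Fact p.Prime]

/-- The `i`-th q-coefficient as a linear functional on cusp forms. -/
noncomputable def redQ (i : ℕ) : CuspForm (Gamma0 p) 2 →ₗ[ℂ] ℂ where
  toFun f := qCoeff (⇑f) i
  map_add' f g := P2MW.S_CuspForm_intLattice_fg.W3WsD.qCoeff_add f g i
  map_smul' c f := by
    simpa using Fermat.Agent.Lib.HeckeEigenform.qCoeff_smul c f i

theorem redQ_apply (i : ℕ) (f : CuspForm (Gamma0 p) 2) : redQ p i f = qCoeff (⇑f) i := rfl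

/-- The operator on cusp forms attached to a Hecke polynomial. -/
noncomputable def redOp (P : HeckeAlg) : Module.End ℂ (CuspForm (Gamma0 p) 2) :=
  ((heckeEvalForms p 2 P : ↥(heckeAlgebra p 2 ∅)) : Module.End ℂ (CuspForm (Gamma0 p) 2))

theorem redOp_mul (P Q : HeckeAlg) (f : CuspForm (Gamma0 p) 2) :
    redOp p (P * Q) f = redOp p P (redOp p Q f) := by
  unfold redOp
  rw [map_mul]
  rfl

theorem redOp_sub (P Q : HeckeAlg) (f : CuspForm (Gamma0 p) 2) :
    redOp p (P - Q) f = redOp p P f - redOp p Q f := by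
  unfold redOp
  rw [map_sub]
  rfl

theorem redOp_C (a : ℤ) (f : CuspForm (Gamma0 p) 2) :
    redOp p (MvPolynomial.C a) f = a • f := by
  unfold redOp
  rw [heckeEvalForms_C]
  simp

theorem redOp_one (f : CuspForm (Gamma0 p) 2) : redOp p 1 f = f := by
  unfold redOp
  rw [map_one]
  rfl

theorem redOp_gen_self (f : CuspForm (Gamma0 p) 2) :
    redOp p (heckeGen (⟨p, Fact.out⟩ : Nat.Primes)) f = heckeULin 2 (dvd_refl p) f := by
  unfold redOp
  rw [heckeEvalForms_heckeGen_of_dvd (N := p) (k := 2) (q := (⟨p, Fact.out⟩ : Nat.Primes)) (dvd_refl p)]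
  rfl

theorem redOp_gen_of_ne {ℓ : ℕ} (hℓ : ℓ.Prime) (hℓp : ¬ ℓ ∣ p) (f : CuspForm (Gamma0 p) 2) :
    redOp p (heckeGen (⟨ℓ, hℓ⟩ : Nat.Primes)) f = heckeTLin 2 hℓ hℓp f := by
  unfold redOp
  rw [heckeEvalForms_heckeGen_of_not_dvd (N := p) (k := 2) (ℓ := (⟨ℓ, hℓ⟩ : Nat.Primes)) hℓp]
  rfl

omit [Fact p.Prime] in
theorem redEps_gen {ℓ : ℕ} (hℓ : ℓ.Prime) :
    redEps p (heckeGen (⟨ℓ, hℓ⟩ : Nat.Primes)) = eisensteinSystem p (⟨ℓ, hℓ⟩ : Nat.Primes) :=
  MvPolynomial.aeval_X _ _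

/-- Hecke polynomials `P_i` with `a_1(P_i f) = a_i(f)` and `ε(P_i) = σ'(i)`. -/
theorem red_exists_Tn (i : ℕ) (hi : 1 ≤ i) :
    ∃ P : HeckeAlg, (∀ f : CuspForm (Gamma0 p) 2, redQ p 1 (redOp p P f) = redQ p i f) ∧
      redEps p P = redSigma p i := by
  have hp : p.Prime := Fact.out
  induction i using Nat.strong_induction_on with
  | _ i ih =>
  rcases eq_or_lt_of_le hi with rfl | hi1
  · refine ⟨1, fun f => by rw [redOp_one], ?_⟩
    rw [map_one, red_sigma_one p hp]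
  · have hne : i ≠ 1 := by omega
    have hℓ : (Nat.minFac i).Prime := Nat.minFac_prime hne
    set ℓ := Nat.minFac i with hℓdef
    obtain ⟨j, hj⟩ : ∃ j, i = j * ℓ := ⟨i / ℓ, (Nat.div_mul_cancel (Nat.minFac_dvd i)).symm⟩
    have hjpos : 1 ≤ j := by
      rcases Nat.eq_zero_or_pos j with rfl | h
      · omega
      · exact h
    have hjlt : j < i := by
      have := hℓ.two_le
      rw [hj]
      nlinarith
    obtain ⟨Pj, hPj, hPjε⟩ := ih j hjlt hjpos
    by_cases hℓp : ℓ = p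
    · refine ⟨Pj * heckeGen (⟨p, hp⟩ : Nat.Primes), fun f => ?_, ?_⟩
      · rw [redOp_mul, hPj, redOp_gen_self, redQ_apply, redQ_apply,
          Fermat.Agent.Lib.HeckeEigenform.qCoeff_heckeULin (dvd_refl p) hp.ne_zero, hj, hℓp]
      · rw [map_mul, hPjε, redEps_gen p hp, eisensteinSystem_of_dvd (N := p) (ℓ := (⟨p, hp⟩ : Nat.Primes)) (dvd_refl p),
          mul_one, hj, hℓp, red_sigma_mul_self hp]
    · have hndvd : ¬ ℓ ∣ p := fun h => hℓp ((Nat.prime_dvd_prime_iff_eq hℓ hp).mp h)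
      have hsys : eisensteinSystem p (⟨ℓ, hℓ⟩ : Nat.Primes) = 1 + (ℓ : ℤ) := by
        rw [eisensteinSystem_of_not_dvd (N := p) (ℓ := (⟨ℓ, hℓ⟩ : Nat.Primes)) hndvd]
      have hσ := red_sigma_mul_prime hp hℓ hℓp j
      by_cases hd : ℓ ∣ j
      · have hj'pos : 1 ≤ j / ℓ := Nat.div_pos (Nat.le_of_dvd hjpos hd) hℓ.pos
        have hj'lt : j / ℓ < i := lt_of_le_of_lt (Nat.div_le_self _ _) hjlt
        obtain ⟨Pj', hPj', hPj'ε⟩ := ih (j / ℓ) hj'lt hj'pos
        refine ⟨Pj * heckeGen (⟨ℓ, hℓ⟩ : Nat.Primes) - MvPolynomial.C (ℓ : ℤ) * Pj', fun f => ?_, ?_⟩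
        · rw [redOp_sub, map_sub, redOp_mul, hPj, redOp_gen_of_ne p hℓ hndvd, redOp_mul, redOp_C,
            map_zsmul, hPj', redQ_apply, redQ_apply, redQ_apply,
            Fermat.Agent.Lib.HeckeEigenform.qCoeff_heckeTLin hℓ hndvd, if_pos hd, hj]
          simp
        · rw [if_pos hd] at hσ
          rw [map_sub, map_mul, map_mul, hPjε, redEps_gen p hℓ, hsys, hPj'ε, hj]
          have hC : redEps p (MvPolynomial.C (ℓ : ℤ)) = (ℓ : ℤ) := by simp [redEps]
          rw [hC]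
          linear_combination -hσ
      · refine ⟨Pj * heckeGen (⟨ℓ, hℓ⟩ : Nat.Primes), fun f => ?_, ?_⟩
        · rw [redOp_mul, hPj, redOp_gen_of_ne p hℓ hndvd, redQ_apply, redQ_apply,
            Fermat.Agent.Lib.HeckeEigenform.qCoeff_heckeTLin hℓ hndvd, if_neg hd, hj, add_zero]
        · rw [if_neg hd] at hσ
          rw [map_mul, hPjε, redEps_gen p hℓ, hsys, hj]
          linear_combination -hσ

end hecke




section duality

variable (p : ℕ) [Fact p.Prime]

theorem red_mem_intLattice_iff (f : CuspForm (Gamma0 p) 2) :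
    f ∈ intLattice p 2 ↔ ∀ n : ℕ, ∃ m : ℤ, qCoeff (⇑f) n = (m : ℂ) :=
  P2MW.S_CuspForm_intLattice_fg.W3WsD.mem_intLattice_iff f

/-- The `i`-th q-coefficient of a lattice element, as an integer. -/
noncomputable def redCoeff (i : ℕ) : ↥(intLattice p 2) →ₗ[ℤ] ℤ where
  toFun f := Classical.choose ((red_mem_intLattice_iff p f.1).mp f.2 i)
  map_add' f g := by
    apply Int.cast_injective (α := ℂ)
    rw [Int.cast_add, ← Classical.choose_spec ((red_mem_intLattice_iff p f.1).mp f.2 i),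
      ← Classical.choose_spec ((red_mem_intLattice_iff p g.1).mp g.2 i),
      ← Classical.choose_spec ((red_mem_intLattice_iff p (f + g).1).mp (f + g).2 i)]
    exact P2MW.S_CuspForm_intLattice_fg.W3WsD.qCoeff_add f.1 g.1 i
  map_smul' c f := by
    apply Int.cast_injective (α := ℂ)
    rw [RingHom.id_apply, smul_eq_mul, Int.cast_mul,
      ← Classical.choose_spec ((red_mem_intLattice_iff p f.1).mp f.2 i),
      ← Classical.choose_spec ((red_mem_intLattice_iff p (c • f).1).mp (c • f).2 i)]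
    exact P2MW.S_CuspForm_intLattice_fg.W3WsD.qCoeff_zsmul c f.1 i

theorem redCoeff_spec (i : ℕ) (f : ↥(intLattice p 2)) :
    ((redCoeff p i f : ℤ) : ℂ) = redQ p i (f : CuspForm (Gamma0 p) 2) :=
  (Classical.choose_spec ((red_mem_intLattice_iff p f.1).mp f.2 i)).symm

/-- A lattice element all of whose coefficients of positive index vanish is zero. -/
theorem red_eq_zero_of_coeff (f : ↥(intLattice p 2)) (h : ∀ i : ℕ, 1 ≤ i → redCoeff p i f = 0) :
    f = 0 := by
  apply Subtype.ext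
  apply Fermat.Agent.Lib.HeckeEigenform.eq_zero_of_forall_qCoeff_eq_zero
  intro n
  rcases Nat.eq_zero_or_pos n with rfl | hn
  · exact Fermat.Agent.Lib.HeckeEigenform.qCoeff_zero_eq_zero _
  · have := redCoeff_spec p n f
    rw [h n hn, Int.cast_zero] at this
    exact this.symm

/-- The Hecke polynomials `P_i` on the lattice: `a_1(P_i f) = a_i(f)`. -/
theorem red_exists_Tn_lattice (i : ℕ) (hi : 1 ≤ i) :
    ∃ P : HeckeAlg, (∀ f : ↥(intLattice p 2),
        redCoeff p 1 (((redPsi p P : ↥(heckeLatticeAlgebra p ∅)) :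
          Module.End ℤ ↥(intLattice p 2)) f) = redCoeff p i f) ∧
      redEps p P = redSigma p i := by
  obtain ⟨P, hP, hPε⟩ := red_exists_Tn p i hi
  refine ⟨P, fun f => ?_, hPε⟩
  apply Int.cast_injective (α := ℂ)
  rw [redCoeff_spec, redCoeff_spec, red_psi_apply]
  exact hP _

/-- The pairing `T × L → ℤ`, `(t, f) ↦ a_1(t f)`, as a map `T → Hom(L, ℤ)`. -/
noncomputable def redPair : ↥(heckeLatticeAlgebra p ∅) →ₗ[ℤ] (↥(intLattice p 2) →ₗ[ℤ] ℤ) where
  toFun t := (redCoeff p 1).comp (t : Module.End ℤ ↥(intLattice p 2))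
  map_add' s t := by
    ext f
    simp
  map_smul' c t := by
    ext f
    simp

theorem redPair_apply (t : ↥(heckeLatticeAlgebra p ∅)) (f : ↥(intLattice p 2)) :
    redPair p t f = redCoeff p 1 ((t : Module.End ℤ ↥(intLattice p 2)) f) := rfl

theorem red_mul_apply (s t : ↥(heckeLatticeAlgebra p ∅)) (f : ↥(intLattice p 2)) :
    ((s * t : ↥(heckeLatticeAlgebra p ∅)) : Module.End ℤ ↥(intLattice p 2)) f =
      (s : Module.End ℤ ↥(intLattice p 2)) ((t : Module.End ℤ ↥(intLattice p 2)) f) := rfl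

/-- `L → Hom(T, ℤ)` is injective. -/
theorem redPair_flip_injective : Function.Injective (redPair p).flip := by
  rw [injective_iff_map_eq_zero]
  intro f hf
  apply red_eq_zero_of_coeff
  intro i hi
  obtain ⟨P, hP, -⟩ := red_exists_Tn_lattice p i hi
  rw [← hP f, ← redPair_apply, ← LinearMap.flip_apply, hf]
  rfl

/-- `T → Hom(L, ℤ)` is injective. -/
theorem redPair_injective : Function.Injective (redPair p) := by
  rw [injective_iff_map_eq_zero]
  intro t ht
  apply Subtype.ext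
  apply LinearMap.ext
  intro f
  rw [ZeroMemClass.coe_zero, LinearMap.zero_apply]
  apply red_eq_zero_of_coeff
  intro i hi
  obtain ⟨P, hP, -⟩ := red_exists_Tn_lattice p i hi
  rw [← hP, ← red_mul_apply, mul_comm, red_mul_apply, ← redPair_apply, ht]
  rfl

end duality




section duality2

variable (p : ℕ) [Fact p.Prime]

theorem red_saturated_a (c : ℤ) (lam : ↥(heckeLatticeAlgebra p ∅) →ₗ[ℤ] ℤ)
    (f : ↥(intLattice p 2)) (h : (redPair p).flip f = c • lam) :
    ∀ i : ℕ, ∃ b : ℤ, qCoeff (⇑(f : CuspForm (Gamma0 p) 2)) i = (c : ℂ) * (b : ℂ) := by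
  intro i
  rcases Nat.eq_zero_or_pos i with rfl | hi
  · exact ⟨0, by rw [Fermat.Agent.Lib.HeckeEigenform.qCoeff_zero_eq_zero]; simp⟩
  · obtain ⟨P, hP, -⟩ := red_exists_Tn_lattice p i hi
    refine ⟨lam (redPsi p P), ?_⟩
    have h1 : redCoeff p i f = c * lam (redPsi p P) := by
      rw [← hP f, ← redPair_apply, ← LinearMap.flip_apply, h]
      rfl
    rw [← redQ_apply, ← redCoeff_spec, h1]
    push_cast
    ring

theorem red_saturated_b (c : ℤ) (hc : c ≠ 0)
    (f : ↥(intLattice p 2))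
    (hcoef : ∀ i : ℕ, ∃ b : ℤ, qCoeff (⇑(f : CuspForm (Gamma0 p) 2)) i = (c : ℂ) * (b : ℂ)) :
    ∃ g : ↥(intLattice p 2), f = c • g := by
  have hcC : (c : ℂ) ≠ 0 := Int.cast_ne_zero.mpr hc
  have hg0 : ((c : ℂ)⁻¹ • (f : CuspForm (Gamma0 p) 2)) ∈ intLattice p 2 := by
    rw [red_mem_intLattice_iff]
    intro i
    obtain ⟨b, hb⟩ := hcoef i
    refine ⟨b, ?_⟩
    rw [Fermat.Agent.Lib.HeckeEigenform.qCoeff_smul, hb]
    field_simp
  refine ⟨⟨_, hg0⟩, ?_⟩
  apply Subtype.ext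
  show (f : CuspForm (Gamma0 p) 2) = c • ((c : ℂ)⁻¹ • (f : CuspForm (Gamma0 p) 2))
  rw [← Int.cast_smul_eq_zsmul ℂ, smul_smul, mul_inv_cancel₀ hcC, one_smul]

theorem red_saturated_c (c : ℤ) (hc : c ≠ 0) (lam : ↥(heckeLatticeAlgebra p ∅) →ₗ[ℤ] ℤ)
    (f g : ↥(intLattice p 2)) (hfg : f = c • g) (h : (redPair p).flip f = c • lam) :
    (redPair p).flip g = lam := by
  apply LinearMap.ext
  intro t
  have h2 := LinearMap.congr_fun h t
  rw [LinearMap.smul_apply, smul_eq_mul, LinearMap.flip_apply, hfg, map_zsmul,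
    smul_eq_mul] at h2
  exact mul_left_cancel₀ hc h2

/-- The image of `L → Hom(T, ℤ)` is saturated. -/
theorem red_saturated (c : ℤ) (hc : c ≠ 0) (lam : ↥(heckeLatticeAlgebra p ∅) →ₗ[ℤ] ℤ)
    (f : ↥(intLattice p 2)) (h : (redPair p).flip f = c • lam) :
    ∃ g : ↥(intLattice p 2), (redPair p).flip g = lam := by
  obtain ⟨g, hg⟩ := red_saturated_b p c hc f (red_saturated_a p c lam f h)
  exact ⟨g, red_saturated_c p c hc lam f g hg h⟩

/-- `L → Hom(T, ℤ)` is surjective: the pairing `a_1(t f)` is perfect. -/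
theorem redPair_flip_surjective : Function.Surjective (redPair p).flip := by
  have := intLattice.moduleFinite p
  have := intLattice.moduleFree p
  have h1 : Module.finrank ℤ ↥(intLattice p 2) ≤
      Module.finrank ℤ (↥(heckeLatticeAlgebra p ∅) →ₗ[ℤ] ℤ) :=
    LinearMap.finrank_le_finrank_of_injective (redPair_flip_injective p)
  have h2 : Module.finrank ℤ ↥(heckeLatticeAlgebra p ∅) ≤
      Module.finrank ℤ (↥(intLattice p 2) →ₗ[ℤ] ℤ) :=
    LinearMap.finrank_le_finrank_of_injective (redPair_injective p)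
  have h3 : Module.finrank ℤ (↥(heckeLatticeAlgebra p ∅) →ₗ[ℤ] ℤ) =
      Module.finrank ℤ ↥(heckeLatticeAlgebra p ∅) := Module.finrank_linearMap_self ℤ ℤ _
  have h4 : Module.finrank ℤ (↥(intLattice p 2) →ₗ[ℤ] ℤ) =
      Module.finrank ℤ ↥(intLattice p 2) := Module.finrank_linearMap_self ℤ ℤ _
  set N := LinearMap.range (redPair p).flip with hN
  have h5 : Module.finrank ℤ ↥N = Module.finrank ℤ (↥(heckeLatticeAlgebra p ∅) →ₗ[ℤ] ℤ) := by
    rw [hN, LinearMap.finrank_range_of_inj (redPair_flip_injective p)]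
    omega
  have : Finite ((↥(heckeLatticeAlgebra p ∅) →ₗ[ℤ] ℤ) ⧸ N) :=
    Submodule.finiteQuotientOfFreeOfRankEq N h5
  intro lam
  have hcard : Nat.card ((↥(heckeLatticeAlgebra p ∅) →ₗ[ℤ] ℤ) ⧸ N) ≠ 0 :=
    Nat.card_ne_zero.mpr ⟨inferInstance, inferInstance⟩
  have hmem : ((Nat.card ((↥(heckeLatticeAlgebra p ∅) →ₗ[ℤ] ℤ) ⧸ N) : ℕ) : ℤ) • lam ∈ N := by
    simpa using! AddSubgroup.nsmul_index_mem N.toAddSubgroup lam
  obtain ⟨f, hf⟩ := hmem
  exact red_saturated p _ (Int.natCast_ne_zero.mpr hcard) lam f hf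

end duality2




section main

variable (p : ℕ) [Fact p.Prime]

/-- If `k ∣ ε(P)` for every `P` killing the lattice, the Eisenstein evaluation descends to a
ring homomorphism `T → ℤ/k`, which lifts to a linear form `T → ℤ`. -/
theorem red_exists_linear_form (k : ℕ)
    (hk : ∀ P : HeckeAlg, redPsi p P = 0 → (k : ℤ) ∣ redEps p P) :
    ∃ lam : ↥(heckeLatticeAlgebra p ∅) →ₗ[ℤ] ℤ,
      ∀ P : HeckeAlg, (k : ℤ) ∣ lam (redPsi p P) - redEps p P := by
  let φ : HeckeAlg →+* ZMod k := (Int.castRingHom (ZMod k)).comp (redEps p : HeckeAlg →+* ℤ)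
  have hφ : RingHom.ker (redPsi p) ≤ RingHom.ker φ := by
    intro P hP
    rw [RingHom.mem_ker] at hP ⊢
    obtain ⟨b, hb⟩ := hk P hP
    show ((redEps p P : ℤ) : ZMod k) = 0
    rw [hb]
    simp
  let εbar : ↥(heckeLatticeAlgebra p ∅) →+* ZMod k :=
    (redPsi p).liftOfSurjective (red_psi_surjective p) ⟨φ, hφ⟩
  have hεbar : ∀ P : HeckeAlg, εbar (redPsi p P) = ((redEps p P : ℤ) : ZMod k) := fun P =>
    RingHom.liftOfSurjective_comp_apply (redPsi p) (red_psi_surjective p) ⟨φ, hφ⟩ P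
  obtain ⟨lam, hlam⟩ := Module.projective_lifting_property
    (Int.castAddHom (ZMod k)).toIntLinearMap εbar.toAddMonoidHom.toIntLinearMap
    (ZMod.intCast_surjective)
  refine ⟨lam, fun P => ?_⟩
  have h1 := LinearMap.congr_fun hlam (redPsi p P)
  have h2 : ((lam (redPsi p P) : ℤ) : ZMod k) = ((redEps p P : ℤ) : ZMod k) := by
    rw [← hεbar]
    exact h1
  have h3 := (ZMod.intCast_eq_intCast_iff_dvd_sub _ _ k).mp h2.symm
  exact h3

/-- Duality: if `k` divides `ε(P)` for every `P` killing the cusp forms, then there is an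
integral cusp form congruent to the Eisenstein series modulo `k`. -/
theorem red_exists_form (k : ℕ)
    (hk : ∀ P : HeckeAlg, redPsi p P = 0 → (k : ℤ) ∣ redEps p P) :
    ∃ f : CuspForm (Gamma0 p) 2, (∀ i : ℕ, ∃ a : ℤ, qCoeff (⇑f) i = (a : ℂ)) ∧
      ∀ i : ℕ, 1 ≤ i → ∃ a : ℤ, qCoeff (⇑f) i = ((redSigma p i + (k : ℤ) * a : ℤ) : ℂ) := by
  obtain ⟨lam, hlam⟩ := red_exists_linear_form p k hk
  obtain ⟨f, hf⟩ := redPair_flip_surjective p lam
  refine ⟨f.1, (red_mem_intLattice_iff p f.1).mp f.2, fun i hi => ?_⟩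
  obtain ⟨P, hP, hPε⟩ := red_exists_Tn_lattice p i hi
  have h1 : redCoeff p i f = lam (redPsi p P) := by
    rw [← hP f, ← redPair_apply, ← LinearMap.flip_apply, hf]
  obtain ⟨a, ha⟩ := hlam P
  refine ⟨a, ?_⟩
  rw [← redQ_apply, ← redCoeff_spec, h1]
  congr 1
  rw [hPε] at ha
  linear_combination ha

/-- **The reduction.**  S16 follows from the lower bound (`n ∣ ε(P)` for all `P` killing the
cusp forms) and the upper bound (a congruence `f ≡ ∑ σ'(i) q^i mod k` with `f` an integral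
cusp form forces `k ∣ n`), where `n = eisensteinNumerator p`. -/
theorem red_main
    (hLB : ∀ P : HeckeAlg, heckeEvalForms p 2 P = 0 →
      (eisensteinNumerator p : ℤ) ∣ MvPolynomial.aeval (eisensteinSystem p) P)
    (hUB : ∀ (k : ℕ) (f : CuspForm (Gamma0 p) 2), 0 < k →
      (∀ i : ℕ, ∃ a : ℤ, qCoeff (⇑f) i = (a : ℂ)) →
      (∀ i : ℕ, 1 ≤ i → ∃ a : ℤ, qCoeff (⇑f) i = ((redSigma p i + (k : ℤ) * a : ℤ) : ℂ)) →
      k ∣ eisensteinNumerator p) :
    Nat.card (↥(heckeLatticeAlgebra p ∅) ⧸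
        Ideal.map ((latticeRestrictHom p ∅).toRingHom.comp (heckeEvalForms p 2))
          (eisensteinIdeal p)) = eisensteinNumerator p := by
  have hp : p.Prime := Fact.out
  -- `n ≥ 1`
  have hnpos : 0 < eisensteinNumerator p := by
    unfold eisensteinNumerator
    have h1 : 0 < p - 1 := by have := hp.two_le; omega
    exact Nat.div_pos (Nat.le_of_dvd h1 (Nat.gcd_dvd_left _ _)) (Nat.gcd_pos_of_pos_left _ h1)
  -- the ideal `ε(ker ψ)` of `ℤ` and its generator
  have hεsurj : Function.Surjective (redEps p : HeckeAlg →+* ℤ) := fun a =>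
    ⟨(a : HeckeAlg), red_eps_intCast p a⟩
  set J : Ideal ℤ := Ideal.map (redEps p : HeckeAlg →+* ℤ) (RingHom.ker (redPsi p)) with hJ
  have hJmem : ∀ a : ℤ, a ∈ J ↔ ∃ P : HeckeAlg, redPsi p P = 0 ∧ redEps p P = a := by
    intro a
    rw [hJ, Ideal.mem_map_iff_of_surjective _ hεsurj]
    constructor
    · rintro ⟨P, hP, rfl⟩
      exact ⟨P, RingHom.mem_ker.mp hP, rfl⟩
    · rintro ⟨P, hP, rfl⟩
      exact ⟨P, RingHom.mem_ker.mpr hP, rfl⟩
  obtain ⟨g, hg⟩ : ∃ g : ℤ, J = Ideal.span {g} :=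
    ⟨_, (IsPrincipalIdealRing.principal J).span_singleton_generator.symm⟩
  set m : ℕ := g.natAbs with hm
  have hJm : J = Ideal.span {(m : ℤ)} := by rw [hg, hm, Int.span_natAbs]
  have h1 : ∀ P : HeckeAlg, redPsi p P = 0 → (m : ℤ) ∣ redEps p P := by
    intro P hP
    have : redEps p P ∈ J := (hJmem _).mpr ⟨P, hP, rfl⟩
    rwa [hJm, Ideal.mem_span_singleton] at this
  have h2 : ∃ P : HeckeAlg, redPsi p P = 0 ∧ redEps p P = (m : ℤ) := by
    apply (hJmem _).mp
    rw [hJm]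
    exact Ideal.mem_span_singleton_self _
  have hcard := red_card p m h1 h2
  rw [hcard]
  -- `n ∣ m`
  have hnm : eisensteinNumerator p ∣ m := by
    obtain ⟨P₀, hP₀, hP₀m⟩ := h2
    have := hLB P₀ ((red_psi_eq_zero_iff p P₀).mp hP₀)
    have h3 : (eisensteinNumerator p : ℤ) ∣ (m : ℤ) := by
      rw [← hP₀m]
      exact this
    exact Int.natCast_dvd_natCast.mp h3
  -- `m ∣ n`
  rcases Nat.eq_zero_or_pos m with hm0 | hmpos
  · -- impossible: every `k` would divide `n`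
    exfalso
    have hk : ∀ P : HeckeAlg, redPsi p P = 0 →
        ((2 * eisensteinNumerator p : ℕ) : ℤ) ∣ redEps p P := by
      intro P hP
      have := h1 P hP
      rw [hm0] at this
      have h0 : redEps p P = 0 := by simpa using this
      rw [h0]
      exact dvd_zero _
    obtain ⟨f, hf, hfk⟩ := red_exists_form p _ hk
    have := hUB (2 * eisensteinNumerator p) f (by omega) hf hfk
    have := Nat.le_of_dvd hnpos this
    omega
  · obtain ⟨f, hf, hfk⟩ := red_exists_form p m h1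
    exact Nat.dvd_antisymm (hUB m f hmpos hf hfk) hnm

end main




section converse

variable (p : ℕ) [Fact p.Prime]

/-- `g ≡ c · ∑ σ'(i) q^i mod k` (coefficients of positive index). -/
def RedEisCong (k : ℕ) (g : CuspForm (Gamma0 p) 2) (c : ℤ) : Prop :=
  ∀ i : ℕ, 1 ≤ i → ∃ a : ℤ, redQ p i g = ((c * redSigma p i + (k : ℤ) * a : ℤ) : ℂ)

theorem redEisCong_op (k : ℕ) (Q : HeckeAlg) :
    ∀ (g : CuspForm (Gamma0 p) 2) (c : ℤ), RedEisCong p k g c →
      RedEisCong p k (redOp p Q g) (c * redEps p Q) := by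
  have hp : p.Prime := Fact.out
  induction Q using MvPolynomial.induction_on with
  | C a =>
    intro g c hg i hi
    obtain ⟨b, hb⟩ := hg i hi
    refine ⟨a * b, ?_⟩
    have hC : redEps p (MvPolynomial.C a) = a := by simp [redEps]
    rw [redOp_C, map_zsmul, hb, hC, zsmul_eq_mul]
    push_cast
    ring
  | add Q₁ Q₂ ih₁ ih₂ =>
    intro g c hg i hi
    obtain ⟨b₁, hb₁⟩ := ih₁ g c hg i hi
    obtain ⟨b₂, hb₂⟩ := ih₂ g c hg i hi
    refine ⟨b₁ + b₂, ?_⟩
    have hadd : redOp p (Q₁ + Q₂) g = redOp p Q₁ g + redOp p Q₂ g := by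
      unfold redOp
      rw [map_add]
      rfl
    rw [hadd, map_add, hb₁, hb₂, map_add]
    push_cast
    ring
  | mul_X Q ℓ ih =>
    intro g c hg
    obtain ⟨ℓ, hℓ⟩ := ℓ
    have key : RedEisCong p k (redOp p (MvPolynomial.X (⟨ℓ, hℓ⟩ : Nat.Primes)) g)
        (c * redEps p (MvPolynomial.X (⟨ℓ, hℓ⟩ : Nat.Primes))) := by
      intro i hi
      by_cases hℓp : ℓ = p
      · have hip : 1 ≤ i * p := Nat.mul_pos hi hp.pos
        obtain ⟨b, hb⟩ := hg (i * p) hip
        refine ⟨b, ?_⟩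
        have hgen : (⟨ℓ, hℓ⟩ : Nat.Primes) = (⟨p, Fact.out⟩ : Nat.Primes) := Subtype.ext hℓp
        have e1 : redOp p (MvPolynomial.X (⟨p, Fact.out⟩ : Nat.Primes)) g =
            heckeULin 2 (dvd_refl p) g := redOp_gen_self p g
        have e2 : redEps p (MvPolynomial.X (⟨p, Fact.out⟩ : Nat.Primes)) = 1 := by
          have := redEps_gen p hp
          rw [eisensteinSystem_of_dvd (N := p) (ℓ := (⟨p, hp⟩ : Nat.Primes)) (dvd_refl p)] at this
          exact this
        rw [hgen, e1, e2, redQ_apply,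
          Fermat.Agent.Lib.HeckeEigenform.qCoeff_heckeULin (dvd_refl p) hp.ne_zero,
          ← redQ_apply, hb, red_sigma_mul_self hp, mul_one]
      · have hndvd : ¬ ℓ ∣ p := fun h => hℓp ((Nat.prime_dvd_prime_iff_eq hℓ hp).mp h)
        have e1 : redOp p (MvPolynomial.X (⟨ℓ, hℓ⟩ : Nat.Primes)) g =
            heckeTLin 2 hℓ hndvd g := redOp_gen_of_ne p hℓ hndvd g
        have e2 : redEps p (MvPolynomial.X (⟨ℓ, hℓ⟩ : Nat.Primes)) = 1 + (ℓ : ℤ) := by
          have := redEps_gen p hℓ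
          rw [eisensteinSystem_of_not_dvd (N := p) (ℓ := (⟨ℓ, hℓ⟩ : Nat.Primes)) hndvd] at this
          exact this
        have hσ := red_sigma_mul_prime hp hℓ hℓp i
        have hiℓ : 1 ≤ i * ℓ := Nat.mul_pos hi hℓ.pos
        obtain ⟨b, hb⟩ := hg (i * ℓ) hiℓ
        rw [e1, e2, redQ_apply, Fermat.Agent.Lib.HeckeEigenform.qCoeff_heckeTLin hℓ hndvd,
          ← redQ_apply, hb]
        by_cases hd : ℓ ∣ i
        · have hi' : 1 ≤ i / ℓ := Nat.div_pos (Nat.le_of_dvd hi hd) hℓ.pos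
          obtain ⟨b', hb'⟩ := hg (i / ℓ) hi'
          rw [if_pos hd] at hσ
          refine ⟨b + ℓ * b', ?_⟩
          rw [if_pos hd, ← redQ_apply, hb']
          have hσC : ((redSigma p (i * ℓ) : ℤ) : ℂ) + (ℓ : ℂ) * ((redSigma p (i / ℓ) : ℤ) : ℂ) =
              (1 + (ℓ : ℂ)) * ((redSigma p i : ℤ) : ℂ) := by exact_mod_cast hσ
          push_cast
          linear_combination (c : ℂ) * hσC
        · rw [if_neg hd, add_zero] at hσ
          refine ⟨b, ?_⟩
          rw [if_neg hd]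
          have hσC : ((redSigma p (i * ℓ) : ℤ) : ℂ) =
              (1 + (ℓ : ℂ)) * ((redSigma p i : ℤ) : ℂ) := by exact_mod_cast hσ
          push_cast
          linear_combination (c : ℂ) * hσC
    have h2 := ih _ _ key
    intro i hi
    obtain ⟨b, hb⟩ := h2 i hi
    refine ⟨b, ?_⟩
    rw [redOp_mul, hb, map_mul]
    push_cast
    ring

/-- Converse of the duality: an integral cusp form congruent to the Eisenstein series modulo
`k` forces `k ∣ ε(P)` for every `P` killing the cusp forms. -/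
theorem red_dvd_of_form (k : ℕ) (f : CuspForm (Gamma0 p) 2)
    (hfk : ∀ i : ℕ, 1 ≤ i → ∃ a : ℤ, qCoeff (⇑f) i = ((redSigma p i + (k : ℤ) * a : ℤ) : ℂ))
    (P : HeckeAlg) (hP : redPsi p P = 0) : (k : ℤ) ∣ redEps p P := by
  have hp : p.Prime := Fact.out
  have h0 : RedEisCong p k f 1 := by
    intro i hi
    obtain ⟨a, ha⟩ := hfk i hi
    exact ⟨a, by rw [redQ_apply, ha, one_mul]⟩
  obtain ⟨a, ha⟩ := redEisCong_op p k P f 1 h0 1 le_rfl
  have hz : redOp p P f = 0 := by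
    unfold redOp
    rw [(red_psi_eq_zero_iff p P).mp hP]
    rfl
  rw [hz, map_zero, red_sigma_one p hp, one_mul, mul_one] at ha
  have ha' : (0 : ℤ) = redEps p P + (k : ℤ) * a := by exact_mod_cast ha
  exact ⟨-a, by linear_combination -ha'⟩

end converse


end Fermat.Agent.S16
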