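import Mathlib
import Fermat.Agent.S16.Defs
import Fermat.Agent.Lib.CuspFormSturm
import Fermat.Agent.S28.Index

/-!
# S16, package SMALL: `S₂(Γ₀(p)) = 0` for `p = 2, 3`

The index of `Γ₀(p)` is at most `p + 1 ≤ 4`, so the Sturm bound `2 * index / 12` is zero and a
cusp form (constant coefficient zero) vanishes.
-/

set_option autoImplicit false

open UpperHalfPlane ModularForm CongruenceSubgroup
open scoped MatrixGroups

namespace Fermat.Agent.S16

/-- the index of `Γ₀(p)` is at most `p + 1` for a prime `p`. -/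
theorem small_index_le (p : ℕ) [hp : Fact p.Prime] : (Gamma0 p).index ≤ p + 1 := by
  have h := Fermat.Agent.S28.index_Gamma0_le_psi p hp.out.pos
  rwa [Fermat.Agent.S28.psi_prime hp.out] at h

theorem cuspForm_eq_zero_of_le_three (p : ℕ) [Fact p.Prime] (hp : p ≤ 3)
    (f : CuspForm (Gamma0 p) 2) : f = 0 := by
  have : NeZero p := ⟨(Fact.out : p.Prime).ne_zero⟩
  apply Fermat.Agent.Lib.CuspFormSturm.cuspForm_eq_zero_of_sturm_zero p
  have h := small_index_le p
  have h4 : (Gamma0 p).index ≤ 4 := by omega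
  have h5 : ((2 : ℤ) * ((Gamma0 p).index : ℤ)).toNat ≤ 8 := by
    have : (2 : ℤ) * ((Gamma0 p).index : ℤ) ≤ 8 := by
      have : ((Gamma0 p).index : ℤ) ≤ 4 := by exact_mod_cast h4
      omega
    omega
  omega

end Fermat.Agent.S16
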