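import Mathlib
import Fermat.Agent.S16.Defs
import Fermat.Agent.S16.EisP

/-!
# S16 package EIS: the weight-2 Eisenstein series of level `p`

`exists_eis` (skeleton statement): there is `e ∈ M₂(Γ₀(p))` with `a₀(e) = (p-1)/24` and
`a_k(e) = σ'(k)` (`sigmaP p k`, the sum of the divisors of `k` prime to `p`) for `k ≥ 1`.
The form is `Fermat.Agent.S16.eisP p = (p E₂(pτ) - E₂(τ)) / 24`, built in `EisP.lean`.
-/

set_option autoImplicit false

open UpperHalfPlane ModularForm CongruenceSubgroup ModularCurve CuspForm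
open scoped MatrixGroups Manifold

namespace Fermat.Agent.S16

theorem eis_qCoeff_zero (p : ℕ) [Fact p.Prime] :
    ModularFormClass.qCoeff (⇑(eisP p)) 0 = ((p : ℂ) - 1) / 24 := by
  rw [eisP_qCoeff, if_pos rfl]

theorem eis_qCoeff (p : ℕ) [Fact p.Prime] (k : ℕ) (hk : 1 ≤ k) :
    ModularFormClass.qCoeff (⇑(eisP p)) k = (sigmaP p k : ℂ) := by
  rw [eisP_qCoeff, if_neg (by omega), sigmaP]

/-- `σ'(k) = σ(k) - p σ(k/p)` (second term only if `p ∣ k`). -/
theorem eis_sigmaP_eq (p k : ℕ) [Fact p.Prime] (hk : k ≠ 0) :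
    (sigmaP p k : ℤ) = (ArithmeticFunction.sigma 1 k : ℤ) -
      (if p ∣ k then (p : ℤ) * (ArithmeticFunction.sigma 1 (k / p) : ℤ) else 0) := by
  have h := eisP_sigma_eq p k (Fact.out : p.Prime).ne_zero hk
  rw [eisPSigma] at h
  rw [sigmaP, ← h]
  split_ifs <;> simp

/-- **EIS.** The weight 2 Eisenstein series of level `p`. -/
theorem exists_eis (p : ℕ) [Fact p.Prime] : ∃ e : ModularForm (Gamma0 p) 2,
    ModularFormClass.qCoeff (⇑e) 0 = ((p : ℂ) - 1) / 24 ∧
    ∀ k : ℕ, 1 ≤ k → ModularFormClass.qCoeff (⇑e) k = (sigmaP p k : ℂ) :=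
  ⟨eisP p, eis_qCoeff_zero p, eis_qCoeff p⟩

end Fermat.Agent.S16

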