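/-
S16 upper bound, package UB-A (function-level core): functions on the upper half plane that are
holomorphic, invariant of weight `k` under `Γ₀(p)` and bounded at both cusps, their companion
`biExpComp p k F τ = (F ∣[k] S)(p τ)`, the conjugates `F ∣[k] S T^j`, the trace to level one.
-/
import Mathlib
import Fermat.Prelude.Def_ModularForm_HeckeOperator
import Fermat.Prelude.Thm_UpperHalfPlane_qCoeff_heckeU
import Fermat.Prelude.Thm_UpperHalfPlane_qExpansion_coeff_nat_mul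
import Fermat.Prelude.Thm_UpperHalfPlane_qExpansion_prod
import Fermat.Prelude.Thm_ModularForm_mdifferentiable_heckeU
import Fermat.Prelude.Thm_ModularForm_periodic_heckeU_comp_ofComplex
import Fermat.Prelude.Thm_ModularForm_isBoundedAtImInfty_heckeU
import Fermat.Prelude.Thm_ModularForm_mdifferentiable_heckeT
import Fermat.Prelude.Thm_ModularForm_periodic_heckeT_comp_ofComplex
import Fermat.Prelude.Thm_ModularForm_isBoundedAtImInfty_heckeT
import Fermat.Prelude.Thm_UpperHalfPlane_qCoeff_heckeT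
import Fermat.Agent.S23.Sym
import Fermat.Agent.S23.Nice
import Fermat.Agent.S24.Cosets

set_option autoImplicit false

open UpperHalfPlane ModularForm ModularGroup CongruenceSubgroup Matrix.SpecialLinearGroup
open scoped MatrixGroups Manifold

noncomputable section

namespace Fermat.Agent.S16

open Fermat.Agent.S23

/-! ### Generalities -/

/-- periodicity of `F ∘ ofComplex` from invariance under a real translation -/
theorem biExp_periodic_of_vadd {F : ℍ → ℂ} {h : ℝ} (hF : ∀ z : ℍ, F (h +ᵥ z) = F z) :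
    Function.Periodic (F ∘ ofComplex) h := by
  intro x
  simp only [Function.comp_apply]
  by_cases hx : 0 < x.im
  · have h1 : 0 < (x + (h : ℂ)).im := by simpa using hx
    rw [ofComplex_apply_of_im_pos h1, ofComplex_apply_of_im_pos hx, ← hF ⟨x, hx⟩]
    congr 1
    ext
    simp [add_comm]
  · have h1 : (x + (h : ℂ)).im ≤ 0 := by simpa using not_lt.mp hx
    rw [ofComplex_apply_of_im_nonpos h1, ofComplex_apply_of_im_nonpos (not_lt.mp hx)]

/-- slash by `T ^ n` is translation by `n` -/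
theorem biExp_slash_T_zpow (F : ℍ → ℂ) (k : ℤ) (n : ℤ) (z : ℍ) :
    (F ∣[k] (T ^ n)) z = F ((n : ℝ) +ᵥ z) := by
  rw [SL_slash_apply, modular_T_zpow_smul]
  have : denom (toGL ((map (Int.castRingHom ℝ)) (T ^ n))) (z : ℂ) = 1 := by
    simp [denom, coe_T_zpow, -map_zpow]
  rw [this, one_zpow, mul_one]

theorem biExp_T_mem (p : ℕ) : (T : SL(2, ℤ)) ∈ Gamma0 p := by
  rw [Gamma0_mem]
  simp [coe_T]

/-- slash by `S` -/
theorem biExp_slash_S (F : ℍ → ℂ) (k : ℤ) (z : ℍ) :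
    (F ∣[k] S) z = F (S • z) * (z : ℂ) ^ (-k) := by
  rw [SL_slash_apply, denom_S]


/-- the map `τ ↦ p τ` preserves `atImInfty` -/
theorem biExp_tendsto_diag (p : ℕ) (hp : p ≠ 0) :
    Filter.Tendsto (fun τ : ℍ => heckeDiagMatrix p • τ) atImInfty atImInfty := by
  rw [atImInfty, Filter.tendsto_comap_iff]
  have h : (UpperHalfPlane.im ∘ fun τ : ℍ => heckeDiagMatrix p • τ) =
      fun τ : ℍ => (p : ℝ) * τ.im := by
    funext τ
    have := congrArg Complex.im (coe_heckeDiagMatrix_smul hp τ)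
    simpa using this
  rw [h]
  exact Filter.Tendsto.const_mul_atTop (by exact_mod_cast Nat.pos_of_ne_zero hp)
    Filter.tendsto_comap

/-- the map `τ ↦ (τ + j) / p` preserves `atImInfty` -/
theorem biExp_tendsto_heckeMatrix (p : ℕ) (hp : p ≠ 0) (j : ℕ) :
    Filter.Tendsto (fun τ : ℍ => heckeMatrix p j • τ) atImInfty atImInfty := by
  rw [atImInfty, Filter.tendsto_comap_iff]
  have h : (UpperHalfPlane.im ∘ fun τ : ℍ => heckeMatrix p j • τ) =
      fun τ : ℍ => τ.im / (p : ℝ) := by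
    funext τ
    have := congrArg Complex.im (coe_heckeMatrix_smul hp j τ)
    simp only [Function.comp_apply]
    rw [UpperHalfPlane.coe_im] at this
    rw [this]
    have h2 : ((τ : ℂ) + (j : ℂ)) / (p : ℂ) = (((τ : ℂ) + (j : ℂ)) / (p : ℝ) : ℂ) := by simp
    rw [h2, Complex.div_ofReal_im]
    simp
  rw [h]
  exact Filter.Tendsto.atTop_div_const (by exact_mod_cast Nat.pos_of_ne_zero hp)
    Filter.tendsto_comap

/-! ### The class `BiNice` -/

/-- holomorphic, invariant of weight `k` under `Γ₀(p)`, bounded at both cusps -/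
structure BiNice (p : ℕ) (k : ℤ) (F : ℍ → ℂ) : Prop where
  holo : MDiff F
  inv : ∀ γ ∈ Gamma0 p, F ∣[k] γ = F
  bdd : IsBoundedAtImInfty F
  bddS : IsBoundedAtImInfty (F ∣[k] S)

namespace BiNice

variable {p : ℕ} {k k' : ℤ} {F G : ℍ → ℂ}

theorem vadd_one (hF : BiNice p k F) (z : ℍ) : F ((1 : ℝ) +ᵥ z) = F z := by
  have h := congrFun (hF.inv T (biExp_T_mem p)) z
  have h2 := biExp_slash_T_zpow F k 1 z
  rw [zpow_one] at h2
  rw [← h, h2]
  simp

theorem nice (hF : BiNice p k F) : Nice F where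
  holo := hF.holo
  per := biExp_periodic_of_vadd hF.vadd_one
  bdd := hF.bdd

theorem add (hF : BiNice p k F) (hG : BiNice p k G) : BiNice p k (F + G) where
  holo := hF.holo.add hG.holo
  inv := fun γ hγ => by rw [SlashAction.add_slash, hF.inv γ hγ, hG.inv γ hγ]
  bdd := hF.bdd.add hG.bdd
  bddS := by rw [SlashAction.add_slash]; exact hF.bddS.add hG.bddS

theorem mul (hF : BiNice p k F) (hG : BiNice p k' G) : BiNice p (k + k') (F * G) where
  holo := hF.holo.mul hG.holo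
  inv := fun γ hγ => by rw [mul_slash_SL2, hF.inv γ hγ, hG.inv γ hγ]
  bdd := hF.bdd.mul hG.bdd
  bddS := by rw [mul_slash_SL2]; exact hF.bddS.mul hG.bddS

theorem smul (c : ℂ) (hF : BiNice p k F) : BiNice p k (c • F) where
  holo := hF.holo.const_smul c
  inv := fun γ hγ => by rw [SL_smul_slash, hF.inv γ hγ]
  bdd := hF.bdd.const_smul_left c
  bddS := by rw [SL_smul_slash]; exact hF.bddS.const_smul_left c

theorem neg (hF : BiNice p k F) : BiNice p k (-F) := by
  have h : -F = (-1 : ℂ) • F := by ext z; simp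
  rw [h]
  exact hF.smul _

theorem sub (hF : BiNice p k F) (hG : BiNice p k G) : BiNice p k (F - G) := by
  rw [sub_eq_add_neg]
  exact hF.add hG.neg


theorem const (p : ℕ) (c : ℂ) : BiNice p 0 (fun _ : ℍ => c) where
  holo := fun _ => mdifferentiableAt_const
  inv := fun γ _ => ModularForm.is_invariant_const γ c
  bdd := Filter.const_boundedAtFilter _ c
  bddS := by
    rw [show (fun _ : ℍ => c) ∣[(0 : ℤ)] S = fun _ : ℍ => c from ModularForm.is_invariant_const S c]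
    exact Filter.const_boundedAtFilter _ c

theorem congr_weight (hF : BiNice p k F) (h : k = k') : BiNice p k' F := h ▸ hF

theorem pow (hF : BiNice p k F) (n : ℕ) : BiNice p (n * k) (F ^ n) := by
  induction n with
  | zero =>
    have h := const p 1
    have e : (fun _ : ℍ => (1 : ℂ)) = F ^ 0 := by ext z; simp
    rw [e] at h
    exact h.congr_weight (by simp)
  | succ n ih =>
    rw [pow_succ]
    exact (ih.mul hF).congr_weight (by push_cast; ring)

end BiNice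

/-! ### The companion -/

/-- the companion `τ ↦ (F ∣[k] S)(p τ)`; the conjugates of `F` are `τ ↦ biExpComp p k F ((τ + j) / p)` -/
def biExpComp (p : ℕ) (k : ℤ) (F : ℍ → ℂ) : ℍ → ℂ :=
  fun τ => (F ∣[k] S) (heckeDiagMatrix p • τ)

theorem biExpComp_apply (p : ℕ) (k : ℤ) (F : ℍ → ℂ) (τ : ℍ) :
    biExpComp p k F τ = (F ∣[k] S) (heckeDiagMatrix p • τ) := rfl

theorem biExpComp_add (p : ℕ) (k : ℤ) (F G : ℍ → ℂ) :
    biExpComp p k (F + G) = biExpComp p k F + biExpComp p k G := by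
  ext τ
  simp only [biExpComp_apply, SlashAction.add_slash, Pi.add_apply]

theorem biExpComp_mul (p : ℕ) (k k' : ℤ) (F G : ℍ → ℂ) :
    biExpComp p (k + k') (F * G) = biExpComp p k F * biExpComp p k' G := by
  ext τ
  simp only [biExpComp_apply, mul_slash_SL2, Pi.mul_apply]

theorem biExpComp_smul (p : ℕ) (k : ℤ) (c : ℂ) (F : ℍ → ℂ) :
    biExpComp p k (c • F) = c • biExpComp p k F := by
  ext τ
  simp only [biExpComp_apply, SL_smul_slash, Pi.smul_apply]

theorem biExpComp_neg (p : ℕ) (k : ℤ) (F : ℍ → ℂ) :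
    biExpComp p k (-F) = -biExpComp p k F := by
  have h : -F = (-1 : ℂ) • F := by ext z; simp
  rw [h, biExpComp_smul]
  ext z; simp

theorem biExpComp_sub (p : ℕ) (k : ℤ) (F G : ℍ → ℂ) :
    biExpComp p k (F - G) = biExpComp p k F - biExpComp p k G := by
  rw [sub_eq_add_neg, biExpComp_add, biExpComp_neg, sub_eq_add_neg]

theorem biExpComp_const (p : ℕ) (c : ℂ) :
    biExpComp p 0 (fun _ : ℍ => c) = fun _ : ℍ => c := by
  ext τ
  rw [biExpComp_apply,
    show (fun _ : ℍ => c) ∣[(0 : ℤ)] S = fun _ : ℍ => c from ModularForm.is_invariant_const S c]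

theorem biExpComp_eq_slash {p : ℕ} (hp : p ≠ 0) (k : ℤ) (F : ℍ → ℂ) :
    biExpComp p k F = ((p : ℂ) ^ (1 - k)) • (F ∣[k] (mapGL ℝ S * heckeDiagMatrix p)) := by
  have hp' : (p : ℂ) ≠ 0 := by exact_mod_cast hp
  ext τ
  rw [Pi.smul_apply, SlashAction.slash_mul, slash_heckeDiagMatrix_apply k hp, smul_eq_mul,
    ← mul_assoc, ← zpow_add₀ hp', show 1 - k + (k - 1) = 0 by ring, zpow_zero, one_mul]
  rfl

/-- conjugation of `Γ₀(p)` by the Fricke matrix -/
theorem biExp_fricke_conj {p : ℕ} (hp : p ≠ 0) (γ : SL(2, ℤ)) (hγ : γ ∈ Gamma0 p) :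
    ∃ γ' ∈ Gamma0 p, (mapGL ℝ S * heckeDiagMatrix p) * mapGL ℝ γ =
      mapGL ℝ γ' * (mapGL ℝ S * heckeDiagMatrix p) := by
  have hdet : γ 0 0 * γ 1 1 - γ 0 1 * γ 1 0 = 1 := by
    have := γ.det_coe
    rwa [Matrix.det_fin_two] at this
  obtain ⟨e, he⟩ : (p : ℤ) ∣ γ 1 0 :=
    (ZMod.intCast_zmod_eq_zero_iff_dvd _ _).mp (Gamma0_mem.mp hγ)
  obtain ⟨γ', h00, h01, h10, h11⟩ : ∃ γ' : SL(2, ℤ), γ' 0 0 = γ 1 1 ∧ γ' 0 1 = -e ∧
      γ' 1 0 = -(p * γ 0 1) ∧ γ' 1 1 = γ 0 0 :=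
    ⟨⟨!![γ 1 1, -e; -(p * γ 0 1), γ 0 0], by
      rw [Matrix.det_fin_two_of]; linear_combination hdet + (γ 0 1) * he⟩, rfl, rfl, rfl, rfl⟩
  refine ⟨γ', ?_, ?_⟩
  · rw [Gamma0_mem, h10]
    simp
  · have he' : ((γ 1 0 : ℤ) : ℝ) = (p : ℝ) * (e : ℝ) := by exact_mod_cast he
    ext i j
    fin_cases i <;> fin_cases j <;>
      simp [hp, Matrix.mul_apply, Fin.sum_univ_two, coe_S, h00, h01, h10, h11]
    all_goals first
      | linear_combination he'
      | linear_combination -he'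
      | ring1

namespace BiNice

variable {p : ℕ} {k k' : ℤ} {F G : ℍ → ℂ}

theorem comp_inv (hp : p ≠ 0) (hF : BiNice p k F) (γ : SL(2, ℤ)) (hγ : γ ∈ Gamma0 p) :
    biExpComp p k F ∣[k] γ = biExpComp p k F := by
  obtain ⟨γ', hγ', h⟩ := biExp_fricke_conj hp γ hγ
  rw [biExpComp_eq_slash hp, SL_smul_slash]
  congr 1
  show (F ∣[k] (mapGL ℝ S * heckeDiagMatrix p)) ∣[k] (mapGL ℝ γ) = _
  rw [← SlashAction.slash_mul, h, SlashAction.slash_mul]
  congr 1
  exact hF.inv γ' hγ'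


theorem comp_holo (hp : p ≠ 0) (hF : BiNice p k F) : MDiff (biExpComp p k F) := by
  rw [biExpComp_eq_slash hp]
  exact (hF.holo.slash k _).const_smul _

theorem comp_bdd (hp : p ≠ 0) (hF : BiNice p k F) : IsBoundedAtImInfty (biExpComp p k F) :=
  hF.bddS.comp_tendsto (biExp_tendsto_diag p hp)

end BiNice

theorem biExp_coe_S_smul (z : ℍ) : ((S • z : ℍ) : ℂ) = (-(z : ℂ))⁻¹ := by
  rw [modular_S_smul]

/-- `S (p (S z)) = z / p` -/
theorem biExp_S_diag_S {p : ℕ} (hp : p ≠ 0) (z : ℍ) :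
    S • (heckeDiagMatrix p • (S • z)) = heckeMatrix p 0 • z := by
  have hp' : (p : ℂ) ≠ 0 := by exact_mod_cast hp
  apply UpperHalfPlane.ext
  rw [biExp_coe_S_smul, coe_heckeMatrix_smul hp, coe_heckeDiagMatrix_smul hp, biExp_coe_S_smul]
  have hz : (z : ℂ) ≠ 0 := z.ne_zero
  simp only [Nat.cast_zero, add_zero]
  field_simp

/-- `(z / p) * p = z` -/
theorem biExp_diag_heckeMatrix {p : ℕ} (hp : p ≠ 0) (j : ℕ) (z : ℍ) :
    heckeDiagMatrix p • (heckeMatrix p j • z) = ((j : ℤ) : ℝ) +ᵥ z := by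
  have hp' : (p : ℂ) ≠ 0 := by exact_mod_cast hp
  apply UpperHalfPlane.ext
  rw [coe_heckeDiagMatrix_smul hp, coe_heckeMatrix_smul hp, UpperHalfPlane.coe_vadd]
  push_cast
  field_simp
  ring

theorem biExp_heckeMatrix_diag {p : ℕ} (hp : p ≠ 0) (z : ℍ) :
    heckeMatrix p 0 • (heckeDiagMatrix p • z) = z := by
  have hp' : (p : ℂ) ≠ 0 := by exact_mod_cast hp
  apply UpperHalfPlane.ext
  rw [coe_heckeMatrix_smul hp, coe_heckeDiagMatrix_smul hp]
  simp only [Nat.cast_zero, add_zero]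
  field_simp

/-- the companion slashed by `S` -/
theorem biExpComp_slash_S {p : ℕ} (hp : p ≠ 0) (k : ℤ) (F : ℍ → ℂ) (z : ℍ) :
    (biExpComp p k F ∣[k] S) z = (-1) ^ k * (p : ℂ) ^ (-k) * F (heckeMatrix p 0 • z) := by
  have hp' : (p : ℂ) ≠ 0 := by exact_mod_cast hp
  have hz : (z : ℂ) ≠ 0 := z.ne_zero
  rw [biExp_slash_S, biExpComp_apply, biExp_slash_S, biExp_S_diag_S hp, coe_heckeDiagMatrix_smul hp,
    biExp_coe_S_smul]
  rw [mul_assoc, ← mul_zpow]
  have h1 : (p : ℂ) * (-(z : ℂ))⁻¹ * (z : ℂ) = (-1) * (p : ℂ) := by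
    field_simp
  rw [h1, mul_zpow, mul_comm]
  congr 2
  rw [zpow_neg, ← inv_zpow]
  norm_num

theorem biExpComp_comp {p : ℕ} (hp : p ≠ 0) (k : ℤ) (F : ℍ → ℂ) :
    biExpComp p k (biExpComp p k F) = ((-1) ^ k * (p : ℂ) ^ (-k)) • F := by
  ext τ
  rw [biExpComp_apply, biExpComp_slash_S hp, biExp_heckeMatrix_diag hp]
  rfl

namespace BiNice

variable {p : ℕ} {k k' : ℤ} {F G : ℍ → ℂ}

theorem comp_bddS (hp : p ≠ 0) (hF : BiNice p k F) :
    IsBoundedAtImInfty (biExpComp p k F ∣[k] S) := by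
  have h : biExpComp p k F ∣[k] S =
      ((-1) ^ k * (p : ℂ) ^ (-k)) • fun z : ℍ => F (heckeMatrix p 0 • z) := by
    ext z
    rw [biExpComp_slash_S hp]
    rfl
  rw [h]
  exact (hF.bdd.comp_tendsto (biExp_tendsto_heckeMatrix p hp 0)).const_smul_left _

theorem comp (hp : p ≠ 0) (hF : BiNice p k F) : BiNice p k (biExpComp p k F) where
  holo := hF.comp_holo hp
  inv := hF.comp_inv hp
  bdd := hF.comp_bdd hp
  bddS := hF.comp_bddS hp

end BiNice

/-! ### The conjugates `F ∣[k] (S * T ^ j)` -/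

theorem biExp_slash_ST (F : ℍ → ℂ) (k : ℤ) (j : ℤ) (z : ℍ) :
    (F ∣[k] (S * T ^ j)) z = (F ∣[k] S) ((j : ℝ) +ᵥ z) := by
  rw [SlashAction.slash_mul, biExp_slash_T_zpow]

theorem biExp_slash_ST_eq_comp {p : ℕ} (hp : p ≠ 0) (F : ℍ → ℂ) (k : ℤ) (j : ℕ) (z : ℍ) :
    (F ∣[k] (S * T ^ (j : ℤ))) z = biExpComp p k F (heckeMatrix p j • z) := by
  rw [biExp_slash_ST, biExpComp_apply, biExp_diag_heckeMatrix hp]

/-! ### Coset representatives of `Γ₀(p)` in `SL(2, ℤ)` -/

/-- representatives: `none ↦ 1`, `some j ↦ (S * T ^ j)⁻¹` -/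
def biExpRep (p : ℕ) : Option (Fin p) → SL(2, ℤ)
  | none => 1
  | some j => (S * T ^ ((j : ℕ) : ℤ))⁻¹

theorem biExp_rep_00 (j : ℤ) : ((S * T ^ j)⁻¹ : SL(2, ℤ)) 0 0 = j := by
  simp [coe_S, coe_T_zpow, Matrix.adjugate_fin_two, Matrix.mul_apply, Fin.sum_univ_two]

theorem biExp_rep_10 (j : ℤ) : ((S * T ^ j)⁻¹ : SL(2, ℤ)) 1 0 = -1 := by
  simp [coe_S, coe_T_zpow, Matrix.adjugate_fin_two, Matrix.mul_apply, Fin.sum_univ_two]

theorem biExp_rep_injective (p : ℕ) [Fact p.Prime] :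
    Function.Injective fun o : Option (Fin p) =>
      (QuotientGroup.mk (biExpRep p o) : SL(2, ℤ) ⧸ Gamma0 p) := by
  have hp : p.Prime := Fact.out
  intro a b hab
  simp only at hab
  rw [Fermat.Agent.S24.mk_eq_mk_iff] at hab
  cases a with
  | none =>
    cases b with
    | none => rfl
    | some j =>
      exfalso
      simp only [biExpRep, biExp_rep_00, biExp_rep_10] at hab
      simp at hab
      exact hp.one_lt.ne' (by exact_mod_cast Int.natCast_dvd_natCast.mp (by simpa using hab) |> Nat.eq_one_of_dvd_one)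
  | some i =>
    cases b with
    | none =>
      exfalso
      simp only [biExpRep, biExp_rep_00, biExp_rep_10] at hab
      simp at hab
      exact hp.one_lt.ne' (by exact_mod_cast Int.natCast_dvd_natCast.mp (by simpa using hab) |> Nat.eq_one_of_dvd_one)
    | some j =>
      simp only [biExpRep, biExp_rep_00, biExp_rep_10] at hab
      have h1 : (p : ℤ) ∣ (j : ℤ) - (i : ℤ) := by
        have : ((i : ℕ) : ℤ) * -1 - -1 * ((j : ℕ) : ℤ) = (j : ℤ) - (i : ℤ) := by ring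
        rwa [this] at hab
      have h2 : ((i : ℕ) : ℤ) ≡ ((j : ℕ) : ℤ) [ZMOD (p : ℤ)] := by
        exact (Int.modEq_iff_dvd.mpr h1)
      have h3 : (i : ℕ) ≡ (j : ℕ) [MOD p] := Int.natCast_modEq_iff.mp h2
      have h4 : (i : ℕ) = (j : ℕ) := Nat.ModEq.eq_of_lt_of_lt h3 i.2 j.2
      exact congrArg some (Fin.ext h4)

theorem biExp_rep_surjective (p : ℕ) [Fact p.Prime] :
    Function.Surjective fun o : Option (Fin p) =>
      (QuotientGroup.mk (biExpRep p o) : SL(2, ℤ) ⧸ Gamma0 p) := by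
  have hp : p.Prime := Fact.out
  intro q
  induction q using QuotientGroup.induction_on with
  | H g =>
    by_cases hc : (p : ℤ) ∣ g 1 0
    · refine ⟨none, ?_⟩
      simp only [biExpRep]
      rw [Fermat.Agent.S24.mk_eq_mk_iff]
      simpa using hc
    · -- choose `j` with `j * c + a ≡ 0`
      have hc' : ((g 1 0 : ℤ) : ZMod p) ≠ 0 := by
        rwa [Ne, ZMod.intCast_zmod_eq_zero_iff_dvd]
      set x : ZMod p := -((g 0 0 : ℤ) : ZMod p) * ((g 1 0 : ℤ) : ZMod p)⁻¹ with hx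
      have : NeZero p := ⟨hp.ne_zero⟩
      refine ⟨some ⟨x.val, x.val_lt⟩, ?_⟩
      simp only [biExpRep]
      rw [Fermat.Agent.S24.mk_eq_mk_iff, biExp_rep_00, biExp_rep_10,
        ← ZMod.intCast_zmod_eq_zero_iff_dvd]
      push_cast
      rw [ZMod.natCast_zmod_val, hx]
      field_simp
      ring

theorem biExp_rep_bijective (p : ℕ) [Fact p.Prime] :
    Function.Bijective fun o : Option (Fin p) =>
      (QuotientGroup.mk (biExpRep p o) : SL(2, ℤ) ⧸ Gamma0 p) :=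
  ⟨biExp_rep_injective p, biExp_rep_surjective p⟩

instance biExp_finite_quot (p : ℕ) [Fact p.Prime] : Finite (SL(2, ℤ) ⧸ Gamma0 p) :=
  Finite.of_surjective _ (biExp_rep_surjective p)

/-- a sum over the cosets of `Γ₀(p)` -/
theorem biExp_sum_quot (p : ℕ) [Fact p.Prime] {M : Type*} [AddCommMonoid M]
    [Fintype (SL(2, ℤ) ⧸ Gamma0 p)] (φ : SL(2, ℤ) ⧸ Gamma0 p → M) :
    ∑ q, φ q = φ (QuotientGroup.mk 1) +
      ∑ j ∈ Finset.range p, φ (QuotientGroup.mk (S * T ^ (j : ℤ))⁻¹) := by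
  rw [← Fintype.sum_bijective _ (biExp_rep_bijective p) (fun o => φ (QuotientGroup.mk (biExpRep p o)))
    φ (fun _ => rfl), Fintype.sum_option]
  congr 1
  exact Fin.sum_univ_eq_sum_range (fun j => φ (QuotientGroup.mk (S * T ^ (j : ℤ))⁻¹)) p

/-- a product over the cosets of `Γ₀(p)` -/
theorem biExp_prod_quot (p : ℕ) [Fact p.Prime] {M : Type*} [CommMonoid M]
    [Fintype (SL(2, ℤ) ⧸ Gamma0 p)] (φ : SL(2, ℤ) ⧸ Gamma0 p → M) :
    ∏ q, φ q = φ (QuotientGroup.mk 1) *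
      ∏ j ∈ Finset.range p, φ (QuotientGroup.mk (S * T ^ (j : ℤ))⁻¹) := by
  rw [← Fintype.prod_bijective _ (biExp_rep_bijective p) (fun o => φ (QuotientGroup.mk (biExpRep p o)))
    φ (fun _ => rfl), Fintype.prod_option]
  congr 1
  exact Fin.prod_univ_eq_prod_range (fun j => φ (QuotientGroup.mk (S * T ^ (j : ℤ))⁻¹)) p

/-- every element of `SL(2, ℤ)` is in `Γ₀(p)` or in some `Γ₀(p) S T^j` -/
theorem biExp_exists_rep (p : ℕ) [Fact p.Prime] (γ : SL(2, ℤ)) :
    γ ∈ Gamma0 p ∨ ∃ j : ℕ, j < p ∧ ∃ g ∈ Gamma0 p, γ = g * (S * T ^ (j : ℤ)) := by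
  obtain ⟨o, ho⟩ := biExp_rep_surjective p (QuotientGroup.mk γ⁻¹)
  simp only at ho
  rw [QuotientGroup.eq] at ho
  cases o with
  | none =>
    left
    simp only [biExpRep, inv_one, one_mul] at ho
    exact inv_mem_iff.mp ho
  | some j =>
    right
    simp only [biExpRep, inv_inv] at ho
    refine ⟨j, j.2, (S * T ^ ((j : ℕ) : ℤ) * γ⁻¹)⁻¹, inv_mem ho, ?_⟩
    group

/-! ### The trace to level one -/

/-- the trace `F + ∑_j F ∣[k] (S T^j)` -/
def biExpTrace (p : ℕ) (k : ℤ) (F : ℍ → ℂ) : ℍ → ℂ :=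
  F + ∑ j ∈ Finset.range p, F ∣[k] (S * T ^ (j : ℤ))

theorem biExpTrace_eq_sum (p : ℕ) [Fact p.Prime] {k : ℤ} {F : ℍ → ℂ}
    (hF : ∀ γ ∈ Gamma0 p, F ∣[k] γ = F) [Fintype (SL(2, ℤ) ⧸ Gamma0 p)] :
    biExpTrace p k F = ∑ q : SL(2, ℤ) ⧸ Gamma0 p, SymAux.conjFun (Gamma0 p) F k q := by
  rw [biExp_sum_quot, SymAux.conjFun_one hF, biExpTrace]
  congr 1
  refine Finset.sum_congr rfl fun j _ => ?_
  rw [SymAux.conjFun_mk hF, inv_inv]

theorem biExpTrace_slash (p : ℕ) [Fact p.Prime] {k : ℤ} {F : ℍ → ℂ}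
    (hF : ∀ γ ∈ Gamma0 p, F ∣[k] γ = F) (γ : SL(2, ℤ)) :
    biExpTrace p k F ∣[k] γ = biExpTrace p k F := by
  classical
  let _ : Fintype (SL(2, ℤ) ⧸ Gamma0 p) := Fintype.ofFinite _
  rw [biExpTrace_eq_sum p hF, SlashAction.sum_slash]
  rw [Finset.sum_congr rfl fun q _ => SymAux.conjFun_slash hF γ q]
  exact Equiv.sum_comp (MulAction.toPerm γ⁻¹) (fun q => SymAux.conjFun (Gamma0 p) F k q)

theorem biExpTrace_eq_heckeU {p : ℕ} (hp : p ≠ 0) (k : ℤ) (F : ℍ → ℂ) :
    biExpTrace p k F = F + (p : ℂ) • heckeU k p (biExpComp p k F) := by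
  have hp' : (p : ℂ) ≠ 0 := by exact_mod_cast hp
  ext z
  simp only [biExpTrace, Pi.add_apply, Finset.sum_apply, Pi.smul_apply, smul_eq_mul]
  rw [heckeU_apply k hp, ← mul_assoc, mul_inv_cancel₀ hp', one_mul]
  congr 1
  exact Finset.sum_congr rfl fun j _ => biExp_slash_ST_eq_comp hp F k j z

/-! ### `U_p` on power series and on nice functions -/

/-- `U_p` on power series: `a_n ↦ a_{p n}` -/
def biExpU (p : ℕ) (a : PowerSeries ℂ) : PowerSeries ℂ :=
  PowerSeries.mk fun n => a.coeff (p * n)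

@[simp] theorem coeff_biExpU (p : ℕ) (a : PowerSeries ℂ) (n : ℕ) :
    (biExpU p a).coeff n = a.coeff (p * n) := by
  simp [biExpU]

theorem biExpU_add (p : ℕ) (a b : PowerSeries ℂ) : biExpU p (a + b) = biExpU p a + biExpU p b := by
  ext n; simp

theorem biExpU_smul (p : ℕ) (c : ℂ) (a : PowerSeries ℂ) : biExpU p (c • a) = c • biExpU p a := by
  ext n; simp

theorem biExp_nice_heckeU {f : ℍ → ℂ} (hf : Nice f) (k : ℤ) (p : ℕ) : Nice (heckeU k p f) where
  holo := mdifferentiable_heckeU hf.holo k p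
  per := periodic_heckeU_comp_ofComplex hf.per k p
  bdd := isBoundedAtImInfty_heckeU hf.bdd k p

theorem biExp_qExpansion_heckeU {f : ℍ → ℂ} (hf : Nice f) (k : ℤ) {p : ℕ} (hp : p ≠ 0) :
    qExpansion 1 (heckeU k p f) = biExpU p (qExpansion 1 f) := by
  ext n
  have h := UpperHalfPlane.qCoeff_heckeU hf.per hf.holo hf.bdd k hp n
  rw [coeffHeckeU_apply] at h
  rw [coeff_biExpU, mul_comm]
  exact h

namespace BiNice

variable {p : ℕ} {k k' : ℤ} {F G : ℍ → ℂ}

theorem comp_nice (hp : p ≠ 0) (hF : BiNice p k F) : Nice (biExpComp p k F) :=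
  (hF.comp hp).nice

/-- the trace to level one, as a modular form -/
theorem exists_trace [Fact p.Prime] (hF : BiNice p k F) :
    ∃ T : ModularForm 𝒮ℒ k, (⇑T : ℍ → ℂ) = F + (p : ℂ) • heckeU k p (biExpComp p k F) := by
  have hp : p ≠ 0 := (Fact.out : p.Prime).ne_zero
  have hn := (biExp_nice_heckeU (hF.comp_nice hp) k p).smul (p : ℂ)
  have e := biExpTrace_eq_heckeU hp k F
  refine ⟨SymAux.mkLevelOne k (biExpTrace p k F) (biExpTrace_slash p hF.inv) ?_ ?_, e⟩
  · rw [e]; exact hF.holo.add hn.holo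
  · rw [e]; exact hF.bdd.add hn.bdd

/-- the `q`-expansion of the trace -/
theorem exists_trace_qExpansion [Fact p.Prime] (hF : BiNice p k F) :
    ∃ T : ModularForm 𝒮ℒ k, qExpansion 1 T =
      qExpansion 1 F + (p : ℂ) • biExpU p (qExpansion 1 (biExpComp p k F)) := by
  have hp : p ≠ 0 := (Fact.out : p.Prime).ne_zero
  obtain ⟨T, hT⟩ := hF.exists_trace
  refine ⟨T, ?_⟩
  have hn := biExp_nice_heckeU (hF.comp_nice hp) k p
  rw [hT, hF.nice.qExpansion_add (hn.smul _), hn.qExpansion_smul,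
    biExp_qExpansion_heckeU (hF.comp_nice hp) k hp]

/-- the trace of a weight two form vanishes -/
theorem trace_two [Fact p.Prime] (hF : BiNice p 2 F) :
    F + (p : ℂ) • heckeU 2 p (biExpComp p 2 F) = 0 := by
  obtain ⟨T, hT⟩ := hF.exists_trace
  have h0 : T = 0 := rank_zero_iff_forall_zero.mp levelOne_weight_two_rank_zero T
  rw [← hT, h0]
  rfl

/-- the companion of a weight two form is `-p⁻¹ U_p F` -/
theorem comp_two [Fact p.Prime] (hF : BiNice p 2 F) :
    biExpComp p 2 F = (-(p : ℂ)⁻¹) • heckeU 2 p F := by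
  have hp : p ≠ 0 := (Fact.out : p.Prime).ne_zero
  have hp' : (p : ℂ) ≠ 0 := by exact_mod_cast hp
  have h := (hF.comp hp).trace_two
  rw [biExpComp_comp hp, heckeU_smul] at h
  have h2 : biExpComp p 2 F = -((p : ℂ) • (((-1) ^ (2 : ℤ) * (p : ℂ) ^ (-(2 : ℤ))) • heckeU 2 p F)) :=
    eq_neg_of_add_eq_zero_left h
  rw [h2]
  ext z
  simp only [Pi.neg_apply, Pi.smul_apply, smul_eq_mul]
  rw [zpow_neg, zpow_ofNat]
  field_simp

/-- `U_p² = 1` in weight two -/
theorem heckeU_heckeU [Fact p.Prime] (hF : BiNice p 2 F) :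
    heckeU 2 p (heckeU 2 p F) = F := by
  have hp : p ≠ 0 := (Fact.out : p.Prime).ne_zero
  have hp' : (p : ℂ) ≠ 0 := by exact_mod_cast hp
  have h := hF.trace_two
  rw [hF.comp_two, heckeU_smul] at h
  have h2 : F = -((p : ℂ) • ((-(p : ℂ)⁻¹) • heckeU 2 p (heckeU 2 p F))) :=
    eq_neg_of_add_eq_zero_left h
  conv_rhs => rw [h2]
  ext z
  simp only [Pi.neg_apply, Pi.smul_apply, smul_eq_mul]
  field_simp

theorem qExpansion_comp_two [Fact p.Prime] (hF : BiNice p 2 F) :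
    qExpansion 1 (biExpComp p 2 F) = (-(p : ℂ)⁻¹) • biExpU p (qExpansion 1 F) := by
  have hp : p ≠ 0 := (Fact.out : p.Prime).ne_zero
  rw [hF.comp_two, (biExp_nice_heckeU hF.nice 2 p).qExpansion_smul,
    biExp_qExpansion_heckeU hF.nice 2 hp]

theorem biExpU_biExpU [Fact p.Prime] (hF : BiNice p 2 F) :
    biExpU p (biExpU p (qExpansion 1 F)) = qExpansion 1 F := by
  have hp : p ≠ 0 := (Fact.out : p.Prime).ne_zero
  rw [← biExp_qExpansion_heckeU hF.nice 2 hp,
    ← biExp_qExpansion_heckeU (biExp_nice_heckeU hF.nice 2 p) 2 hp, hF.heckeU_heckeU]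

end BiNice

/-! ### Modular forms are `BiNice`, and conversely -/

theorem BiNice.of_modularForm (p : ℕ) [NeZero p] {k : ℤ} (H : ModularForm (Gamma0 p) k) :
    BiNice p k H where
  holo := ModularFormClass.holo H
  inv := fun γ hγ => SlashInvariantFormClass.slash_action_eq H _ (Subgroup.mem_map_of_mem _ hγ)
  bdd := by
    have h := ModularFormClass.bdd_at_infty_slash H (1 : SL(2, ℤ))
    rwa [SlashAction.slash_one] at h
  bddS := ModularFormClass.bdd_at_infty_slash H S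

theorem BiNice.of_levelOne (p : ℕ) {k : ℤ} (Φ : ModularForm 𝒮ℒ k) : BiNice p k Φ where
  holo := ModularFormClass.holo Φ
  inv := fun γ _ => Φ.slash_action_eq' _ ⟨γ, rfl⟩
  bdd := by
    have h := ModularFormClass.bdd_at_infty_slash Φ (1 : SL(2, ℤ))
    rwa [SlashAction.slash_one] at h
  bddS := ModularFormClass.bdd_at_infty_slash Φ S

/-- real translations preserve `atImInfty` -/
theorem biExp_tendsto_vadd (t : ℝ) :
    Filter.Tendsto (fun w : ℍ => t +ᵥ w) atImInfty atImInfty := by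
  rw [atImInfty, Filter.tendsto_comap_iff]
  have : (UpperHalfPlane.im ∘ fun w : ℍ => t +ᵥ w) = UpperHalfPlane.im := by
    funext w
    simp [UpperHalfPlane.vadd_im]
  rw [this]
  exact Filter.tendsto_comap

namespace BiNice

variable {p : ℕ} {k k' : ℤ} {F G : ℍ → ℂ}

/-- a `BiNice` function is bounded at all cusps -/
theorem bdd_slash [Fact p.Prime] (hF : BiNice p k F) (γ : SL(2, ℤ)) :
    IsBoundedAtImInfty (F ∣[k] γ) := by
  rcases biExp_exists_rep p γ with h | ⟨j, -, g, hg, rfl⟩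
  · rw [hF.inv γ h]; exact hF.bdd
  · rw [SlashAction.slash_mul, hF.inv g hg]
    have e : F ∣[k] (S * T ^ (j : ℤ)) = fun z : ℍ => (F ∣[k] S) (((j : ℤ) : ℝ) +ᵥ z) := by
      ext z; exact biExp_slash_ST F k j z
    rw [e]
    exact hF.bddS.comp_tendsto (biExp_tendsto_vadd _)

/-- a `BiNice` function as a modular form -/
def toModularForm [Fact p.Prime] (hF : BiNice p k F) : ModularForm (Gamma0 p) k where
  toFun := F
  slash_action_eq' := by
    rintro _ ⟨γ, hγ, rfl⟩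
    exact hF.inv γ hγ
  holo' := hF.holo
  bdd_at_cusps' := fun {c} hc => by
    have hc' : IsCusp c (mapGL ℝ).range := hc.mono (Subgroup.map_le_range _ _)
    rw [OnePoint.isBoundedAt_iff_forall_SL2Z hc']
    intro γ _
    exact hF.bdd_slash γ

@[simp] theorem coe_toModularForm [Fact p.Prime] (hF : BiNice p k F) :
    (⇑hF.toModularForm : ℍ → ℂ) = F := rfl

end BiNice

/-! ### `V_p` -/

theorem biExp_V_eq {p : ℕ} (hp : p ≠ 0) (f : ℍ → ℂ) :
    (fun τ : ℍ => f (heckeDiagMatrix p • τ)) = heckeT 1 p f - heckeU 1 p f := by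
  ext τ
  rw [Pi.sub_apply, heckeT_eq_heckeU_add, Pi.add_apply, add_sub_cancel_left,
    slash_heckeDiagMatrix_apply 1 hp]
  simp

theorem biExp_nice_heckeT {f : ℍ → ℂ} (hf : Nice f) (k : ℤ) (p : ℕ) : Nice (heckeT k p f) where
  holo := mdifferentiable_heckeT hf.holo k p
  per := periodic_heckeT_comp_ofComplex hf.per k p
  bdd := isBoundedAtImInfty_heckeT hf.bdd k p

theorem biExp_nice_V {p : ℕ} (hp : p ≠ 0) {f : ℍ → ℂ} (hf : Nice f) :
    Nice (fun τ : ℍ => f (heckeDiagMatrix p • τ)) := by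
  rw [biExp_V_eq hp]
  exact (biExp_nice_heckeT hf 1 p).sub (biExp_nice_heckeU hf 1 p)

/-- the `q`-expansion of `τ ↦ f (p τ)` -/
theorem biExp_qExpansion_V {p : ℕ} (hp : p ≠ 0) {f : ℍ → ℂ} (hf : Nice f) :
    qExpansion 1 (fun τ : ℍ => f (heckeDiagMatrix p • τ)) =
      PowerSeries.expand p hp (qExpansion 1 f) := by
  rw [biExp_V_eq hp, (biExp_nice_heckeT hf 1 p).qExpansion_sub (biExp_nice_heckeU hf 1 p)]
  ext n
  have h1 := UpperHalfPlane.qCoeff_heckeT hf.per hf.holo hf.bdd 1 hp n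
  have h2 := UpperHalfPlane.qCoeff_heckeU hf.per hf.holo hf.bdd 1 hp n
  rw [coeffHeckeT_apply] at h1
  rw [coeffHeckeU_apply] at h2
  rw [map_sub, PowerSeries.coeff_expand]
  change ModularFormClass.qCoeff (heckeT 1 p f) n - ModularFormClass.qCoeff (heckeU 1 p f) n = _
  rw [h1, h2]
  simp [ModularFormClass.qCoeff]

/-- the companion of a level one form `Φ` is `Φ(p ·)` -/
theorem biExpComp_levelOne (p : ℕ) {k : ℤ} (Φ : ModularForm 𝒮ℒ k) :
    biExpComp p k Φ = fun τ : ℍ => Φ (heckeDiagMatrix p • τ) := by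
  ext τ
  have h : (⇑Φ : ℍ → ℂ) ∣[k] S = ⇑Φ := Φ.slash_action_eq' _ ⟨S, rfl⟩
  rw [biExpComp_apply, h]

theorem biExp_qExpansion_comp_levelOne {p : ℕ} (hp : p ≠ 0) {k : ℤ} (Φ : ModularForm 𝒮ℒ k) :
    qExpansion 1 (biExpComp p k Φ) = PowerSeries.expand p hp (qExpansion 1 Φ) := by
  rw [biExpComp_levelOne]
  exact biExp_qExpansion_V hp (BiNice.of_levelOne 1 Φ).nice

/-- characterisation of the companion used by other packages -/
theorem biExpComp_spec {p : ℕ} (hp : p ≠ 0) (k : ℤ) (F : ℍ → ℂ) (t t' : ℍ)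
    (h : (t' : ℂ) = (p : ℂ) * (t : ℂ)) : biExpComp p k F t = (F ∣[k] S) t' := by
  have e : heckeDiagMatrix p • t = t' := by
    apply UpperHalfPlane.ext
    rw [coe_heckeDiagMatrix_smul hp, h]
  rw [biExpComp_apply, e]

/-! ### Trace identities in `q`-expansion form -/

/-- **Trace of `Φ(p ·)`**: for a level one form `Φ` of even weight `k` there is a level one form
of weight `k` with `q`-expansion `V_p φ + p^(1-k) U_p φ`. -/
theorem biExp_trace_V (p : ℕ) [Fact p.Prime] {k : ℤ} (hk : Even k) (Φ : ModularForm 𝒮ℒ k) :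
    ∃ T : ModularForm 𝒮ℒ k, qExpansion 1 T =
      PowerSeries.expand p (Fact.out : p.Prime).ne_zero (qExpansion 1 Φ)
        + ((p : ℂ) ^ (1 - k)) • biExpU p (qExpansion 1 Φ) := by
  have hp : p ≠ 0 := (Fact.out : p.Prime).ne_zero
  have hp' : (p : ℂ) ≠ 0 := by exact_mod_cast hp
  have hΦ := BiNice.of_levelOne p Φ
  obtain ⟨T, hT⟩ := (hΦ.comp hp).exists_trace_qExpansion
  refine ⟨T, ?_⟩
  rw [hT, biExp_qExpansion_comp_levelOne hp, biExpComp_comp hp, hΦ.nice.qExpansion_smul,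
    biExpU_smul, smul_smul, hk.neg_one_zpow, one_mul]
  congr 2
  rw [sub_eq_add_neg, zpow_add₀ hp', zpow_one]

/-- **Trace of `G · Φ(p ·)`**: for `G` of weight two on `Γ₀(p)` and a level one form `Φ` of even
weight `k` there is a level one form of weight `k + 2` with `q`-expansion
`g · V_p φ - p^(-k) U_p (U_p g · φ)`. -/
theorem biExp_trace_mul (p : ℕ) [Fact p.Prime] (G : ModularForm (Gamma0 p) 2) {k : ℤ}
    (hk : Even k) (Φ : ModularForm 𝒮ℒ k) :
    ∃ T : ModularForm 𝒮ℒ (k + 2), qExpansion 1 T =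
      qExpansion 1 G * PowerSeries.expand p (Fact.out : p.Prime).ne_zero (qExpansion 1 Φ)
        - ((p : ℂ) ^ (-k)) • biExpU p (biExpU p (qExpansion 1 G) * qExpansion 1 Φ) := by
  have hp : p ≠ 0 := (Fact.out : p.Prime).ne_zero
  have hp' : (p : ℂ) ≠ 0 := by exact_mod_cast hp
  have : NeZero p := ⟨hp⟩
  have hG := BiNice.of_modularForm p G
  have hΦ := BiNice.of_levelOne p Φ
  have hV := hΦ.comp hp
  have hF := (hG.mul hV).congr_weight (add_comm 2 k)
  obtain ⟨T, hT⟩ := hF.exists_trace_qExpansion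
  refine ⟨T, ?_⟩
  have e1 : biExpComp p (k + 2) (⇑G * biExpComp p k ⇑Φ) =
      biExpComp p 2 ⇑G * biExpComp p k (biExpComp p k ⇑Φ) := by
    rw [add_comm k 2, biExpComp_mul]
  rw [hT, hG.nice.qExpansion_mul hV.nice, biExp_qExpansion_comp_levelOne hp, e1,
    (hG.comp_nice hp).qExpansion_mul (hV.comp_nice hp), hG.qExpansion_comp_two,
    biExpComp_comp hp, hΦ.nice.qExpansion_smul, hk.neg_one_zpow, one_mul,
    smul_mul_smul_comm, biExpU_smul, smul_smul, sub_eq_add_neg]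
  congr 1
  have e2 : (p : ℂ) * (-(p : ℂ)⁻¹ * (p : ℂ) ^ (-k)) = -((p : ℂ) ^ (-k)) := by
    field_simp
  rw [e2]
  exact neg_smul _ _

end Fermat.Agent.S16
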