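/-
S16 package FRICKE: the Fricke transform of a weight two form on `Γ₀(p)`; the trace to level one
vanishes in weight two, hence `W = -U_p H`; forms with vanishing constant term are cusp forms;
forms with vanishing higher coefficients are zero.
-/
import Mathlib
import Fermat.Agent.S16.Defs
import Fermat.Agent.S16.BiExp

set_option autoImplicit false

open UpperHalfPlane ModularForm ModularGroup CongruenceSubgroup Matrix.SpecialLinearGroup
open scoped MatrixGroups Manifold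

noncomputable section

namespace Fermat.Agent.S16

open Fermat.Agent.S23

/-- `z / p` as a point of the upper half plane -/
theorem fricke_ofComplex_div {p : ℕ} (hp : p ≠ 0) (z : ℍ) :
    ofComplex ((z : ℂ) / p) = heckeMatrix p 0 • z := by
  have h : ((heckeMatrix p 0 • z : ℍ) : ℂ) = (z : ℂ) / p := by
    rw [coe_heckeMatrix_smul hp]
    simp
  rw [← h, ofComplex_apply]

theorem fricke_ofComplex_diag {p : ℕ} (hp : p ≠ 0) (τ : ℍ) :
    ofComplex (((heckeDiagMatrix p • τ : ℍ) : ℂ) / p) = τ := by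
  rw [fricke_ofComplex_div hp, biExp_heckeMatrix_diag hp]

theorem fricke_diag_heckeMatrix_zero {p : ℕ} (hp : p ≠ 0) (z : ℍ) :
    heckeDiagMatrix p • (heckeMatrix p 0 • z) = z := by
  rw [biExp_diag_heckeMatrix hp]
  apply UpperHalfPlane.ext
  rw [UpperHalfPlane.coe_vadd]
  simp

/-- `IsFricke p H W` says `W = p • biExpComp p 2 H` -/
theorem fricke_iff {p : ℕ} (hp : p ≠ 0) (H W : ModularForm (Gamma0 p) 2) :
    IsFricke p H W ↔ (⇑W : ℍ → ℂ) = (p : ℂ) • biExpComp p 2 ⇑H := by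
  have hp' : (p : ℂ) ≠ 0 := by exact_mod_cast hp
  constructor
  · intro h
    ext τ
    have h1 := h (heckeDiagMatrix p • τ)
    rw [fricke_ofComplex_diag hp] at h1
    rw [Pi.smul_apply, biExpComp_apply, h1, smul_eq_mul, ← mul_assoc, mul_inv_cancel₀ hp', one_mul]
  · intro h z
    rw [h, Pi.smul_apply, biExpComp_apply, fricke_ofComplex_div hp, fricke_diag_heckeMatrix_zero hp,
      smul_eq_mul, ← mul_assoc, inv_mul_cancel₀ hp', one_mul]

theorem exists_isFricke (p : ℕ) [Fact p.Prime] (H : ModularForm (Gamma0 p) 2) :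
    ∃ W : ModularForm (Gamma0 p) 2, IsFricke p H W := by
  have hp : p ≠ 0 := (Fact.out : p.Prime).ne_zero
  have : NeZero p := ⟨hp⟩
  have hW := ((BiNice.of_modularForm p H).comp hp).smul (p : ℂ)
  exact ⟨hW.toModularForm, (fricke_iff hp H _).mpr rfl⟩

theorem IsFricke.symm {p : ℕ} [Fact p.Prime] {H W : ModularForm (Gamma0 p) 2}
    (h : IsFricke p H W) : IsFricke p W H := by
  have hp : p ≠ 0 := (Fact.out : p.Prime).ne_zero
  have hp' : (p : ℂ) ≠ 0 := by exact_mod_cast hp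
  rw [fricke_iff hp] at h ⊢
  rw [h, biExpComp_smul, biExpComp_comp hp]
  ext τ
  simp only [Pi.smul_apply, smul_eq_mul]
  rw [zpow_neg, zpow_ofNat]
  field_simp

/-- trace to level one vanishes in weight 2 -/
theorem IsFricke.qCoeff {p : ℕ} [Fact p.Prime] {H W : ModularForm (Gamma0 p) 2}
    (h : IsFricke p H W) (m : ℕ) :
    ModularFormClass.qCoeff (⇑W) m = - ModularFormClass.qCoeff (⇑H) (p * m) := by
  have hp : p ≠ 0 := (Fact.out : p.Prime).ne_zero
  have hp' : (p : ℂ) ≠ 0 := by exact_mod_cast hp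
  have : NeZero p := ⟨hp⟩
  have hH := BiNice.of_modularForm p H
  rw [fricke_iff hp] at h
  have hq : qExpansion 1 (⇑W : ℍ → ℂ) = -biExpU p (qExpansion 1 ⇑H) := by
    rw [h, (hH.comp_nice hp).qExpansion_smul, hH.qExpansion_comp_two, smul_smul,
      mul_neg, mul_inv_cancel₀ hp', neg_one_smul]
  show (qExpansion 1 (⇑W : ℍ → ℂ)).coeff m = -(qExpansion 1 (⇑H : ℍ → ℂ)).coeff (p * m)
  rw [hq, map_neg, coeff_biExpU]

/-- a nice function whose `q`-expansion has zero constant term vanishes at `i∞` -/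
theorem fricke_isZero_of_coeff_zero {f : ℍ → ℂ} (hf : Nice f)
    (h : (qExpansion 1 f).coeff 0 = 0) : IsZeroAtImInfty f := by
  have hanal := hf.analyticAt
  have h0 : cuspFunction 1 f 0 = 0 := by
    rw [cuspFunction_apply_zero one_pos hanal (by simpa using hf.per),
      ← qExpansion_coeff_zero one_pos hanal (by simpa using hf.per)]
    exact h
  have ht := hanal.continuousAt.tendsto.comp (qParam_tendsto_atImInfty one_pos)
  rw [h0] at ht
  exact ht.congr fun τ => eq_cuspFunction τ one_ne_zero (by simpa using hf.per)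

theorem isCusp_of_qCoeff_zero (p : ℕ) [Fact p.Prime] (H : ModularForm (Gamma0 p) 2)
    (h0 : ModularFormClass.qCoeff (⇑H) 0 = 0) : ∃ f : CuspForm (Gamma0 p) 2, (⇑f : ℍ → ℂ) = ⇑H := by
  have hp : p ≠ 0 := (Fact.out : p.Prime).ne_zero
  have hp' : (p : ℂ) ≠ 0 := by exact_mod_cast hp
  have : NeZero p := ⟨hp⟩
  have hH := BiNice.of_modularForm p H
  -- `H` vanishes at `i∞`
  have hz1 : IsZeroAtImInfty (⇑H : ℍ → ℂ) := fricke_isZero_of_coeff_zero hH.nice h0
  -- the companion vanishes at `i∞`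
  have hz2 : IsZeroAtImInfty (biExpComp p 2 ⇑H) := by
    apply fricke_isZero_of_coeff_zero (hH.comp_nice hp)
    rw [hH.qExpansion_comp_two, PowerSeries.coeff_smul, coeff_biExpU, mul_zero]
    have : (qExpansion 1 (⇑H : ℍ → ℂ)).coeff 0 = 0 := h0
    rw [this, smul_zero]
  -- `H ∣ S` vanishes at `i∞`
  have hz3 : IsZeroAtImInfty ((⇑H : ℍ → ℂ) ∣[(2 : ℤ)] S) := by
    have e : (⇑H : ℍ → ℂ) ∣[(2 : ℤ)] S = fun z : ℍ => biExpComp p 2 ⇑H (heckeMatrix p 0 • z) := by
      ext z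
      rw [biExpComp_apply, fricke_diag_heckeMatrix_zero hp]
    rw [e]
    exact hz2.comp (biExp_tendsto_heckeMatrix p hp 0)
  refine ⟨{ toFun := H
            slash_action_eq' := H.slash_action_eq'
            holo' := H.holo'
            zero_at_cusps' := fun {c} hc => ?_ }, rfl⟩
  have hc' : IsCusp c (mapGL ℝ).range := hc.mono (Subgroup.map_le_range _ _)
  rw [OnePoint.isZeroAt_iff_forall_SL2Z hc']
  intro γ _
  rcases biExp_exists_rep p γ with hγ | ⟨j, -, g, hg, rfl⟩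
  · have e : (⇑H : ℍ → ℂ) ∣[(2 : ℤ)] γ = ⇑H := hH.inv γ hγ
    show IsZeroAtImInfty ((⇑H : ℍ → ℂ) ∣[(2 : ℤ)] γ)
    rw [e]; exact hz1
  · show IsZeroAtImInfty ((⇑H : ℍ → ℂ) ∣[(2 : ℤ)] (g * (S * T ^ (j : ℤ))))
    rw [SlashAction.slash_mul, hH.inv g hg]
    have e : (⇑H : ℍ → ℂ) ∣[(2 : ℤ)] (S * T ^ (j : ℤ)) =
        fun z : ℍ => ((⇑H : ℍ → ℂ) ∣[(2 : ℤ)] S) (((j : ℤ) : ℝ) +ᵥ z) := by
      ext z; exact biExp_slash_ST _ 2 j z
    rw [e]
    exact hz3.comp (biExp_tendsto_vadd _)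

theorem eq_zero_of_qCoeff_eq_zero (p : ℕ) [Fact p.Prime] (H : ModularForm (Gamma0 p) 2)
    (h : ∀ k : ℕ, 1 ≤ k → ModularFormClass.qCoeff (⇑H) k = 0) : H = 0 := by
  have hpr : p.Prime := Fact.out
  have hp : p ≠ 0 := hpr.ne_zero
  have hp' : (p : ℂ) ≠ 0 := by exact_mod_cast hp
  have : NeZero p := ⟨hp⟩
  have hH := BiNice.of_modularForm p H
  set c : ℂ := ModularFormClass.qCoeff (⇑H) 0 with hc
  -- `H` is the constant function `c`
  have hconst : (⇑H : ℍ → ℂ) = fun _ : ℍ => c := by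
    apply hH.nice.eq_of_qExpansion_eq (Nice.const c)
    rw [Nice.qExpansion_const]
    ext n
    rw [PowerSeries.coeff_C]
    split_ifs with hn
    · rw [hn]; rfl
    · exact h n (Nat.one_le_iff_ne_zero.mpr hn)
  -- evaluate `comp H = -p⁻¹ U_p H` at `I`
  have h1 := congrFun hH.comp_two UpperHalfPlane.I
  rw [biExpComp_apply, biExp_slash_S, Pi.smul_apply, heckeU_apply 2 hp, hconst] at h1
  simp only [Finset.sum_const, Finset.card_range, nsmul_eq_mul, smul_eq_mul] at h1
  rw [coe_heckeDiagMatrix_smul hp, UpperHalfPlane.coe_I] at h1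
  have h2 : ((p : ℂ) * Complex.I) ^ (-(2 : ℤ)) = -((p : ℂ) ^ 2)⁻¹ := by
    rw [zpow_neg, zpow_ofNat, mul_pow, Complex.I_sq]
    field_simp
  rw [h2] at h1
  have hp1 : (p : ℂ) ≠ 1 := by
    exact_mod_cast hpr.one_lt.ne'
  have hc0 : c = 0 := by
    have h3 : c * ((p : ℂ) - 1) = 0 := by
      field_simp at h1
      linear_combination h1
    rcases mul_eq_zero.mp h3 with h4 | h4
    · exact h4
    · exact absurd (sub_eq_zero.mp h4) hp1
  apply DFunLike.coe_injective
  rw [hconst, hc0]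
  rfl

end Fermat.Agent.S16
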