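/-
S16 project, package UB-B: the level-one order bound ("integral Sturm bound at level one").

If the first `⌊k/12⌋ + 1` coefficients of the `q`-expansion of a level-one modular form of
weight `k` lie in an additive subgroup `I` of `ℂ`, then all its coefficients lie in `I`.
(`I` may be an ideal of a subring of `ℂ`, a subring, `ℓ^a • O`, ...)
-/
import Mathlib
import Fermat.Agent.Lib.IntStruct.LevelOne

set_option autoImplicit false

open UpperHalfPlane ModularForm MatrixGroups EisensteinSeries
open Fermat.Agent.Lib.IntStruct.LevelOne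

namespace Fermat.Agent.S16

theorem lo_toC_mul (a b : PowerSeries ℤ) : toC (a * b) = toC a * toC b :=
  map_mul (PowerSeries.map (Int.castRingHom ℂ)) a b

theorem lo_toC_pow (a : PowerSeries ℤ) (n : ℕ) : toC (a ^ n) = toC a ^ n :=
  map_pow (PowerSeries.map (Int.castRingHom ℂ)) a n

theorem lo_toC_one : toC 1 = 1 :=
  map_one (PowerSeries.map (Int.castRingHom ℂ))

theorem lo_toC_X : toC PowerSeries.X = PowerSeries.X :=
  PowerSeries.map_X (Int.castRingHom ℂ)

/-- coefficients of (integral series) × (series with coefficients in `I` up to `n`) -/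
theorem lo_coeff_mul_mem (I : AddSubgroup ℂ) (Φ : PowerSeries ℤ) (H : PowerSeries ℂ) (n : ℕ)
    (h : ∀ i ≤ n, H.coeff i ∈ I) : ∀ i ≤ n, (toC Φ * H).coeff i ∈ I := by
  intro i hi
  rw [PowerSeries.coeff_mul]
  refine I.sum_mem (fun x hx => ?_)
  have hx2 : x.2 ≤ n := by
    have h2 := Finset.HasAntidiagonal.mem_antidiagonal.mp hx
    omega
  rw [PowerSeries.coeff_map, eq_intCast, ← zsmul_eq_mul]
  exact I.zsmul_mem (h x.2 hx2) _

/-- the integral `q`-expansion of `Δ` is `X` times a unit -/
theorem lo_deltaSeries_eq :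
    ∃ D V : PowerSeries ℤ, deltaSeries = PowerSeries.X * D ∧ D * V = 1 := by
  have h0 : PowerSeries.constantCoeff deltaSeries = 0 := by
    have hs : ∀ j : ℕ, PowerSeries.constantCoeff (sigmaSeries j) = 0 := by
      intro j
      rw [← PowerSeries.coeff_zero_eq_constantCoeff_apply, coeff_sigmaSeries,
        ArithmeticFunction.map_zero]
      rfl
    have hc : PowerSeries.constantCoeff corrSeries = 0 := by
      rw [← PowerSeries.coeff_zero_eq_constantCoeff_apply, corrSeries, PowerSeries.coeff_mk,
        ArithmeticFunction.map_zero, ArithmeticFunction.map_zero]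
      norm_num
    simp [deltaSeries, hs, hc]
  obtain ⟨D, hD⟩ := PowerSeries.X_dvd_iff.mpr h0
  have h1 : PowerSeries.constantCoeff D = 1 := by
    have h2 : deltaSeries.coeff 1 = 1 := by
      have hs : ∀ j : ℕ, (sigmaSeries j).coeff 1 = 1 := by
        intro j
        rw [coeff_sigmaSeries, ArithmeticFunction.isMultiplicative_sigma.map_one]
        rfl
      have hs0 : ∀ j : ℕ, (sigmaSeries j).coeff 0 = 0 := by
        intro j
        rw [coeff_sigmaSeries, ArithmeticFunction.map_zero]
        rfl
      have hc : corrSeries.coeff 1 = 1 := by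
        rw [corrSeries, PowerSeries.coeff_mk, ArithmeticFunction.isMultiplicative_sigma.map_one,
          ArithmeticFunction.isMultiplicative_sigma.map_one]
        norm_num
      have hs0' : ∀ j : ℕ, PowerSeries.constantCoeff (sigmaSeries j) = 0 := by
        intro j
        rw [← PowerSeries.coeff_zero_eq_constantCoeff_apply]
        exact hs0 j
      have hsq : ∀ j : ℕ, (sigmaSeries j ^ 2).coeff 1 = 0 := by
        intro j
        rw [PowerSeries.coeff_one_pow, hs0']
        simp
      have hcu : ∀ j : ℕ, (sigmaSeries j ^ 3).coeff 1 = 0 := by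
        intro j
        rw [PowerSeries.coeff_one_pow, hs0']
        simp
      have e1 : (100 * sigmaSeries 3 ^ 2 : PowerSeries ℤ) = (100 : ℤ) • sigmaSeries 3 ^ 2 := by
        simp [zsmul_eq_mul]
      have e2 : (8000 * sigmaSeries 3 ^ 3 : PowerSeries ℤ) = (8000 : ℤ) • sigmaSeries 3 ^ 3 := by
        simp [zsmul_eq_mul]
      have e3 : (147 * sigmaSeries 5 ^ 2 : PowerSeries ℤ) = (147 : ℤ) • sigmaSeries 5 ^ 2 := by
        simp [zsmul_eq_mul]
      rw [deltaSeries, e1, e2, e3, map_sub, map_add, map_add, map_zsmul, map_zsmul, map_zsmul,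
        hc, hsq, hcu, hsq]
      simp
    rw [hD, PowerSeries.coeff_succ_X_mul] at h2
    rw [← PowerSeries.coeff_zero_eq_constantCoeff_apply]
    exact h2
  have hu : IsUnit D := PowerSeries.isUnit_iff_constantCoeff.mpr (by rw [h1]; exact isUnit_one)
  obtain ⟨V, hV⟩ := hu.exists_right_inv
  exact ⟨D, V, hD, hV⟩

/-- a level-one form of even weight `k ≥ 4` with integral `q`-expansion and constant term 1 -/
theorem lo_exists_unit_form {k : ℕ} (hk : 3 ≤ k) (hk2 : Even k) :
    ∃ (φ : ModularForm 𝒮ℒ (k : ℤ)) (Φ : PowerSeries ℤ),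
      qExpansion 1 φ = toC Φ ∧ PowerSeries.constantCoeff Φ = 1 := by
  obtain ⟨a, b, hab⟩ : ∃ a b : ℕ, 4 * a + 6 * b = k := by
    rcases hk2 with ⟨m, rfl⟩
    rcases Nat.even_or_odd m with ⟨j, rfl⟩ | ⟨j, rfl⟩
    · exact ⟨j, 0, by omega⟩
    · exact ⟨j - 1, 1, by omega⟩
  have hw : (a : ℤ) * 4 + (b : ℤ) * 6 = (k : ℤ) := by
    rw [← hab]
    push_cast
    ring
  refine ⟨ModularForm.mcast hw ((E₄.pow a).mul (E₆.pow b)),
    (1 + (240 : ℤ) • sigmaSeries 3) ^ a * (1 + (-504 : ℤ) • sigmaSeries 5) ^ b, ?_, ?_⟩
  · rw [ModularForm.qExpansion_mcast, ModularForm.qExpansion_mul one_pos one_mem_strictPeriods_SL,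
      ModularForm.qExpansion_pow one_pos one_mem_strictPeriods_SL,
      ModularForm.qExpansion_pow one_pos one_mem_strictPeriods_SL, qExpansion_E4, qExpansion_E6,
      lo_toC_mul, lo_toC_pow, lo_toC_pow]
  · have hs : ∀ j : ℕ, PowerSeries.constantCoeff (sigmaSeries j) = 0 := by
      intro j
      rw [← PowerSeries.coeff_zero_eq_constantCoeff_apply, coeff_sigmaSeries,
        ArithmeticFunction.map_zero]
      rfl
    simp [hs]

/-- `f = a₀ • φ + Δ * g` on `q`-expansions, with `φ` integral of constant term `1` -/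
theorem lo_exists_decomp {k : ℕ} (hk : 3 ≤ k) (hk2 : Even k) (f : ModularForm 𝒮ℒ k) :
    ∃ (Φ : PowerSeries ℤ) (g : ModularForm 𝒮ℒ ((k : ℤ) - 12)),
      PowerSeries.constantCoeff Φ = 1 ∧
      qExpansion 1 f = (qExpansion 1 f).coeff 0 • toC Φ + toC deltaSeries * qExpansion 1 g := by
  obtain ⟨φ, Φ, hφ, hΦ⟩ := lo_exists_unit_form hk hk2
  set a := (qExpansion 1 f).coeff 0 with ha
  obtain ⟨f', hf'⟩ : ∃ f' : ModularForm 𝒮ℒ k, f' = f - a • φ := ⟨_, rfl⟩
  have hq : qExpansion 1 f' = qExpansion 1 f - a • toC Φ := by
    rw [hf', FunLike.coe_sub, ModularForm.qExpansion_sub one_pos one_mem_strictPeriods_SL,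
      FunLike.coe_smul, ModularForm.qExpansion_smul one_pos one_mem_strictPeriods_SL, hφ]
  have h0 : (qExpansion 1 f').coeff 0 = 0 := by
    have hΦ0 : Φ.coeff 0 = 1 := by
      rw [PowerSeries.coeff_zero_eq_constantCoeff_apply]
      exact hΦ
    rw [hq, map_sub, PowerSeries.coeff_smul, PowerSeries.coeff_map, hΦ0]
    simp [ha]
  refine ⟨Φ, CuspForm.discriminantEquiv (toCuspForm f' h0), hΦ, ?_⟩
  have h1 : mulDelta k (CuspForm.discriminantEquiv (toCuspForm f' h0)) = f' := by
    unfold mulDelta
    rw [LinearMap.comp_apply, LinearEquiv.coe_coe, LinearEquiv.symm_apply_apply]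
    ext z
    rfl
  have h2 := qExpansion_mulDelta k (CuspForm.discriminantEquiv (toCuspForm f' h0))
  rw [h1, hq, qExpansion_discriminant] at h2
  rw [← h2]
  abel

/-- **Level-one order bound.**  If the coefficients `a_i`, `12 i ≤ k`, of the `q`-expansion of a
level-one modular form of weight `k` lie in an additive subgroup `I` of `ℂ`, then all
coefficients lie in `I`. -/
theorem lo_order_bound (I : AddSubgroup ℂ) (k : ℤ) (f : ModularForm 𝒮ℒ k)
    (h : ∀ i : ℕ, 12 * (i : ℤ) ≤ k → (qExpansion 1 f).coeff i ∈ I) :
    ∀ n : ℕ, (qExpansion 1 f).coeff n ∈ I := by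
  have key : ∀ N : ℕ, ∀ k : ℤ, k < 12 * N → ∀ f : ModularForm 𝒮ℒ k,
      (∀ i : ℕ, 12 * (i : ℤ) ≤ k → (qExpansion 1 f).coeff i ∈ I) →
      ∀ n : ℕ, (qExpansion 1 f).coeff n ∈ I := by
    intro N
    induction N with
    | zero =>
      intro k hk f _ n
      have hf : f = 0 := DFunLike.coe_injective
        (ModularFormClass.levelOne_neg_weight_eq_zero (by simpa using hk) f)
      rw [hf, FunLike.coe_zero, qExpansion_zero, map_zero]
      exact I.zero_mem
    | succ N ih =>
      intro k hk f hI n
      have hzero : f = 0 → (qExpansion 1 f).coeff n ∈ I := by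
        intro hf
        rw [hf, FunLike.coe_zero, qExpansion_zero, map_zero]
        exact I.zero_mem
      rcases lt_trichotomy k 0 with hneg | h0 | hpos
      · exact hzero (DFunLike.coe_injective
          (ModularFormClass.levelOne_neg_weight_eq_zero hneg f))
      · subst h0
        obtain ⟨c, hc⟩ := ModularFormClass.levelOne_weight_zero_const f
        have hf : f = ModularForm.const c := DFunLike.coe_injective hc
        have hq : qExpansion 1 f = PowerSeries.C c := by rw [hf, qExpansion_const]
        have hc0 := hI 0 (by simp)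
        rw [hq] at hc0 ⊢
        rw [PowerSeries.coeff_C] at hc0 ⊢
        split_ifs with hn
        · simp only [if_true] at hc0
          exact hc0
        · exact I.zero_mem
      · rcases Int.even_or_odd k with heven | hodd
        · by_cases h2 : k = 2
          · subst h2
            exact hzero (rank_zero_iff_forall_zero.mp ModularForm.levelOne_weight_two_rank_zero f)
          · obtain ⟨m, rfl⟩ := Int.eq_ofNat_of_zero_le hpos.le
            have hm3 : 3 ≤ m := by
              have hm2 : (m : ℤ) ≠ 2 := h2
              have hme : Even m := by exact_mod_cast heven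
              have hm0 : 0 < m := by exact_mod_cast hpos
              rcases hme with ⟨j, hj⟩
              omega
            have hme : Even m := by exact_mod_cast heven
            obtain ⟨Φ, g, hΦ, hg⟩ := lo_exists_decomp hm3 hme f
            obtain ⟨D, V, hD, hDV⟩ := lo_deltaSeries_eq
            set a := (qExpansion 1 f).coeff 0 with ha
            have ha_mem : a ∈ I := hI 0 (by simp)
            -- the series `H = qExp f - a • Φ`
            set H : PowerSeries ℂ := qExpansion 1 f - a • toC Φ with hH
            have hHmem : ∀ j : ℕ, 12 * (j : ℤ) ≤ (m : ℤ) → H.coeff j ∈ I := by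
              intro j hj
              rw [hH, map_sub, PowerSeries.coeff_smul, PowerSeries.coeff_map, eq_intCast,
                smul_eq_mul, mul_comm, ← zsmul_eq_mul]
              exact I.sub_mem (hI j hj) (I.zsmul_mem ha_mem _)
            have hHeq : toC deltaSeries * qExpansion 1 g = H := by
              rw [hH, hg]
              abel
            have hXg : PowerSeries.X * qExpansion 1 g = toC V * H := by
              have e1 : toC (PowerSeries.X * D) = PowerSeries.X * toC D := by
                rw [lo_toC_mul, lo_toC_X]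
              have e2 : toC D * toC V = 1 := by
                rw [← lo_toC_mul, hDV, lo_toC_one]
              rw [← hHeq, hD, e1]
              calc PowerSeries.X * qExpansion 1 g
                  = (toC D * toC V) * (PowerSeries.X * qExpansion 1 g) := by rw [e2, one_mul]
                _ = toC V * (PowerSeries.X * toC D * qExpansion 1 g) := by ring
            have hgI : ∀ i : ℕ, 12 * (i : ℤ) ≤ (m : ℤ) - 12 → (qExpansion 1 g).coeff i ∈ I := by
              intro i hi
              rw [← PowerSeries.coeff_succ_X_mul, hXg]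
              refine lo_coeff_mul_mem I V H (i + 1) (fun j hj => hHmem j ?_) (i + 1) le_rfl
              have : (j : ℤ) ≤ (i : ℤ) + 1 := by exact_mod_cast hj
              omega
            have hgall := ih ((m : ℤ) - 12) (by push_cast at hk ⊢; omega) g hgI
            rw [hg, map_add, PowerSeries.coeff_smul, PowerSeries.coeff_map, eq_intCast,
              smul_eq_mul, mul_comm, ← zsmul_eq_mul]
            exact I.add_mem (I.zsmul_mem ha_mem _)
              (lo_coeff_mul_mem I deltaSeries _ n (fun j _ => hgall j) n le_rfl)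
        · exact hzero (ModularForm.levelOne_odd_weight_eq_zero hodd f)
  obtain ⟨N, hN⟩ : ∃ N : ℕ, k < 12 * N := ⟨k.toNat + 1, by push_cast; omega⟩
  exact key N k hN f h

/-- Variant: `O` a subring of `ℂ`, all coefficients of `f` up to `k/12` in `O`
⟹ all coefficients in `O`. -/
theorem lo_order_bound_subring (O : Subring ℂ) (k : ℤ) (f : ModularForm 𝒮ℒ k)
    (h : ∀ i : ℕ, 12 * (i : ℤ) ≤ k → (qExpansion 1 f).coeff i ∈ O) :
    ∀ n : ℕ, (qExpansion 1 f).coeff n ∈ O :=
  lo_order_bound O.toAddSubgroup k f h

/-- Variant for the difference of two forms of the same weight: if `a_i(f) - a_i(g) ∈ I` for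
`12 i ≤ k`, then for all `i`. -/
theorem lo_order_bound_sub (I : AddSubgroup ℂ) (k : ℤ) (f g : ModularForm 𝒮ℒ k)
    (h : ∀ i : ℕ, 12 * (i : ℤ) ≤ k →
      (qExpansion 1 f).coeff i - (qExpansion 1 g).coeff i ∈ I) :
    ∀ n : ℕ, (qExpansion 1 f).coeff n - (qExpansion 1 g).coeff n ∈ I := by
  have hq : qExpansion 1 (f - g : ModularForm 𝒮ℒ k) = qExpansion 1 f - qExpansion 1 g := by
    rw [FunLike.coe_sub, ModularForm.qExpansion_sub one_pos one_mem_strictPeriods_SL]
  have key := lo_order_bound I k (f - g) (fun i hi => by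
    rw [hq, map_sub]
    exact h i hi)
  intro n
  have := key n
  rw [hq, map_sub] at this
  exact this

/-- Variant in "order" form: if the coefficients `a_i` with `12 i ≤ k` all vanish modulo `I`
except possibly... (no exception): a form of weight `k` all of whose coefficients `a_i`,
`i ≤ ⌊k/12⌋`, lie in `I` and which has some coefficient outside `I` does not exist. -/
theorem lo_order_bound_not (I : AddSubgroup ℂ) (k : ℤ) (f : ModularForm 𝒮ℒ k) (n : ℕ)
    (hn : (qExpansion 1 f).coeff n ∉ I) :
    ∃ i : ℕ, 12 * (i : ℤ) ≤ k ∧ (qExpansion 1 f).coeff i ∉ I := by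
  by_contra hcon
  push Not at hcon
  exact hn (lo_order_bound I k f (fun i hi => hcon i hi) n)

end Fermat.Agent.S16
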