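import Mathlib

/-!
# Formal norm of a power series under `X ↦ ζ^j X`

For a power series `b` over `ℂ` and `p ≥ 1`, the product `∏_{j<p} b(ζ^j X)` (`ζ = e^{2πi/p}`)
is a power series in `X^p`; `psNorm p b` is the series `Q` with `Q(X^p) = ∏_{j<p} b(ζ^j X)`.
We also prove the congruence behaviour: coefficients in a subring `O ∋ ζ`, and if
`b ≡ b₀(X^p)` modulo an `O`-stable additive subgroup `J`, then `psNorm p b ≡ b₀^p` mod `J`.
-/

set_option autoImplicit false

namespace Fermat.Agent.S16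

open PowerSeries

/-- the standard primitive `p`-th root of unity -/
noncomputable def psZeta (p : ℕ) : ℂ := Complex.exp (2 * Real.pi * Complex.I / p)

theorem psZeta_isPrimitiveRoot (p : ℕ) (hp : p ≠ 0) : IsPrimitiveRoot (psZeta p) p :=
  Complex.isPrimitiveRoot_exp p hp

/-- the product `∏_{j<p} b(ζ^j X)` -/
noncomputable def psNormProd (p : ℕ) (b : PowerSeries ℂ) : PowerSeries ℂ :=
  ∏ j ∈ Finset.range p, rescale (psZeta p ^ j) b

/-- the formal norm: `psNorm p b (X^p) = ∏_{j<p} b(ζ^j X)`. -/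
noncomputable def psNorm (p : ℕ) (b : PowerSeries ℂ) : PowerSeries ℂ :=
  PowerSeries.mk fun n => coeff (p * n) (psNormProd p b)

theorem psNormProd_rescale (p : ℕ) (hp : p ≠ 0) (b : PowerSeries ℂ) :
    rescale (psZeta p) (psNormProd p b) = psNormProd p b := by
  unfold psNormProd
  rw [map_prod]
  have h1 : ∀ j, rescale (psZeta p) (rescale (psZeta p ^ j) b) = rescale (psZeta p ^ (j + 1)) b := by
    intro j
    rw [rescale_rescale, pow_succ]
  simp_rw [h1]
  obtain ⟨m, rfl⟩ := Nat.exists_eq_succ_of_ne_zero hp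
  rw [Finset.prod_range_succ, Finset.prod_range_succ' (fun j => rescale (psZeta (m + 1) ^ j) b)]
  congr 1
  rw [(psZeta_isPrimitiveRoot (m + 1) hp).pow_eq_one, pow_zero]

theorem psNormProd_coeff_of_not_dvd (p : ℕ) (hp : p ≠ 0) (b : PowerSeries ℂ) (n : ℕ)
    (hn : ¬ p ∣ n) : coeff n (psNormProd p b) = 0 := by
  have h1 := congrArg (coeff n) (psNormProd_rescale p hp b)
  rw [coeff_rescale] at h1
  have h2 : psZeta p ^ n ≠ 1 := fun h =>
    hn (((psZeta_isPrimitiveRoot p hp).pow_eq_one_iff_dvd n).mp h)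
  have h3 : (psZeta p ^ n - 1) * coeff n (psNormProd p b) = 0 := by
    rw [sub_mul, h1, one_mul, sub_self]
  rcases mul_eq_zero.mp h3 with h | h
  · exact absurd (sub_eq_zero.mp h) h2
  · exact h

theorem psNorm_expand (p : ℕ) (hp : p ≠ 0) (b : PowerSeries ℂ) :
    PowerSeries.expand p hp (psNorm p b) = psNormProd p b := by
  ext n
  rw [coeff_expand]
  split_ifs with h
  · rw [psNorm, coeff_mk, Nat.mul_div_cancel' h]
  · rw [psNormProd_coeff_of_not_dvd p hp b n h]

theorem psNorm_coeff (p : ℕ) (b : PowerSeries ℂ) (n : ℕ) :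
    coeff n (psNorm p b) = coeff (p * n) (psNormProd p b) := by
  rw [psNorm, coeff_mk]

/-! ### coefficients in a subring, congruences modulo a stable additive subgroup -/

/-- all coefficients in the subring `O` -/
def PsIn (O : Subring ℂ) (f : PowerSeries ℂ) : Prop := ∀ n, coeff n f ∈ O

/-- coefficientwise congruence modulo the additive subgroup `J` -/
def PsCong (J : AddSubgroup ℂ) (f g : PowerSeries ℂ) : Prop := ∀ n, coeff n f - coeff n g ∈ J

namespace PsIn

variable {O : Subring ℂ} {f g : PowerSeries ℂ}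

theorem one : PsIn O (1 : PowerSeries ℂ) := by
  intro n
  rw [coeff_one]
  split_ifs
  · exact O.one_mem
  · exact O.zero_mem

theorem zero : PsIn O (0 : PowerSeries ℂ) := by
  intro n
  rw [map_zero]
  exact O.zero_mem

theorem add (hf : PsIn O f) (hg : PsIn O g) : PsIn O (f + g) := by
  intro n
  rw [map_add]
  exact O.add_mem (hf n) (hg n)

theorem neg (hf : PsIn O f) : PsIn O (-f) := by
  intro n
  rw [map_neg]
  exact O.neg_mem (hf n)

theorem sub (hf : PsIn O f) (hg : PsIn O g) : PsIn O (f - g) := by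
  intro n
  rw [map_sub]
  exact O.sub_mem (hf n) (hg n)

theorem mul (hf : PsIn O f) (hg : PsIn O g) : PsIn O (f * g) := by
  intro n
  rw [coeff_mul]
  exact O.sum_mem fun x _ => O.mul_mem (hf _) (hg _)

theorem pow (hf : PsIn O f) (n : ℕ) : PsIn O (f ^ n) := by
  induction n with
  | zero => rw [pow_zero]; exact one
  | succ n ih => rw [pow_succ]; exact ih.mul hf

theorem prod {ι : Type*} (s : Finset ι) {F : ι → PowerSeries ℂ} (hF : ∀ i ∈ s, PsIn O (F i)) :
    PsIn O (∏ i ∈ s, F i) := by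
  classical
  induction s using Finset.induction_on with
  | empty => rw [Finset.prod_empty]; exact one
  | insert i t hi ih =>
    rw [Finset.prod_insert hi]
    exact (hF i (Finset.mem_insert_self i t)).mul
      (ih fun j hj => hF j (Finset.mem_insert_of_mem hj))

theorem rescale (hf : PsIn O f) {a : ℂ} (ha : a ∈ O) : PsIn O (PowerSeries.rescale a f) := by
  intro n
  rw [coeff_rescale]
  exact O.mul_mem (O.pow_mem ha n) (hf n)

theorem expand (hf : PsIn O f) (p : ℕ) (hp : p ≠ 0) : PsIn O (PowerSeries.expand p hp f) := by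
  intro n
  rw [coeff_expand]
  split_ifs
  · exact hf _
  · exact O.zero_mem

theorem C {a : ℂ} (ha : a ∈ O) : PsIn O (PowerSeries.C a) := by
  intro n
  rw [coeff_C]
  split_ifs
  · exact ha
  · exact O.zero_mem

end PsIn

namespace PsCong

variable {O : Subring ℂ} {J : AddSubgroup ℂ} {f g f' g' : PowerSeries ℂ}

theorem refl (f : PowerSeries ℂ) : PsCong J f f := by
  intro n
  rw [sub_self]
  exact J.zero_mem

theorem symm (h : PsCong J f g) : PsCong J g f := by
  intro n
  have := J.neg_mem (h n)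
  rwa [neg_sub] at this

theorem trans {e : PowerSeries ℂ} (h1 : PsCong J f g) (h2 : PsCong J g e) : PsCong J f e := by
  intro n
  have := J.add_mem (h1 n) (h2 n)
  rwa [sub_add_sub_cancel] at this

theorem add (h1 : PsCong J f g) (h2 : PsCong J f' g') : PsCong J (f + f') (g + g') := by
  intro n
  have := J.add_mem (h1 n) (h2 n)
  rw [map_add, map_add]
  rwa [add_sub_add_comm]

theorem sub (h1 : PsCong J f g) (h2 : PsCong J f' g') : PsCong J (f - f') (g - g') := by
  intro n
  have := J.sub_mem (h1 n) (h2 n)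
  rw [map_sub, map_sub]
  rwa [sub_sub_sub_comm]

theorem of_eq (h : f = g) : PsCong J f g := h ▸ refl f

/-- multiplication by an `O`-series preserves `J`-series -/
theorem mul_left_aux (hJ : ∀ a ∈ O, ∀ x ∈ J, a * x ∈ J) {u d : PowerSeries ℂ} (hu : PsIn O u)
    (hd : ∀ n, coeff n d ∈ J) : ∀ n, coeff n (u * d) ∈ J := by
  intro n
  rw [coeff_mul]
  exact J.sum_mem fun x _ => hJ _ (hu _) _ (hd _)

theorem mul (hJ : ∀ a ∈ O, ∀ x ∈ J, a * x ∈ J) (hf : PsIn O f) (hg' : PsIn O g')
    (h1 : PsCong J f g) (h2 : PsCong J f' g') : PsCong J (f * f') (g * g') := by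
  intro n
  have e : f * f' - g * g' = f * (f' - g') + g' * (f - g) := by ring
  have h3 : ∀ n, coeff n (f' - g') ∈ J := fun n => by rw [map_sub]; exact h2 n
  have h4 : ∀ n, coeff n (f - g) ∈ J := fun n => by rw [map_sub]; exact h1 n
  have h5 := J.add_mem (mul_left_aux hJ hf h3 n) (mul_left_aux hJ hg' h4 n)
  rw [← map_add, ← e, map_sub] at h5
  exact h5

theorem prod (hJ : ∀ a ∈ O, ∀ x ∈ J, a * x ∈ J) {ι : Type*} (s : Finset ι)
    {F G : ι → PowerSeries ℂ} (hF : ∀ i ∈ s, PsIn O (F i)) (hG : ∀ i ∈ s, PsIn O (G i))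
    (h : ∀ i ∈ s, PsCong J (F i) (G i)) : PsCong J (∏ i ∈ s, F i) (∏ i ∈ s, G i) := by
  classical
  induction s using Finset.induction_on with
  | empty => rw [Finset.prod_empty, Finset.prod_empty]; exact refl _
  | insert i t hi ih =>
    rw [Finset.prod_insert hi, Finset.prod_insert hi]
    exact mul hJ (hF i (Finset.mem_insert_self i t))
      (PsIn.prod t fun j hj => hG j (Finset.mem_insert_of_mem hj))
      (h i (Finset.mem_insert_self i t))
      (ih (fun j hj => hF j (Finset.mem_insert_of_mem hj))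
        (fun j hj => hG j (Finset.mem_insert_of_mem hj))
        (fun j hj => h j (Finset.mem_insert_of_mem hj)))

theorem pow (hJ : ∀ a ∈ O, ∀ x ∈ J, a * x ∈ J) (hf : PsIn O f) (hg : PsIn O g)
    (h : PsCong J f g) (n : ℕ) : PsCong J (f ^ n) (g ^ n) := by
  induction n with
  | zero => rw [pow_zero, pow_zero]; exact refl _
  | succ n ih =>
    rw [pow_succ, pow_succ]
    exact mul hJ (hf.pow n) hg ih h

theorem rescale (hJ : ∀ a ∈ O, ∀ x ∈ J, a * x ∈ J) (h : PsCong J f g) {a : ℂ} (ha : a ∈ O) :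
    PsCong J (PowerSeries.rescale a f) (PowerSeries.rescale a g) := by
  intro n
  rw [coeff_rescale, coeff_rescale, ← mul_sub]
  exact hJ _ (O.pow_mem ha n) _ (h n)

end PsCong

theorem psZeta_mem (p : ℕ) (hp : p ≠ 0) (O : Subring ℂ) (ζ : ℂ) (hζ : IsPrimitiveRoot ζ p)
    (hζO : ζ ∈ O) : psZeta p ∈ O := by
  have : NeZero p := ⟨hp⟩
  obtain ⟨i, -, hi⟩ := hζ.eq_pow_of_pow_eq_one (psZeta_isPrimitiveRoot p hp).pow_eq_one
  rw [← hi]
  exact O.pow_mem hζO i

theorem psNormProd_psIn (p : ℕ) (hp : p ≠ 0) (O : Subring ℂ) (ζ : ℂ) (hζ : IsPrimitiveRoot ζ p)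
    (hζO : ζ ∈ O) (b : PowerSeries ℂ) (hb : PsIn O b) : PsIn O (psNormProd p b) :=
  PsIn.prod _ fun j _ => hb.rescale (O.pow_mem (psZeta_mem p hp O ζ hζ hζO) j)

theorem psNorm_psIn (p : ℕ) (hp : p ≠ 0) (O : Subring ℂ) (ζ : ℂ) (hζ : IsPrimitiveRoot ζ p)
    (hζO : ζ ∈ O) (b : PowerSeries ℂ) (hb : PsIn O b) : PsIn O (psNorm p b) := by
  intro n
  rw [psNorm_coeff]
  exact psNormProd_psIn p hp O ζ hζ hζO b hb _

theorem rescale_psZeta_expand (p : ℕ) (hp : p ≠ 0) (j : ℕ) (b0 : PowerSeries ℂ) :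
    rescale (psZeta p ^ j) (PowerSeries.expand p hp b0) = PowerSeries.expand p hp b0 := by
  ext n
  rw [coeff_rescale, coeff_expand]
  split_ifs with h
  · obtain ⟨m, rfl⟩ := h
    rw [← pow_mul, mul_comm j, mul_assoc, pow_mul, (psZeta_isPrimitiveRoot p hp).pow_eq_one,
      one_pow, one_mul]
  · rw [mul_zero]

/-- **Congruence for the formal norm**: if `b ≡ b₀(X^p)` mod `J` then `psNorm p b ≡ b₀^p`. -/
theorem psNorm_mod (p : ℕ) (hp : p ≠ 0) (O : Subring ℂ) (ζ : ℂ) (hζ : IsPrimitiveRoot ζ p)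
    (hζO : ζ ∈ O) (J : AddSubgroup ℂ) (hJ : ∀ a ∈ O, ∀ x ∈ J, a * x ∈ J)
    (b b0 : PowerSeries ℂ) (hb : PsIn O b) (hb0 : PsIn O b0)
    (h : PsCong J b (PowerSeries.expand p hp b0)) :
    PsIn O (psNorm p b) ∧ PsCong J (psNorm p b) (b0 ^ p) := by
  refine ⟨psNorm_psIn p hp O ζ hζ hζO b hb, ?_⟩
  have hz := psZeta_mem p hp O ζ hζ hζO
  have h1 : PsCong J (psNormProd p b) (∏ _j ∈ Finset.range p, PowerSeries.expand p hp b0) := by
    refine PsCong.prod hJ _ (fun j _ => hb.rescale (O.pow_mem hz j))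
      (fun j _ => hb0.expand p hp) (fun j _ => ?_)
    have h2 := PsCong.rescale hJ h (O.pow_mem hz j)
    rwa [rescale_psZeta_expand] at h2
  rw [Finset.prod_const, Finset.card_range, ← map_pow] at h1
  intro n
  have h3 := h1 (p * n)
  rwa [coeff_expand_mul, ← psNorm_coeff] at h3

end Fermat.Agent.S16
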