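import Mathlib
import Fermat.Agent.S16.PsNorm
import Fermat.Agent.S23.Sym
import Fermat.Agent.S23.TNForm
import Fermat.Agent.S24.Cosets
import Fermat.Agent.S28.UnitQExp

/-!
# Norm from `Γ₀(p)` to level one and its q-expansion

For a holomorphic function `F` on `ℍ`, invariant of weight `k` under `Γ₀(p)`, bounded at `i∞`,
such that `Fc(τ) := (F ∣[k] S)(p τ)` is bounded at `i∞`, the norm
`N = F · ∏_{j<p} F ∣[k] (S T^j)` is a modular form of level one and weight `k (p + 1)`, with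
q-expansion `qExpansion 1 F * psNorm p (qExpansion 1 Fc)`.
-/

set_option autoImplicit false

open UpperHalfPlane ModularForm Filter
open scoped MatrixGroups Manifold

namespace Fermat.Agent.S16

open Fermat.Agent.S23 Fermat.Agent.S28

/-- a nice function is invariant under `τ ↦ τ + 1` -/
theorem nl1_nice_vadd_one {F : ℍ → ℂ} (hF : Nice F) (w : ℍ) : F ((1 : ℝ) +ᵥ w) = F w := by
  have h1 := hF.per (w : ℂ)
  simp only [Function.comp_apply] at h1
  rw [UpperHalfPlane.ofComplex_apply] at h1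
  rw [← h1]
  congr 1
  have : ((w : ℂ) + 1) = (((1 : ℝ) +ᵥ w : ℍ) : ℂ) := by
    rw [UpperHalfPlane.coe_vadd]; push_cast; ring
  rw [this, UpperHalfPlane.ofComplex_apply]

/-- a holomorphic `Γ₀(N)`-invariant function bounded at `i∞` is nice -/
theorem nl1_nice_of_inv (N : ℕ) [NeZero N] (k : ℤ) (F : ℍ → ℂ) (hol : MDiff F)
    (hinv : ∀ γ ∈ CongruenceSubgroup.Gamma0 N, F ∣[k] γ = F) (hbd : IsBoundedAtImInfty F) :
    Nice F where
  holo := hol
  per := by
    let f : SlashInvariantForm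
        ((CongruenceSubgroup.Gamma0 N : Subgroup SL(2, ℤ)) : Subgroup (GL (Fin 2) ℝ)) k :=
      { toFun := F
        slash_action_eq' := by
          rintro _ ⟨γ, hγ, rfl⟩
          exact hinv γ hγ }
    have h := SlashInvariantFormClass.periodic_comp_ofComplex f
      (CongruenceSubgroup.one_mem_strictPeriods_Gamma0 N)
    have hf : (⇑f : ℍ → ℂ) = F := rfl
    rw [hf] at h
    simpa using h
  bdd := hbd

theorem nl1_hasSum_some (p : ℕ) (hp : p ≠ 0) (b : ℕ) (Fc : ℍ → ℂ) (hFc : Nice Fc) (τ : ℍ) :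
    HasSum (fun m : ℕ => ((qExpansion 1 Fc).coeff m * psZeta p ^ (b * m)) •
          Function.Periodic.qParam p (τ : ℂ) ^ m)
      (Fc (ModularForm.heckeMatrix p b • τ)) := by
  have h1 := hasSum_qExpansion (h := 1) one_pos hFc.per hFc.holo hFc.bdd
    (ModularForm.heckeMatrix p b • τ)
  rw [unitQ_qParam_heckeMatrix p hp b τ] at h1
  convert h1 using 2 with m
  simp only [smul_eq_mul, psZeta]
  rw [mul_pow, pow_mul]
  ring

theorem nl1_nice_some (p : ℕ) (hp : p ≠ 0) (b : ℕ) (Fc : ℍ → ℂ) (hFc : Nice Fc) (G : ℍ → ℂ)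
    (hG : ∀ τ : ℍ, G τ = Fc (ModularForm.heckeMatrix p b • τ)) :
    UnitQNice (p : ℝ) G where
  holo := by
    have hp' : (p : ℂ) ≠ 0 := by exact_mod_cast hp
    have h1 : MDiff (Fc ∣[(0 : ℤ)] ModularForm.heckeMatrix p b) := hFc.holo.slash 0 _
    have h2 : G = (fun _ : ℍ => (p : ℂ)) * (Fc ∣[(0 : ℤ)] ModularForm.heckeMatrix p b) := by
      funext τ
      rw [Pi.mul_apply, ModularForm.slash_heckeMatrix_apply 0 hp, hG τ, ← mul_assoc,
        mul_inv_cancel₀ hp', one_mul]
    rw [h2]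
    exact MDifferentiable.mul (fun _ => mdifferentiableAt_const) h1
  per := by
    intro z
    by_cases hz : 0 < z.im
    · have hz' : 0 < (z + (p : ℝ)).im := by simpa using hz
      simp only [Function.comp_apply]
      rw [ofComplex_apply_of_im_pos hz', ofComplex_apply_of_im_pos hz, hG, hG]
      have h1 : (⟨z + (p : ℝ), hz'⟩ : ℍ) = (p : ℝ) +ᵥ (⟨z, hz⟩ : ℍ) := by
        apply UpperHalfPlane.ext
        rw [UpperHalfPlane.coe_vadd]
        simp [add_comm]
      rw [h1, unitQ_heckeMatrix_vadd p hp b, nl1_nice_vadd_one hFc]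
    · have hz0 : z.im ≤ 0 := not_lt.mp hz
      have hz' : (z + (p : ℝ)).im ≤ 0 := by simpa using hz0
      simp only [Function.comp_apply]
      rw [ofComplex_apply_of_im_nonpos hz', ofComplex_apply_of_im_nonpos hz0]
  bdd := by
    have hpos : (0 : ℝ) < p := by exact_mod_cast Nat.pos_of_ne_zero hp
    refine isBoundedAtImInfty_of_hasSum_qExpansion (h := (p : ℝ)) hpos
      (c := fun m : ℕ => (qExpansion 1 Fc).coeff m * psZeta p ^ (b * m)) ?_
    intro τ
    rw [hG τ]
    exact_mod_cast nl1_hasSum_some p hp b Fc hFc τ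

theorem nl1_qExpansion_some (p : ℕ) (hp : p ≠ 0) (b : ℕ) (Fc : ℍ → ℂ) (hFc : Nice Fc)
    (G : ℍ → ℂ) (hG : ∀ τ : ℍ, G τ = Fc (ModularForm.heckeMatrix p b • τ)) :
    qExpansion (p : ℝ) G = PowerSeries.rescale (psZeta p ^ b) (qExpansion 1 Fc) := by
  have hpos : (0 : ℝ) < p := by exact_mod_cast Nat.pos_of_ne_zero hp
  ext n
  have h1 := unitQ_coeff_unique (h := (p : ℝ)) (f := G)
    (c := fun m : ℕ => (qExpansion 1 Fc).coeff m * psZeta p ^ (b * m)) hpos
    ((nl1_nice_some p hp b Fc hFc G hG).analyticAt hpos) ?_ n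
  · rw [← h1, PowerSeries.coeff_rescale, ← pow_mul, mul_comm]
  · intro τ
    rw [hG τ]
    exact_mod_cast nl1_hasSum_some p hp b Fc hFc τ

/-- the period-`p` expansion of a nice function -/
theorem nl1_qExpansion_nice (p : ℕ) (hp : p ≠ 0) (H : ℍ → ℂ) (hH : Nice H) :
    qExpansion (p : ℝ) H = PowerSeries.expand p hp (qExpansion 1 H) := by
  ext n
  have h1 := UpperHalfPlane.qExpansion_coeff_nat_mul (h := 1) one_pos hH.per hH.holo hH.bdd
    (M := p) (Nat.pos_of_ne_zero hp) n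
  rw [mul_one] at h1
  rw [h1, PowerSeries.coeff_expand]


theorem nl1_rep_00 (j : ℕ) :
    ((ModularGroup.S * ModularGroup.T ^ j)⁻¹ : SL(2, ℤ)) 0 0 = j := by
  rw [← zpow_natCast]
  simp [-zpow_natCast, Matrix.SpecialLinearGroup.coe_inv, Matrix.adjugate_fin_two,
    ModularGroup.coe_S, ModularGroup.coe_T_zpow, Matrix.mul_apply, Fin.sum_univ_two]

theorem nl1_rep_10 (j : ℕ) :
    ((ModularGroup.S * ModularGroup.T ^ j)⁻¹ : SL(2, ℤ)) 1 0 = -1 := by
  rw [← zpow_natCast]
  simp [-zpow_natCast, Matrix.SpecialLinearGroup.coe_inv, Matrix.adjugate_fin_two,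
    ModularGroup.coe_S, ModularGroup.coe_T_zpow, Matrix.mul_apply, Fin.sum_univ_two]

theorem nl1_slash_S_T_pow (k : ℤ) (F : ℍ → ℂ) (j : ℕ) (τ : ℍ) :
    (F ∣[k] (ModularGroup.S * ModularGroup.T ^ j)) τ =
      (F ∣[k] ModularGroup.S) (ModularGroup.T ^ j • τ) := by
  rw [SlashAction.slash_mul, SL_slash_apply (F ∣[k] ModularGroup.S) (ModularGroup.T ^ j) τ]
  have h : denom (ModularGroup.T ^ j : SL(2, ℤ)) τ = 1 := by
    rw [← zpow_natCast, ModularGroup.denom_apply]
    simp [-zpow_natCast, ModularGroup.coe_T_zpow]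
  rw [h, one_zpow, mul_one]

theorem nl1_coe_T_pow_smul (j : ℕ) (τ : ℍ) :
    ((ModularGroup.T ^ j • τ : ℍ) : ℂ) = τ + j := by
  rw [← zpow_natCast, ModularGroup.coe_T_zpow_smul_eq]
  push_cast
  rfl

theorem nl1_S_T_pow_mem (p : ℕ) :
    ModularGroup.S * ModularGroup.T ^ p * ModularGroup.S⁻¹ ∈ CongruenceSubgroup.Gamma0 p := by
  rw [CongruenceSubgroup.Gamma0_mem, ← zpow_natCast]
  simp [-zpow_natCast, Matrix.SpecialLinearGroup.coe_inv, Matrix.adjugate_fin_two,
    ModularGroup.coe_S, ModularGroup.coe_T_zpow, Matrix.mul_apply, Fin.sum_univ_two]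


/-- coset representatives of `Γ₀(p)` in `SL(2, ℤ)` -/
noncomputable def nl1Rep (p : ℕ) : Option (Fin p) → SL(2, ℤ)
  | none => 1
  | some j => (ModularGroup.S * ModularGroup.T ^ (j : ℕ))⁻¹

theorem nl1Rep_bijective (p : ℕ) [Fact p.Prime] :
    Function.Bijective (fun o : Option (Fin p) =>
      (QuotientGroup.mk (nl1Rep p o) : SL(2, ℤ) ⧸ CongruenceSubgroup.Gamma0 p)) := by
  have hp : p.Prime := Fact.out
  have hp1 : ¬ (p : ℤ) ∣ 1 := by
    intro h
    have := Int.eq_one_of_dvd_one (by positivity) h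
    have h2 : p = 1 := by exact_mod_cast this
    exact hp.one_lt.ne' h2
  constructor
  · intro x y hxy
    simp only at hxy
    rw [Fermat.Agent.S24.mk_eq_mk_iff] at hxy
    cases x with
    | none =>
      cases y with
      | none => rfl
      | some j =>
        exfalso
        simp only [nl1Rep, nl1_rep_00, nl1_rep_10] at hxy
        apply hp1
        have h1 : ((1 : SL(2, ℤ)) 0 0 : ℤ) = 1 := rfl
        have h2 : ((1 : SL(2, ℤ)) 1 0 : ℤ) = 0 := rfl
        rw [h1, h2] at hxy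
        have := (dvd_neg).mpr hxy
        simpa using this
    | some i =>
      cases y with
      | none =>
        exfalso
        simp only [nl1Rep, nl1_rep_00, nl1_rep_10] at hxy
        apply hp1
        have h1 : ((1 : SL(2, ℤ)) 0 0 : ℤ) = 1 := rfl
        have h2 : ((1 : SL(2, ℤ)) 1 0 : ℤ) = 0 := rfl
        rw [h1, h2] at hxy
        simpa using hxy
      | some j =>
        simp only [nl1Rep, nl1_rep_00, nl1_rep_10] at hxy
        have h3 : (p : ℤ) ∣ (j : ℤ) - (i : ℤ) := by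
          have : (i : ℤ) * -1 - -1 * (j : ℤ) = (j : ℤ) - i := by ring
          rwa [this] at hxy
        have h4 : ((j : ℕ) : ℤ) - ((i : ℕ) : ℤ) = 0 := by
          apply Int.eq_zero_of_abs_lt_dvd h3
          have hi := i.2
          have hj := j.2
          rw [abs_lt]
          constructor <;> omega
        have h5 : (i : ℕ) = (j : ℕ) := by omega
        exact congrArg some (Fin.ext h5)
  · intro q
    induction q using QuotientGroup.induction_on with
    | H h =>
      by_cases hc : (p : ℤ) ∣ h 1 0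
      · refine ⟨none, ?_⟩
        simp only
        rw [Fermat.Agent.S24.mk_eq_mk_iff]
        have h1 : ((1 : SL(2, ℤ)) 0 0 : ℤ) = 1 := rfl
        have h2 : ((1 : SL(2, ℤ)) 1 0 : ℤ) = 0 := rfl
        simp only [nl1Rep, h1, h2]
        simpa using hc
      · have hc' : ((h 1 0 : ℤ) : ZMod p) ≠ 0 := fun h0 =>
          hc ((ZMod.intCast_zmod_eq_zero_iff_dvd _ _).mp h0)
        set j : ZMod p := -((h 0 0 : ℤ) : ZMod p) / ((h 1 0 : ℤ) : ZMod p) with hj
        have hjlt : j.val < p := ZMod.val_lt j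
        refine ⟨some ⟨j.val, hjlt⟩, ?_⟩
        simp only
        rw [Fermat.Agent.S24.mk_eq_mk_iff]
        simp only [nl1Rep, nl1_rep_00, nl1_rep_10]
        rw [← ZMod.intCast_zmod_eq_zero_iff_dvd]
        push_cast
        rw [ZMod.natCast_zmod_val, hj]
        field_simp
        ring


/-- `Fc(τ) = (F ∣[k] S)(p τ)` is nice -/
theorem nl1_nice_Fc (p : ℕ) [NeZero p] (k : ℤ) (F Fc : ℍ → ℂ) (hol : MDiff F)
    (hinv : ∀ γ ∈ CongruenceSubgroup.Gamma0 p, F ∣[k] γ = F) (hbdc : IsBoundedAtImInfty Fc)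
    (hFc : ∀ t t' : ℍ, (t' : ℂ) = p * t → Fc t = (F ∣[k] ModularGroup.S) t') : Nice Fc where
  holo := by
    have hp : p ≠ 0 := NeZero.ne p
    have hp' : (p : ℂ) ≠ 0 := by exact_mod_cast hp
    have h1 : MDiff ((F ∣[k] ModularGroup.S) ∣[k] ModularForm.heckeDiagMatrix p) :=
      (hol.slash k _).slash k _
    have h2 : Fc = (fun _ : ℍ => (p : ℂ) ^ (1 - k)) *
        ((F ∣[k] ModularGroup.S) ∣[k] ModularForm.heckeDiagMatrix p) := by
      funext τ
      rw [Pi.mul_apply, ModularForm.slash_heckeDiagMatrix_apply k hp,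
        hFc τ (ModularForm.heckeDiagMatrix p • τ) (ModularForm.coe_heckeDiagMatrix_smul hp τ),
        ← mul_assoc, ← zpow_add₀ hp', show 1 - k + (k - 1) = 0 by ring, zpow_zero, one_mul]
    rw [h2]
    exact MDifferentiable.mul (fun _ => mdifferentiableAt_const) h1
  per := by
    have hp : p ≠ 0 := NeZero.ne p
    intro z
    by_cases hz : 0 < z.im
    · have hz' : 0 < (z + 1).im := by simpa using hz
      simp only [Function.comp_apply]
      rw [ofComplex_apply_of_im_pos hz', ofComplex_apply_of_im_pos hz]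
      set w : ℍ := ⟨z, hz⟩ with hw
      set t' : ℍ := ModularForm.heckeDiagMatrix p • w with ht'
      have e1 : ((ModularGroup.T ^ p • t' : ℍ) : ℂ) = p * ((⟨z + 1, hz'⟩ : ℍ) : ℂ) := by
        rw [nl1_coe_T_pow_smul, ht', ModularForm.coe_heckeDiagMatrix_smul hp]
        show (p : ℂ) * z + p = p * (z + 1)
        ring
      rw [hFc _ _ e1, hFc w t' (ModularForm.coe_heckeDiagMatrix_smul hp w),
        ← nl1_slash_S_T_pow]
      have e2 : ModularGroup.S * ModularGroup.T ^ p =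
          (ModularGroup.S * ModularGroup.T ^ p * ModularGroup.S⁻¹) * ModularGroup.S := by
        group
      rw [e2, SlashAction.slash_mul, hinv _ (nl1_S_T_pow_mem p)]
    · have hz0 : z.im ≤ 0 := not_lt.mp hz
      have hz' : (z + 1).im ≤ 0 := by simpa using hz0
      simp only [Function.comp_apply]
      rw [ofComplex_apply_of_im_nonpos hz', ofComplex_apply_of_im_nonpos hz0]
  bdd := hbdc

/-- the conjugates `F ∣[k] (S T^j)` in terms of `Fc` -/
theorem nl1_conj_apply (p : ℕ) (hp : p ≠ 0) (k : ℤ) (F Fc : ℍ → ℂ)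
    (hFc : ∀ t t' : ℍ, (t' : ℂ) = p * t → Fc t = (F ∣[k] ModularGroup.S) t') (j : ℕ) (τ : ℍ) :
    (F ∣[k] (ModularGroup.S * ModularGroup.T ^ j)) τ = Fc (ModularForm.heckeMatrix p j • τ) := by
  have hp' : (p : ℂ) ≠ 0 := by exact_mod_cast hp
  rw [nl1_slash_S_T_pow]
  refine (hFc _ _ ?_).symm
  rw [nl1_coe_T_pow_smul, ModularForm.coe_heckeMatrix_smul hp]
  field_simp

/-- **Norm to level one.** -/
theorem nl1_exists (p : ℕ) [Fact p.Prime] (k : ℤ) (F Fc : ℍ → ℂ) (hol : MDiff F)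
    (hinv : ∀ γ ∈ CongruenceSubgroup.Gamma0 p, F ∣[k] γ = F)
    (hbd : IsBoundedAtImInfty F) (hbdc : IsBoundedAtImInfty Fc)
    (hFc : ∀ t t' : ℍ, (t' : ℂ) = p * t → Fc t = (F ∣[k] ModularGroup.S) t') :
    ∃ N : ModularForm 𝒮ℒ (k * (p + 1)),
      (∀ z, N z = F z *
        ∏ j ∈ Finset.range p, (F ∣[k] (ModularGroup.S * ModularGroup.T ^ j)) z) ∧
      qExpansion 1 N = qExpansion 1 F * psNorm p (qExpansion 1 Fc) := by
  classical
  have hprime : p.Prime := Fact.out
  have hp : p ≠ 0 := hprime.ne_zero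
  have : NeZero p := ⟨hp⟩
  have hpos : (0 : ℝ) < p := by exact_mod_cast hprime.pos
  have hFnice : Nice F := nl1_nice_of_inv p k F hol hinv hbd
  have hFcnice : Nice Fc := nl1_nice_Fc p k F Fc hol hinv hbdc hFc
  set conj : ℕ → ℍ → ℂ := fun j => F ∣[k] (ModularGroup.S * ModularGroup.T ^ j) with hconj
  have hconj_apply : ∀ j τ, conj j τ = Fc (ModularForm.heckeMatrix p j • τ) :=
    fun j τ => nl1_conj_apply p hp k F Fc hFc j τ
  have hconj_nice : ∀ j, UnitQNice (p : ℝ) (conj j) :=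
    fun j => nl1_nice_some p hp j Fc hFcnice (conj j) (hconj_apply j)
  have hF_unit : UnitQNice (p : ℝ) F := UnitQNice.of_nice p hFnice
  set Nf : ℍ → ℂ := F * ∏ j ∈ Finset.range p, conj j with hNf
  have hNf_unit : UnitQNice (p : ℝ) Nf :=
    hF_unit.mul (UnitQNice.prod _ fun j _ => hconj_nice j)
  -- invariance under `SL(2, ℤ)`
  let _ : Fintype (SL(2, ℤ) ⧸ CongruenceSubgroup.Gamma0 p) := Fintype.ofFinite _
  set a : SL(2, ℤ) ⧸ CongruenceSubgroup.Gamma0 p → ℍ → ℂ :=
    SymAux.conjFun (CongruenceSubgroup.Gamma0 p) F k with ha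
  have hbij := nl1Rep_bijective p
  have hprod : ∏ q, a q = Nf := by
    rw [← Fintype.prod_bijective _ hbij (fun o => a (QuotientGroup.mk (nl1Rep p o))) a
      (fun _ => rfl), Fintype.prod_option, hNf]
    congr 1
    · show a (QuotientGroup.mk 1) = F
      exact SymAux.conjFun_one hinv
    · rw [← Fin.prod_univ_eq_prod_range (fun j => conj j) p]
      refine Finset.prod_congr rfl fun j _ => ?_
      show a (QuotientGroup.mk ((ModularGroup.S * ModularGroup.T ^ (j : ℕ))⁻¹)) = conj j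
      rw [ha, SymAux.conjFun_mk hinv, inv_inv]
  have hcard : Fintype.card (SL(2, ℤ) ⧸ CongruenceSubgroup.Gamma0 p) = p + 1 := by
    rw [← Fintype.card_of_bijective hbij, Fintype.card_option, Fintype.card_fin]
  have hinvN : ∀ γ : SL(2, ℤ), Nf ∣[k * (p + 1)] γ = Nf := by
    intro γ
    have h1 := SymAux.prod_slash_SL (Finset.univ : Finset (SL(2, ℤ) ⧸ CongruenceSubgroup.Gamma0 p))
      a k γ
    rw [Finset.card_univ, hcard] at h1
    have h2 : ((p + 1 : ℕ) : ℤ) * k = k * (p + 1) := by push_cast; ring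
    rw [h2, hprod] at h1
    rw [h1]
    have h3 : (fun q => a q ∣[k] γ) = fun q => a (MulAction.toPerm γ⁻¹ q) := by
      funext q
      exact SymAux.conjFun_slash hinv γ q
    rw [show (∏ i, (a i ∣[k] γ)) = ∏ i, (fun q => a q ∣[k] γ) i from rfl, h3,
      Equiv.prod_comp (MulAction.toPerm γ⁻¹) a, hprod]
  refine ⟨SymAux.mkLevelOne (k * (p + 1)) Nf hinvN hNf_unit.holo hNf_unit.bdd, fun z => ?_, ?_⟩
  · rw [SymAux.mkLevelOne_apply, hNf, Pi.mul_apply, Finset.prod_apply]
  · set N := SymAux.mkLevelOne (k * (p + 1)) Nf hinvN hNf_unit.holo hNf_unit.bdd with hN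
    have hNnice : Nice (⇑N) := nice_levelOne N
    have hcoe : (⇑N : ℍ → ℂ) = Nf := rfl
    have e1 : qExpansion (p : ℝ) Nf = PowerSeries.expand p hp (qExpansion 1 N) := by
      rw [← hcoe]
      exact nl1_qExpansion_nice p hp _ hNnice
    have e2 : qExpansion (p : ℝ) Nf =
        PowerSeries.expand p hp (qExpansion 1 F * psNorm p (qExpansion 1 Fc)) := by
      rw [hNf, hF_unit.qExpansion_mul hpos (UnitQNice.prod _ fun j _ => hconj_nice j),
        UnitQNice.qExpansion_prod hpos _ (fun j _ => hconj_nice j),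
        nl1_qExpansion_nice p hp F hFnice, map_mul, psNorm_expand, psNormProd]
      congr 1
      refine Finset.prod_congr rfl fun j _ => ?_
      exact nl1_qExpansion_some p hp j Fc hFcnice (conj j) (hconj_apply j)
    have e3 := e1.symm.trans e2
    ext n
    have e4 := congrArg (PowerSeries.coeff (p * n)) e3
    rwa [PowerSeries.coeff_expand_mul, PowerSeries.coeff_expand_mul] at e4

/-- **Norm to level one, modulo `J`.**  `O` a subring of `ℂ` containing a primitive `p`-th root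
of unity, `J` an additive subgroup of `ℂ` stable under multiplication by `O`.  If the
q-expansions `α` of `F` and `β` of `Fc` have coefficients in `O`, `α ≡ a₀` and
`β ≡ b₀(q^p)` modulo `J`, then the norm of `F` is a level one form of weight `k (p + 1)` whose
q-expansion has coefficients in `O` and is `≡ a₀ b₀^p` modulo `J`. -/
theorem nl1_mod (p : ℕ) [Fact p.Prime] (hp : p ≠ 0) (k : ℤ) (F Fc : ℍ → ℂ) (hol : MDiff F)
    (hinv : ∀ γ ∈ CongruenceSubgroup.Gamma0 p, F ∣[k] γ = F)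
    (hbd : IsBoundedAtImInfty F) (hbdc : IsBoundedAtImInfty Fc)
    (hFc : ∀ t t' : ℍ, (t' : ℂ) = p * t → Fc t = (F ∣[k] ModularGroup.S) t')
    (O : Subring ℂ) (ζ : ℂ) (hζ : IsPrimitiveRoot ζ p) (hζO : ζ ∈ O)
    (J : AddSubgroup ℂ) (hJ : ∀ a ∈ O, ∀ x ∈ J, a * x ∈ J)
    (a0 b0 : PowerSeries ℂ) (ha : PsIn O (qExpansion 1 F)) (hb : PsIn O (qExpansion 1 Fc))
    (hb0 : PsIn O b0) (h1 : PsCong J (qExpansion 1 F) a0)
    (h2 : PsCong J (qExpansion 1 Fc) (PowerSeries.expand p hp b0)) :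
    ∃ N : ModularForm 𝒮ℒ (k * (p + 1)),
      (∀ z, N z = F z *
        ∏ j ∈ Finset.range p, (F ∣[k] (ModularGroup.S * ModularGroup.T ^ j)) z) ∧
      PsIn O (qExpansion 1 N) ∧ PsCong J (qExpansion 1 N) (a0 * b0 ^ p) := by
  obtain ⟨N, hN1, hN2⟩ := nl1_exists p k F Fc hol hinv hbd hbdc hFc
  obtain ⟨h3, h4⟩ := psNorm_mod p hp O ζ hζ hζO J hJ (qExpansion 1 Fc) b0 hb hb0 h2
  refine ⟨N, hN1, ?_, ?_⟩
  · rw [hN2]
    exact ha.mul h3
  · rw [hN2]
    exact PsCong.mul hJ ha (hb0.pow p) h1 h4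

end Fermat.Agent.S16
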