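import Mathlib
import Fermat.Agent.S16.NormLevelOne
import Fermat.Agent.S16.LevelOneOrder

/-!
# Norm to level one + level-one order bound

The contradiction mechanism of the "order count" upper bound: if `F` has weight `k < 12` on
`Γ₀(p)`, with expansions `α ≡ a₀`, `β ≡ b₀(q^p)` modulo `J` at the two cusps, and `a₀`, `b₀` have
zero constant term, then the norm of `F` (weight `k (p + 1) < 12 (p + 1)`) has its first `p + 1`
coefficients in `J`, hence all of them, in particular the coefficient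
`a₀[1] * b₀[1]^p` of `q^(p+1)`.
-/

set_option autoImplicit false

open UpperHalfPlane ModularForm Filter
open scoped MatrixGroups Manifold

namespace Fermat.Agent.S16

theorem nl1_mul_pow_eq (a0 b0 : PowerSeries ℂ) (ha : PowerSeries.constantCoeff a0 = 0)
    (hb : PowerSeries.constantCoeff b0 = 0) (p : ℕ) :
    ∃ a1 b1 : PowerSeries ℂ, a0 = PowerSeries.X * a1 ∧ b0 = PowerSeries.X * b1 ∧
      a0 * b0 ^ p = PowerSeries.X ^ (p + 1) * (a1 * b1 ^ p) := by
  obtain ⟨a1, rfl⟩ := PowerSeries.X_dvd_iff.mpr ha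
  obtain ⟨b1, rfl⟩ := PowerSeries.X_dvd_iff.mpr hb
  exact ⟨a1, b1, rfl, rfl, by ring⟩

theorem nl1_coeff_mul_pow_of_le (a0 b0 : PowerSeries ℂ) (ha : PowerSeries.constantCoeff a0 = 0)
    (hb : PowerSeries.constantCoeff b0 = 0) (p i : ℕ) (hi : i ≤ p) :
    PowerSeries.coeff i (a0 * b0 ^ p) = 0 := by
  obtain ⟨a1, b1, -, -, h⟩ := nl1_mul_pow_eq a0 b0 ha hb p
  rw [h, PowerSeries.coeff_X_pow_mul', if_neg (by omega)]

theorem nl1_coeff_mul_pow_succ (a0 b0 : PowerSeries ℂ) (ha : PowerSeries.constantCoeff a0 = 0)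
    (hb : PowerSeries.constantCoeff b0 = 0) (p : ℕ) :
    PowerSeries.coeff (p + 1) (a0 * b0 ^ p) =
      PowerSeries.coeff 1 a0 * PowerSeries.coeff 1 b0 ^ p := by
  obtain ⟨a1, b1, h1, h2, h⟩ := nl1_mul_pow_eq a0 b0 ha hb p
  rw [h, PowerSeries.coeff_X_pow_mul', if_pos le_rfl, Nat.sub_self, h1, h2,
    PowerSeries.coeff_zero_eq_constantCoeff, map_mul, map_pow,
    show (1 : ℕ) = 0 + 1 from rfl, PowerSeries.coeff_succ_X_mul, PowerSeries.coeff_succ_X_mul,
    PowerSeries.coeff_zero_eq_constantCoeff]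

/-- **Order-count contradiction.** -/
theorem nl1_order_contra (p : ℕ) [Fact p.Prime] (hp : p ≠ 0) (k : ℤ) (hk : k < 12)
    (F Fc : ℍ → ℂ) (hol : MDiff F)
    (hinv : ∀ γ ∈ CongruenceSubgroup.Gamma0 p, F ∣[k] γ = F)
    (hbd : IsBoundedAtImInfty F) (hbdc : IsBoundedAtImInfty Fc)
    (hFc : ∀ t t' : ℍ, (t' : ℂ) = p * t → Fc t = (F ∣[k] ModularGroup.S) t')
    (O : Subring ℂ) (ζ : ℂ) (hζ : IsPrimitiveRoot ζ p) (hζO : ζ ∈ O)
    (J : AddSubgroup ℂ) (hJ : ∀ a ∈ O, ∀ x ∈ J, a * x ∈ J)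
    (a0 b0 : PowerSeries ℂ) (ha : PsIn O (qExpansion 1 F)) (hb : PsIn O (qExpansion 1 Fc))
    (hb0 : PsIn O b0) (h1 : PsCong J (qExpansion 1 F) a0)
    (h2 : PsCong J (qExpansion 1 Fc) (PowerSeries.expand p hp b0))
    (ha00 : PowerSeries.constantCoeff a0 = 0) (hb00 : PowerSeries.constantCoeff b0 = 0) :
    PowerSeries.coeff 1 a0 * PowerSeries.coeff 1 b0 ^ p ∈ J := by
  obtain ⟨N, -, -, hN⟩ := nl1_mod p hp k F Fc hol hinv hbd hbdc hFc O ζ hζ hζO J hJ a0 b0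
    ha hb hb0 h1 h2
  have hlow : ∀ i : ℕ, 12 * (i : ℤ) ≤ k * (p + 1) → (qExpansion 1 N).coeff i ∈ J := by
    intro i hi
    have hip : i ≤ p := by
      by_contra hcon
      have h3 : (p : ℤ) + 1 ≤ i := by omega
      have h4 : (0 : ℤ) < (p : ℤ) + 1 := by positivity
      nlinarith
    have h5 := hN i
    rwa [nl1_coeff_mul_pow_of_le a0 b0 ha00 hb00 p i hip, sub_zero] at h5
  have hall := lo_order_bound J (k * (p + 1)) N hlow (p + 1)
  have h6 := hN (p + 1)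
  rw [nl1_coeff_mul_pow_succ a0 b0 ha00 hb00 p] at h6
  have h7 := J.sub_mem hall h6
  rwa [sub_sub_cancel] at h7

end Fermat.Agent.S16
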