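/-
S16, upper bound, order-count route (finding 115), Steps 3 and 4 (odd `l ≠ p`):
there is no `H ∈ M₂(Γ₀(p))` with integral `q`-expansion `≡ 1 mod l ^ e` when `l ^ e ∣ p + 1`,
for `(l ≥ 5, e = 1)` and `(l, e) = (3, 2)`.

Method: all `p + 1` conjugates of `F = H² - E₄` (resp. `H³ - E₆` for `l = 5`, `(H² - E₄)/3` for
`l = 3`) are `≡ c·(q + …)` modulo the maximal ideal of a valuation ring of `ℂ` above `l`; the norm
of `F` to level one then has weight `< 12 (p + 1)` but vanishes to order exactly `p + 1` modulo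
that ideal, contradicting the level one order bound.
-/
import Mathlib
import Fermat.Agent.Lib.JDict
import Fermat.Agent.S23.Nice
import Fermat.Agent.S23.TNForm
import Fermat.Agent.S16.Defs
import Fermat.Agent.S16.Fricke
import Fermat.Agent.S16.NormOrder

set_option autoImplicit false

open UpperHalfPlane ModularForm CongruenceSubgroup
open scoped MatrixGroups Manifold

namespace Fermat.Agent.S16

/-! ### A valuation ring of `ℂ` above `l` -/

/-- A valuation subring of `ℂ` in which the prime `l` is a non-unit. -/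
theorem oc_exists_valuationSubring (l : ℕ) (hl : l.Prime) :
    ∃ B : ValuationSubring ℂ, (l : ℂ) ∈ B.nonunits := by
  let A : Subring ℂ := ⊥
  have hlA : (l : ℂ) ∈ A := natCast_mem A l
  let I : Ideal A := Ideal.span {(⟨(l : ℂ), hlA⟩ : A)}
  have hI : I ≠ ⊤ := by
    intro h
    rw [Ideal.eq_top_iff_one, Ideal.mem_span_singleton'] at h
    obtain ⟨⟨a, ha⟩, h1⟩ := h
    obtain ⟨m, rfl⟩ := Subring.mem_bot.mp ha
    have h2 : ((m : ℂ) * (l : ℂ)) = 1 := congrArg Subtype.val h1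
    have h3 : m * (l : ℤ) = 1 := by exact_mod_cast h2
    have h4 : (l : ℤ) ∣ 1 := Dvd.intro_left m h3
    have h5 : l ∣ 1 := by exact_mod_cast h4
    exact hl.one_lt.ne' (Nat.dvd_one.mp h5)
  obtain ⟨B, -, hB⟩ := Ideal.image_subset_nonunits_valuationSubring I hI
  exact ⟨B, hB ⟨⟨(l : ℂ), hlA⟩, Ideal.subset_span rfl, rfl⟩⟩

/-- An integer prime to `l` is invertible in `B`. -/
theorem oc_inv_mem (B : ValuationSubring ℂ) {l : ℕ} (hB : (l : ℂ) ∈ B.nonunits) {m : ℤ}
    (hm : IsCoprime m (l : ℤ)) : ((m : ℂ))⁻¹ ∈ B := by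
  by_contra h
  have hm0 : (m : ℂ) ∈ B.nonunits := by
    rw [ValuationSubring.mem_nonunits_iff_or]
    exact Or.inr h
  obtain ⟨a, b, hab⟩ := hm
  have h1 : ((a : ℂ) * (m : ℂ) + (b : ℂ) * ((l : ℤ) : ℂ)) = 1 := by exact_mod_cast hab
  have h2 : (1 : ℂ) ∈ B.nonunits := by
    rw [← h1]
    refine add_mem ?_ ?_
    · rw [ValuationSubring.mem_nonunits_iff] at hm0 ⊢
      rw [map_mul]
      exact mul_lt_one_of_nonneg_of_lt_one_right
        ((B.valuation_le_one_iff _).mpr (intCast_mem B a)) zero_le hm0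
    · rw [ValuationSubring.mem_nonunits_iff] at hB ⊢
      rw [map_mul]
      exact mul_lt_one_of_nonneg_of_lt_one_right
        ((B.valuation_le_one_iff _).mpr (intCast_mem B b)) zero_le (by simpa using hB)
  rw [ValuationSubring.mem_nonunits_iff, map_one] at h2
  exact lt_irrefl _ h2

/-- Roots of unity lie in `B`. -/
theorem oc_root_mem (B : ValuationSubring ℂ) {ζ : ℂ} {n : ℕ} (hn : 0 < n) (hζ : ζ ^ n = 1) :
    ζ ∈ B := by
  rcases B.mem_or_inv_mem ζ with h | h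
  · exact h
  · have : ζ = (ζ⁻¹) ^ (n - 1) := by
      rw [inv_pow]
      apply eq_inv_of_mul_eq_one_left
      rw [← pow_succ', Nat.sub_add_cancel hn, hζ]
    rw [this]
    exact pow_mem h _

/-- The maximal ideal of `B`, as an additive subgroup of `ℂ`. -/
noncomputable def ocJ (B : ValuationSubring ℂ) : AddSubgroup ℂ := B.nonunits.toAddSubgroup

theorem oc_mem_J (B : ValuationSubring ℂ) (x : ℂ) : x ∈ ocJ B ↔ x ∈ B.nonunits := Iff.rfl

theorem oc_J_mul (B : ValuationSubring ℂ) (a : ℂ) (ha : a ∈ B.toSubring) (x : ℂ) (hx : x ∈ ocJ B) :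
    a * x ∈ ocJ B := by
  rw [oc_mem_J, ValuationSubring.mem_nonunits_iff] at hx ⊢
  rw [map_mul]
  exact mul_lt_one_of_nonneg_of_lt_one_right ((B.valuation_le_one_iff _).mpr ha) zero_le hx

/-- Coefficientwise inclusion `B⟦q⟧ → ℂ⟦q⟧`. -/
noncomputable abbrev ocPhi (B : ValuationSubring ℂ) : PowerSeries B →+* PowerSeries ℂ :=
  PowerSeries.map B.subtype

/-- Coefficientwise reduction `B⟦q⟧ → κ⟦q⟧`. -/
noncomputable abbrev ocRho (B : ValuationSubring ℂ) :
    PowerSeries B →+* PowerSeries (IsLocalRing.ResidueField B) :=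
  PowerSeries.map (IsLocalRing.residue B)

theorem oc_coeff_mem (B : ValuationSubring ℂ) (f : PowerSeries B) (n : ℕ) :
    (ocPhi B f).coeff n ∈ B.toSubring := by
  rw [PowerSeries.coeff_map]
  exact (f.coeff n).2

theorem oc_sub_mem (B : ValuationSubring ℂ) (f g : PowerSeries B) (h : ocRho B f = ocRho B g)
    (n : ℕ) : (ocPhi B f - ocPhi B g).coeff n ∈ ocJ B := by
  have h1 : IsLocalRing.residue B (f.coeff n - g.coeff n) = 0 := by
    have h2 := congrArg (PowerSeries.coeff n) h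
    rw [PowerSeries.coeff_map, PowerSeries.coeff_map] at h2
    rw [map_sub, h2, sub_self]
  rw [IsLocalRing.residue_eq_zero_iff] at h1
  rw [map_sub, PowerSeries.coeff_map, PowerSeries.coeff_map, oc_mem_J]
  have h3 := (ValuationSubring.coe_mem_nonunits_iff (A := B)).mpr h1
  simpa using h3

/-! ### The core contradiction -/

/-- If all conjugates of a `Γ₀(p)`-form `F` of weight `k < 12` reduce to the same series `a`
with a simple zero at `q = 0`, we get a contradiction. -/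
theorem oc_core (B : ValuationSubring ℂ) (p : ℕ) [Fact p.Prime] (k : ℤ) (hk : k < 12)
    (F Fc : ℍ → ℂ) (hol : MDiff F)
    (hinv : ∀ g ∈ Gamma0 p, F ∣[k] g = F) (hbd : IsBoundedAtImInfty F)
    (hbdc : IsBoundedAtImInfty Fc)
    (hFc : ∀ t t' : ℍ, (t' : ℂ) = p * t → Fc t = (F ∣[k] ModularGroup.S) t')
    (f fc a : PowerSeries B) (hf : ocPhi B f = qExpansion 1 F) (hfc : ocPhi B fc = qExpansion 1 Fc)
    (ha0 : PowerSeries.constantCoeff a = 0) (ha1 : IsUnit (a.coeff 1))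
    (h1 : ocRho B f = ocRho B a)
    (h2 : ocRho B fc = ocRho B (PowerSeries.expand p (Fact.out : p.Prime).ne_zero a)) : False := by
  have hp0 : p ≠ 0 := (Fact.out : p.Prime).ne_zero
  have hζ : IsPrimitiveRoot (Complex.exp (2 * Real.pi * Complex.I / p)) p :=
    Complex.isPrimitiveRoot_exp p hp0
  have hc0 : PowerSeries.constantCoeff (ocPhi B a) = 0 := by
    rw [← PowerSeries.coeff_zero_eq_constantCoeff_apply, PowerSeries.coeff_map,
      PowerSeries.coeff_zero_eq_constantCoeff_apply, ha0, map_zero]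
  have key := nl1_order_contra p hp0 k hk F Fc hol hinv hbd hbdc hFc B.toSubring _ hζ
    (oc_root_mem B (Nat.pos_of_ne_zero hp0) hζ.pow_eq_one) (ocJ B) (oc_J_mul B)
    (ocPhi B a) (ocPhi B a)
    (by rw [← hf]; exact oc_coeff_mem B f) (by rw [← hfc]; exact oc_coeff_mem B fc)
    (oc_coeff_mem B a)
    (fun n => by
      have h3 := oc_sub_mem B f a h1 n
      rwa [map_sub, hf] at h3)
    (fun n => by
      have h3 := oc_sub_mem B fc _ h2 n
      rwa [map_sub, hfc, PowerSeries.map_expand] at h3)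
    hc0 hc0
  rw [PowerSeries.coeff_map, ← map_pow, ← map_mul, oc_mem_J] at key
  have h4 := (ValuationSubring.coe_mem_nonunits_iff (A := B)
    (a := (PowerSeries.coeff 1) a * (PowerSeries.coeff 1) a ^ p)).mp key
  exact (IsLocalRing.mem_maximalIdeal _).mp h4 (ha1.mul (ha1.pow _))

/-! ### Function-level helpers -/

open Fermat.Agent.S23 (Nice nice_levelOne nice_of_modularForm_Gamma0)
open Fermat.Agent.Lib.JDict (vd vd_mdiff vd_bdd vd_periodic qExpansion_vd_coeff)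

theorem oc_nice_vd {p : ℕ} (hp : p ≠ 0) {k : ℤ} (g : ModularForm 𝒮ℒ k) : Nice (vd p ⇑g) where
  holo := vd_mdiff p (nice_levelOne g).holo
  per := vd_periodic hp (nice_levelOne g).per
  bdd := vd_bdd hp (nice_levelOne g).bdd

theorem oc_qExpansion_vd {p : ℕ} (hp : p ≠ 0) {k : ℤ} (g : ModularForm 𝒮ℒ k) :
    qExpansion 1 (vd p ⇑g) = PowerSeries.expand p hp (qExpansion 1 ⇑g) := by
  ext n
  rw [qExpansion_vd_coeff hp (nice_levelOne g).per (nice_levelOne g).holo (nice_levelOne g).bdd,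
    PowerSeries.coeff_expand]

theorem oc_vd_apply {p : ℕ} (hp : p ≠ 0) (F : ℍ → ℂ) (t t' : ℍ) (h : (t' : ℂ) = p * t) :
    vd p F t = F t' := by
  unfold vd
  congr 1
  apply UpperHalfPlane.ext
  rw [ModularForm.coe_heckeDiagMatrix_smul hp, h]

theorem oc_sub_slash (k : ℤ) (f g : ℍ → ℂ) (γ : SL(2, ℤ)) :
    (f - g) ∣[k] γ = f ∣[k] γ - g ∣[k] γ := by
  rw [sub_eq_add_neg, SlashAction.add_slash, SlashAction.neg_slash, ← sub_eq_add_neg]

theorem oc_sq_slash (f : ℍ → ℂ) (γ : SL(2, ℤ)) :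
    (f ^ 2) ∣[(4 : ℤ)] γ = (f ∣[(2 : ℤ)] γ) ^ 2 := by
  rw [sq, sq, show (4 : ℤ) = 2 + 2 by norm_num, mul_slash_SL2]

theorem oc_cube_slash (f : ℍ → ℂ) (γ : SL(2, ℤ)) :
    (f ^ 3) ∣[(6 : ℤ)] γ = (f ∣[(2 : ℤ)] γ) ^ 3 := by
  rw [pow_succ, pow_succ (f ∣[(2 : ℤ)] γ), show (6 : ℤ) = 4 + 2 by norm_num, mul_slash_SL2,
    oc_sq_slash]

theorem oc_slash_Gamma0 {p : ℕ} {k : ℤ} (G : ModularForm (Gamma0 p) k) (g : SL(2, ℤ))
    (hg : g ∈ Gamma0 p) : (⇑G) ∣[k] g = ⇑G :=
  SlashInvariantForm.slash_action_eqn G _ ⟨g, hg, rfl⟩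

theorem oc_slash_levelOne {k : ℤ} (G : ModularForm 𝒮ℒ k) (g : SL(2, ℤ)) : (⇑G) ∣[k] g = ⇑G :=
  SlashInvariantForm.slash_action_eqn G _ ⟨g, rfl⟩

/-! ### Integral `q`-expansions of `E₄`, `E₆` -/

/-- `∑ σ₃(n) qⁿ`. -/
def ocA : PowerSeries ℤ :=
  PowerSeries.mk fun n => if n = 0 then 0 else ∑ d ∈ n.divisors, (d : ℤ) ^ 3

/-- `∑ σ₅(n) qⁿ`. -/
def ocB5 : PowerSeries ℤ :=
  PowerSeries.mk fun n => if n = 0 then 0 else ∑ d ∈ n.divisors, (d : ℤ) ^ 5

theorem oc_constantCoeff_A : PowerSeries.constantCoeff ocA = 0 := by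
  rw [← PowerSeries.coeff_zero_eq_constantCoeff_apply, ocA, PowerSeries.coeff_mk, if_pos rfl]

theorem oc_coeff_one_A : ocA.coeff 1 = 1 := by
  rw [ocA, PowerSeries.coeff_mk, if_neg one_ne_zero]
  simp

theorem oc_constantCoeff_B5 : PowerSeries.constantCoeff ocB5 = 0 := by
  rw [← PowerSeries.coeff_zero_eq_constantCoeff_apply, ocB5, PowerSeries.coeff_mk, if_pos rfl]

theorem oc_coeff_one_B5 : ocB5.coeff 1 = 1 := by
  rw [ocB5, PowerSeries.coeff_mk, if_neg one_ne_zero]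
  simp

/-- `ℤ⟦q⟧ → B⟦q⟧`. -/
noncomputable abbrev ocInt (B : ValuationSubring ℂ) : PowerSeries ℤ →+* PowerSeries B :=
  PowerSeries.map (Int.castRingHom B)

theorem oc_phi_int (B : ValuationSubring ℂ) (f : PowerSeries ℤ) :
    ocPhi B (ocInt B f) = PowerSeries.map (Int.castRingHom ℂ) f := by
  ext n
  simp

theorem oc_qExpansion_E4 (B : ValuationSubring ℂ) :
    qExpansion 1 E₄ = ocPhi B (1 + 240 * ocInt B ocA) := by
  have h : (1 + 240 * ocInt B ocA : PowerSeries B) = ocInt B (1 + 240 * ocA) := by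
    rw [map_add, map_mul, map_one, map_ofNat]
  rw [h, oc_phi_int]
  ext n
  rw [EisensteinSeries.E_qExpansion_coeff _ ⟨2, rfl⟩, PowerSeries.coeff_map]
  have h2 : (1 + 240 * ocA : PowerSeries ℤ).coeff n =
      if n = 0 then 1 else 240 * ∑ d ∈ n.divisors, (d : ℤ) ^ 3 := by
    rw [map_add, PowerSeries.coeff_one, show (240 : PowerSeries ℤ) = PowerSeries.C (240 : ℤ) by simp,
      PowerSeries.coeff_C_mul, ocA, PowerSeries.coeff_mk]
    split_ifs <;> simp
  rw [h2]
  split_ifs with hn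
  · simp
  · rw [ArithmeticFunction.sigma_apply]
    push_cast
    norm_num [show bernoulli 4 = -1 / 30 by decide +kernel]

theorem oc_qExpansion_E6 (B : ValuationSubring ℂ) :
    qExpansion 1 E₆ = ocPhi B (1 - 504 * ocInt B ocB5) := by
  have h : (1 - 504 * ocInt B ocB5 : PowerSeries B) = ocInt B (1 - 504 * ocB5) := by
    rw [map_sub, map_mul, map_one, map_ofNat]
  rw [h, oc_phi_int]
  ext n
  rw [EisensteinSeries.E_qExpansion_coeff _ ⟨3, rfl⟩, PowerSeries.coeff_map]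
  have h2 : (1 - 504 * ocB5 : PowerSeries ℤ).coeff n =
      if n = 0 then 1 else -504 * ∑ d ∈ n.divisors, (d : ℤ) ^ 5 := by
    rw [map_sub, PowerSeries.coeff_one, show (504 : PowerSeries ℤ) = PowerSeries.C (504 : ℤ) by simp,
      PowerSeries.coeff_C_mul, ocB5, PowerSeries.coeff_mk]
    split_ifs <;> simp
  rw [h2]
  split_ifs with hn
  · simp
  · rw [ArithmeticFunction.sigma_apply]
    push_cast
    norm_num [show bernoulli 6 = 1 / 42 by decide +kernel]

/-! ### Reduction facts -/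

theorem oc_natCast_mem_maximalIdeal (B : ValuationSubring ℂ) {l : ℕ} (hB : (l : ℂ) ∈ B.nonunits) :
    (l : B) ∈ IsLocalRing.maximalIdeal B := by
  apply (ValuationSubring.coe_mem_nonunits_iff (A := B)).mp
  simpa using hB

theorem oc_rho_l (B : ValuationSubring ℂ) {l : ℕ} (hB : (l : ℂ) ∈ B.nonunits) :
    ocRho B (l : PowerSeries B) = 0 := by
  have h1 : IsLocalRing.residue B (l : B) = 0 :=
    (IsLocalRing.residue_eq_zero_iff _).mpr (oc_natCast_mem_maximalIdeal B hB)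
  have h2 : (l : PowerSeries B) = PowerSeries.C (l : B) := by simp
  rw [h2, PowerSeries.map_C, h1, map_zero]

theorem oc_isUnit_intCast (B : ValuationSubring ℂ) {l : ℕ} (hB : (l : ℂ) ∈ B.nonunits) {m : ℤ}
    (hm : IsCoprime m (l : ℤ)) : IsUnit (m : B) := by
  have h := oc_inv_mem B hB hm
  refine IsUnit.of_mul_eq_one (⟨((m : ℂ))⁻¹, h⟩ : B) ?_
  apply Subtype.ext
  have hm0 : (m : ℂ) ≠ 0 := by
    intro h0
    have h1 : m = 0 := by exact_mod_cast h0
    rw [h1, isCoprime_zero_left] at hm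
    have h2 : (l : ℂ) ∈ B.nonunits := hB
    rw [ValuationSubring.mem_nonunits_iff] at h2
    have h3 : IsUnit (l : ℤ) := hm
    rcases Int.isUnit_iff.mp h3 with h4 | h4
    · have : (l : ℂ) = 1 := by exact_mod_cast h4
      rw [this, map_one] at h2
      exact lt_irrefl _ h2
    · have : (l : ℤ) = -1 := h4
      omega
  simp [hm0]

/-- The two expansions of `H` and their integral models. -/
theorem oc_setup (B : ValuationSubring ℂ) (p : ℕ) [Fact p.Prime] (l e : ℕ)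
    (hB : (l : ℂ) ∈ B.nonunits) (hl : l.Prime) (hlp : l ≠ p) (hpe : l ^ e ∣ p + 1)
    (H : ModularForm (Gamma0 p) 2) (X : ℕ → ℤ)
    (hH : ∀ n : ℕ, (qExpansion 1 H).coeff n = (if n = 0 then 1 else 0) + (l : ℂ) ^ e * (X n)) :
    ∃ (Hc : ℍ → ℂ) (Xs Ys : PowerSeries B), Nice Hc ∧
      (∀ t t' : ℍ, (t' : ℂ) = p * t → Hc t = ((⇑H) ∣[(2 : ℤ)] ModularGroup.S) t') ∧
      ocPhi B (1 + (l : PowerSeries B) ^ e * Xs) = qExpansion 1 ⇑H ∧
      ocPhi B (1 + (l : PowerSeries B) ^ e * Ys) = qExpansion 1 Hc := by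
  have hp : p.Prime := Fact.out
  have : NeZero p := ⟨hp.ne_zero⟩
  have hp0 : (p : ℂ) ≠ 0 := by exact_mod_cast hp.ne_zero
  obtain ⟨W, hW⟩ := exists_isFricke p H
  have hcop : IsCoprime ((p : ℕ) : ℤ) (l : ℤ) := by
    rw [Nat.isCoprime_iff_coprime]
    exact (Nat.coprime_primes hp hl).mpr (Ne.symm hlp)
  have hpinv : ((p : ℂ))⁻¹ ∈ B := by
    have := oc_inv_mem B hB hcop
    simpa using this
  obtain ⟨t, ht⟩ := hpe
  have htC : (p : ℂ) + 1 = (l : ℂ) ^ e * (t : ℂ) := by exact_mod_cast ht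
  have hNW : Nice (⇑W) := nice_of_modularForm_Gamma0 W
  have hcoe : ∀ (Z : PowerSeries B) (n : ℕ),
      (ocPhi B (1 + (l : PowerSeries B) ^ e * Z)).coeff n =
        (if n = 0 then 1 else 0) + (l : ℂ) ^ e * ((Z.coeff n : B) : ℂ) := by
    intro Z n
    have h2 : ((l : PowerSeries B)) ^ e = PowerSeries.C ((l : B) ^ e) := by simp
    rw [PowerSeries.coeff_map, map_add, h2, PowerSeries.coeff_C_mul, PowerSeries.coeff_one]
    split_ifs <;> simp
  refine ⟨((p : ℂ))⁻¹ • ⇑W, PowerSeries.mk fun n => (X n : B),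
    PowerSeries.mk fun n => -(⟨((p : ℂ))⁻¹, hpinv⟩ : B) * (X (p * n) : B)
      - (if n = 0 then (⟨((p : ℂ))⁻¹, hpinv⟩ : B) * (t : B) else 0), hNW.smul _, ?_, ?_, ?_⟩
  · intro z z' h
    rw [hW z', Pi.smul_apply, smul_eq_mul]
    congr 2
    rw [h, mul_div_cancel_left₀ _ hp0, ofComplex_apply]
  · ext n
    rw [hcoe, hH n, PowerSeries.coeff_mk]
    simp
  · ext n
    rw [hcoe, hNW.qExpansion_smul, PowerSeries.coeff_smul, smul_eq_mul, PowerSeries.coeff_mk]
    have h3 : (qExpansion 1 ⇑W).coeff n = -(qExpansion 1 ⇑H).coeff (p * n) := hW.qCoeff n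
    rw [h3, hH (p * n)]
    by_cases hn : n = 0
    · subst hn
      simp only [mul_zero, if_true]
      push_cast
      field_simp
      linear_combination htC
    · have hpn : p * n ≠ 0 := Nat.mul_ne_zero hp.ne_zero hn
      simp only [if_neg hn, if_neg hpn]
      push_cast
      ring

theorem oc_constantCoeff_int (B : ValuationSubring ℂ) (f : PowerSeries ℤ)
    (h : PowerSeries.constantCoeff f = 0) (c : PowerSeries B) :
    PowerSeries.constantCoeff (c * ocInt B f) = 0 := by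
  rw [map_mul, ← PowerSeries.coeff_zero_eq_constantCoeff_apply (ocInt B f), PowerSeries.coeff_map,
    PowerSeries.coeff_zero_eq_constantCoeff_apply, h, map_zero, mul_zero]

theorem oc_coeff_one_int (B : ValuationSubring ℂ) (m : ℤ) (f : PowerSeries ℤ)
    (h : f.coeff 1 = 1) : ((m : PowerSeries B) * ocInt B f).coeff 1 = (m : B) := by
  rw [show (m : PowerSeries B) = PowerSeries.C (m : B) from (map_intCast _ m).symm,
    PowerSeries.coeff_C_mul, PowerSeries.coeff_map, h]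
  simp

/-! ### The three cases -/

/-- `F = H² - E₄`, for `l` prime to `240`. -/
theorem oc_case_E4 (p : ℕ) [Fact p.Prime] (l e : ℕ) (hl : l.Prime) (hlp : l ≠ p)
    (h240 : Nat.Coprime 240 l) (he : e ≠ 0) (hpe : l ^ e ∣ p + 1)
    (H : ModularForm (Gamma0 p) 2) (X : ℕ → ℤ)
    (hH : ∀ n : ℕ, (qExpansion 1 H).coeff n = (if n = 0 then 1 else 0) + (l : ℂ) ^ e * (X n)) :
    False := by
  have hp : p.Prime := Fact.out
  have : NeZero p := ⟨hp.ne_zero⟩
  obtain ⟨B, hB⟩ := oc_exists_valuationSubring l hl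
  obtain ⟨Hc, Xs, Ys, hNc, hS, hα, hβ⟩ := oc_setup B p l e hB hl hlp hpe H X hH
  have hNH : Nice (⇑H) := nice_of_modularForm_Gamma0 H
  have hNE : Nice (⇑E₄) := nice_levelOne E₄
  have hNV : Nice (vd p ⇑E₄) := oc_nice_vd hp.ne_zero E₄
  have hρl : ocRho B ((l : PowerSeries B) ^ e) = 0 := by
    rw [map_pow, oc_rho_l B hB, zero_pow he]
  refine oc_core B p 4 (by norm_num) (⇑H ^ 2 - ⇑E₄) (Hc ^ 2 - vd p ⇑E₄)
    ((hNH.pow 2).sub hNE).holo ?_ ((hNH.pow 2).sub hNE).bdd ((hNc.pow 2).sub hNV).bdd ?_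
    ((1 + (l : PowerSeries B) ^ e * Xs) ^ 2 - (1 + 240 * ocInt B ocA))
    ((1 + (l : PowerSeries B) ^ e * Ys) ^ 2
      - PowerSeries.expand p hp.ne_zero (1 + 240 * ocInt B ocA))
    (-240 * ocInt B ocA) ?_ ?_ ?_ ?_ ?_ ?_
  · intro g hg
    rw [oc_sub_slash, oc_sq_slash, oc_slash_Gamma0 H g hg, oc_slash_levelOne E₄ g]
  · intro z z' h
    rw [oc_sub_slash, oc_sq_slash, oc_slash_levelOne E₄]
    simp only [Pi.sub_apply, Pi.pow_apply]
    rw [hS z z' h, oc_vd_apply hp.ne_zero _ z z' h]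
  · rw [map_sub, map_pow, hα, ← oc_qExpansion_E4 B, (hNH.pow 2).qExpansion_sub hNE,
      hNH.qExpansion_pow]
  · rw [map_sub, map_pow, hβ, PowerSeries.map_expand, ← oc_qExpansion_E4 B,
      (hNc.pow 2).qExpansion_sub hNV, hNc.qExpansion_pow, oc_qExpansion_vd hp.ne_zero E₄]
  · exact oc_constantCoeff_int B ocA oc_constantCoeff_A _
  · have h1 : (-240 * ocInt B ocA : PowerSeries B).coeff 1 = ((-240 : ℤ) : B) := by
      have := oc_coeff_one_int B (-240) ocA oc_coeff_one_A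
      simpa using this
    rw [h1]
    exact oc_isUnit_intCast B hB (Nat.isCoprime_iff_coprime.mpr h240).neg_left
  · simp only [map_sub, map_add, map_pow, map_one, map_mul, map_neg, hρl, zero_mul, add_zero]
    ring
  · simp only [map_sub, map_add, map_pow, map_one, map_mul, map_neg, map_ofNat, hρl, zero_mul,
      add_zero]
    ring

/-- `F = H³ - E₆`, for `l` prime to `504`. -/
theorem oc_case_E6 (p : ℕ) [Fact p.Prime] (l e : ℕ) (hl : l.Prime) (hlp : l ≠ p)
    (h504 : Nat.Coprime 504 l) (he : e ≠ 0) (hpe : l ^ e ∣ p + 1)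
    (H : ModularForm (Gamma0 p) 2) (X : ℕ → ℤ)
    (hH : ∀ n : ℕ, (qExpansion 1 H).coeff n = (if n = 0 then 1 else 0) + (l : ℂ) ^ e * (X n)) :
    False := by
  have hp : p.Prime := Fact.out
  have : NeZero p := ⟨hp.ne_zero⟩
  obtain ⟨B, hB⟩ := oc_exists_valuationSubring l hl
  obtain ⟨Hc, Xs, Ys, hNc, hS, hα, hβ⟩ := oc_setup B p l e hB hl hlp hpe H X hH
  have hNH : Nice (⇑H) := nice_of_modularForm_Gamma0 H
  have hNE : Nice (⇑E₆) := nice_levelOne E₆
  have hNV : Nice (vd p ⇑E₆) := oc_nice_vd hp.ne_zero E₆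
  have hρl : ocRho B ((l : PowerSeries B) ^ e) = 0 := by
    rw [map_pow, oc_rho_l B hB, zero_pow he]
  refine oc_core B p 6 (by norm_num) (⇑H ^ 3 - ⇑E₆) (Hc ^ 3 - vd p ⇑E₆)
    ((hNH.pow 3).sub hNE).holo ?_ ((hNH.pow 3).sub hNE).bdd ((hNc.pow 3).sub hNV).bdd ?_
    ((1 + (l : PowerSeries B) ^ e * Xs) ^ 3 - (1 - 504 * ocInt B ocB5))
    ((1 + (l : PowerSeries B) ^ e * Ys) ^ 3
      - PowerSeries.expand p hp.ne_zero (1 - 504 * ocInt B ocB5))
    (504 * ocInt B ocB5) ?_ ?_ ?_ ?_ ?_ ?_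
  · intro g hg
    rw [oc_sub_slash, oc_cube_slash, oc_slash_Gamma0 H g hg, oc_slash_levelOne E₆ g]
  · intro z z' h
    rw [oc_sub_slash, oc_cube_slash, oc_slash_levelOne E₆]
    simp only [Pi.sub_apply, Pi.pow_apply]
    rw [hS z z' h, oc_vd_apply hp.ne_zero _ z z' h]
  · rw [map_sub, map_pow, hα, ← oc_qExpansion_E6 B, (hNH.pow 3).qExpansion_sub hNE,
      hNH.qExpansion_pow]
  · rw [map_sub, map_pow, hβ, PowerSeries.map_expand, ← oc_qExpansion_E6 B,
      (hNc.pow 3).qExpansion_sub hNV, hNc.qExpansion_pow, oc_qExpansion_vd hp.ne_zero E₆]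
  · exact oc_constantCoeff_int B ocB5 oc_constantCoeff_B5 _
  · have h1 : (504 * ocInt B ocB5 : PowerSeries B).coeff 1 = ((504 : ℤ) : B) := by
      have := oc_coeff_one_int B 504 ocB5 oc_coeff_one_B5
      simpa using this
    rw [h1]
    exact oc_isUnit_intCast B hB (Nat.isCoprime_iff_coprime.mpr h504)
  · simp only [map_sub, map_add, map_pow, map_one, map_mul, hρl, zero_mul, add_zero]
    ring
  · simp only [map_sub, map_add, map_pow, map_one, map_mul, map_ofNat, hρl, zero_mul, add_zero]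
    ring

/-- `F = (H² - E₄)/3`, for `l = 3`, `e = 2`. -/
theorem oc_case_three (p : ℕ) [Fact p.Prime] (hp3 : 3 ≠ p) (hpe : 3 ^ 2 ∣ p + 1)
    (H : ModularForm (Gamma0 p) 2) (X : ℕ → ℤ)
    (hH : ∀ n : ℕ, (qExpansion 1 H).coeff n
      = (if n = 0 then 1 else 0) + ((3 : ℕ) : ℂ) ^ 2 * (X n)) :
    False := by
  have hp : p.Prime := Fact.out
  have : NeZero p := ⟨hp.ne_zero⟩
  obtain ⟨B, hB⟩ := oc_exists_valuationSubring 3 Nat.prime_three
  obtain ⟨Hc, Xs, Ys, hNc, hS, hα, hβ⟩ :=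
    oc_setup B p 3 2 hB Nat.prime_three hp3 hpe H X hH
  have hNH : Nice (⇑H) := nice_of_modularForm_Gamma0 H
  have hNE : Nice (⇑E₄) := nice_levelOne E₄
  have hNV : Nice (vd p ⇑E₄) := oc_nice_vd hp.ne_zero E₄
  have hρ3 : ocRho B (3 : PowerSeries B) = 0 := by
    have := oc_rho_l B hB
    rwa [Nat.cast_ofNat] at this
  have h3C : (3 : PowerSeries ℂ) = PowerSeries.C (3 : ℂ) := (map_ofNat PowerSeries.C 3).symm
  have hthird : ∀ (u v : PowerSeries B) (w : PowerSeries ℂ), v = 3 * u → ocPhi B v = w →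
      ocPhi B u = (3 : ℂ)⁻¹ • w := by
    intro u v w huv hvw
    rw [← hvw, huv, map_mul, map_ofNat, h3C, ← PowerSeries.smul_eq_C_mul, smul_smul]
    norm_num
  refine oc_core B p 4 (by norm_num) ((3 : ℂ)⁻¹ • (⇑H ^ 2 - ⇑E₄))
    ((3 : ℂ)⁻¹ • (Hc ^ 2 - vd p ⇑E₄))
    (((hNH.pow 2).sub hNE).smul _).holo ?_ (((hNH.pow 2).sub hNE).smul _).bdd
    (((hNc.pow 2).sub hNV).smul _).bdd ?_
    (6 * Xs + 27 * Xs ^ 2 - 80 * ocInt B ocA)
    (6 * Ys + 27 * Ys ^ 2 - 80 * PowerSeries.expand p hp.ne_zero (ocInt B ocA))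
    (-80 * ocInt B ocA) ?_ ?_ ?_ ?_ ?_ ?_
  · intro g hg
    rw [SL_smul_slash, oc_sub_slash, oc_sq_slash, oc_slash_Gamma0 H g hg,
      oc_slash_levelOne E₄ g]
  · intro z z' h
    rw [SL_smul_slash, oc_sub_slash, oc_sq_slash, oc_slash_levelOne E₄]
    simp only [Pi.smul_apply, Pi.sub_apply, Pi.pow_apply]
    rw [hS z z' h, oc_vd_apply hp.ne_zero _ z z' h]
  · rw [((hNH.pow 2).sub hNE).qExpansion_smul, (hNH.pow 2).qExpansion_sub hNE,
      hNH.qExpansion_pow]
    refine hthird _ ((1 + ((3 : ℕ) : PowerSeries B) ^ 2 * Xs) ^ 2 - (1 + 240 * ocInt B ocA)) _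
      (by push_cast; ring) ?_
    rw [map_sub, map_pow, hα, ← oc_qExpansion_E4 B]
  · rw [((hNc.pow 2).sub hNV).qExpansion_smul, (hNc.pow 2).qExpansion_sub hNV,
      hNc.qExpansion_pow, oc_qExpansion_vd hp.ne_zero E₄]
    refine hthird _ ((1 + ((3 : ℕ) : PowerSeries B) ^ 2 * Ys) ^ 2
      - PowerSeries.expand p hp.ne_zero (1 + 240 * ocInt B ocA)) _ ?_ ?_
    · simp only [map_add, map_one, map_mul, map_ofNat]
      push_cast
      ring
    · rw [map_sub, map_pow, hβ, PowerSeries.map_expand, ← oc_qExpansion_E4 B]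
  · exact oc_constantCoeff_int B ocA oc_constantCoeff_A _
  · have h1 : (-80 * ocInt B ocA : PowerSeries B).coeff 1 = ((-80 : ℤ) : B) := by
      have := oc_coeff_one_int B (-80) ocA oc_coeff_one_A
      simpa using this
    rw [h1]
    refine oc_isUnit_intCast B hB ?_
    have : IsCoprime ((80 : ℕ) : ℤ) ((3 : ℕ) : ℤ) := Nat.isCoprime_iff_coprime.mpr (by norm_num)
    simpa using this.neg_left
  · have h : (6 * Xs + 27 * Xs ^ 2 - 80 * ocInt B ocA : PowerSeries B)
        = -80 * ocInt B ocA + 3 * (2 * Xs + 9 * Xs ^ 2) := by ring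
    rw [h, map_add, map_mul (ocRho B) 3, hρ3, zero_mul, add_zero]
  · have h : (6 * Ys + 27 * Ys ^ 2 - 80 * PowerSeries.expand p hp.ne_zero (ocInt B ocA)
          : PowerSeries B)
        = PowerSeries.expand p hp.ne_zero (-80 * ocInt B ocA) + 3 * (2 * Ys + 9 * Ys ^ 2) := by
      simp only [map_mul, map_neg, map_ofNat]
      ring
    rw [h, map_add, map_mul (ocRho B) 3, hρ3, zero_mul, add_zero]

/-- **Steps 3 and 4 of the order-count upper bound.** No `H ∈ M₂(Γ₀(p))` has an integral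
`q`-expansion congruent to `1` modulo `l ^ e` when `l ^ e ∣ p + 1`, for `(l ≥ 5, e = 1)` and
`(l, e) = (3, 2)`. -/
theorem oc_no_unit_congruence_odd (p : ℕ) [Fact p.Prime] (l e : ℕ) (hl : l.Prime) (hlp : l ≠ p)
    (he : (5 ≤ l ∧ e = 1) ∨ (l = 3 ∧ e = 2)) (hpe : l ^ e ∣ p + 1)
    (H : ModularForm (CongruenceSubgroup.Gamma0 p) 2) (X : ℕ → ℤ)
    (hH : ∀ n : ℕ, (UpperHalfPlane.qExpansion 1 H).coeff n
      = (if n = 0 then 1 else 0) + (l : ℂ) ^ e * (X n)) : False := by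
  rcases he with ⟨h5, rfl⟩ | ⟨rfl, rfl⟩
  · by_cases hl5 : l = 5
    · subst hl5
      exact oc_case_E6 p 5 1 hl hlp (by norm_num) one_ne_zero hpe H X hH
    · have h7 : 7 ≤ l := by
        rcases Nat.lt_or_ge l 7 with h | h
        · interval_cases l
          · exact absurd rfl hl5
          · exact absurd hl (by norm_num)
        · exact h
      have h240 : Nat.Coprime 240 l := by
        rw [Nat.coprime_comm, Nat.Prime.coprime_iff_not_dvd hl]
        intro hd
        have h1 : l ∣ 16 * 15 := by simpa using hd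
        rcases (Nat.Prime.dvd_mul hl).mp h1 with h2 | h2
        · have h3 : l ∣ 2 := hl.dvd_of_dvd_pow (show l ∣ 2 ^ 4 by simpa using h2)
          have := Nat.le_of_dvd (by norm_num) h3
          omega
        · have h4 := Nat.le_of_dvd (by norm_num) h2
          interval_cases l <;>
            first | exact absurd h2 (by decide) | exact absurd hl (by decide)
      exact oc_case_E4 p l 1 hl hlp h240 one_ne_zero hpe H X hH
  · exact oc_case_three p hlp hpe H X hH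

end Fermat.Agent.S16
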