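/-
S16 project, package UB-C (core): coefficient extraction from the level-one traces of
`G * Δ(p z)`, `G * E₄(p z)`, `G * E₆(p z)` (Steps 1-2 of the "order count" upper bound).

Everything here is stated for a power series `g` (the `q`-expansion of a weight 2 form `G` on
`Γ₀(p)`) together with the four trace identities, packaged as `UbcData`.
-/
import Mathlib
import Fermat.Agent.Lib.IntStruct.LevelOne
import Fermat.Agent.S16.LevelOneOrder

set_option autoImplicit false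

open UpperHalfPlane ModularForm MatrixGroups EisensteinSeries CongruenceSubgroup
open Fermat.Agent.Lib.IntStruct.LevelOne

namespace Fermat.Agent.S16

/-- `U_p` on power series: `∑ aₙ qⁿ ↦ ∑ a_{pn} qⁿ`. -/
noncomputable def ubcU (p : ℕ) (a : PowerSeries ℂ) : PowerSeries ℂ :=
  PowerSeries.mk fun n => a.coeff (p * n)

theorem ubc_coeff_U (p : ℕ) (a : PowerSeries ℂ) (n : ℕ) :
    (ubcU p a).coeff n = a.coeff (p * n) := by
  simp [ubcU]

/-- The subring of integers of `ℂ`. -/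
def ubcZ : Subring ℂ := (Int.castRingHom ℂ).range

theorem ubc_mem_Z {x : ℂ} : x ∈ ubcZ ↔ ∃ m : ℤ, x = (m : ℂ) := by
  constructor
  · rintro ⟨m, rfl⟩
    exact ⟨m, rfl⟩
  · rintro ⟨m, rfl⟩
    exact ⟨m, rfl⟩

theorem ubc_intCast_mem (m : ℤ) : (m : ℂ) ∈ ubcZ := ubc_mem_Z.mpr ⟨m, rfl⟩

theorem ubc_natCast_mem (m : ℕ) : (m : ℂ) ∈ ubcZ := ubc_mem_Z.mpr ⟨m, by simp⟩

theorem ubc_toC_coeff_mem (a : PowerSeries ℤ) (n : ℕ) : (toC a).coeff n ∈ ubcZ := by
  rw [toC, PowerSeries.coeff_map]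
  exact ubc_intCast_mem _

/-- coefficients of (series integral away from the constant term) × (integral series) -/
theorem ubc_coeff_mul (x y : PowerSeries ℂ) (hx : ∀ k, 1 ≤ k → x.coeff k ∈ ubcZ)
    (hy : ∀ k, y.coeff k ∈ ubcZ) (n : ℕ) :
    (x * y).coeff n - x.coeff 0 * y.coeff n ∈ ubcZ := by
  rw [PowerSeries.coeff_mul, Finset.Nat.sum_antidiagonal_eq_sum_range_succ_mk,
    Finset.sum_range_succ']
  simp only [Nat.sub_zero, add_sub_cancel_right]
  exact ubcZ.sum_mem fun i _ => ubcZ.mul_mem (hx _ (by omega)) (hy _)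

theorem ubc_U_int (p : ℕ) (hp : p ≠ 0) (g : PowerSeries ℂ) (hg : ∀ k, 1 ≤ k → g.coeff k ∈ ubcZ) :
    ∀ k, 1 ≤ k → (ubcU p g).coeff k ∈ ubcZ := by
  intro k hk
  rw [ubc_coeff_U]
  exact hg _ (Nat.mul_pos (Nat.pos_of_ne_zero hp) hk)

theorem ubc_U_zero (p : ℕ) (g : PowerSeries ℂ) : (ubcU p g).coeff 0 = g.coeff 0 := by
  rw [ubc_coeff_U, mul_zero]

theorem ubc_coeff_one_mul_expand (p : ℕ) (hp : 2 ≤ p) (g y : PowerSeries ℂ) :
    (g * PowerSeries.expand p (by omega) y).coeff 1 = g.coeff 1 * y.coeff 0 := by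
  have hp0 : p ≠ 0 := by omega
  have h1 : (PowerSeries.expand p hp0 y).coeff 1 = 0 :=
    PowerSeries.coeff_expand_of_not_dvd p hp0 y
      (fun h => by have := Nat.le_of_dvd one_pos h; omega)
  have h0 : (PowerSeries.expand p hp0 y).coeff 0 = y.coeff 0 := by
    have := PowerSeries.coeff_expand_mul p hp0 y 0
    rwa [mul_zero] at this
  rw [PowerSeries.coeff_mul, Finset.Nat.sum_antidiagonal_eq_sum_range_succ_mk,
    Finset.sum_range_succ, Finset.sum_range_one]
  simp only [Nat.sub_zero, Nat.sub_self]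
  rw [h1, h0, mul_zero, zero_add]

theorem ubc_coeff_p_mul_expand (p : ℕ) (hp : 2 ≤ p) (g y : PowerSeries ℂ) :
    (g * PowerSeries.expand p (by omega) y).coeff p
      = g.coeff p * y.coeff 0 + g.coeff 0 * y.coeff 1 := by
  have hp0 : p ≠ 0 := by omega
  have hmid : ∀ i ∈ Finset.range (p - 1),
      g.coeff (i + 1) * (PowerSeries.expand p hp0 y).coeff (p - (i + 1)) = 0 := by
    intro i hi
    rw [Finset.mem_range] at hi
    rw [PowerSeries.coeff_expand_of_not_dvd p hp0 y, mul_zero]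
    intro hdvd
    have h1 : p - (i + 1) < p := by omega
    have h2 : 0 < p - (i + 1) := by omega
    have := Nat.le_of_dvd h2 hdvd
    omega
  have hp1 : p = (p - 1) + 1 := by omega
  have e0 : (PowerSeries.expand p hp0 y).coeff (p - p) = y.coeff 0 := by
    have := PowerSeries.coeff_expand_mul p hp0 y 0
    rw [mul_zero] at this
    rw [Nat.sub_self]
    exact this
  have e1 : (PowerSeries.expand p hp0 y).coeff (p - 0) = y.coeff 1 := by
    have := PowerSeries.coeff_expand_mul p hp0 y 1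
    rw [mul_one] at this
    rw [Nat.sub_zero]
    exact this
  have hsum' : ∑ i ∈ Finset.range p,
      g.coeff i * (PowerSeries.expand p hp0 y).coeff (p - i)
      = g.coeff 0 * y.coeff 1 := by
    have h3 : ∑ i ∈ Finset.range ((p - 1) + 1),
        g.coeff i * (PowerSeries.expand p hp0 y).coeff (p - i)
        = g.coeff 0 * y.coeff 1 := by
      rw [Finset.sum_range_succ', Finset.sum_eq_zero hmid, zero_add, e1]
    rwa [← hp1] at h3
  rw [PowerSeries.coeff_mul, Finset.Nat.sum_antidiagonal_eq_sum_range_succ_mk,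
    Finset.sum_range_succ]
  simp only []
  rw [hsum', e0]
  ring

/-! ### Level one input -/

theorem ubc_delta_coeff_zero : (toC deltaSeries).coeff 0 = 0 := by
  rw [← qExpansion_discriminant]
  refine PowerSeries.coeff_of_lt_order _ ?_
  rw [discriminant_qExpansion_order]
  exact zero_lt_one

theorem ubc_delta_coeff_one : (toC deltaSeries).coeff 1 = 1 := by
  rw [← qExpansion_discriminant]
  exact discriminant_qExpansion_coeff_one

/-- `Δ` as a modular form of weight 12. -/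
noncomputable def ubcDelta : ModularForm 𝒮ℒ 12 := CuspForm.toModularFormₗ CuspForm.discriminant

theorem ubc_qExpansion_delta : qExpansion 1 ubcDelta = toC deltaSeries := by
  rw [← qExpansion_discriminant]
  rfl

/-- a level one form of weight `k` (rank one) is its constant coefficient times `E_k` -/
theorem ubc_eq_smul_E {k : ℕ} (hk : 3 ≤ k) (hk2 : Even k)
    (hrank : Module.rank ℂ (ModularForm 𝒮ℒ (k : ℤ)) = 1) (T : ModularForm 𝒮ℒ (k : ℤ)) :
    qExpansion 1 T = (qExpansion 1 T).coeff 0 • qExpansion 1 (E hk) := by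
  obtain ⟨c, hc⟩ := (finrank_eq_one_iff_of_nonzero' (E hk) (E_ne_zero hk hk2)).mp
    (Module.rank_eq_one_iff_finrank_eq_one.mp hrank) T
  have h1 : qExpansion 1 T = c • qExpansion 1 (E hk) := by
    rw [← hc, FunLike.coe_smul, ModularForm.qExpansion_smul one_pos one_mem_strictPeriods_SL]
  have h2 : (qExpansion 1 T).coeff 0 = c := by
    rw [h1, PowerSeries.coeff_smul, E_qExpansion_coeff_zero hk hk2, smul_eq_mul, mul_one]
  rw [h2]
  exact h1

theorem ubc_rank_fourteen : Module.rank ℂ (ModularForm 𝒮ℒ ((14 : ℕ) : ℤ)) = 1 := by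
  rw [dimension_level_one 14 ⟨7, rfl⟩]
  norm_num [Nat.ModEq]

theorem ubc_rank_eight : Module.rank ℂ (ModularForm 𝒮ℒ ((8 : ℕ) : ℤ)) = 1 := by
  rw [dimension_level_one 8 ⟨4, rfl⟩]
  norm_num [Nat.ModEq]

theorem ubc_E8_coeff_one :
    (qExpansion 1 (E (k := 8) (by norm_num))).coeff 1 = 480 := by
  norm_num [E_qExpansion_coeff _ ⟨4, rfl⟩, show bernoulli 8 = -1 / 30 by decide +kernel]

theorem ubc_E4_coeff (n : ℕ) (hn : n ≠ 0) :
    (qExpansion 1 E₄).coeff n = 240 * ((ArithmeticFunction.sigma 3 n : ℕ) : ℂ) := by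
  rw [qExpansion_E4, coeff_toC_one_add_smul, if_neg hn]
  push_cast
  ring

theorem ubc_E6_coeff (n : ℕ) (hn : n ≠ 0) :
    (qExpansion 1 E₆).coeff n = -504 * ((ArithmeticFunction.sigma 5 n : ℕ) : ℂ) := by
  rw [qExpansion_E6, coeff_toC_one_add_smul, if_neg hn]
  push_cast
  ring

theorem ubc_E4_coeff_zero : (qExpansion 1 E₄).coeff 0 = 1 := by
  rw [qExpansion_E4, coeff_toC_one_add_smul, if_pos rfl]

theorem ubc_E6_coeff_zero : (qExpansion 1 E₆).coeff 0 = 1 := by
  rw [qExpansion_E6, coeff_toC_one_add_smul, if_pos rfl]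

theorem ubc_E4_int (n : ℕ) : (qExpansion 1 E₄).coeff n ∈ ubcZ := by
  rw [qExpansion_E4]
  exact ubc_toC_coeff_mem _ n

theorem ubc_E6_int (n : ℕ) : (qExpansion 1 E₆).coeff n ∈ ubcZ := by
  rw [qExpansion_E6]
  exact ubc_toC_coeff_mem _ n

theorem ubc_sigma_prime (j p : ℕ) (hp : p.Prime) :
    ((ArithmeticFunction.sigma j p : ℕ) : ℂ) = 1 + (p : ℂ) ^ j := by
  have h := ArithmeticFunction.sigma_apply_prime_pow (k := j) (i := 1) hp
  rw [pow_one] at h
  rw [h, Finset.sum_range_succ, Finset.sum_range_one]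
  push_cast
  ring

/-! ### The trace identities and the extraction -/

/-- The four level-one trace identities for a weight 2 form of level `p` with `q`-expansion `g`. -/
structure UbcData (p : ℕ) (hp : p ≠ 0) (g : PowerSeries ℂ) : Prop where
  trD : ∃ T : ModularForm 𝒮ℒ 12, qExpansion 1 T =
      PowerSeries.expand p hp (toC deltaSeries) + ((p : ℂ) ^ 11)⁻¹ • ubcU p (toC deltaSeries)
  trGD : ∃ T : ModularForm 𝒮ℒ ((14 : ℕ) : ℤ), qExpansion 1 T =
      g * PowerSeries.expand p hp (toC deltaSeries)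
        - ((p : ℂ) ^ 12)⁻¹ • ubcU p (ubcU p g * toC deltaSeries)
  trG4 : ∃ T : ModularForm 𝒮ℒ 6, qExpansion 1 T =
      g * PowerSeries.expand p hp (qExpansion 1 E₄)
        - ((p : ℂ) ^ 4)⁻¹ • ubcU p (ubcU p g * qExpansion 1 E₄)
  trG6 : ∃ T : ModularForm 𝒮ℒ ((8 : ℕ) : ℤ), qExpansion 1 T =
      g * PowerSeries.expand p hp (qExpansion 1 E₆)
        - ((p : ℂ) ^ 6)⁻¹ • ubcU p (ubcU p g * qExpansion 1 E₆)

/-- `τ(p²) = τ(p)² - p¹¹` from the trace of `Δ(p z)`. -/
theorem ubc_tau_sq (p : ℕ) (hp2 : 2 ≤ p)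
    (h : ∃ T : ModularForm 𝒮ℒ 12, qExpansion 1 T =
      PowerSeries.expand p (by omega) (toC deltaSeries)
        + ((p : ℂ) ^ 11)⁻¹ • ubcU p (toC deltaSeries)) :
    (toC deltaSeries).coeff (p * p) = (toC deltaSeries).coeff p ^ 2 - (p : ℂ) ^ 11 := by
  have hp0 : p ≠ 0 := by omega
  have hpC : (p : ℂ) ≠ 0 := by exact_mod_cast hp0
  obtain ⟨T, hT⟩ := h
  set δ := toC deltaSeries with hδ
  have e1 : (PowerSeries.expand p hp0 δ).coeff 1 = 0 :=
    PowerSeries.coeff_expand_of_not_dvd p hp0 δ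
      (fun h => by have := Nat.le_of_dvd one_pos h; omega)
  have e0 : (PowerSeries.expand p hp0 δ).coeff 0 = 0 := by
    have := PowerSeries.coeff_expand_mul p hp0 δ 0
    rw [mul_zero] at this
    rw [this]
    exact ubc_delta_coeff_zero
  have ep : (PowerSeries.expand p hp0 δ).coeff p = 1 := by
    have := PowerSeries.coeff_expand_mul p hp0 δ 1
    rw [mul_one] at this
    rw [this]
    exact ubc_delta_coeff_one
  have c0 : (qExpansion 1 T).coeff 0 = 0 := by
    rw [hT, map_add, PowerSeries.coeff_smul, ubc_coeff_U, mul_zero, e0, ubc_delta_coeff_zero]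
    simp
  have c1 : (qExpansion 1 T).coeff 1 = ((p : ℂ) ^ 11)⁻¹ * δ.coeff p := by
    rw [hT, map_add, PowerSeries.coeff_smul, ubc_coeff_U, mul_one, e1, zero_add, smul_eq_mul]
  have cp : (qExpansion 1 T).coeff p = 1 + ((p : ℂ) ^ 11)⁻¹ * δ.coeff (p * p) := by
    rw [hT, map_add, PowerSeries.coeff_smul, ubc_coeff_U, ep, smul_eq_mul]
  set c := (qExpansion 1 T).coeff 1 with hc
  have hsm : qExpansion 1 (c • ubcDelta : ModularForm 𝒮ℒ 12) = c • δ := by
    rw [FunLike.coe_smul, ModularForm.qExpansion_smul one_pos one_mem_strictPeriods_SL,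
      ubc_qExpansion_delta]
  have key := lo_order_bound_sub ⊥ 12 T (c • ubcDelta) (fun i hi => by
    have hi' : i = 0 ∨ i = 1 := by omega
    rw [hsm, PowerSeries.coeff_smul, smul_eq_mul, AddSubgroup.mem_bot]
    rcases hi' with rfl | rfl
    · rw [c0, ubc_delta_coeff_zero]; simp
    · rw [ubc_delta_coeff_one, mul_one, sub_self]) p
  rw [hsm, PowerSeries.coeff_smul, smul_eq_mul, AddSubgroup.mem_bot, cp, c1] at key
  have hp11 : ((p : ℂ) ^ 11) ≠ 0 := pow_ne_zero _ hpC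
  field_simp at key
  linear_combination key

/-- **UB-C, core.**  The constant coefficient `a₀` of a weight 2 form of level `p` whose higher
coefficients are integers satisfies `a₀ p¹¹ (p + 1) ∈ ℤ`, `a₀ (504 p⁴ - 240 p³ - 744) ∈ ℤ`,
`a₀ (480 p⁶ - 504 p⁵ - 984) ∈ ℤ`. -/
theorem ubc_core (p : ℕ) (hp : p.Prime) (g : PowerSeries ℂ) (hd : UbcData p hp.ne_zero g)
    (hg : ∀ k, 1 ≤ k → g.coeff k ∈ ubcZ) :
    g.coeff 0 * ((p : ℂ) ^ 11 * ((p : ℂ) + 1)) ∈ ubcZ ∧
    g.coeff 0 * (504 * (p : ℂ) ^ 4 - 240 * (p : ℂ) ^ 3 - 744) ∈ ubcZ ∧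
    g.coeff 0 * (480 * (p : ℂ) ^ 6 - 504 * (p : ℂ) ^ 5 - 984) ∈ ubcZ := by
  have hp0 : p ≠ 0 := hp.ne_zero
  have hp2 : 2 ≤ p := hp.two_le
  have hpC : (p : ℂ) ≠ 0 := by exact_mod_cast hp0
  have hpZ : (p : ℂ) ∈ ubcZ := ubc_natCast_mem p
  set δ := toC deltaSeries with hδ
  have hUg := ubc_U_int p hp0 g hg
  have hUg0 : (ubcU p g).coeff 0 = g.coeff 0 := ubc_U_zero p g
  have hδint : ∀ n, δ.coeff n ∈ ubcZ := fun n => ubc_toC_coeff_mem _ n
  refine ⟨?_, ?_, ?_⟩
  · -- the `Δ` trace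
    have htau := ubc_tau_sq p hp2 hd.trD
    obtain ⟨T, hT⟩ := hd.trGD
    have c0 : (qExpansion 1 T).coeff 0 = 0 := by
      rw [hT, map_sub, PowerSeries.coeff_smul, ubc_coeff_U, mul_zero, PowerSeries.coeff_mul,
        PowerSeries.coeff_mul]
      simp only [Finset.Nat.antidiagonal_zero, Finset.sum_singleton]
      have e0 : (PowerSeries.expand p hp0 δ).coeff 0 = 0 := by
        have := PowerSeries.coeff_expand_mul p hp0 δ 0
        rw [mul_zero] at this
        rw [this]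
        exact ubc_delta_coeff_zero
      rw [e0, ubc_delta_coeff_zero]
      simp
    have hT0 : qExpansion 1 T = 0 := by
      have := ubc_eq_smul_E (k := 14) (by norm_num) ⟨7, rfl⟩ ubc_rank_fourteen T
      rw [this, c0, zero_smul]
    have hR : ∀ n, (g * PowerSeries.expand p hp0 δ).coeff n
        = ((p : ℂ) ^ 12)⁻¹ * (ubcU p g * δ).coeff (p * n) := by
      intro n
      have h1 : (qExpansion 1 T).coeff n = 0 := by rw [hT0]; simp
      rw [hT, map_sub, PowerSeries.coeff_smul, ubc_coeff_U, smul_eq_mul] at h1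
      linear_combination h1
    have hp12 : ((p : ℂ) ^ 12) ≠ 0 := pow_ne_zero _ hpC
    -- coefficient 1
    have h1 := hR 1
    rw [ubc_coeff_one_mul_expand p hp2 g δ, ubc_delta_coeff_zero, mul_zero, mul_one] at h1
    have h1' : (ubcU p g * δ).coeff p = 0 := by
      have := h1.symm
      rcases mul_eq_zero.mp this with h | h
      · exact absurd h (inv_ne_zero hp12)
      · exact h
    have hA1 := ubc_coeff_mul (ubcU p g) δ hUg hδint p
    rw [h1', hUg0, zero_sub] at hA1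
    have hA1' : g.coeff 0 * δ.coeff p ∈ ubcZ := by
      have := ubcZ.neg_mem hA1
      rwa [neg_neg] at this
    -- coefficient p
    have h2 := hR p
    rw [ubc_coeff_p_mul_expand p hp2 g δ, ubc_delta_coeff_zero, ubc_delta_coeff_one, mul_zero,
      zero_add, mul_one] at h2
    have h2' : (ubcU p g * δ).coeff (p * p) = (p : ℂ) ^ 12 * g.coeff 0 := by
      rw [h2]
      field_simp
    have hA2 := ubc_coeff_mul (ubcU p g) δ hUg hδint (p * p)
    rw [h2', hUg0, htau] at hA2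
    have hfin : g.coeff 0 * ((p : ℂ) ^ 11 * ((p : ℂ) + 1))
        = ((p : ℂ) ^ 12 * g.coeff 0 - g.coeff 0 * (δ.coeff p ^ 2 - (p : ℂ) ^ 11))
          + (g.coeff 0 * δ.coeff p) * δ.coeff p := by ring
    rw [hfin]
    exact ubcZ.add_mem hA2 (ubcZ.mul_mem hA1' (hδint p))
  · -- the `E₄` trace
    obtain ⟨T, hT⟩ := hd.trG4
    have hp4 : ((p : ℂ) ^ 4) ≠ 0 := pow_ne_zero _ hpC
    have c0 : (qExpansion 1 T).coeff 0 = g.coeff 0 - ((p : ℂ) ^ 4)⁻¹ * g.coeff 0 := by
      rw [hT, map_sub, PowerSeries.coeff_smul, ubc_coeff_U, mul_zero, PowerSeries.coeff_mul,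
        PowerSeries.coeff_mul]
      simp only [Finset.Nat.antidiagonal_zero, Finset.sum_singleton]
      have e0 : (PowerSeries.expand p hp0 (qExpansion 1 E₄)).coeff 0 = 1 := by
        have := PowerSeries.coeff_expand_mul p hp0 (qExpansion 1 E₄) 0
        rw [mul_zero] at this
        rw [this]
        exact ubc_E4_coeff_zero
      rw [e0, ubc_E4_coeff_zero, hUg0, smul_eq_mul]
      ring
    have hT6 := ubc_eq_smul_E (k := 6) (by norm_num) ⟨3, rfl⟩ levelOne_weight_six_rank_one T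
    have h1 : (qExpansion 1 T).coeff 1 = (g.coeff 0 - ((p : ℂ) ^ 4)⁻¹ * g.coeff 0) * (-504) := by
      rw [hT6, PowerSeries.coeff_smul, c0, smul_eq_mul]
      congr 1
      exact E₆_qExpansion_coeff_one
    rw [hT, map_sub, PowerSeries.coeff_smul, ubc_coeff_U, mul_one,
      ubc_coeff_one_mul_expand p hp2 g (qExpansion 1 E₄), ubc_E4_coeff_zero, mul_one,
      smul_eq_mul] at h1
    have hA := ubc_coeff_mul (ubcU p g) (qExpansion 1 E₄) hUg ubc_E4_int p
    rw [hUg0, ubc_E4_coeff p hp0, ubc_sigma_prime 3 p hp] at hA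
    have hval : (ubcU p g * qExpansion 1 E₄).coeff p
        = (p : ℂ) ^ 4 * g.coeff 1 + 504 * ((p : ℂ) ^ 4 - 1) * g.coeff 0 := by
      field_simp at h1
      linear_combination -h1
    rw [hval] at hA
    have hg1 : (p : ℂ) ^ 4 * g.coeff 1 ∈ ubcZ := ubcZ.mul_mem (ubcZ.pow_mem hpZ 4) (hg 1 le_rfl)
    have hfin : g.coeff 0 * (504 * (p : ℂ) ^ 4 - 240 * (p : ℂ) ^ 3 - 744)
        = ((p : ℂ) ^ 4 * g.coeff 1 + 504 * ((p : ℂ) ^ 4 - 1) * g.coeff 0
            - g.coeff 0 * (240 * (1 + (p : ℂ) ^ 3))) - (p : ℂ) ^ 4 * g.coeff 1 := by ring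
    rw [hfin]
    exact ubcZ.sub_mem hA hg1
  · -- the `E₆` trace
    obtain ⟨T, hT⟩ := hd.trG6
    have hp6 : ((p : ℂ) ^ 6) ≠ 0 := pow_ne_zero _ hpC
    have c0 : (qExpansion 1 T).coeff 0 = g.coeff 0 - ((p : ℂ) ^ 6)⁻¹ * g.coeff 0 := by
      rw [hT, map_sub, PowerSeries.coeff_smul, ubc_coeff_U, mul_zero, PowerSeries.coeff_mul,
        PowerSeries.coeff_mul]
      simp only [Finset.Nat.antidiagonal_zero, Finset.sum_singleton]
      have e0 : (PowerSeries.expand p hp0 (qExpansion 1 E₆)).coeff 0 = 1 := by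
        have := PowerSeries.coeff_expand_mul p hp0 (qExpansion 1 E₆) 0
        rw [mul_zero] at this
        rw [this]
        exact ubc_E6_coeff_zero
      rw [e0, ubc_E6_coeff_zero, hUg0, smul_eq_mul]
      ring
    have hT8 := ubc_eq_smul_E (k := 8) (by norm_num) ⟨4, rfl⟩ ubc_rank_eight T
    have h1 : (qExpansion 1 T).coeff 1 = (g.coeff 0 - ((p : ℂ) ^ 6)⁻¹ * g.coeff 0) * 480 := by
      rw [hT8, PowerSeries.coeff_smul, c0, smul_eq_mul]
      congr 1
      exact ubc_E8_coeff_one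
    rw [hT, map_sub, PowerSeries.coeff_smul, ubc_coeff_U, mul_one,
      ubc_coeff_one_mul_expand p hp2 g (qExpansion 1 E₆), ubc_E6_coeff_zero, mul_one,
      smul_eq_mul] at h1
    have hA := ubc_coeff_mul (ubcU p g) (qExpansion 1 E₆) hUg ubc_E6_int p
    rw [hUg0, ubc_E6_coeff p hp0, ubc_sigma_prime 5 p hp] at hA
    have hval : (ubcU p g * qExpansion 1 E₆).coeff p
        = (p : ℂ) ^ 6 * g.coeff 1 - 480 * ((p : ℂ) ^ 6 - 1) * g.coeff 0 := by
      field_simp at h1
      linear_combination -h1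
    rw [hval] at hA
    have hg1 : (p : ℂ) ^ 6 * g.coeff 1 ∈ ubcZ := ubcZ.mul_mem (ubcZ.pow_mem hpZ 6) (hg 1 le_rfl)
    have hfin : g.coeff 0 * (480 * (p : ℂ) ^ 6 - 504 * (p : ℂ) ^ 5 - 984)
        = (p : ℂ) ^ 6 * g.coeff 1 - ((p : ℂ) ^ 6 * g.coeff 1 - 480 * ((p : ℂ) ^ 6 - 1) * g.coeff 0
            - g.coeff 0 * (-504 * (1 + (p : ℂ) ^ 5))) := by ring
    rw [hfin]
    exact ubcZ.sub_mem hg1 hA

end Fermat.Agent.S16
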