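/-
S16 project, package UB-C: Steps 1-2 of the "order count" upper bound.

`ubc_const`: for a weight 2 modular form `G` on `Γ₀(p)` whose `q`-coefficients `a_k`, `k ≥ 1`,
are integers, the constant coefficient `a₀` satisfies
`a₀ p¹¹ (p + 1) ∈ ℤ`, `a₀ (504 p⁴ - 240 p³ - 744) ∈ ℤ`, `a₀ (480 p⁶ - 504 p⁵ - 984) ∈ ℤ`.
(Traces to level one of `G Δ(p z)`, `G E₄(p z)`, `G E₆(p z)` and of `Δ(p z)`.)
-/
import Mathlib
import Fermat.Agent.S16.BiExp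
import Fermat.Agent.S16.UBCCore

set_option autoImplicit false

open UpperHalfPlane ModularForm MatrixGroups EisensteinSeries CongruenceSubgroup
open Fermat.Agent.Lib.IntStruct.LevelOne

namespace Fermat.Agent.S16

theorem ubc_U_eq (p : ℕ) (a : PowerSeries ℂ) : biExpU p a = ubcU p a := rfl

theorem ubc_zpow_neg (p : ℕ) (n : ℕ) : (p : ℂ) ^ (-(n : ℤ)) = ((p : ℂ) ^ n)⁻¹ := by
  rw [zpow_neg, zpow_natCast]

/-- The four trace identities hold for the `q`-expansion of a weight 2 form on `Γ₀(p)`. -/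
theorem ubc_data (p : ℕ) [Fact p.Prime] (G : ModularForm (Gamma0 p) 2) :
    UbcData p (Fact.out : p.Prime).ne_zero (qExpansion 1 G) where
  trD := by
    obtain ⟨T, hT⟩ := biExp_trace_V p (k := 12) ⟨6, rfl⟩ ubcDelta
    refine ⟨T, ?_⟩
    rw [hT, ubc_qExpansion_delta, ubc_U_eq, show (1 : ℤ) - 12 = -((11 : ℕ) : ℤ) by norm_num,
      ubc_zpow_neg]
  trGD := by
    obtain ⟨T, hT⟩ := biExp_trace_mul p G (k := 12) ⟨6, rfl⟩ ubcDelta
    refine ⟨ModularForm.mcast (by norm_num) T, ?_⟩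
    rw [ModularForm.coe_mcast, hT, ubc_qExpansion_delta, ubc_U_eq, ubc_U_eq,
      show -(12 : ℤ) = -((12 : ℕ) : ℤ) by norm_num, ubc_zpow_neg]
  trG4 := by
    obtain ⟨T, hT⟩ := biExp_trace_mul p G (k := 4) ⟨2, rfl⟩ E₄
    refine ⟨ModularForm.mcast (by norm_num) T, ?_⟩
    rw [ModularForm.coe_mcast, hT, ubc_U_eq, ubc_U_eq,
      show -(4 : ℤ) = -((4 : ℕ) : ℤ) by norm_num, ubc_zpow_neg]
  trG6 := by
    obtain ⟨T, hT⟩ := biExp_trace_mul p G (k := 6) ⟨3, rfl⟩ E₆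
    refine ⟨ModularForm.mcast (by norm_num) T, ?_⟩
    rw [ModularForm.coe_mcast, hT, ubc_U_eq, ubc_U_eq,
      show -(6 : ℤ) = -((6 : ℕ) : ℤ) by norm_num, ubc_zpow_neg]

/-- **UB-C (Steps 1-2 of the order-count route).** -/
theorem ubc_const (p : ℕ) [Fact p.Prime] (G : ModularForm (Gamma0 p) 2)
    (hG : ∀ k : ℕ, 1 ≤ k → ∃ m : ℤ, ModularFormClass.qCoeff (⇑G) k = (m : ℂ)) :
    (∃ z : ℤ, ModularFormClass.qCoeff (⇑G) 0 * ((p : ℂ) ^ 11 * ((p : ℂ) + 1)) = (z : ℂ)) ∧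
    (∃ z : ℤ, ModularFormClass.qCoeff (⇑G) 0 *
        (504 * (p : ℂ) ^ 4 - 240 * (p : ℂ) ^ 3 - 744) = (z : ℂ)) ∧
    (∃ z : ℤ, ModularFormClass.qCoeff (⇑G) 0 *
        (480 * (p : ℂ) ^ 6 - 504 * (p : ℂ) ^ 5 - 984) = (z : ℂ)) := by
  have h := ubc_core p (Fact.out : p.Prime) (qExpansion 1 G) (ubc_data p G)
    (fun k hk => ubc_mem_Z.mpr (hG k hk))
  exact ⟨ubc_mem_Z.mp h.1, ubc_mem_Z.mp h.2.1, ubc_mem_Z.mp h.2.2⟩

end Fermat.Agent.S16
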