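/-
S16 project, package UB-D (helper15): the pure power-series algebra behind Steps 3, 4, 5 of the
"order count" upper bound (finding 115).  Mathlib only.

* `ubdS O` : the subring of `ℂ⟦X⟧` of series with all coefficients in the subring `O ⊆ ℂ`;
* `ubdJ O m` : the additive subgroup `m • O` of `ℂ`;
* `ubd_series5` : the mod 8 computation (`I₈ ≡ Δ mod 2`).
-/
import Mathlib

set_option autoImplicit false

open PowerSeries

namespace Fermat.Agent.S16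

/-- Power series all of whose coefficients lie in the subring `O`. -/
def ubdS (O : Subring ℂ) : Subring (PowerSeries ℂ) where
  carrier := {f | ∀ n, coeff n f ∈ O}
  mul_mem' := by
    intro f g hf hg n
    rw [coeff_mul]
    exact Subring.sum_mem _ fun x _ => O.mul_mem (hf _) (hg _)
  one_mem' := by
    intro n
    rw [coeff_one]
    split_ifs
    · exact O.one_mem
    · exact O.zero_mem
  add_mem' := by
    intro f g hf hg n
    rw [map_add]
    exact O.add_mem (hf n) (hg n)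
  zero_mem' := by
    intro n
    rw [map_zero]
    exact O.zero_mem
  neg_mem' := by
    intro f hf n
    rw [map_neg]
    exact O.neg_mem (hf n)

theorem ubd_mem_S {O : Subring ℂ} {f : PowerSeries ℂ} : f ∈ ubdS O ↔ ∀ n, coeff n f ∈ O :=
  Iff.rfl

theorem ubd_C_mem {O : Subring ℂ} {c : ℂ} (hc : c ∈ O) : C c ∈ ubdS O := by
  intro n
  rw [coeff_C]
  split_ifs
  · exact hc
  · exact O.zero_mem

theorem ubd_natCast_mem (O : Subring ℂ) (m : ℕ) : (m : PowerSeries ℂ) ∈ ubdS O :=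
  natCast_mem _ m

theorem ubd_expand_mem {O : Subring ℂ} (p : ℕ) (hp : p ≠ 0) {f : PowerSeries ℂ}
    (hf : f ∈ ubdS O) : expand p hp f ∈ ubdS O := by
  intro n
  rw [coeff_expand]
  split_ifs
  · exact hf _
  · exact O.zero_mem

/-- The additive subgroup `m • O` of `ℂ`. -/
def ubdJ (O : Subring ℂ) (m : ℂ) : AddSubgroup ℂ where
  carrier := {y | ∃ x ∈ O, y = m * x}
  add_mem' := by
    rintro _ _ ⟨x, hx, rfl⟩ ⟨y, hy, rfl⟩
    exact ⟨x + y, O.add_mem hx hy, by ring⟩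
  zero_mem' := ⟨0, O.zero_mem, by ring⟩
  neg_mem' := by
    rintro _ ⟨x, hx, rfl⟩
    exact ⟨-x, O.neg_mem hx, by ring⟩

theorem ubd_mem_J {O : Subring ℂ} {m y : ℂ} : y ∈ ubdJ O m ↔ ∃ x ∈ O, y = m * x := Iff.rfl

theorem ubdJ_smul_mem {O : Subring ℂ} {m : ℂ} {a x : ℂ} (ha : a ∈ O) (hx : x ∈ ubdJ O m) :
    a * x ∈ ubdJ O m := by
  obtain ⟨y, hy, rfl⟩ := hx
  exact ⟨a * y, O.mul_mem ha hy, by ring⟩

/-- Coefficients of `m * r`, `r ∈ ubdS O`, lie in `m • O`. -/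
theorem ubd_coeff_mem_J {O : Subring ℂ} (m : ℂ) {r : PowerSeries ℂ} (hr : r ∈ ubdS O)
    (n : ℕ) : coeff n (C m * r) ∈ ubdJ O m := by
  rw [coeff_C_mul]
  exact ⟨_, hr n, rfl⟩

/-- If `c ^ k ∈ l • O` for an integer `c` prime to `l`, then `1 ∈ l • O`. -/
theorem ubd_one_mem_J {O : Subring ℂ} (l c : ℕ) (hcop : Nat.Coprime c l) (k : ℕ)
    (h : ((c : ℂ)) ^ k ∈ ubdJ O (l : ℂ)) : (1 : ℂ) ∈ ubdJ O (l : ℂ) := by
  have hcop' : IsCoprime ((c ^ k : ℕ) : ℤ) (l : ℤ) :=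
    Nat.isCoprime_iff_coprime.mpr (Nat.Coprime.pow_left k hcop)
  obtain ⟨x, y, hxy⟩ := hcop'
  have h1 : (1 : ℂ) = (x : ℂ) * (c : ℂ) ^ k + (l : ℂ) * (y : ℂ) := by
    have := congrArg (Int.cast : ℤ → ℂ) hxy
    push_cast at this
    rw [← this]
    ring
  rw [h1]
  exact (ubdJ O (l : ℂ)).add_mem (ubdJ_smul_mem (intCast_mem O x) h) ⟨_, intCast_mem O y, rfl⟩

/-- Series algebra for Step 5 (mod 8): with `h = 1 + 8X`, `E4 = 1 + 240 A`, `E6 = 1 - 504 B`,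
`5A + 7B = 4 Cs`, the series `u = (h² - E4)/48`, `w = (h³ - 3 h E4 + 2 E6)/1728`,
`I = h w - u²` are integral (3 invertible) and `I ≡ Δ mod 2`, `Δ = (E4³ - E6²)/1728`. -/
theorem ubd_series5 {O : Subring ℂ} (h3 : (3 : ℂ)⁻¹ ∈ O)
    {X A B Cs h e4 e6 u w I δ : PowerSeries ℂ} (hX : X ∈ ubdS O) (hA : A ∈ ubdS O)
    (hCs : Cs ∈ ubdS O) (hABC : 5 * A + 7 * B = 4 * Cs)
    (hh : h = 1 + C 8 * X) (he4 : e4 = 1 + C 240 * A) (he6 : e6 = 1 + C (-504) * B)
    (hu : u = C (1 / 48) * (h * h + C (-1) * e4))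
    (hw : w = C (1 / 1728) * (h * h * h + C (-3) * (h * e4) + C 2 * e6))
    (hI : I = h * w + C (-1) * (u * u))
    (hδ : δ = C (1 / 1728) * (e4 ^ 3 - e6 ^ 2)) :
    I ∈ ubdS O ∧ δ ∈ ubdS O ∧ ∃ r ∈ ubdS O, I - δ = C 2 * r := by
  have e48 : (48 : PowerSeries ℂ) * C (1 / 48 : ℂ) = 1 := by
    rw [← map_ofNat (C (R := ℂ)) 48, ← map_mul]; norm_num
  have e1728 : (1728 : PowerSeries ℂ) * C (1 / 1728 : ℂ) = 1 := by
    rw [← map_ofNat (C (R := ℂ)) 1728, ← map_mul]; norm_num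
  have e3 : (3 : PowerSeries ℂ) * C ((3 : ℂ)⁻¹) = 1 := by
    rw [← map_ofNat (C (R := ℂ)) 3, ← map_mul]; norm_num
  have c8 : C (8 : ℂ) = (8 : PowerSeries ℂ) := map_ofNat C 8
  have c240 : C (240 : ℂ) = (240 : PowerSeries ℂ) := map_ofNat C 240
  have c504 : C (-504 : ℂ) = (-504 : PowerSeries ℂ) := by rw [map_neg, map_ofNat]
  have cm1 : C (-1 : ℂ) = (-1 : PowerSeries ℂ) := by rw [map_neg, map_one]
  have cm3 : C (-3 : ℂ) = (-3 : PowerSeries ℂ) := by rw [map_neg, map_ofNat]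
  have c2 : C (2 : ℂ) = (2 : PowerSeries ℂ) := map_ofNat C 2
  have ht : C ((3 : ℂ)⁻¹) ∈ ubdS O := ubd_C_mem h3
  rw [c8] at hh
  rw [c240] at he4
  rw [c504] at he6
  rw [cm1] at hu hI
  rw [cm3, c2] at hw
  rw [c2]
  generalize C (1 / 48 : ℂ) = c48 at *
  generalize C (1 / 1728 : ℂ) = c1728 at *
  generalize C ((3 : ℂ)⁻¹) = t at *
  have hS8 : (8 : PowerSeries ℂ) ∈ ubdS O := ofNat_mem _ 8
  have hhS : h ∈ ubdS O := by
    rw [hh]; exact add_mem (one_mem _) (mul_mem hS8 hX)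
  -- `u` and `w` are integral
  have hu' : u = t * (X + 4 * X ^ 2 - 15 * A) := by
    rw [hu, hh, he4]
    linear_combination (t * (X + 4 * X ^ 2 - 15 * A)) * e48 -
      (16 * c48 * (X + 4 * X ^ 2 - 15 * A)) * e3
  have hw' : w = t ^ 3 * (3 * X ^ 2 + 8 * X ^ 3 - 90 * X * A - 9 * Cs) := by
    rw [hw, hh, he4, he6]
    linear_combination (t ^ 3 * (3 * X ^ 2 + 8 * X ^ 3 - 90 * X * A - 9 * Cs)) * e1728 -
      (64 * c1728 * (9 * t ^ 2 + 3 * t + 1) * (3 * X ^ 2 + 8 * X ^ 3 - 90 * X * A - 9 * Cs)) * e3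
      - (144 * c1728) * hABC
  have huS : u ∈ ubdS O := by
    rw [hu']
    refine mul_mem ht (sub_mem (add_mem hX (mul_mem (ofNat_mem _ 4) (pow_mem hX 2))) ?_)
    exact mul_mem (ofNat_mem _ 15) hA
  have hwS : w ∈ ubdS O := by
    rw [hw']
    refine mul_mem (pow_mem ht 3) (sub_mem (sub_mem (add_mem ?_ ?_) ?_) ?_)
    · exact mul_mem (ofNat_mem _ 3) (pow_mem hX 2)
    · exact mul_mem (ofNat_mem _ 8) (pow_mem hX 3)
    · exact mul_mem (mul_mem (ofNat_mem _ 90) hX) hA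
    · exact mul_mem (ofNat_mem _ 9) hCs
  have hIS : I ∈ ubdS O := by
    rw [hI]
    exact add_mem (mul_mem hhS hwS) (mul_mem (neg_mem (one_mem _)) (mul_mem huS huS))
  -- the identity for `Δ`
  have E1 : e4 = h ^ 2 - 48 * u := by
    rw [hu]
    linear_combination (h * h + -1 * e4) * e48
  have E2 : e6 = 864 * w + h ^ 3 - 72 * h * u := by
    have h2 : (2 : PowerSeries ℂ) * e6 = 2 * (864 * w + h ^ 3 - 72 * h * u) := by
      rw [hw, hu]
      linear_combination (-(h * h * h + -3 * (h * e4) + 2 * e6)) * e1728 +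
        (3 * h * (h * h + -1 * e4)) * e48
    have h20 : (2 : PowerSeries ℂ) ≠ 0 := by
      rw [← map_ofNat (C (R := ℂ)) 2]
      exact (map_ne_zero_iff _ C_injective).mpr two_ne_zero
    exact mul_left_cancel₀ h20 h2
  have hδ' : δ = -(h ^ 2 * I) - 64 * u ^ 3 - 432 * w ^ 2 + 72 * h * u * w := by
    rw [hδ, E1, E2, hI]
    linear_combination (-(h ^ 2 * (h * w + -1 * (u * u))) - 64 * u ^ 3 - 432 * w ^ 2 +
      72 * h * u * w) * e1728
  have hδS : δ ∈ ubdS O := by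
    rw [hδ']
    refine add_mem (sub_mem (sub_mem (neg_mem (mul_mem (pow_mem hhS 2) hIS)) ?_) ?_) ?_
    · exact mul_mem (ofNat_mem _ 64) (pow_mem huS 3)
    · exact mul_mem (ofNat_mem _ 432) (pow_mem hwS 2)
    · exact mul_mem (mul_mem (mul_mem (ofNat_mem _ 72) hhS) huS) hwS
  refine ⟨hIS, hδS, (1 + 8 * X + 32 * X ^ 2) * I + 32 * u ^ 3 + 216 * w ^ 2 - 36 * h * u * w,
    ?_, ?_⟩
  · refine sub_mem (add_mem (add_mem (mul_mem ?_ hIS) ?_) ?_) ?_
    · exact add_mem (add_mem (one_mem _) (mul_mem hS8 hX))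
        (mul_mem (ofNat_mem _ 32) (pow_mem hX 2))
    · exact mul_mem (ofNat_mem _ 32) (pow_mem huS 3)
    · exact mul_mem (ofNat_mem _ 216) (pow_mem hwS 2)
    · exact mul_mem (mul_mem (mul_mem (ofNat_mem _ 36) hhS) huS) hwS
  · rw [hδ']
    have : h ^ 2 = 1 + 16 * X + 64 * X ^ 2 := by rw [hh]; ring
    linear_combination I * this

end Fermat.Agent.S16
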