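/-
S16 project, package UB115-TWO (helper15): Step 5 of the "order count" upper bound (finding 115),
in abstract form: `P k F α β` stands for "`F` is a weight-`k` function on `Γ₀(p)` with
`q`-expansion `α` at `∞` and companion expansion `β`" (helper11's `BiNice` / `biExpComp`), and
`UbdCtx` lists the closure properties and the norm/order-count contradiction that are consumed.
-/
import Fermat.Agent.S16.UBDSeries

set_option autoImplicit false

open PowerSeries UpperHalfPlane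

namespace Fermat.Agent.S16

/-- The interface consumed by Step 5. -/
structure UbdCtx (p : ℕ) (hp : p ≠ 0) (O : Subring ℂ)
    (P : ℤ → (ℍ → ℂ) → PowerSeries ℂ → PowerSeries ℂ → Prop) : Prop where
  add : ∀ {k : ℤ} {F F' : ℍ → ℂ} {α β α' β' : PowerSeries ℂ},
    P k F α β → P k F' α' β' → P k (F + F') (α + α') (β + β')
  smul : ∀ {k : ℤ} {F : ℍ → ℂ} {α β : PowerSeries ℂ} (c : ℂ),
    P k F α β → P k (c • F) (C c * α) (C c * β)
  mul : ∀ {k k' : ℤ} {F F' : ℍ → ℂ} {α β α' β' : PowerSeries ℂ},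
    P k F α β → P k' F' α' β' → P (k + k') (F * F') (α * α') (β * β')
  contra : ∀ {k : ℤ} {F : ℍ → ℂ} {α β : PowerSeries ℂ}, P k F α β → k < 12 →
    ∀ (J : AddSubgroup ℂ), (∀ a ∈ O, ∀ x ∈ J, a * x ∈ J) → ∀ a0 b0 : PowerSeries ℂ,
      α ∈ ubdS O → β ∈ ubdS O → a0 ∈ ubdS O → b0 ∈ ubdS O →
      (∀ n, coeff n (α - a0) ∈ J) → (∀ n, coeff n (β - expand p hp b0) ∈ J) →
      constantCoeff a0 = 0 → constantCoeff b0 = 0 → coeff 1 a0 * coeff 1 b0 ^ p ∈ J

/-- Step 5 (mod 8), abstract form. -/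
theorem ubd_step5 {p : ℕ} {hp : p ≠ 0} {O : Subring ℂ}
    {P : ℤ → (ℍ → ℂ) → PowerSeries ℂ → PowerSeries ℂ → Prop} (ctx : UbdCtx p hp O P)
    (h3 : (3 : ℂ)⁻¹ ∈ O) (h1 : (1 : ℂ) ∉ ubdJ O 2)
    {H E4f E6f : ℍ → ℂ} {h hc e4 e6 X X' A B Cs : PowerSeries ℂ}
    (hH : P 2 H h hc) (hE4 : P 4 E4f e4 (expand p hp e4)) (hE6 : P 6 E6f e6 (expand p hp e6))
    (hX : X ∈ ubdS O) (hX' : X' ∈ ubdS O) (hA : A ∈ ubdS O) (hCs : Cs ∈ ubdS O)
    (hABC : 5 * A + 7 * B = 4 * Cs)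
    (hA0 : constantCoeff A = 0) (hA1 : coeff 1 A = 1)
    (hB0 : constantCoeff B = 0) (hB1 : coeff 1 B = 1)
    (hh : h = 1 + C 8 * X) (hhc : hc = 1 + C 8 * X')
    (he4 : e4 = 1 + C 240 * A) (he6 : e6 = 1 + C (-504) * B) : False := by
  -- the auxiliary forms
  have h22 : (2 : ℤ) + 2 = 4 := by norm_num
  have h222 : (2 : ℤ) + 2 + 2 = 6 := by norm_num
  have h24 : (2 : ℤ) + 4 = 6 := by norm_num
  have h26 : (2 : ℤ) + 6 = 8 := by norm_num
  have h44 : (4 : ℤ) + 4 = 8 := by norm_num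
  have hU := ctx.smul (1 / 48) (ctx.add (h22 ▸ ctx.mul hH hH) (ctx.smul (-1) hE4))
  have hW := ctx.smul (1 / 1728) (ctx.add (ctx.add (h222 ▸ ctx.mul (ctx.mul hH hH) hH)
    (ctx.smul (-3) (h24 ▸ ctx.mul hH hE4))) (ctx.smul 2 hE6))
  have hI := ctx.add (h26 ▸ ctx.mul hH hW) (ctx.smul (-1) (h44 ▸ ctx.mul hU hU))
  -- the series computations at both cusps
  obtain ⟨hIS, hδS, r, hr, hIr⟩ := ubd_series5 h3 hX hA hCs hABC hh he4 he6 rfl rfl rfl
    (δ := C (1 / 1728) * (e4 ^ 3 - e6 ^ 2)) rfl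
  have hABC' : 5 * expand p hp A + 7 * expand p hp B = 4 * expand p hp Cs := by
    have := congrArg (expand p hp) hABC
    simpa only [map_add, map_mul, map_ofNat] using this
  have he4' : expand p hp e4 = 1 + C 240 * expand p hp A := by
    rw [he4, map_add, map_mul, map_one, expand_C]
  have he6' : expand p hp e6 = 1 + C (-504) * expand p hp B := by
    rw [he6, map_add, map_mul, map_one, expand_C]
  obtain ⟨hIS', -, r', hr', hIr'⟩ := ubd_series5 h3 hX' (ubd_expand_mem p hp hA)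
    (ubd_expand_mem p hp hCs) hABC' hhc he4' he6' rfl rfl rfl
    (δ := C (1 / 1728) * (expand p hp e4 ^ 3 - expand p hp e6 ^ 2)) rfl
  have hδ' : C (1 / 1728 : ℂ) * (expand p hp e4 ^ 3 - expand p hp e6 ^ 2) =
      expand p hp (C (1 / 1728) * (e4 ^ 3 - e6 ^ 2)) := by
    rw [map_mul, expand_C, map_sub, map_pow, map_pow]
  rw [hδ'] at hIr'
  -- the constant and linear coefficients of `Δ`
  have hc4 : constantCoeff e4 = 1 := by
    rw [he4, map_add, map_mul, map_one, hA0, mul_zero, add_zero]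
  have hc6 : constantCoeff e6 = 1 := by
    rw [he6, map_add, map_mul, map_one, hB0, mul_zero, add_zero]
  have h14 : coeff 1 e4 = 240 := by
    rw [he4, map_add, coeff_C_mul, hA1, coeff_one]; norm_num
  have h16 : coeff 1 e6 = -504 := by
    rw [he6, map_add, coeff_C_mul, hB1, coeff_one]; norm_num
  have hδ0 : constantCoeff (C (1 / 1728 : ℂ) * (e4 ^ 3 - e6 ^ 2)) = 0 := by
    rw [map_mul, map_sub, map_pow, map_pow, hc4, hc6]; norm_num
  have hδ1 : coeff 1 (C (1 / 1728 : ℂ) * (e4 ^ 3 - e6 ^ 2)) = 1 := by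
    rw [coeff_C_mul, map_sub, coeff_one_pow, coeff_one_pow, hc4, hc6, h14, h16]; norm_num
  -- the contradiction
  have key := ctx.contra hI (by norm_num) (ubdJ O 2) (fun a ha x hx => ubdJ_smul_mem ha hx)
    (C (1 / 1728) * (e4 ^ 3 - e6 ^ 2)) (C (1 / 1728) * (e4 ^ 3 - e6 ^ 2)) hIS hIS' hδS hδS
    (fun n => by rw [hIr]; exact ubd_coeff_mem_J 2 hr n)
    (fun n => by rw [hIr']; exact ubd_coeff_mem_J 2 hr' n) hδ0 hδ0
  rw [hδ1, one_pow, one_mul] at key
  exact h1 key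

end Fermat.Agent.S16
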