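/-
S16 project, package UB115-TWO (helper15): the concrete "two-cusp expansion" predicate `UbdP`
(function-level, in the shape consumed by helper4's `nl1_mod`), its closure properties and the
norm/order-count contradiction: an instance of the abstract interface `UbdCtx`.
-/
import Fermat.Agent.S16.UBDCore
import Fermat.Agent.S16.NormLevelOne
import Fermat.Agent.S16.LevelOneOrder

set_option autoImplicit false

open UpperHalfPlane ModularForm Filter PowerSeries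
open scoped MatrixGroups Manifold

namespace Fermat.Agent.S16

open Fermat.Agent.S23

/-- `F` is holomorphic, of weight `k` for `Γ₀(p)`, bounded at `i∞` with `q`-expansion `α`, and
its companion `Fc(τ) = (F ∣[k] S)(p τ)` is bounded at `i∞` with `q`-expansion `β`. -/
def UbdP (p : ℕ) (k : ℤ) (F : ℍ → ℂ) (α β : PowerSeries ℂ) : Prop :=
  MDiff F ∧ (∀ γ ∈ CongruenceSubgroup.Gamma0 p, F ∣[k] γ = F) ∧ IsBoundedAtImInfty F ∧
    qExpansion 1 F = α ∧ ∃ Fc : ℍ → ℂ, IsBoundedAtImInfty Fc ∧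
      (∀ t t' : ℍ, (t' : ℂ) = p * t → Fc t = (F ∣[k] ModularGroup.S) t') ∧ qExpansion 1 Fc = β

theorem UbdP.add {p : ℕ} [NeZero p] {k : ℤ} {F F' : ℍ → ℂ} {α β α' β' : PowerSeries ℂ}
    (h : UbdP p k F α β) (h' : UbdP p k F' α' β') : UbdP p k (F + F') (α + α') (β + β') := by
  obtain ⟨hol, hinv, hbd, hα, Fc, hbdc, hFc, hβ⟩ := h
  obtain ⟨hol', hinv', hbd', hα', Fc', hbdc', hFc', hβ'⟩ := h'
  have hN := nl1_nice_of_inv p k F hol hinv hbd
  have hN' := nl1_nice_of_inv p k F' hol' hinv' hbd'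
  have hNc := nl1_nice_Fc p k F Fc hol hinv hbdc hFc
  have hNc' := nl1_nice_Fc p k F' Fc' hol' hinv' hbdc' hFc'
  refine ⟨hol.add hol', fun γ hγ => ?_, hbd.add hbd', ?_, Fc + Fc', hbdc.add hbdc', ?_, ?_⟩
  · rw [SlashAction.add_slash, hinv γ hγ, hinv' γ hγ]
  · rw [hN.qExpansion_add hN', hα, hα']
  · intro t t' ht
    rw [SlashAction.add_slash, Pi.add_apply, Pi.add_apply, hFc t t' ht, hFc' t t' ht]
  · rw [hNc.qExpansion_add hNc', hβ, hβ']

theorem UbdP.smul {p : ℕ} [NeZero p] {k : ℤ} {F : ℍ → ℂ} {α β : PowerSeries ℂ} (c : ℂ)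
    (h : UbdP p k F α β) : UbdP p k (c • F) (C c * α) (C c * β) := by
  obtain ⟨hol, hinv, hbd, hα, Fc, hbdc, hFc, hβ⟩ := h
  have hN := nl1_nice_of_inv p k F hol hinv hbd
  have hNc := nl1_nice_Fc p k F Fc hol hinv hbdc hFc
  refine ⟨(hN.smul c).holo, fun γ hγ => ?_, (hN.smul c).bdd, ?_, c • Fc, (hNc.smul c).bdd,
    ?_, ?_⟩
  · rw [ModularForm.SL_smul_slash, hinv γ hγ]
  · rw [hN.qExpansion_smul, hα, PowerSeries.smul_eq_C_mul]
  · intro t t' ht
    rw [ModularForm.SL_smul_slash, Pi.smul_apply, Pi.smul_apply, hFc t t' ht]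
  · rw [hNc.qExpansion_smul, hβ, PowerSeries.smul_eq_C_mul]

theorem UbdP.mul {p : ℕ} [NeZero p] {k k' : ℤ} {F F' : ℍ → ℂ} {α β α' β' : PowerSeries ℂ}
    (h : UbdP p k F α β) (h' : UbdP p k' F' α' β') :
    UbdP p (k + k') (F * F') (α * α') (β * β') := by
  obtain ⟨hol, hinv, hbd, hα, Fc, hbdc, hFc, hβ⟩ := h
  obtain ⟨hol', hinv', hbd', hα', Fc', hbdc', hFc', hβ'⟩ := h'
  have hN := nl1_nice_of_inv p k F hol hinv hbd
  have hN' := nl1_nice_of_inv p k' F' hol' hinv' hbd'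
  have hNc := nl1_nice_Fc p k F Fc hol hinv hbdc hFc
  have hNc' := nl1_nice_Fc p k' F' Fc' hol' hinv' hbdc' hFc'
  refine ⟨(hN.mul hN').holo, fun γ hγ => ?_, (hN.mul hN').bdd, ?_, Fc * Fc', (hNc.mul hNc').bdd,
    ?_, ?_⟩
  · rw [ModularForm.mul_slash_SL2, hinv γ hγ, hinv' γ hγ]
  · rw [hN.qExpansion_mul hN', hα, hα']
  · intro t t' ht
    rw [ModularForm.mul_slash_SL2, Pi.mul_apply, Pi.mul_apply, hFc t t' ht, hFc' t t' ht]
  · rw [hNc.qExpansion_mul hNc', hβ, hβ']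

/-- coefficients of `a₀ b₀^p` for `a₀, b₀` without constant term. -/
theorem ubd_coeff_mul_pow (p : ℕ) (a0 b0 : PowerSeries ℂ) (ha : constantCoeff a0 = 0)
    (hb : constantCoeff b0 = 0) :
    (∀ i, i ≤ p → coeff i (a0 * b0 ^ p) = 0) ∧
      coeff (p + 1) (a0 * b0 ^ p) = coeff 1 a0 * coeff 1 b0 ^ p := by
  obtain ⟨a1, rfl⟩ := PowerSeries.X_dvd_iff.mpr ha
  obtain ⟨b1, rfl⟩ := PowerSeries.X_dvd_iff.mpr hb
  have e : X * a1 * (X * b1) ^ p = X ^ (p + 1) * (a1 * b1 ^ p) := by ring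
  have e1 : coeff 1 (X * a1) = constantCoeff a1 := by
    rw [show (1 : ℕ) = 0 + 1 from rfl, coeff_succ_X_mul, coeff_zero_eq_constantCoeff_apply]
  have e2 : coeff 1 (X * b1) = constantCoeff b1 := by
    rw [show (1 : ℕ) = 0 + 1 from rfl, coeff_succ_X_mul, coeff_zero_eq_constantCoeff_apply]
  rw [e]
  refine ⟨fun i hi => ?_, ?_⟩
  · rw [coeff_X_pow_mul', if_neg (by omega)]
  · rw [coeff_X_pow_mul', if_pos le_rfl, Nat.sub_self, coeff_zero_eq_constantCoeff_apply,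
      map_mul, map_pow, e1, e2]

/-- **The norm / order-count contradiction** (helper4's `nl1_mod` + helper29's
`lo_order_bound`). -/
theorem UbdP.contra {p : ℕ} [Fact p.Prime] (hp : p ≠ 0) {O : Subring ℂ} {ζ : ℂ}
    (hζ : IsPrimitiveRoot ζ p) (hζO : ζ ∈ O) {k : ℤ} {F : ℍ → ℂ} {α β : PowerSeries ℂ}
    (h : UbdP p k F α β) (hk : k < 12) (J : AddSubgroup ℂ) (hJ : ∀ a ∈ O, ∀ x ∈ J, a * x ∈ J)
    (a0 b0 : PowerSeries ℂ) (hα : α ∈ ubdS O) (hβ : β ∈ ubdS O) (_ha0 : a0 ∈ ubdS O)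
    (hb0 : b0 ∈ ubdS O) (h1 : ∀ n, coeff n (α - a0) ∈ J)
    (h2 : ∀ n, coeff n (β - expand p hp b0) ∈ J) (hca : constantCoeff a0 = 0)
    (hcb : constantCoeff b0 = 0) : coeff 1 a0 * coeff 1 b0 ^ p ∈ J := by
  obtain ⟨hol, hinv, hbd, rfl, Fc, hbdc, hFc, rfl⟩ := h
  obtain ⟨N, -, -, hN⟩ := nl1_mod p hp k F Fc hol hinv hbd hbdc hFc O ζ hζ hζO J hJ a0 b0
    hα hβ hb0 (fun n => by simpa only [map_sub] using h1 n)
    (fun n => by simpa only [map_sub] using h2 n)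
  obtain ⟨hz, hc⟩ := ubd_coeff_mul_pow p a0 b0 hca hcb
  have hall := lo_order_bound J (k * (p + 1)) N (fun i hi => by
    have hip : i ≤ p := by
      have hp0 : (0 : ℤ) ≤ (p : ℤ) + 1 := by positivity
      have : 12 * (i : ℤ) < 12 * ((p : ℤ) + 1) := by nlinarith
      omega
    have := hN i
    rwa [hz i hip, sub_zero] at this)
  have h3 := hN (p + 1)
  rw [hc] at h3
  have h4 := J.sub_mem (hall (p + 1)) h3
  rwa [sub_sub_cancel] at h4

/-- The interface of `UBDCore` is satisfied by `UbdP`. -/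
theorem ubd_ctx (p : ℕ) [Fact p.Prime] (hp : p ≠ 0) (O : Subring ℂ) (ζ : ℂ)
    (hζ : IsPrimitiveRoot ζ p) (hζO : ζ ∈ O) : UbdCtx p hp O (UbdP p) := by
  haveI : NeZero p := ⟨hp⟩
  exact
    { add := fun h h' => h.add h'
      smul := fun c h => h.smul c
      mul := fun h h' => h.mul h'
      contra := fun h hk J hJ a0 b0 hα hβ ha0 hb0 h1 h2 hca hcb =>
        h.contra hp hζ hζO hk J hJ a0 b0 hα hβ ha0 hb0 h1 h2 hca hcb }

end Fermat.Agent.S16
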