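/-
S16 project, upper bound assembly (order-count route): the pure bookkeeping.

`upper_core`: a weight-2 form on `Γ₀(p)` (`p ≥ 5`) whose `q`-coefficients `a_k`, `k ≥ 1`, are
integers has `a_0 ∈ (gcd(p-1,12)/24) ℤ`, GIVEN the three analytic inputs as hypotheses
(`UbcConst`, `NoUnitOdd`, `NoUnitTwo`).
`cusp_congr_dvd_core`: the consequence for Eisenstein congruences, given the Eisenstein series.
-/
import Mathlib
import Fermat.Agent.S16.Defs
import Fermat.Prelude.Thm_CongruenceSubgroup_one_mem_strictPeriods_Gamma0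

set_option autoImplicit false

open UpperHalfPlane ModularForm CongruenceSubgroup ModularCurve
open scoped MatrixGroups

namespace Fermat.Agent.S16

/-- Steps 1-2 of the order-count route (shape of `ubc_const`). -/
def UbcConst (p : ℕ) : Prop :=
  ∀ G : ModularForm (Gamma0 p) 2,
    (∀ k : ℕ, 1 ≤ k → ∃ m : ℤ, ModularFormClass.qCoeff (⇑G) k = (m : ℂ)) →
    (∃ z : ℤ, ModularFormClass.qCoeff (⇑G) 0 * ((p : ℂ) ^ 11 * ((p : ℂ) + 1)) = (z : ℂ)) ∧
    (∃ z : ℤ, ModularFormClass.qCoeff (⇑G) 0 *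
        (504 * (p : ℂ) ^ 4 - 240 * (p : ℂ) ^ 3 - 744) = (z : ℂ)) ∧
    (∃ z : ℤ, ModularFormClass.qCoeff (⇑G) 0 *
        (480 * (p : ℂ) ^ 6 - 504 * (p : ℂ) ^ 5 - 984) = (z : ℂ))

/-- Steps 3-4 of the order-count route (odd `ℓ`). -/
def NoUnitOdd (p : ℕ) : Prop :=
  ∀ (l e : ℕ), l.Prime → l ≠ p → ((5 ≤ l ∧ e = 1) ∨ (l = 3 ∧ e = 2)) → l ^ e ∣ p + 1 →
    ∀ (H : ModularForm (Gamma0 p) 2) (X : ℕ → ℤ),
      (∀ n : ℕ, (qExpansion 1 H).coeff n = (if n = 0 then 1 else 0) + (l : ℂ) ^ e * (X n)) → False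

/-- Step 5 of the order-count route (`ℓ = 2`). -/
def NoUnitTwo (p : ℕ) : Prop :=
  p ≠ 2 → 8 ∣ p + 1 →
    ∀ (H : ModularForm (Gamma0 p) 2) (X : ℕ → ℤ),
      (∀ n : ℕ, (qExpansion 1 H).coeff n = (if n = 0 then 1 else 0) + 8 * (X n : ℂ)) → False

theorem upper_qExp_smul (p : ℕ) (c : ℂ) (G : ModularForm (Gamma0 p) 2) (n : ℕ) :
    (qExpansion 1 (⇑(c • G))).coeff n = c * (qExpansion 1 (⇑G)).coeff n := by
  rw [FunLike.coe_smul,
    ModularForm.qExpansion_smul one_pos (CongruenceSubgroup.one_mem_strictPeriods_Gamma0 p)]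
  simp

/-- the denominator of a rational `r` divides every integer `c` with `r * c ∈ ℤ`. -/
theorem upper_den_dvd (r : ℚ) (c z : ℤ) (h : r * (c : ℚ) = (z : ℚ)) : (r.den : ℤ) ∣ c := by
  have hd : (r.den : ℚ) ≠ 0 := by exact_mod_cast r.den_nz
  have h1 : (r.num : ℚ) * c = z * r.den := by
    have h2 : r = (r.num : ℚ) / r.den := (Rat.num_div_den r).symm
    rw [h2] at h
    field_simp at h
    linarith
  have h3 : (r.den : ℤ) ∣ r.num * c := ⟨z, by
    have : ((r.num * c : ℤ) : ℚ) = ((r.den * z : ℤ) : ℚ) := by push_cast; rw [h1]; ring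
    exact_mod_cast this⟩
  have hcop : IsCoprime (r.den : ℤ) r.num := by
    have := r.reduced
    rw [Nat.Coprime] at this
    exact (Int.isCoprime_iff_gcd_eq_one.mpr (by
      rw [Int.gcd_comm]; simpa [Int.gcd, Int.natAbs_natCast] using this))
  exact hcop.dvd_of_dvd_mul_left h3

/-- Normalisation: if `a_0 = r` has `ℓ ^ e ∣ den r` and the higher coefficients are integers,
some integer multiple `H` of `G` is congruent to `1` modulo `ℓ ^ e`. -/
theorem upper_normalise (p : ℕ) (G : ModularForm (Gamma0 p) 2) (r : ℚ)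
    (h0 : (qExpansion 1 (⇑G)).coeff 0 = (r : ℂ))
    (hG : ∀ k : ℕ, 1 ≤ k → ∃ m : ℤ, (qExpansion 1 (⇑G)).coeff k = (m : ℂ))
    (l e : ℕ) (hl : l.Prime) (he : 1 ≤ e) (hle : l ^ e ∣ r.den) :
    ∃ (H : ModularForm (Gamma0 p) 2) (X : ℕ → ℤ),
      ∀ n : ℕ, (qExpansion 1 (⇑H)).coeff n = (if n = 0 then 1 else 0) + (l : ℂ) ^ e * (X n) := by
  -- `num r` is prime to `l ^ e`
  have hcop : IsCoprime (r.num : ℤ) ((l : ℤ) ^ e) := by
    apply IsCoprime.pow_right
    rw [Int.isCoprime_iff_gcd_eq_one]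
    by_contra hne
    have hl' : Prime (l : ℤ) := Nat.prime_iff_prime_int.mp hl
    have hdvd : (l : ℤ) ∣ r.num := by
      have hg : Int.gcd r.num l ∣ l := Int.gcd_dvd_natAbs_right _ _ |>.trans (by simp)
      rcases (Nat.dvd_prime hl).mp hg with h1 | h1
      · exact absurd h1 hne
      · have := Int.gcd_dvd_left r.num (l : ℤ)
        rw [h1] at this
        exact this
    have hdvd2 : l ∣ r.den := (dvd_pow_self l (by omega : e ≠ 0)).trans hle
    have hred := r.reduced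
    have h2 : l ∣ r.num.natAbs := Int.natCast_dvd.mp hdvd
    have h3 : l ∣ Nat.gcd r.num.natAbs r.den := Nat.dvd_gcd h2 hdvd2
    rw [Nat.Coprime] at hred
    rw [hred] at h3
    exact hl.one_lt.ne' (Nat.dvd_one.mp h3)
  obtain ⟨u, v, huv⟩ := hcop
  -- `u * num + v * l^e = 1`
  obtain ⟨d', hd'⟩ := hle
  choose! m hm using hG
  refine ⟨(((u * r.den : ℤ) : ℂ)) • G, fun n => if n = 0 then -v else u * d' * m n, fun n => ?_⟩
  rw [upper_qExp_smul]
  have hd : (r.den : ℂ) ≠ 0 := by exact_mod_cast r.den_nz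
  by_cases hn : n = 0
  · subst hn
    simp only [if_true]
    rw [h0]
    have h1 : (r : ℂ) = (r.num : ℂ) / (r.den : ℂ) := by
      conv_lhs => rw [← Rat.num_div_den r]
      push_cast; rfl
    rw [h1]
    have h2 : ((u * r.num + v * (l : ℤ) ^ e : ℤ) : ℂ) = 1 := by rw [huv]; simp
    push_cast at h2 ⊢
    have h4 : (u : ℂ) * (r.den : ℂ) * ((r.num : ℂ) / (r.den : ℂ)) = (u : ℂ) * (r.num : ℂ) := by
      field_simp
    rw [h4]
    linear_combination h2
  · simp only [if_neg hn]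
    rw [hm n (Nat.one_le_iff_ne_zero.mpr hn)]
    have h3 : (r.den : ℂ) = (l : ℂ) ^ e * (d' : ℂ) := by exact_mod_cast congrArg (Nat.cast : ℕ → ℂ) hd'
    push_cast
    rw [h3]
    ring

theorem upper_gcd_two (p : ℕ) : 2 ∣ 24 / Nat.gcd (p - 1) 12 := by
  have hg : Nat.gcd (p - 1) 12 ∣ 12 := Nat.gcd_dvd_right _ _
  obtain ⟨c, hc⟩ := hg
  have hpos : 0 < Nat.gcd (p - 1) 12 := Nat.gcd_pos_of_pos_right _ (by norm_num)
  refine ⟨c, ?_⟩
  have h24 : 24 = Nat.gcd (p - 1) 12 * (2 * c) := by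
    calc 24 = 2 * 12 := by norm_num
      _ = 2 * (Nat.gcd (p - 1) 12 * c) := by rw [← hc]
      _ = Nat.gcd (p - 1) 12 * (2 * c) := by ring
  rw [h24, Nat.mul_div_cancel_left _ hpos]

theorem upper_gcd_four (p : ℕ) (hp : 1 ≤ p) (h4 : 4 ∣ p + 1) : 4 ∣ 24 / Nat.gcd (p - 1) 12 := by
  have hg : Nat.gcd (p - 1) 12 ∣ 12 := Nat.gcd_dvd_right _ _
  have hgp : Nat.gcd (p - 1) 12 ∣ p - 1 := Nat.gcd_dvd_left _ _
  have hle : Nat.gcd (p - 1) 12 ≤ 12 := Nat.le_of_dvd (by norm_num) hg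
  have hpos : 0 < Nat.gcd (p - 1) 12 := Nat.gcd_pos_of_pos_right _ (by norm_num)
  obtain ⟨b, hb⟩ := h4
  generalize Nat.gcd (p - 1) 12 = g at hg hgp hle hpos ⊢
  obtain ⟨a, ha⟩ := hgp
  interval_cases g <;> omega

theorem upper_gcd_three (p : ℕ) (hp : 1 ≤ p) (h3 : 3 ∣ p + 1) : 3 ∣ 24 / Nat.gcd (p - 1) 12 := by
  have hg : Nat.gcd (p - 1) 12 ∣ 12 := Nat.gcd_dvd_right _ _
  have hgp : Nat.gcd (p - 1) 12 ∣ p - 1 := Nat.gcd_dvd_left _ _
  have hle : Nat.gcd (p - 1) 12 ≤ 12 := Nat.le_of_dvd (by norm_num) hg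
  have hpos : 0 < Nat.gcd (p - 1) 12 := Nat.gcd_pos_of_pos_right _ (by norm_num)
  obtain ⟨b, hb⟩ := h3
  generalize Nat.gcd (p - 1) 12 = g at hg hgp hle hpos ⊢
  obtain ⟨a, ha⟩ := hgp
  interval_cases g <;> omega

/-- **Upper bound, assembly.** -/
theorem upper_core (p : ℕ) [Fact p.Prime] (hp5 : 5 ≤ p) (h12 : UbcConst p) (hodd : NoUnitOdd p)
    (htwo : NoUnitTwo p) (G : ModularForm (Gamma0 p) 2)
    (hG : ∀ k : ℕ, 1 ≤ k → ∃ m : ℤ, ModularFormClass.qCoeff (⇑G) k = (m : ℂ)) :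
    ∃ m : ℤ, ModularFormClass.qCoeff (⇑G) 0 = (m : ℂ) * (Nat.gcd (p - 1) 12 : ℂ) / 24 := by
  have hpp : p.Prime := Fact.out
  obtain ⟨⟨z1, hz1⟩, ⟨z2, hz2⟩, ⟨z3, hz3⟩⟩ := h12 G hG
  have hG' : ∀ k : ℕ, 1 ≤ k → ∃ m : ℤ, (qExpansion 1 (⇑G)).coeff k = (m : ℂ) := hG
  -- rationality of the constant term
  have hc1 : ((p : ℂ) ^ 11 * ((p : ℂ) + 1)) ≠ 0 := by
    have h1 : (p : ℂ) ≠ 0 := by exact_mod_cast hpp.ne_zero
    have h2 : (p : ℂ) + 1 ≠ 0 := by exact_mod_cast (Nat.succ_ne_zero p)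
    exact mul_ne_zero (pow_ne_zero _ h1) h2
  obtain ⟨r, hr⟩ : ∃ r : ℚ, ModularFormClass.qCoeff (⇑G) 0 = (r : ℂ) := by
    refine ⟨(z1 : ℚ) / ((p : ℚ) ^ 11 * ((p : ℚ) + 1)), ?_⟩
    push_cast
    rw [eq_div_iff hc1, hz1]
  have hr' : (qExpansion 1 (⇑G)).coeff 0 = (r : ℂ) := hr
  rw [hr] at hz1 hz2 hz3
  have hd1 : (r.den : ℤ) ∣ (p : ℤ) ^ 11 * ((p : ℤ) + 1) :=
    upper_den_dvd r _ z1 (by exact_mod_cast hz1)
  have hd2 : (r.den : ℤ) ∣ 504 * (p : ℤ) ^ 4 - 240 * (p : ℤ) ^ 3 - 744 :=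
    upper_den_dvd r _ z2 (by exact_mod_cast hz2)
  have hd3 : (r.den : ℤ) ∣ 480 * (p : ℤ) ^ 6 - 504 * (p : ℤ) ^ 5 - 984 :=
    upper_den_dvd r _ z3 (by exact_mod_cast hz3)
  have key : r.den ∣ 24 / Nat.gcd (p - 1) 12 := by
    rw [Nat.dvd_iff_prime_pow_dvd_dvd]
    intro l k hl hlk
    rcases Nat.eq_zero_or_pos k with rfl | hk
    · simp
    have hlden : l ∣ r.den := (dvd_pow_self l hk.ne').trans hlk
    by_cases hlp : l = p
    · exfalso
      subst hlp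
      have hlZ : (l : ℤ) ∣ (r.den : ℤ) := Int.natCast_dvd_natCast.mpr hlden
      have h744 : (l : ℤ) ∣ 744 := by
        have h1 := hlZ.trans hd2
        have h2 : (l : ℤ) ∣ 504 * (l : ℤ) ^ 4 - 240 * (l : ℤ) ^ 3 :=
          ⟨504 * (l : ℤ) ^ 3 - 240 * (l : ℤ) ^ 2, by ring⟩
        have h3 := Int.dvd_sub h2 h1
        have h4 : 504 * (l : ℤ) ^ 4 - 240 * (l : ℤ) ^ 3 -
            (504 * (l : ℤ) ^ 4 - 240 * (l : ℤ) ^ 3 - 744) = 744 := by ring
        rwa [h4] at h3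
      have h984 : (l : ℤ) ∣ 984 := by
        have h1 := hlZ.trans hd3
        have h2 : (l : ℤ) ∣ 480 * (l : ℤ) ^ 6 - 504 * (l : ℤ) ^ 5 :=
          ⟨480 * (l : ℤ) ^ 5 - 504 * (l : ℤ) ^ 4, by ring⟩
        have h3 := Int.dvd_sub h2 h1
        have h4 : 480 * (l : ℤ) ^ 6 - 504 * (l : ℤ) ^ 5 -
            (480 * (l : ℤ) ^ 6 - 504 * (l : ℤ) ^ 5 - 984) = 984 := by ring
        rwa [h4] at h3
      have h24 : (l : ℤ) ∣ 24 := by
        have h5 : (l : ℤ) ∣ 744 * 4 - 984 * 3 := Dvd.dvd.sub (h744.mul_right 4) (h984.mul_right 3)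
        norm_num at h5
        exact h5
      have h24' : l ∣ 24 := Int.natCast_dvd_natCast.mp (by exact_mod_cast h24)
      have h23 : l = 2 ∨ l = 3 := by
        have h1 : l ∣ 2 ^ 3 * 3 := by norm_num; exact h24'
        rcases (Nat.Prime.dvd_mul hl).mp h1 with h | h
        · left; exact (Nat.prime_dvd_prime_iff_eq hl Nat.prime_two).mp (hl.dvd_of_dvd_pow h)
        · right; exact (Nat.prime_dvd_prime_iff_eq hl Nat.prime_three).mp h
      omega
    · -- `l ≠ p`: `l ^ k ∣ p + 1`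
      have hlk1 : l ^ k ∣ p + 1 := by
        have h1 : ((l ^ k : ℕ) : ℤ) ∣ (p : ℤ) ^ 11 * ((p : ℤ) + 1) :=
          (Int.natCast_dvd_natCast.mpr hlk).trans hd1
        have h2 : l ^ k ∣ p ^ 11 * (p + 1) := Int.natCast_dvd_natCast.mp (by exact_mod_cast h1)
        have hcop : Nat.Coprime (l ^ k) (p ^ 11) :=
          Nat.Coprime.pow _ _ ((Nat.coprime_primes hl hpp).mpr hlp)
        exact hcop.dvd_of_dvd_mul_left h2
      by_cases h5 : 5 ≤ l
      · exfalso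
        obtain ⟨H, X, hH⟩ := upper_normalise p G r hr' hG' l 1 hl le_rfl (by simpa using hlden)
        have hl1 : l ^ 1 ∣ p + 1 := (pow_dvd_pow l hk).trans hlk1
        exact hodd l 1 hl hlp (Or.inl ⟨h5, rfl⟩) hl1 H X hH
      · have hl23 : l = 2 ∨ l = 3 := by
          have h2 := hl.two_le
          have h4 : l ≠ 4 := by rintro rfl; exact absurd hl (by decide)
          omega
        rcases hl23 with rfl | rfl
        · -- `l = 2`
          by_cases hk3 : 3 ≤ k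
          · exfalso
            have h8den : 2 ^ 3 ∣ r.den := (pow_dvd_pow 2 hk3).trans hlk
            have h8 : 8 ∣ p + 1 := by
              have := (pow_dvd_pow 2 hk3).trans hlk1
              simpa using this
            obtain ⟨H, X, hH⟩ := upper_normalise p G r hr' hG' 2 3 hl (by norm_num) h8den
            refine htwo (by omega) h8 H X (fun n => ?_)
            rw [hH n]
            norm_num
          · have hk12 : k = 1 ∨ k = 2 := by omega
            rcases hk12 with rfl | rfl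
            · simpa using upper_gcd_two p
            · have h4 : 4 ∣ p + 1 := by simpa using hlk1
              simpa using upper_gcd_four p (by omega) h4
        · -- `l = 3`
          by_cases hk2 : 2 ≤ k
          · exfalso
            have h9den : 3 ^ 2 ∣ r.den := (pow_dvd_pow 3 hk2).trans hlk
            have h9 : 3 ^ 2 ∣ p + 1 := (pow_dvd_pow 3 hk2).trans hlk1
            obtain ⟨H, X, hH⟩ := upper_normalise p G r hr' hG' 3 2 hl (by norm_num) h9den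
            exact hodd 3 2 hl hlp (Or.inr ⟨rfl, rfl⟩) h9 H X hH
          · have hk1 : k = 1 := by omega
            subst hk1
            have h3 : 3 ∣ p + 1 := by simpa using hlk1
            simpa using upper_gcd_three p (by omega) h3
  -- conclusion
  obtain ⟨t, ht⟩ := key
  refine ⟨r.num * t, ?_⟩
  rw [hr]
  have hg : Nat.gcd (p - 1) 12 ∣ 24 := (Nat.gcd_dvd_right _ _).trans (by norm_num)
  have h24 : (24 : ℕ) = r.den * t * Nat.gcd (p - 1) 12 := by
    rw [← ht, Nat.div_mul_cancel hg]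
  have h24C : (24 : ℂ) = (r.den : ℂ) * (t : ℂ) * (Nat.gcd (p - 1) 12 : ℂ) := by
    exact_mod_cast congrArg (Nat.cast : ℕ → ℂ) h24
  have hd : (r.den : ℂ) ≠ 0 := by exact_mod_cast r.den_nz
  have h1 : (r : ℂ) = (r.num : ℂ) / (r.den : ℂ) := by
    conv_lhs => rw [← Rat.num_div_den r]
    push_cast; rfl
  have ht0 : (t : ℂ) ≠ 0 := by
    rintro h0
    rw [h0] at h24C
    norm_num at h24C
  have hg0 : (Nat.gcd (p - 1) 12 : ℂ) ≠ 0 := by
    rintro h0
    rw [h0] at h24C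
    norm_num at h24C
  rw [h1, h24C]
  push_cast
  field_simp

theorem upper_dvd_aux (P g m : ℕ) (t : ℤ) (hg : 0 < g) (h : (P : ℤ) = t * (g : ℤ) * (m : ℤ)) :
    m ∣ P / g := by
  have h7 := congrArg Int.natAbs h
  rw [Int.natAbs_natCast, Int.natAbs_mul, Int.natAbs_mul, Int.natAbs_natCast,
    Int.natAbs_natCast] at h7
  have h8 : P = g * (t.natAbs * m) := by rw [h7]; ring
  rw [h8, Nat.mul_div_cancel_left _ hg]
  exact Dvd.intro_left _ rfl

/-- shape of `exists_eis`. -/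
def EisExists (p : ℕ) : Prop := ∃ e : ModularForm (Gamma0 p) 2,
    ModularFormClass.qCoeff (⇑e) 0 = ((p : ℂ) - 1) / 24 ∧
    ∀ k : ℕ, 1 ≤ k → ModularFormClass.qCoeff (⇑e) k = (sigmaP p k : ℂ)

/-- `q`-coefficients of `c • (e - f)`. -/
theorem upper_qExp_smul_sub (p : ℕ) (c : ℂ) (e : ModularForm (Gamma0 p) 2)
    (f : CuspForm (Gamma0 p) 2) (n : ℕ) :
    (qExpansion 1 (⇑(c • (e - ModularFormClass.modularForm f)))).coeff n =
      c * ((qExpansion 1 (⇑e)).coeff n - (qExpansion 1 (⇑f)).coeff n) := by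
  rw [upper_qExp_smul, FunLike.coe_sub,
    ModularForm.qExpansion_sub one_pos (CongruenceSubgroup.one_mem_strictPeriods_Gamma0 p),
    map_sub]
  rfl

/-- **Eisenstein congruences, upper bound.** -/
theorem cusp_congr_dvd_core (p : ℕ) [Fact p.Prime] (hp5 : 5 ≤ p)
    (hupper : ∀ G : ModularForm (Gamma0 p) 2,
      (∀ k : ℕ, 1 ≤ k → ∃ m : ℤ, ModularFormClass.qCoeff (⇑G) k = (m : ℂ)) →
      ∃ m : ℤ, ModularFormClass.qCoeff (⇑G) 0 = (m : ℂ) * (Nat.gcd (p - 1) 12 : ℂ) / 24)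
    (heis : EisExists p) (m : ℕ) (f : CuspForm (Gamma0 p) 2)
    (h : ∀ k : ℕ, 1 ≤ k → ∃ j : ℤ,
      ModularFormClass.qCoeff (⇑f) k = (sigmaP p k : ℂ) + (m : ℂ) * (j : ℂ)) :
    m ∣ eisensteinNumerator p := by
  obtain ⟨e, he0, hek⟩ := heis
  have hf0 : (qExpansion 1 (⇑f)).coeff 0 = 0 :=
    CuspFormClass.qExpansion_coeff_zero f one_pos
      (CongruenceSubgroup.one_mem_strictPeriods_Gamma0 p)
  have hp1 : ((p : ℂ) - 1) ≠ 0 := by
    have : (1 : ℕ) < p := by omega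
    have h2 : ((p - 1 : ℕ) : ℂ) ≠ 0 := by exact_mod_cast (Nat.sub_pos_of_lt this).ne'
    rwa [Nat.cast_sub (by omega), Nat.cast_one] at h2
  have hgpos : 0 < Nat.gcd (p - 1) 12 := Nat.gcd_pos_of_pos_right _ (by norm_num)
  have hg0 : (Nat.gcd (p - 1) 12 : ℂ) ≠ 0 := by exact_mod_cast hgpos.ne'
  choose! j hj using h
  rcases Nat.eq_zero_or_pos m with rfl | hm
  · -- `m = 0` is impossible
    exfalso
    obtain ⟨t, ht⟩ := hupper
      ((((Nat.gcd (p - 1) 12 : ℂ)) / (2 * ((p : ℂ) - 1))) • (e - ModularFormClass.modularForm f))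
      (fun k hk => ⟨0, by
        show (qExpansion 1 _).coeff k = _
        rw [upper_qExp_smul_sub]
        have h1 : (qExpansion 1 (⇑e)).coeff k = (sigmaP p k : ℂ) := hek k hk
        have h2 : (qExpansion 1 (⇑f)).coeff k = (sigmaP p k : ℂ) + ((0 : ℕ) : ℂ) * (j k : ℂ) :=
          hj k hk
        rw [h1, h2]
        simp⟩)
    have ht' : (qExpansion 1 (⇑((((Nat.gcd (p - 1) 12 : ℂ)) / (2 * ((p : ℂ) - 1))) •
        (e - ModularFormClass.modularForm f)))).coeff 0 = _ := ht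
    rw [upper_qExp_smul_sub, hf0] at ht'
    have he0' : (qExpansion 1 (⇑e)).coeff 0 = ((p : ℂ) - 1) / 24 := he0
    rw [he0'] at ht'
    have hL : ((Nat.gcd (p - 1) 12 : ℂ)) / (2 * ((p : ℂ) - 1)) * (((p : ℂ) - 1) / 24 - 0) =
        (Nat.gcd (p - 1) 12 : ℂ) / 48 := by
      field_simp
      ring
    rw [hL] at ht'
    have h3 : (2 : ℂ) * (t : ℂ) = 1 := by
      apply mul_left_cancel₀ hg0
      linear_combination -48 * ht'
    have h4 : (2 : ℤ) * t = 1 := by exact_mod_cast h3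
    omega
  · have hm0 : (m : ℂ) ≠ 0 := by exact_mod_cast hm.ne'
    obtain ⟨t, ht⟩ := hupper
      (((m : ℂ)⁻¹) • (e - ModularFormClass.modularForm f))
      (fun k hk => ⟨-j k, by
        show (qExpansion 1 _).coeff k = _
        rw [upper_qExp_smul_sub]
        have h1 : (qExpansion 1 (⇑e)).coeff k = (sigmaP p k : ℂ) := hek k hk
        have h2 : (qExpansion 1 (⇑f)).coeff k = (sigmaP p k : ℂ) + (m : ℂ) * (j k : ℂ) :=
          hj k hk
        rw [h1, h2]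
        push_cast
        field_simp
        ring⟩)
    have ht' : (qExpansion 1 (⇑(((m : ℂ)⁻¹) • (e - ModularFormClass.modularForm f)))).coeff 0
        = _ := ht
    rw [upper_qExp_smul_sub, hf0] at ht'
    have he0' : (qExpansion 1 (⇑e)).coeff 0 = ((p : ℂ) - 1) / 24 := he0
    rw [he0'] at ht'
    have h3 : (p : ℂ) - 1 = (t : ℂ) * (Nat.gcd (p - 1) 12 : ℂ) * (m : ℂ) := by
      field_simp at ht'
      linear_combination ht'
    have h4 : ((p - 1 : ℕ) : ℤ) = t * (Nat.gcd (p - 1) 12 : ℤ) * (m : ℤ) := by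
      have h5 : (((p - 1 : ℕ) : ℤ) : ℂ) = ((t * (Nat.gcd (p - 1) 12 : ℤ) * (m : ℤ) : ℤ) : ℂ) := by
        push_cast
        rw [Nat.cast_sub (by omega), Nat.cast_one]
        exact h3
      exact_mod_cast h5
    exact upper_dvd_aux (p - 1) (Nat.gcd (p - 1) 12) m t hgpos h4

end Fermat.Agent.S16
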