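import Mathlib

/-!
# Valuation subrings of `ℂ` above a prime `ℓ`

A valuation subring `V` of `ℂ` in which `ℓ` is not a unit: it contains every algebraic integer
and `1/n` for `ℓ ∤ n`.  Packaged as a pair `(O, J)`: a subring of `ℂ` and its maximal ideal as an
additive subgroup of `ℂ`.
-/

set_option autoImplicit false

namespace Fermat.Agent.S16

theorem exists_valuationSubring (ℓ : ℕ) (hℓ : ℓ.Prime) :
    ∃ V : ValuationSubring ℂ, (ℓ : ℂ)⁻¹ ∉ V := by
  let A : Subring ℂ := (Int.castRingHom ℂ).range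
  let x : A := ⟨(ℓ : ℂ), ⟨(ℓ : ℤ), by simp⟩⟩
  have hI : Ideal.span {x} ≠ ⊤ := by
    intro h
    rw [Ideal.span_singleton_eq_top] at h
    obtain ⟨⟨y, m, rfl⟩, hy⟩ := h.exists_right_inv
    have h1 : ((ℓ : ℂ) * ((Int.castRingHom ℂ) m)) = 1 := congrArg Subtype.val hy
    have h2 : (ℓ : ℤ) * m = 1 := by
      have : (((ℓ : ℤ) * m : ℤ) : ℂ) = ((1 : ℤ) : ℂ) := by
        push_cast
        simpa using h1
      exact_mod_cast this
    have h3 : (ℓ : ℤ) ∣ 1 := ⟨m, h2.symm⟩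
    have h4 := Int.eq_one_of_dvd_one (by positivity) h3
    have h5 : ℓ = 1 := by exact_mod_cast h4
    exact hℓ.one_lt.ne' h5
  obtain ⟨V, -, hV⟩ := Ideal.image_subset_nonunits_valuationSubring _ hI
  refine ⟨V, fun hinv => ?_⟩
  have hx : (ℓ : ℂ) ∈ V.nonunits := hV ⟨x, Ideal.subset_span rfl, rfl⟩
  rw [ValuationSubring.mem_nonunits_iff] at hx
  have h0 : (ℓ : ℂ) ≠ 0 := by exact_mod_cast hℓ.ne_zero
  have h1 : V.valuation ((ℓ : ℂ)⁻¹) ≤ 1 := (V.valuation_le_one_iff _).mpr hinv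
  have h2 : V.valuation ((ℓ : ℂ)) * V.valuation ((ℓ : ℂ)⁻¹) = 1 := by
    rw [← map_mul, mul_inv_cancel₀ h0, map_one]
  have h3 : V.valuation ((ℓ : ℂ)) * V.valuation ((ℓ : ℂ)⁻¹) < 1 :=
    mul_lt_one_of_lt_of_le hx h1
  exact absurd h2 h3.ne

theorem isIntegral_mem_valuationSubring (V : ValuationSubring ℂ) (x : ℂ) (hx : IsIntegral ℤ x) :
    x ∈ V := by
  have h1 : IsIntegral V x := hx.tower_top
  obtain ⟨y, hy⟩ := (IsIntegrallyClosed.isIntegral_iff (R := V) (K := ℂ)).mp h1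
  rw [← hy]
  exact y.2

theorem val_natCast_lt_one (V : ValuationSubring ℂ) (ℓ : ℕ)
    (hV : (ℓ : ℂ)⁻¹ ∉ V) : V.valuation (ℓ : ℂ) < 1 := by
  by_contra hcon
  have h1 : 1 ≤ V.valuation (ℓ : ℂ) := not_lt.mp hcon
  apply hV
  rw [← V.valuation_le_one_iff, map_inv₀]
  exact inv_le_one_of_one_le₀ h1

theorem val_intCast_mem (V : ValuationSubring ℂ) (a : ℤ) : (a : ℂ) ∈ V :=
  intCast_mem V a

theorem inv_natCast_mem_valuationSubring (V : ValuationSubring ℂ) (ℓ : ℕ) (hℓ : ℓ.Prime)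
    (hV : (ℓ : ℂ)⁻¹ ∉ V) (n : ℕ) (hn : ¬ ℓ ∣ n) : (n : ℂ)⁻¹ ∈ V := by
  by_contra hcon
  have hℓ1 := val_natCast_lt_one V ℓ hV
  have hn1 : V.valuation (n : ℂ) < 1 := by
    by_contra hc
    have h1 : 1 ≤ V.valuation (n : ℂ) := not_lt.mp hc
    apply hcon
    rw [← V.valuation_le_one_iff, map_inv₀]
    exact inv_le_one_of_one_le₀ h1
  have hcop : Nat.Coprime ℓ n := (Nat.Prime.coprime_iff_not_dvd hℓ).mpr hn
  have hgcd : IsCoprime (ℓ : ℤ) (n : ℤ) := Nat.isCoprime_iff_coprime.mpr hcop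
  obtain ⟨a, b, hab⟩ := hgcd
  have h1 : ((a : ℂ) * ℓ + (b : ℂ) * n) = 1 := by exact_mod_cast hab
  have ha : V.valuation (a : ℂ) ≤ 1 :=
    (V.valuation_le_one_iff _).mpr (val_intCast_mem V a)
  have hb : V.valuation (b : ℂ) ≤ 1 :=
    (V.valuation_le_one_iff _).mpr (val_intCast_mem V b)
  have h2 : V.valuation ((a : ℂ) * ℓ) < 1 := by
    rw [map_mul, mul_comm]
    exact mul_lt_one_of_lt_of_le hℓ1 ha
  have h3 : V.valuation ((b : ℂ) * n) < 1 := by
    rw [map_mul, mul_comm]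
    exact mul_lt_one_of_lt_of_le hn1 hb
  have h4 : V.valuation ((a : ℂ) * ℓ + (b : ℂ) * n) < 1 :=
    lt_of_le_of_lt (Valuation.map_add _ _ _) (max_lt h2 h3)
  rw [h1, map_one] at h4
  exact lt_irrefl _ h4

/-- the maximal ideal of a valuation subring of `ℂ`, as an additive subgroup of `ℂ` -/
noncomputable def valMaxAddSubgroup (V : ValuationSubring ℂ) : AddSubgroup ℂ where
  carrier := {x | V.valuation x < 1}
  zero_mem' := by
    show V.valuation 0 < 1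
    rw [map_zero]
    exact zero_lt_one
  add_mem' := by
    intro a b ha hb
    show V.valuation (a + b) < 1
    exact lt_of_le_of_lt (Valuation.map_add _ _ _)
      (max_lt (show V.valuation a < 1 from ha) (show V.valuation b < 1 from hb))
  neg_mem' := by
    intro a ha
    show V.valuation (-a) < 1
    rw [Valuation.map_neg]
    exact ha

theorem mem_valMaxAddSubgroup (V : ValuationSubring ℂ) (x : ℂ) :
    x ∈ valMaxAddSubgroup V ↔ V.valuation x < 1 := Iff.rfl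

/-- **The pair `(O, J)`** used by the order-count upper bound. -/
theorem exists_val_pair (ℓ : ℕ) (hℓ : ℓ.Prime) :
    ∃ (O : Subring ℂ) (J : AddSubgroup ℂ),
      (∀ a ∈ O, ∀ x ∈ J, a * x ∈ J) ∧
      (∀ x : ℂ, IsIntegral ℤ x → x ∈ O) ∧
      (∀ n : ℕ, ¬ ℓ ∣ n → (n : ℂ)⁻¹ ∈ O) ∧
      (ℓ : ℂ) ∈ J ∧ (1 : ℂ) ∉ J ∧
      (∀ x ∈ J, x ∈ O) ∧
      (∀ x ∈ O, x ∉ J → x⁻¹ ∈ O) ∧
      (∀ x ∈ O, ∀ y ∈ O, x * y ∈ J → x ∈ J ∨ y ∈ J) := by
  obtain ⟨V, hV⟩ := exists_valuationSubring ℓ hℓ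
  refine ⟨V.toSubring, valMaxAddSubgroup V, ?_, ?_, ?_, ?_, ?_, ?_, ?_, ?_⟩
  · intro a ha x hx
    rw [mem_valMaxAddSubgroup, map_mul, mul_comm]
    exact mul_lt_one_of_lt_of_le hx ((V.valuation_le_one_iff _).mpr ha)
  · exact fun x hx => isIntegral_mem_valuationSubring V x hx
  · exact fun n hn => inv_natCast_mem_valuationSubring V ℓ hℓ hV n hn
  · exact val_natCast_lt_one V ℓ hV
  · rw [mem_valMaxAddSubgroup, map_one]
    exact lt_irrefl _
  · intro x hx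
    exact (V.valuation_le_one_iff _).mp (le_of_lt hx)
  · intro x hx hxJ
    have h1 : V.valuation x ≤ 1 := (V.valuation_le_one_iff _).mpr hx
    have h2 : V.valuation x = 1 := le_antisymm h1 (not_lt.mp hxJ)
    show x⁻¹ ∈ V
    rw [← V.valuation_le_one_iff, map_inv₀, h2, inv_one]
  · intro x hx y hy hxy
    by_contra hcon
    push Not at hcon
    have h1 : V.valuation x = 1 :=
      le_antisymm ((V.valuation_le_one_iff _).mpr hx) (not_lt.mp hcon.1)
    have h2 : V.valuation y = 1 :=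
      le_antisymm ((V.valuation_le_one_iff _).mpr hy) (not_lt.mp hcon.2)
    rw [mem_valMaxAddSubgroup, map_mul, h1, h2, one_mul] at hxy
    exact lt_irrefl _ hxy

end Fermat.Agent.S16
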