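/-
S16 project, package UB115-TWO (helper15): Step 5 of the "order count" upper bound
(finding 115): there is no `H ∈ M₂(Γ₀(p))` with integral `q`-expansion `≡ 1 mod 8` when
`8 ∣ p + 1`.

Proof: with `u = (H² - E₄)/48`, `w = (H³ - 3 H E₄ + 2 E₆)/1728`, `I₈ = H w - u²` one has the exact
identity `Δ = -H² I₈ - 64 u³ - 432 w² + 72 H u w`; `u`, `w` are 2-integral at both cusps, so
`I₈ ≡ Δ mod 2` at both cusps and the norm of `I₈` to level one is `≡ Δ^(p+1) mod 2`: a level-one
form of weight `8 (p + 1)` vanishing mod 2 to order `p + 1 > 8 (p + 1) / 12`.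
Consumes `BiExp.lean` (helper11), `NormLevelOne.lean` (helper4), `LevelOneOrder.lean` (helper29),
`ValSub.lean` (helper4).
-/
import Fermat.Agent.S16.UBDCtx
import Fermat.Agent.S16.BiExp
import Fermat.Agent.S16.ValSub
import Fermat.Agent.S16.UpperCore
import Fermat.Agent.Lib.IntStruct.LevelOne

set_option autoImplicit false

open UpperHalfPlane ModularForm Filter PowerSeries EisensteinSeries
open scoped MatrixGroups Manifold

namespace Fermat.Agent.S16

open Fermat.Agent.S23 Fermat.Agent.Lib.IntStruct.LevelOne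

/-- `BiNice` functions carry two-cusp expansion data. -/
theorem ubd_P_of_biNice {p : ℕ} (hp : p ≠ 0) {k : ℤ} {F : ℍ → ℂ} (hF : BiNice p k F) :
    UbdP p k F (qExpansion 1 F) (qExpansion 1 (biExpComp p k F)) :=
  ⟨hF.holo, hF.inv, hF.bdd, rfl, biExpComp p k F, hF.comp_bdd hp,
    fun t t' h => biExpComp_spec hp k F t t' h, rfl⟩

/-- integral series lie in `ubdS O`. -/
theorem ubd_toC_mem (O : Subring ℂ) (f : PowerSeries ℤ) : toC f ∈ ubdS O := by
  intro n
  rw [toC, PowerSeries.coeff_map]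
  exact intCast_mem O _

theorem ubd_sigma_const (j : ℕ) : constantCoeff (toC (sigmaSeries j)) = 0 := by
  rw [← coeff_zero_eq_constantCoeff_apply, toC, PowerSeries.coeff_map, coeff_sigmaSeries]
  simp

theorem ubd_sigma_one (j : ℕ) : coeff 1 (toC (sigmaSeries j)) = 1 := by
  rw [toC, PowerSeries.coeff_map, coeff_sigmaSeries]
  simp

theorem ubd_qExpansion_E4 :
    qExpansion 1 E₄ = 1 + C 240 * toC (sigmaSeries 3) := by
  rw [qExpansion_E4, toC, map_add, map_one, map_zsmul, zsmul_eq_mul,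
    show (C (240 : ℂ) : PowerSeries ℂ) = 240 from map_ofNat C 240]
  norm_num

theorem ubd_qExpansion_E6 :
    qExpansion 1 E₆ = 1 + C (-504) * toC (sigmaSeries 5) := by
  rw [qExpansion_E6, toC, map_add, map_one, map_zsmul, zsmul_eq_mul,
    show (C (-504 : ℂ) : PowerSeries ℂ) = -504 by rw [map_neg, map_ofNat]]
  norm_num

theorem ubd_corr :
    5 * toC (sigmaSeries 3) + 7 * toC (sigmaSeries 5) = 4 * (3 * toC corrSeries) := by
  have h := congrArg toC twelve_mul_corrSeries
  simp only [toC, map_mul, map_add, map_ofNat] at h ⊢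
  linear_combination -h

/-- **Step 5 of the order-count route** (`ℓ = 2`). -/
theorem oc_no_unit_congruence_two (p : ℕ) [Fact p.Prime] : NoUnitTwo p := by
  intro hp2 hp8 H X hH
  have hpp : p.Prime := Fact.out
  have hp : p ≠ 0 := hpp.ne_zero
  haveI : NeZero p := ⟨hp⟩
  obtain ⟨O, J, hJ, hint, hinv, h2J, h1J, -, -, -⟩ := exists_val_pair 2 Nat.prime_two
  -- facts about `O`
  have hζO : psZeta p ∈ O := hint _ ((psZeta_isPrimitiveRoot p hp).isIntegral hpp.pos)
  have h3 : (3 : ℂ)⁻¹ ∈ O := by simpa using hinv 3 (by norm_num)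
  have hpO : (p : ℂ)⁻¹ ∈ O :=
    hinv p (fun h => hp2 ((Nat.prime_dvd_prime_iff_eq Nat.prime_two hpp).mp h).symm)
  have h1 : (1 : ℂ) ∉ ubdJ O 2 := by
    rintro ⟨x, hx, e⟩
    apply h1J
    rw [e, mul_comm]
    have := hJ x hx 2 (by simpa using h2J)
    simpa using this
  have ctx := ubd_ctx p hp O (psZeta p) (psZeta_isPrimitiveRoot p hp) hζO
  -- the three basic forms
  have hHb : BiNice p 2 H := BiNice.of_modularForm p H
  have hPH := ubd_P_of_biNice hp hHb
  rw [hHb.qExpansion_comp_two] at hPH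
  have hP4 := ubd_P_of_biNice hp (BiNice.of_levelOne p E₄)
  rw [biExp_qExpansion_comp_levelOne hp] at hP4
  have hP6 := ubd_P_of_biNice hp (BiNice.of_levelOne p E₆)
  rw [biExp_qExpansion_comp_levelOne hp] at hP6
  -- the series `X` and `X'`
  have hpc : (p : ℂ) ≠ 0 := by exact_mod_cast hp
  obtain ⟨m, hm⟩ := hp8
  have hh : qExpansion 1 H = 1 + C 8 * PowerSeries.mk (fun n => (X n : ℂ)) := by
    ext n
    rw [hH n, map_add, coeff_C_mul, coeff_mk, coeff_one]
  have hhc : (-(p : ℂ)⁻¹) • biExpU p (qExpansion 1 H) = 1 + C 8 *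
      PowerSeries.mk (fun n => -(p : ℂ)⁻¹ * ((if n = 0 then (m : ℂ) else 0) + X (p * n))) := by
    ext n
    rw [coeff_smul, coeff_biExpU, hH, map_add, coeff_C_mul, coeff_mk, coeff_one, smul_eq_mul]
    have hm' : (p : ℂ) + 1 = 8 * (m : ℂ) := by exact_mod_cast hm
    by_cases hn : n = 0
    · subst hn
      rw [if_pos rfl, if_pos rfl, mul_zero, if_pos rfl]
      field_simp
      linear_combination -hm'
    · have hpn : p * n ≠ 0 := mul_ne_zero hp hn
      rw [if_neg hn, if_neg hn, if_neg hpn]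
      ring
  have hX : PowerSeries.mk (fun n => (X n : ℂ)) ∈ ubdS O := by
    intro n
    rw [coeff_mk]
    exact intCast_mem O _
  have hX' : PowerSeries.mk (fun n => -(p : ℂ)⁻¹ * ((if n = 0 then (m : ℂ) else 0) + X (p * n)))
      ∈ ubdS O := by
    intro n
    rw [coeff_mk]
    refine O.mul_mem (O.neg_mem hpO) (O.add_mem ?_ (intCast_mem O _))
    split_ifs
    · exact natCast_mem O m
    · exact O.zero_mem
  exact ubd_step5 ctx h3 h1 hPH hP4 hP6 hX hX' (ubd_toC_mem O _)
    (mul_mem (ofNat_mem _ 3) (ubd_toC_mem O corrSeries)) ubd_corr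
    (ubd_sigma_const 3) (ubd_sigma_one 3) (ubd_sigma_const 5) (ubd_sigma_one 5) hh hhc
    ubd_qExpansion_E4 ubd_qExpansion_E6

end Fermat.Agent.S16
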