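/-
S16 project, package UPPER (order-count route): the upper bound for the Eisenstein congruence
modulus at prime level `p ≥ 5`.

* `upper`: a weight-2 form on `Γ₀(p)` whose `q`-coefficients `a_k`, `k ≥ 1`, are integers has
  `a_0 ∈ (gcd(p-1,12)/24) ℤ`.
* `cusp_congr_dvd`: a cusp form congruent to the Eisenstein series modulo `m` (away from the
  constant term) forces `m ∣ eisensteinNumerator p`.

Assembly of `UpperCore.lean` (bookkeeping) with the three analytic inputs
`ubc_const` (`UBC.lean`, Steps 1-2), `oc_no_unit_congruence_odd` (`OrderCount.lean`, Steps 3-4),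
`oc_no_unit_congruence_two` (`UBD.lean`, Step 5) and the Eisenstein series `exists_eis`
(`Eis.lean`).
-/
import Mathlib
import Fermat.Agent.S16.UpperCore
import Fermat.Agent.S16.Eis
import Fermat.Agent.S16.UBC
import Fermat.Agent.S16.OrderCount
import Fermat.Agent.S16.UBD

set_option autoImplicit false

open UpperHalfPlane ModularForm CongruenceSubgroup ModularCurve CuspForm
open scoped MatrixGroups Manifold

namespace Fermat.Agent.S16

/-- **UPPER.** A weight-2 form on `Γ₀(p)`, `p ≥ 5`, with integral higher coefficients has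
constant term in `(gcd(p-1,12)/24) ℤ`. -/
theorem upper (p : ℕ) [Fact p.Prime] (hp5 : 5 ≤ p) (G : ModularForm (Gamma0 p) 2)
    (hG : ∀ k : ℕ, 1 ≤ k → ∃ m : ℤ, ModularFormClass.qCoeff (⇑G) k = (m : ℂ)) :
    ∃ m : ℤ, ModularFormClass.qCoeff (⇑G) 0 = (m : ℂ) * (Nat.gcd (p - 1) 12 : ℂ) / 24 :=
  upper_core p hp5 (ubc_const p) (oc_no_unit_congruence_odd p) (oc_no_unit_congruence_two p)
    G hG

/-- **Eisenstein congruences are bounded by the Eisenstein numerator.** -/
theorem cusp_congr_dvd (p : ℕ) [Fact p.Prime] (hp5 : 5 ≤ p) (m : ℕ) (f : CuspForm (Gamma0 p) 2)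
    (h : ∀ k : ℕ, 1 ≤ k → ∃ j : ℤ,
      ModularFormClass.qCoeff (⇑f) k = (sigmaP p k : ℂ) + (m : ℂ) * (j : ℂ)) :
    m ∣ eisensteinNumerator p :=
  cusp_congr_dvd_core p hp5 (fun G hG => upper p hp5 G hG) (exists_eis p) m f h

end Fermat.Agent.S16
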