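import Mathlib
import Fermat.Agent.S20.Hom
import Fermat.Agent.S20.FinalDim
import Fermat.Agent.S21
import Fermat.Agent.S22.FG

/-!
# S16, lower bound (Shimura route): integral parabolic lifts by counting

`cl_exists_lift`: every homomorphism `ψ : Γ₀(N) → ℤ/n` that kills the parabolic elements and the
elements `g` with `g ^ 12 = 1` is the reduction of an *integral* parabolic homomorphism
`χ : Γ₀(N) → ℤ`.

Proof by counting.  Write `G = SL(2, ℤ)`, `X = G ⧸ Γ₀(N)`, `A = ℤ/n`.  As in `S20/Hom.lean`, a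
homomorphism `φ : Γ₀(N) → A` gives a cocycle `g ↦ cl_Z g φ` of `G` in `X → A`; its values at
`S`, `T`, `S * T` lie in the subgroups `cl_Zg g` of functions all of whose "orbit sums" vanish,
of order `≤ n ^ (|X| - #orbits)`.  The counting version of Scott's lemma gives
`#Hom_{par,12}(Γ₀(N), A) * n ^ (orb S + orb T + orb (S * T)) ≤ n ^ (|X| + 2)`.
On the other hand `L = Hom_par(Γ₀(N), ℤ)` is a free `ℤ`-module of rank `≥ dim_ℂ Hom_par(Γ₀(N), ℂ)
= |X| + 2 - orb S - orb T - orb (S * T)` (S20 + S21), and `L / n L` injects.  Hence the reduction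
map is onto.
-/

set_option autoImplicit false

open CongruenceSubgroup ModularCurve ModularCurve.Period MulAction
open scoped MatrixGroups

namespace Fermat.Agent.S16

section Abstract

variable {G X : Type*} [Group G] [MulAction G X] {A : Type*} [AddCommGroup A]

/-- The permutation action on functions: `(cl_rho g v) x = v (g⁻¹ • x)`. -/
def cl_rho (g : G) : (X → A) →+ (X → A) where
  toFun v := fun x => v (g⁻¹ • x)
  map_zero' := rfl
  map_add' _ _ := rfl

theorem cl_rho_apply (g : G) (v : X → A) (x : X) : cl_rho g v x = v (g⁻¹ • x) := rfl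

theorem cl_rho_mul (g h : G) (v : X → A) : cl_rho (g * h) v = cl_rho g (cl_rho h v) := by
  ext x
  simp only [cl_rho_apply, mul_inv_rev, mul_smul]

theorem cl_rho_one (v : X → A) : cl_rho (1 : G) v = v := by
  ext x
  simp [cl_rho_apply]

theorem cl_rho_single [DecidableEq X] (g : G) (x : X) (a : A) :
    cl_rho g (Pi.single x a) = Pi.single (g • x) a := by
  ext z
  simp only [cl_rho_apply, Pi.single_apply]
  by_cases h : z = g • x
  · rw [if_pos h, if_pos (by rw [h, inv_smul_smul])]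
  · rw [if_neg h, if_neg (fun h' => h (by rw [← h', smul_inv_smul]))]

/-- Functions all of whose sums along closed `g`-paths vanish. -/
def cl_Zg (g : G) : AddSubgroup (X → A) where
  carrier := {v | ∀ (w : ℕ) (x : X), g ^ w • x = x →
    ∑ i ∈ Finset.range w, v ((g ^ i)⁻¹ • x) = 0}
  zero_mem' := fun w x _ => by simp
  add_mem' := by
    intro a b ha hb w x hx
    simp only [Pi.add_apply, Finset.sum_add_distrib, ha w x hx, hb w x hx, add_zero]
  neg_mem' := by
    intro a ha w x hx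
    simp only [Pi.neg_apply, Finset.sum_neg_distrib, ha w x hx, neg_zero]

theorem cl_mem_Zg_iff (g : G) (v : X → A) :
    v ∈ cl_Zg g ↔ ∀ (w : ℕ) (x : X), g ^ w • x = x →
      ∑ i ∈ Finset.range w, v ((g ^ i)⁻¹ • x) = 0 := Iff.rfl

/-- Coboundaries lie in `cl_Zg`. -/
theorem cl_cob_mem_Zg (g : G) (f : X → A) : cl_rho g f - f ∈ cl_Zg g := by
  intro w x hx
  have h1 : ∀ i : ℕ, (cl_rho g f - f) ((g ^ i)⁻¹ • x) =
      f ((g ^ (i + 1))⁻¹ • x) - f ((g ^ i)⁻¹ • x) := by
    intro i
    rw [Pi.sub_apply, cl_rho_apply, smul_smul, ← mul_inv_rev, ← pow_succ]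
  rw [Finset.sum_congr rfl (fun i _ => h1 i),
    Finset.sum_range_sub (fun i => f ((g ^ i)⁻¹ • x)) w]
  have h2 : (g ^ w)⁻¹ • x = x := by rw [inv_smul_eq_iff, hx]
  simp [h2]

/-- The order of `cl_Zg g` is at most `|A| ^ (|X| - #orbits of g)`. -/
theorem cl_card_Zg_le [Finite X] [Finite A] (g : G) :
    Nat.card (cl_Zg (X := X) (A := A) g) *
        Nat.card A ^ Nat.card (orbitRel.Quotient (Subgroup.zpowers g) X) ≤
      Nat.card A ^ Nat.card X := by
  classical
  let π : X → orbitRel.Quotient (Subgroup.zpowers g) X := Quotient.mk''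
  let s : orbitRel.Quotient (Subgroup.zpowers g) X → X := Quotient.out
  have hπs : ∀ o, π (s o) = o := fun o => Quotient.out_eq' o
  have hπg : ∀ (i : ℕ) (x : X), π ((g ^ i)⁻¹ • x) = π x := by
    intro i x
    refine Quotient.sound' ?_
    refine (orbitRel_apply (G := Subgroup.zpowers g)).mpr
      ⟨⟨(g ^ i)⁻¹, Subgroup.inv_mem _ (Subgroup.pow_mem _ (Subgroup.mem_zpowers g) i)⟩, rfl⟩
  let Ψ : cl_Zg (X := X) (A := A) g × (orbitRel.Quotient (Subgroup.zpowers g) X → A) →
      (X → A) :=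
    fun vu x => (vu.1 : X → A) x + if s (π x) = x then vu.2 (π x) else 0
  have hΨ : Function.Injective Ψ := by
    rintro ⟨v, u⟩ ⟨v', u'⟩ h
    have hd : ∀ y : X, ((v : X → A) - (v' : X → A)) y =
        if s (π y) = y then (u' - u) (π y) else 0 := by
      intro y
      have hy := congrFun h y
      simp only [Ψ] at hy
      by_cases hc : s (π y) = y
      · rw [if_pos hc] at hy ⊢
        rw [if_pos hc] at hy
        rw [Pi.sub_apply, Pi.sub_apply, sub_eq_sub_iff_add_eq_add, hy, add_comm]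
      · rw [if_neg hc] at hy ⊢
        rw [if_neg hc] at hy
        rw [Pi.sub_apply]
        rw [add_zero, add_zero] at hy
        rw [hy, sub_self]
    have hdmem : ((v : X → A) - (v' : X → A)) ∈ cl_Zg (X := X) (A := A) g :=
      sub_mem v.2 v'.2
    have hu : u' - u = 0 := by
      funext o
      set x := s o with hx
      -- a positive period of `x`
      have hpos : 0 < orderOf (MulAction.toPermHom G X g) := orderOf_pos _
      have hfix : g ^ orderOf (MulAction.toPermHom G X g) • x = x := by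
        have h1 : MulAction.toPermHom G X (g ^ orderOf (MulAction.toPermHom G X g)) = 1 := by
          rw [map_pow, pow_orderOf_eq_one]
        exact congrArg (fun σ : Equiv.Perm X => σ x) h1
      have hw : 0 < MulAction.period g x := MulAction.period_pos_of_fixed hpos hfix
      have hsum := hdmem (MulAction.period g x) x (MulAction.pow_period_smul g x)
      rw [Finset.sum_eq_single_of_mem 0 (Finset.mem_range.mpr hw)] at hsum
      · rw [pow_zero, inv_one, one_smul, hd x, hπs, if_pos hx.symm] at hsum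
        exact hsum
      · intro i hi hi0
        rw [hd, hπg, hπs]
        rw [if_neg]
        intro hc
        have hc' : g ^ i • x = x := by
          rw [← hx] at hc
          conv_lhs => rw [hc]
          rw [smul_inv_smul]
        have hdvd := MulAction.pow_smul_eq_iff_period_dvd.mp hc'
        have hlt := Finset.mem_range.mp hi
        exact absurd (Nat.le_of_dvd (Nat.pos_of_ne_zero hi0) hdvd) (not_le.mpr hlt)
    have hu' : u = u' := (sub_eq_zero.mp hu).symm
    have hv : (v : X → A) = (v' : X → A) := by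
      funext y
      have := hd y
      rw [hu] at this
      simp only [Pi.zero_apply, ite_self] at this
      rw [Pi.sub_apply] at this
      exact sub_eq_zero.mp this
    exact Prod.ext (Subtype.ext hv) hu'
  have h := Nat.card_le_card_of_injective Ψ hΨ
  rwa [Nat.card_prod, Nat.card_fun, Nat.card_fun] at h

/-- Counting version of Scott's lemma: a group `E` of cocycles (modulo coboundaries) of
`G = ⟨s, t⟩` with values in the permutation module `X → A` of a transitive finite `G`-set, whose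
values at `s`, `t`, `s * t` have vanishing orbit sums, has order at most
`|A| ^ (|X| + 2 - orb s - orb t - orb (s * t))`. -/
theorem cl_card_mul_le {E : Type*} [AddCommGroup E] [Finite X] [Finite A] [IsPretransitive G X]
    (x0 : X) (s t : G) (hgen : Subgroup.closure {s, t} = ⊤) (Z : G → E →+ (X → A))
    (hZ : ∀ g h e, Z (g * h) e = Z g e + cl_rho g (Z h e))
    (hs : ∀ (w : ℕ) (x : X), s ^ w • x = x → ∀ e, Z (s ^ w) e x = 0)
    (ht : ∀ (w : ℕ) (x : X), t ^ w • x = x → ∀ e, Z (t ^ w) e x = 0)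
    (hu : ∀ (w : ℕ) (x : X), (s * t) ^ w • x = x → ∀ e, Z ((s * t) ^ w) e x = 0)
    (hinj : ∀ e (v : X → A), (∀ g, Z g e = cl_rho g v - v) → e = 0) :
    Finite E ∧
      Nat.card E * Nat.card A ^ (Nat.card (orbitRel.Quotient (Subgroup.zpowers s) X)
        + Nat.card (orbitRel.Quotient (Subgroup.zpowers t) X)
        + Nat.card (orbitRel.Quotient (Subgroup.zpowers (s * t)) X)) ≤
        Nat.card A ^ (Nat.card X + 2) := by
  classical
  let _ : Fintype X := Fintype.ofFinite X
  -- basic cocycle facts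
  have hZ1 : ∀ e, Z 1 e = 0 := by
    intro e
    have h := hZ 1 1 e
    rw [mul_one, cl_rho_one] at h
    exact add_eq_left.mp h.symm
  have hZpow : ∀ g (n : ℕ) e,
      Z (g ^ n) e = ∑ i ∈ Finset.range n, cl_rho (g ^ i) (Z g e) := by
    intro g n e
    induction n with
    | zero => simp [hZ1]
    | succ n ih => rw [pow_succ, hZ, ih, Finset.sum_range_succ]
  have hmem : ∀ g, (∀ (w : ℕ) (x : X), g ^ w • x = x → ∀ e, Z (g ^ w) e x = 0) →
      ∀ e, Z g e ∈ cl_Zg (X := X) (A := A) g := by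
    intro g hg e w x hx
    have h := hg w x hx e
    rw [hZpow, Finset.sum_apply] at h
    exact h
  -- a cocycle that is a coboundary on the generators is a coboundary
  have hcob : ∀ e (w : X → A), Z s e = cl_rho s w - w → Z t e = cl_rho t w - w →
      ∀ g, Z g e = cl_rho g w - w := by
    intro e w h1 h2 g
    have hg : g ∈ Subgroup.closure ({s, t} : Set G) := by
      rw [hgen]
      trivial
    induction hg using Subgroup.closure_induction with
    | mem z hz =>
      rcases hz with rfl | rfl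
      · exact h1
      · exact h2
    | one => rw [hZ1, cl_rho_one, sub_self]
    | mul a b _ _ ha hb =>
      rw [hZ, ha, hb, cl_rho_mul, map_sub]
      abel
    | inv a _ ha =>
      have h0 := hZ a⁻¹ a e
      rw [inv_mul_cancel, hZ1, ha, map_sub, ← cl_rho_mul, inv_mul_cancel, cl_rho_one] at h0
      have h3 : Z a⁻¹ e = -(w - cl_rho a⁻¹ w) := eq_neg_of_add_eq_zero_left h0.symm
      rw [h3]
      abel
  -- invariant functions are constant
  have hconst : ∀ v : X → A, cl_rho s v = v → cl_rho t v = v → ∀ y, v y = v x0 := by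
    intro v h1 h2
    have hinv : ∀ g : G, cl_rho g v = v := by
      intro g
      have hg : g ∈ Subgroup.closure ({s, t} : Set G) := by
        rw [hgen]
        trivial
      induction hg using Subgroup.closure_induction with
      | mem z hz =>
        rcases hz with rfl | rfl
        · exact h1
        · exact h2
      | one => exact cl_rho_one v
      | mul a b _ _ ha hb => rw [cl_rho_mul, hb, ha]
      | inv a _ ha =>
        conv_lhs => rw [← ha]
        rw [← cl_rho_mul, inv_mul_cancel, cl_rho_one]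
    intro y
    obtain ⟨g, rfl⟩ := MulAction.exists_smul_eq G x0 y
    have := congrFun (hinv g) (g • x0)
    rw [cl_rho_apply, inv_smul_smul] at this
    exact this.symm
  have hfinE : Finite E := by
    let f : E → (X → A) × (X → A) := fun e => (Z s e, Z t e)
    have hf : Function.Injective f := by
      intro e e' h
      have h1 : Z s (e - e') = 0 := by
        rw [map_sub, sub_eq_zero]
        exact congrArg Prod.fst h
      have h2 : Z t (e - e') = 0 := by
        rw [map_sub, sub_eq_zero]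
        exact congrArg Prod.snd h
      have := hinj (e - e') 0 (hcob (e - e') 0 (by rw [h1]; simp) (by rw [h2]; simp))
      exact sub_eq_zero.mp this
    exact Finite.of_injective f hf
  refine ⟨hfinE, ?_⟩
  -- the maps
  let B : G → (X → A) →+ (X → A) := fun g => cl_rho g - AddMonoidHom.id (X → A)
  have hBa : ∀ g v, B g v = cl_rho g v - v := fun g v => rfl
  let θ : G → E × (X → A) →+ (X → A) := fun g =>
    (Z g).comp (AddMonoidHom.fst E (X → A)) + (B g).comp (AddMonoidHom.snd E (X → A))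
  have hθa : ∀ g w, θ g w = Z g w.1 + (cl_rho g w.2 - w.2) := fun g w => rfl
  have hms : ∀ w, θ s w ∈ cl_Zg (X := X) (A := A) s := fun w =>
    add_mem (hmem s hs w.1) (cl_cob_mem_Zg s w.2)
  have hmt : ∀ w, θ t w ∈ cl_Zg (X := X) (A := A) t := fun w =>
    add_mem (hmem t ht w.1) (cl_cob_mem_Zg t w.2)
  have hmu : ∀ w, θ (s * t) w ∈ cl_Zg (X := X) (A := A) (s * t) := fun w =>
    add_mem (hmem (s * t) hu w.1) (cl_cob_mem_Zg (s * t) w.2)
  let Θ : E × (X → A) →+
      (cl_Zg (X := X) (A := A) s × cl_Zg (X := X) (A := A) t ×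
        cl_Zg (X := X) (A := A) (s * t)) :=
    ((θ s).codRestrict (cl_Zg (X := X) (A := A) s) hms).prod
      (((θ t).codRestrict (cl_Zg (X := X) (A := A) t) hmt).prod
        ((θ (s * t)).codRestrict (cl_Zg (X := X) (A := A) (s * t)) hmu))
  have hΘ1 : ∀ w, ((Θ w).1 : X → A) = θ s w := fun w => rfl
  have hΘ2 : ∀ w, ((Θ w).2.1 : X → A) = θ t w := fun w => rfl
  have hΘ3 : ∀ w, ((Θ w).2.2 : X → A) = θ (s * t) w := fun w => rfl
  let δ : (cl_Zg (X := X) (A := A) s × cl_Zg (X := X) (A := A) t ×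
      cl_Zg (X := X) (A := A) (s * t)) →+ (X → A) :=
    AddMonoidHom.coprod (cl_Zg (X := X) (A := A) s).subtype
      (AddMonoidHom.coprod ((cl_rho s).comp (cl_Zg (X := X) (A := A) t).subtype)
        (-(cl_Zg (X := X) (A := A) (s * t)).subtype))
  have hδ : ∀ w, δ w = (w.1 : X → A) + (cl_rho s (w.2.1 : X → A) + -(w.2.2 : X → A)) :=
    fun w => rfl
  have hδΘ : ∀ w, δ (Θ w) = 0 := by
    intro w
    rw [hδ, hΘ1, hΘ2, hΘ3, hθa, hθa, hθa, hZ s t, cl_rho_mul, map_add, map_sub]
    abel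
  -- the kernel of `Θ`
  have hkerΘ : ∀ w, Θ w = 0 → w.1 = 0 ∧ ∀ y, w.2 y = w.2 x0 := by
    intro w hw
    have hw1 : Z s w.1 + (cl_rho s w.2 - w.2) = 0 := by
      rw [← hθa, ← hΘ1, hw]
      rfl
    have hw2 : Z t w.1 + (cl_rho t w.2 - w.2) = 0 := by
      rw [← hθa, ← hΘ2, hw]
      rfl
    have hw1' : Z s w.1 = cl_rho s (-w.2) - -w.2 := by
      rw [eq_neg_of_add_eq_zero_left hw1, map_neg]
      abel
    have hw2' : Z t w.1 = cl_rho t (-w.2) - -w.2 := by
      rw [eq_neg_of_add_eq_zero_left hw2, map_neg]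
      abel
    have he : w.1 = 0 := hinj w.1 (-w.2) (hcob w.1 (-w.2) hw1' hw2')
    rw [he, map_zero, zero_add, sub_eq_zero] at hw1 hw2
    exact ⟨he, hconst w.2 hw1 hw2⟩
  have hk : Nat.card Θ.ker ≤ Nat.card A := by
    let f : Θ.ker → A := fun w => (w : E × (X → A)).2 x0
    have hf : Function.Injective f := by
      intro w w' h
      have h1 := hkerΘ w.1 (AddMonoidHom.mem_ker.mp w.2)
      have h2 := hkerΘ w'.1 (AddMonoidHom.mem_ker.mp w'.2)
      refine Subtype.ext (Prod.ext (by rw [h1.1, h2.1]) (funext fun y => ?_))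
      rw [h1.2 y, h2.2 y]
      exact h
    exact Nat.card_le_card_of_injective f hf
  have hii : Nat.card Θ.ker * Nat.card Θ.range = Nat.card E * Nat.card (X → A) := by
    rw [← AddSubgroup.index_ker, AddSubgroup.card_mul_index, Nat.card_prod]
  have hiii : Nat.card Θ.range ≤ Nat.card δ.ker := by
    refine AddSubgroup.card_le_of_le ?_
    rintro _ ⟨w, rfl⟩
    exact AddMonoidHom.mem_ker.mpr (hδΘ w)
  have hiv : Nat.card δ.ker * Nat.card δ.range =
      Nat.card (cl_Zg (X := X) (A := A) s) * (Nat.card (cl_Zg (X := X) (A := A) t) *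
        Nat.card (cl_Zg (X := X) (A := A) (s * t))) := by
    rw [← AddSubgroup.index_ker, AddSubgroup.card_mul_index, Nat.card_prod, Nat.card_prod]
  -- the range of `δ` has index at most `|A|`
  have hv : Nat.card (X → A) ≤ Nat.card δ.range * Nat.card A := by
    have hR1 : ∀ f : X → A, cl_rho s f - f ∈ δ.range := by
      intro f
      refine ⟨(⟨cl_rho s f - f, cl_cob_mem_Zg s f⟩, 0, 0), ?_⟩
      rw [hδ]
      simp
    have hR2 : ∀ f : X → A, cl_rho t f - f ∈ δ.range := by
      intro f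
      refine ⟨(⟨-(cl_rho s (cl_rho t f - f) - (cl_rho t f - f)),
        neg_mem (cl_cob_mem_Zg s _)⟩, ⟨cl_rho t f - f, cl_cob_mem_Zg t f⟩, 0), ?_⟩
      rw [hδ]
      simp only [ZeroMemClass.coe_zero, neg_zero, add_zero]
      abel
    have hstep : ∀ g : G, (∀ f : X → A, cl_rho g f - f ∈ δ.range) →
        ∀ (x : X) (a : A), (Pi.single (g • x) a - Pi.single x a : X → A) ∈ δ.range := by
      intro g hg x a
      have := hg (Pi.single x a)
      rwa [cl_rho_single] at this
    have hcl : ∀ (g : G) (x : X) (a : A),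
        (Pi.single (g • x) a - Pi.single x a : X → A) ∈ δ.range := by
      intro g
      have hg : g ∈ Subgroup.closure ({s, t} : Set G) := by
        rw [hgen]
        trivial
      induction hg using Subgroup.closure_induction with
      | mem z hz =>
        rcases hz with rfl | rfl
        · exact hstep _ hR1
        · exact hstep _ hR2
      | one => intro x a; simp
      | mul a b _ _ iha ihb =>
        intro x c
        have h := add_mem (iha (b • x) c) (ihb x c)
        rw [mul_smul]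
        convert h using 1
        abel
      | inv a _ ih =>
        intro x c
        have h := neg_mem (ih (a⁻¹ • x) c)
        rw [smul_inv_smul] at h
        convert h using 1
        abel
    let φ : δ.range × A → (X → A) := fun ya => (ya.1 : X → A) + Pi.single x0 ya.2
    have hφ : Function.Surjective φ := by
      intro v
      have hmemv : v - Pi.single x0 (∑ x, v x) ∈ δ.range := by
        have e1 : v - Pi.single x0 (∑ x, v x) =
            ∑ x, (Pi.single x (v x) - Pi.single x0 (v x) : X → A) := by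
          rw [Finset.sum_sub_distrib, Finset.univ_sum_single]
          congr 1
          exact map_sum (AddMonoidHom.single (fun _ : X => A) x0) v Finset.univ
        rw [e1]
        refine AddSubgroup.sum_mem _ fun x _ => ?_
        obtain ⟨g, rfl⟩ := MulAction.exists_smul_eq G x0 x
        exact hcl g x0 _
      refine ⟨(⟨_, hmemv⟩, ∑ x, v x), ?_⟩
      simp only [φ]
      abel
    have h := Nat.card_le_card_of_surjective φ hφ
    rwa [Nat.card_prod] at h
  have hz1 := cl_card_Zg_le (X := X) (A := A) s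
  have hz2 := cl_card_Zg_le (X := X) (A := A) t
  have hz3 := cl_card_Zg_le (X := X) (A := A) (s * t)
  -- arithmetic
  have hnpos : 0 < Nat.card A := Nat.card_pos
  rw [Nat.card_fun] at hii hv
  set n := Nat.card A with hn
  set V := n ^ Nat.card X with hV
  set o1 := Nat.card (orbitRel.Quotient (Subgroup.zpowers s) X) with ho1
  set o2 := Nat.card (orbitRel.Quotient (Subgroup.zpowers t) X) with ho2
  set o3 := Nat.card (orbitRel.Quotient (Subgroup.zpowers (s * t)) X) with ho3
  set z1 := Nat.card (cl_Zg (X := X) (A := A) s) with hz1d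
  set z2 := Nat.card (cl_Zg (X := X) (A := A) t) with hz2d
  set z3 := Nat.card (cl_Zg (X := X) (A := A) (s * t)) with hz3d
  have hVpos : 0 < V * V := Nat.mul_pos (Nat.pow_pos hnpos) (Nat.pow_pos hnpos)
  have hA : Nat.card E * V * V ≤ n * n * (z1 * (z2 * z3)) := by
    calc Nat.card E * V * V = (Nat.card Θ.ker * Nat.card Θ.range) * V := by rw [hii]
      _ ≤ (n * Nat.card δ.ker) * (Nat.card δ.range * n) :=
        Nat.mul_le_mul (Nat.mul_le_mul hk hiii) hv
      _ = n * n * (Nat.card δ.ker * Nat.card δ.range) := by ring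
      _ = n * n * (z1 * (z2 * z3)) := by rw [hiv]
  have hB : (z1 * (z2 * z3)) * n ^ (o1 + o2 + o3) ≤ V * V * V := by
    calc (z1 * (z2 * z3)) * n ^ (o1 + o2 + o3)
        = (z1 * n ^ o1) * ((z2 * n ^ o2) * (z3 * n ^ o3)) := by ring
      _ ≤ V * (V * V) := Nat.mul_le_mul hz1 (Nat.mul_le_mul hz2 hz3)
      _ = V * V * V := by ring
  have hC : (Nat.card E * n ^ (o1 + o2 + o3)) * (V * V) ≤ n ^ (Nat.card X + 2) * (V * V) := by
    calc (Nat.card E * n ^ (o1 + o2 + o3)) * (V * V)
        = (Nat.card E * V * V) * n ^ (o1 + o2 + o3) := by ring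
      _ ≤ (n * n * (z1 * (z2 * z3))) * n ^ (o1 + o2 + o3) := Nat.mul_le_mul_right _ hA
      _ = n * n * ((z1 * (z2 * z3)) * n ^ (o1 + o2 + o3)) := by ring
      _ ≤ n * n * (V * V * V) := Nat.mul_le_mul_left _ hB
      _ = n ^ (Nat.card X + 2) * (V * V) := by rw [hV]; ring
  exact Nat.le_of_mul_le_mul_right hC hVpos

end Abstract

section Cocycle

variable {G : Type*} [Group G] (Γ : Subgroup G) (A : Type*) [AddCommGroup A]

/-- The cocycle of `G` with values in functions on `G ⧸ Γ` attached to a homomorphism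
`φ : Γ → A`: `cl_Z g φ x = φ (h(g, g⁻¹ • x))` (cf. `Fermat.Agent.S20.hom_Z`). -/
noncomputable def cl_Z (g : G) : (Additive Γ →+ A) →+ (G ⧸ Γ → A) where
  toFun φ := fun x => φ (Additive.ofMul (Fermat.Agent.S20.hom_h Γ g (g⁻¹ • x)))
  map_zero' := rfl
  map_add' _ _ := rfl

theorem cl_Z_apply (g : G) (φ : Additive Γ →+ A) (x : G ⧸ Γ) :
    cl_Z Γ A g φ x = φ (Additive.ofMul (Fermat.Agent.S20.hom_h Γ g (g⁻¹ • x))) := rfl

theorem cl_Z_mul (g₁ g₂ : G) (φ : Additive Γ →+ A) :
    cl_Z Γ A (g₁ * g₂) φ = cl_Z Γ A g₁ φ + cl_rho g₁ (cl_Z Γ A g₂ φ) := by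
  ext x
  rw [Pi.add_apply, cl_rho_apply, cl_Z_apply, cl_Z_apply, cl_Z_apply,
    Fermat.Agent.S20.hom_h_mul, ofMul_mul, map_add]
  have e1 : g₂ • (g₁ * g₂)⁻¹ • x = g₁⁻¹ • x := by
    rw [smul_smul]
    congr 1
    group
  have e2 : (g₁ * g₂)⁻¹ • x = g₂⁻¹ • g₁⁻¹ • x := by
    rw [mul_inv_rev, mul_smul]
  rw [e1, e2]

/-- At the base coset the cocycle recovers the homomorphism. -/
theorem cl_Z_base (γ : Γ) (φ : Additive Γ →+ A) :
    cl_Z Γ A (γ : G) φ ((1 : G) : G ⧸ Γ) = φ (Additive.ofMul γ) := by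
  have hfix : ∀ δ : Γ, (δ : G) • (((1 : G) : G ⧸ Γ)) = ((1 : G) : G ⧸ Γ) := by
    intro δ
    change (((δ : G) * 1 : G) : G ⧸ Γ) = ((1 : G) : G ⧸ Γ)
    rw [QuotientGroup.eq]
    simp
  have hfix' : (γ : G)⁻¹ • (((1 : G) : G ⧸ Γ)) = ((1 : G) : G ⧸ Γ) := hfix γ⁻¹
  have hk : (((1 : G) : G ⧸ Γ)).out ∈ Γ := by
    have h1 : (((((1 : G) : G ⧸ Γ)).out : G) : G ⧸ Γ) = ((1 : G) : G ⧸ Γ) :=
      QuotientGroup.out_eq' _
    have h2 := QuotientGroup.eq.mp h1.symm
    simpa using h2
  set k : Γ := ⟨_, hk⟩ with hkdef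
  have hval : Fermat.Agent.S20.hom_h Γ (γ : G) ((1 : G) : G ⧸ Γ) = k⁻¹ * γ * k := by
    apply Subtype.ext
    rw [Fermat.Agent.S20.hom_h_coe, hfix γ]
    rfl
  rw [cl_Z_apply, hfix', hval, ofMul_mul, ofMul_mul, ofMul_inv, map_add, map_add, map_neg]
  abel

/-- The value of the cocycle at a fixed coset. -/
theorem cl_Z_apply_of_fixed (g : G) (x : G ⧸ Γ) (hx : g • x = x) (φ : Additive Γ →+ A) :
    ∃ hmem : x.out⁻¹ * g * x.out ∈ Γ,
      cl_Z Γ A g φ x = φ (Additive.ofMul (⟨x.out⁻¹ * g * x.out, hmem⟩ : Γ)) := by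
  have hx' : g⁻¹ • x = x := by
    rw [inv_smul_eq_iff, hx]
  have hval : ((Fermat.Agent.S20.hom_h Γ g x : Γ) : G) = x.out⁻¹ * g * x.out := by
    rw [Fermat.Agent.S20.hom_h_coe, hx]
  have hmem : x.out⁻¹ * g * x.out ∈ Γ := hval ▸ (Fermat.Agent.S20.hom_h Γ g x).2
  have heq : Fermat.Agent.S20.hom_h Γ g x = ⟨_, hmem⟩ := Subtype.ext hval
  exact ⟨hmem, by rw [cl_Z_apply, hx', heq]⟩

end Cocycle

section Modular

open Matrix ModularGroup Fermat.Agent.S20

/-- Homomorphisms `Γ₀(N) → A` killing the parabolic elements and the elements `γ` with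
`γ ^ 12 = 1`. -/
def cl_E (N : ℕ) (A : Type*) [AddCommGroup A] : AddSubgroup (Additive (Gamma0 N) →+ A) where
  carrier := {φ | IsParabolicHom (Gamma0 N) φ ∧
    ∀ γ : Gamma0 N, γ ^ 12 = 1 → φ (Additive.ofMul γ) = 0}
  zero_mem' := ⟨fun _ _ => rfl, fun _ _ => rfl⟩
  add_mem' := by
    rintro φ ψ ⟨h1, h2⟩ ⟨h3, h4⟩
    refine ⟨fun γ hγ => ?_, fun γ hγ => ?_⟩
    · rw [AddMonoidHom.add_apply, h1 γ hγ, h3 γ hγ, add_zero]
    · rw [AddMonoidHom.add_apply, h2 γ hγ, h4 γ hγ, add_zero]
  neg_mem' := by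
    rintro φ ⟨h1, h2⟩
    refine ⟨fun γ hγ => ?_, fun γ hγ => ?_⟩
    · rw [AddMonoidHom.neg_apply, h1 γ hγ, neg_zero]
    · rw [AddMonoidHom.neg_apply, h2 γ hγ, neg_zero]

theorem cl_mem_E_iff (N : ℕ) (A : Type*) [AddCommGroup A] (φ : Additive (Gamma0 N) →+ A) :
    φ ∈ cl_E N A ↔ IsParabolicHom (Gamma0 N) φ ∧
      ∀ γ : Gamma0 N, γ ^ 12 = 1 → φ (Additive.ofMul γ) = 0 := Iff.rfl

theorem cl_S_pow_four : (S : SL(2, ℤ)) ^ 4 = 1 := by decide

theorem cl_ST_pow_six : ((S : SL(2, ℤ)) * T) ^ 6 = 1 := by decide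

/-- The counting bound for `cl_E`. -/
theorem cl_card_E_le (N : ℕ) [NeZero N] (A : Type*) [AddCommGroup A] [Finite A] :
    Finite (cl_E N A) ∧
      Nat.card (cl_E N A) * Nat.card A ^
        (Nat.card (orbitRel.Quotient (Subgroup.zpowers (S : SL(2, ℤ))) (Q N))
        + Nat.card (orbitRel.Quotient (Subgroup.zpowers (T : SL(2, ℤ))) (Q N))
        + Nat.card (orbitRel.Quotient (Subgroup.zpowers ((S : SL(2, ℤ)) * T)) (Q N))) ≤
        Nat.card A ^ (Nat.card (Q N) + 2) := by
  have hfinX : Finite (Q N) := Subgroup.finite_quotient_of_finiteIndex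
  let Z : SL(2, ℤ) → ↥(cl_E N A) →+ (Q N → A) :=
    fun g => (cl_Z (Gamma0 N) A g).comp (cl_E N A).subtype
  have hZa : ∀ g e, Z g e = cl_Z (Gamma0 N) A g (e : Additive (Gamma0 N) →+ A) :=
    fun g e => rfl
  -- vanishing at fixed cosets for elements of finite order dividing 12
  have hvan12 : ∀ g : SL(2, ℤ), g ^ 12 = 1 → ∀ x : Q N, g • x = x → ∀ e, Z g e x = 0 := by
    intro g hg x hx e
    obtain ⟨hmem, hval⟩ := cl_Z_apply_of_fixed (Gamma0 N) A g x hx (e : Additive (Gamma0 N) →+ A)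
    rw [hZa, hval]
    refine e.2.2 _ ?_
    apply Subtype.ext
    rw [SubgroupClass.coe_pow]
    change (x.out⁻¹ * g * x.out) ^ 12 = 1
    have h1 : x.out⁻¹ * g * x.out = x.out⁻¹ * g * (x.out⁻¹)⁻¹ := by rw [inv_inv]
    rw [h1, conj_pow, hg]
    group
  -- vanishing at fixed cosets for elements of trace `±2`
  have hvanpar : ∀ g : SL(2, ℤ), (g : Matrix (Fin 2) (Fin 2) ℤ).trace ^ 2 = 4 →
      ∀ x : Q N, g • x = x → ∀ e, Z g e x = 0 := by
    intro g hg x hx e
    obtain ⟨hmem, hval⟩ := cl_Z_apply_of_fixed (Gamma0 N) A g x hx (e : Additive (Gamma0 N) →+ A)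
    rw [hZa, hval]
    refine e.2.1 _ ?_
    rw [hom_trace_conj]
    exact hg
  refine cl_card_mul_le (((1 : SL(2, ℤ)) : Q N)) (S : SL(2, ℤ)) T
    SpecialLinearGroup.SL2Z_generators Z ?_ ?_ ?_ ?_ ?_
  · intro g h e
    rw [hZa, hZa, hZa, cl_Z_mul]
  · intro w x hx e
    refine hvan12 _ ?_ x hx e
    rw [← pow_mul, mul_comm, pow_mul, show (12 : ℕ) = 4 * 3 from rfl, pow_mul, cl_S_pow_four,
      one_pow, one_pow]
  · intro w x hx e
    exact hvanpar _ (hom_trace_T_pow w) x hx e
  · intro w x hx e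
    refine hvan12 _ ?_ x hx e
    rw [← pow_mul, mul_comm, pow_mul, show (12 : ℕ) = 6 * 2 from rfl, pow_mul, cl_ST_pow_six,
      one_pow, one_pow]
  · intro e v h
    apply Subtype.ext
    refine AddMonoidHom.ext fun a => ?_
    have h1 := congrFun (h ((Additive.toMul a : Gamma0 N) : SL(2, ℤ))) ((1 : SL(2, ℤ)) : Q N)
    rw [hZa, cl_Z_base, Pi.sub_apply, cl_rho_apply] at h1
    have hfix : ((Additive.toMul a : Gamma0 N) : SL(2, ℤ))⁻¹ • (((1 : SL(2, ℤ)) : Q N)) =
        ((1 : SL(2, ℤ)) : Q N) := by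
      change ((((Additive.toMul a : Gamma0 N) : SL(2, ℤ))⁻¹ * 1 : SL(2, ℤ)) : Q N) = _
      rw [QuotientGroup.eq]
      simp
    rw [hfix, sub_self] at h1
    exact h1

end Modular

section Rank

open Matrix ModularGroup Fermat.Agent.S20

/-- `|X| + 2 ≤ dim Hom_par(Γ₀(N), ℂ) + orb S + orb T + orb (S * T)` (S20 + S21). -/
theorem cl_card_add_two_le (N : ℕ) [NeZero N] :
    Nat.card (Q N) + 2 ≤ Module.finrank ℂ (parabolicHoms ℂ (Gamma0 N) ℂ)
      + Nat.card (orbitRel.Quotient (Subgroup.zpowers (S : SL(2, ℤ))) (Q N))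
      + Nat.card (orbitRel.Quotient (Subgroup.zpowers (T : SL(2, ℤ))) (Q N))
      + Nat.card (orbitRel.Quotient (Subgroup.zpowers ((S : SL(2, ℤ)) * T)) (Q N)) := by
  have hfinX : Finite (Q N) := Subgroup.finite_quotient_of_finiteIndex
  obtain ⟨hinj, hrange⟩ := Fermat.Agent.S21.result N
  have hfin : Module.Finite ℂ (parabolicHoms ℂ (Gamma0 N) ℂ) := finite_parabolicHoms N
  let φ : (CuspForm (Gamma0 N) 2 × CuspForm (Gamma0 N) 2) →ₗ[ℂ] parabolicHoms ℂ (Gamma0 N) ℂ :=
    (periodHomPair N).codRestrict _ (fun x => hrange.le (LinearMap.mem_range_self _ x))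
  have hφ : Function.Injective φ := fun x y hxy => hinj (congrArg Subtype.val hxy)
  have hfin2 : Module.Finite ℂ (CuspForm (Gamma0 N) 2 × CuspForm (Gamma0 N) 2) :=
    Module.Finite.of_injective φ hφ
  have hfin1 : Module.Finite ℂ (CuspForm (Gamma0 N) 2) :=
    Module.Finite.of_injective (LinearMap.inl ℂ (CuspForm (Gamma0 N) 2) (CuspForm (Gamma0 N) 2))
      LinearMap.inl_injective
  have hle : 2 * Module.finrank ℂ (CuspForm (Gamma0 N) 2) ≤
      Module.finrank ℂ (parabolicHoms ℂ (Gamma0 N) ℂ) := by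
    have h := LinearMap.finrank_le_finrank_of_injective hφ
    rwa [Module.finrank_prod, ← two_mul] at h
  have h12 := final_twelve_finrank_eq_genusNum N
  have h2 : 2 * Nat.card (orbitRel.Quotient (Subgroup.zpowers (S : SL(2, ℤ))) (Q N)) =
      Nat.card (Q N) + (2 - 1) * Nat.card {x : Q N // (S : SL(2, ℤ)) • x = x} :=
    hom_mul_card_orbits (X := Q N) (S : SL(2, ℤ)) 2 Nat.prime_two (fun x => by
      rw [hom_S_sq]
      exact hom_neg_one_smul N x)
  have h3 : 3 * Nat.card (orbitRel.Quotient (Subgroup.zpowers ((S : SL(2, ℤ)) * T)) (Q N)) =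
      Nat.card (Q N) + (3 - 1) * Nat.card {x : Q N // ((S : SL(2, ℤ)) * T) • x = x} :=
    hom_mul_card_orbits (X := Q N) ((S : SL(2, ℤ)) * T) 3 Nat.prime_three (fun x => by
      rw [hom_ST_cube]
      exact hom_neg_one_smul N x)
  unfold genusNum mu eps2 eps3 epsInf at h12
  omega

theorem cl_group_fg (N : ℕ) [NeZero N] : Group.FG (Gamma0 N) :=
  (Group.fg_iff_subgroup_fg _).mpr (Fermat.Agent.S22.fg_Gamma0_fg N)

/-- `Hom(Γ₀(N), ℤ)` is a finitely generated `ℤ`-module. -/
theorem cl_finite_hom (N : ℕ) [NeZero N] : Module.Finite ℤ (Additive (Gamma0 N) →+ ℤ) := by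
  obtain ⟨F, hF⟩ := (cl_group_fg N).out
  let ev : (Additive (Gamma0 N) →+ ℤ) →ₗ[ℤ] (↥F → ℤ) :=
    { toFun := fun φ γ => φ (Additive.ofMul (γ : Gamma0 N))
      map_add' := fun _ _ => rfl
      map_smul' := fun _ _ => rfl }
  have hev : Function.Injective ev := by
    intro φ φ' h
    have key : ∀ g : Gamma0 N, φ (Additive.ofMul g) = φ' (Additive.ofMul g) := by
      intro g
      have hg : g ∈ Subgroup.closure (F : Set (Gamma0 N)) := by
        rw [hF]
        trivial
      induction hg using Subgroup.closure_induction with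
      | mem z hz => exact congrFun h ⟨z, Finset.mem_coe.mp hz⟩
      | one => rw [ofMul_one, map_zero, map_zero]
      | mul a b _ _ ha hb => rw [ofMul_mul, map_add, map_add, ha, hb]
      | inv a _ ha => rw [ofMul_inv, map_neg, map_neg, ha]
    exact AddMonoidHom.ext fun a => key (Additive.toMul a)
  exact Module.Finite.of_injective ev hev

/-- A `ℤ`-basis of `Hom_par(Γ₀(N), ℤ)`; its cardinality is at least `dim_ℂ Hom_par(Γ₀(N), ℂ)`. -/
theorem cl_exists_basis (N : ℕ) [NeZero N] :
    ∃ (s : ℕ) (_ : Module.Basis (Fin s) ℤ (parabolicHoms ℤ (Gamma0 N) ℤ)),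
      Module.finrank ℂ (parabolicHoms ℂ (Gamma0 N) ℂ) ≤ s := by
  classical
  have := cl_finite_hom N
  have hfg : Group.FG (Gamma0 N) := cl_group_fg N
  have : Module.Finite ℤ (parabolicHoms ℤ (Gamma0 N) ℤ) :=
    Module.Finite.of_injective (parabolicHoms ℤ (Gamma0 N) ℤ).subtype Subtype.val_injective
  have : IsAddTorsionFree (parabolicHoms ℤ (Gamma0 N) ℤ) :=
    ⟨fun n hn a b hab => by
      apply Subtype.ext
      refine AddMonoidHom.ext fun γ => ?_
      have h : n • ((a : Additive (Gamma0 N) →+ ℤ) γ) = n • ((b : Additive (Gamma0 N) →+ ℤ) γ) :=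
        congrArg (fun c : parabolicHoms ℤ (Gamma0 N) ℤ => (c : Additive (Gamma0 N) →+ ℤ) γ) hab
      exact nsmul_right_injective hn h⟩
  have : Module.Free ℤ (parabolicHoms ℤ (Gamma0 N) ℤ) := Module.free_of_finite_type_torsion_free'
  set b := Module.finBasis ℤ (parabolicHoms ℤ (Gamma0 N) ℤ) with hb
  refine ⟨_, b, ?_⟩
  let cast : (Additive (Gamma0 N) →+ ℤ) →+ (Additive (Gamma0 N) →+ ℂ) :=
    AddMonoidHom.compHom (Int.castAddHom ℂ)
  have hcast : ∀ (χ : Additive (Gamma0 N) →+ ℤ) (a : Additive (Gamma0 N)),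
      cast χ a = ((χ a : ℤ) : ℂ) := fun χ a => rfl
  let c : Fin (Module.finrank ℤ (parabolicHoms ℤ (Gamma0 N) ℤ)) → (Additive (Gamma0 N) →+ ℂ) :=
    fun j => cast (b j : Additive (Gamma0 N) →+ ℤ)
  have hspan : parabolicHoms ℂ (Gamma0 N) ℂ ≤ Submodule.span ℂ (Set.range c) := by
    intro φ hφ
    have : AddGroup.FG φ.range := AddGroup.fg_of_surjective φ.rangeRestrict_surjective
    have : Module.Finite ℤ φ.range := Module.Finite.iff_addGroup_fg.mpr inferInstance
    have : Module.Free ℤ φ.range := Module.free_of_finite_type_torsion_free'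
    set bP := Module.finBasis ℤ φ.range with hbP
    let φj : Fin (Module.finrank ℤ φ.range) → (Additive (Gamma0 N) →+ ℤ) :=
      fun j => (bP.coord j).toAddMonoidHom.comp φ.rangeRestrict
    have hφja : ∀ j a, φj j a = bP.repr (φ.rangeRestrict a) j := fun j a => rfl
    have hφj : ∀ j, φj j ∈ parabolicHoms ℤ (Gamma0 N) ℤ := by
      intro j γ hγ
      have h0 : φ.rangeRestrict (Additive.ofMul γ) = 0 := Subtype.ext (hφ γ hγ)
      rw [hφja, h0, map_zero]
      rfl
    have hdecomp : φ = ∑ j, ((bP j : φ.range) : ℂ) • cast (φj j) := by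
      refine AddMonoidHom.ext fun a => ?_
      have h1 := bP.sum_repr (φ.rangeRestrict a)
      have h2 := congrArg (fun x : φ.range => (x : ℂ)) h1
      simp only [AddSubgroup.val_finsetSum, AddSubgroup.coe_zsmul] at h2
      rw [AddMonoidHom.finsetSum_apply]
      have h3 : ((φ.rangeRestrict a : φ.range) : ℂ) = φ a := rfl
      rw [h3] at h2
      rw [← h2]
      refine Finset.sum_congr rfl fun j _ => ?_
      rw [AddMonoidHom.smul_apply, hcast, hφja, smul_eq_mul, zsmul_eq_mul, mul_comm]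
    rw [hdecomp]
    refine Submodule.sum_mem _ fun j _ => Submodule.smul_mem _ _ ?_
    have h3 := b.sum_repr ⟨φj j, hφj j⟩
    have h4 := congrArg (fun x : parabolicHoms ℤ (Gamma0 N) ℤ =>
      cast (x : Additive (Gamma0 N) →+ ℤ)) h3
    simp only [Submodule.coe_sum, Submodule.coe_smul, map_sum, map_zsmul] at h4
    rw [← h4]
    refine Submodule.sum_mem _ fun i _ => ?_
    rw [← Int.cast_smul_eq_zsmul ℂ]
    exact Submodule.smul_mem _ _ (Submodule.subset_span ⟨i, rfl⟩)
  have hfs : Module.Finite ℂ (Submodule.span ℂ (Set.range c)) :=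
    FiniteDimensional.span_of_finite ℂ (Set.finite_range c)
  have h4 : Module.finrank ℂ (parabolicHoms ℂ (Gamma0 N) ℂ) ≤
      Module.finrank ℂ (Submodule.span ℂ (Set.range c)) := Submodule.finrank_mono hspan
  have h5 : Module.finrank ℂ (Submodule.span ℂ (Set.range c)) ≤
      Fintype.card (Fin (Module.finrank ℤ (parabolicHoms ℤ (Gamma0 N) ℤ))) :=
    finrank_range_le_card c
  rw [Fintype.card_fin] at h5
  exact h4.trans h5

end Rank

section Main

open Matrix ModularGroup Fermat.Agent.S20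

/-- **Integral parabolic lifts.**  A homomorphism `ψ : Γ₀(N) → ℤ/n` killing the parabolic
elements and the elements `g` with `g ^ 12 = 1` is the reduction modulo `n` of an integral
parabolic homomorphism. -/
theorem cl_exists_lift (N : ℕ) [NeZero N] (n : ℕ) [NeZero n]
    (psi : Additive (Gamma0 N) →+ ZMod n)
    (hpar : psi ∈ parabolicHoms ℤ (Gamma0 N) (ZMod n))
    (h12 : ∀ g : Gamma0 N, g ^ 12 = 1 → psi (Additive.ofMul g) = 0) :
    ∃ chi : Additive (Gamma0 N) →+ ℤ, chi ∈ parabolicHoms ℤ (Gamma0 N) ℤ ∧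
      ∀ g, ((chi g : ℤ) : ZMod n) = psi g := by
  classical
  obtain ⟨s, b, hrs⟩ := cl_exists_basis N
  obtain ⟨hfinE, hcard⟩ := cl_card_E_le N (ZMod n)
  have hrank := cl_card_add_two_le N
  rw [Nat.card_zmod] at hcard
  have hn : 0 < n := Nat.pos_of_ne_zero (NeZero.ne n)
  -- the integral combinations with coefficients in `[0, n)`
  let χL : (Fin s → Fin n) → parabolicHoms ℤ (Gamma0 N) ℤ :=
    fun u => ∑ j, (((u j : ℕ) : ℤ)) • b j
  have hLE : ∀ χ' : parabolicHoms ℤ (Gamma0 N) ℤ,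
      (Int.castAddHom (ZMod n)).comp (χ' : Additive (Gamma0 N) →+ ℤ) ∈ cl_E N (ZMod n) := by
    intro χ'
    refine ⟨fun γ hγ => ?_, fun γ hγ => ?_⟩
    · show (((χ' : Additive (Gamma0 N) →+ ℤ) (Additive.ofMul γ) : ℤ) : ZMod n) = 0
      rw [χ'.2 γ hγ, Int.cast_zero]
    · show (((χ' : Additive (Gamma0 N) →+ ℤ) (Additive.ofMul γ) : ℤ) : ZMod n) = 0
      have h : (12 : ℕ) • (χ' : Additive (Gamma0 N) →+ ℤ) (Additive.ofMul γ) = 0 := by
        rw [← map_nsmul, ← ofMul_pow, hγ, ofMul_one, map_zero]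
      have h0 : (χ' : Additive (Gamma0 N) →+ ℤ) (Additive.ofMul γ) = 0 := by
        rw [nsmul_eq_mul] at h
        omega
      rw [h0, Int.cast_zero]
  let ι : (Fin s → Fin n) → cl_E N (ZMod n) :=
    fun u => ⟨(Int.castAddHom (ZMod n)).comp (χL u : Additive (Gamma0 N) →+ ℤ), hLE (χL u)⟩
  have hι : Function.Injective ι := by
    intro u u' h
    have hval : ∀ a, ((((χL u : Additive (Gamma0 N) →+ ℤ) a : ℤ)) : ZMod n) =
        (((χL u' : Additive (Gamma0 N) →+ ℤ) a : ℤ) : ZMod n) := fun a =>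
      congrArg (fun e : cl_E N (ZMod n) => (e : Additive (Gamma0 N) →+ ZMod n) a) h
    set d : parabolicHoms ℤ (Gamma0 N) ℤ := χL u - χL u' with hd
    have hdvd : ∀ a, (n : ℤ) ∣ (d : Additive (Gamma0 N) →+ ℤ) a := by
      intro a
      rw [hd, Submodule.coe_sub, AddMonoidHom.sub_apply, ← ZMod.intCast_zmod_eq_zero_iff_dvd,
        Int.cast_sub, hval a, sub_self]
    let χ'' : Additive (Gamma0 N) →+ ℤ :=
      { toFun := fun a => (d : Additive (Gamma0 N) →+ ℤ) a / n
        map_zero' := by simp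
        map_add' := fun x y => by
          simp only [map_add]
          exact Int.add_ediv_of_dvd_left (hdvd x) }
    have hχ''L : χ'' ∈ parabolicHoms ℤ (Gamma0 N) ℤ := by
      intro γ hγ
      show (d : Additive (Gamma0 N) →+ ℤ) (Additive.ofMul γ) / n = 0
      rw [d.2 γ hγ, Int.zero_ediv]
    have hmul : d = (n : ℤ) • (⟨χ'', hχ''L⟩ : parabolicHoms ℤ (Gamma0 N) ℤ) := by
      apply Subtype.ext
      refine AddMonoidHom.ext fun a => ?_
      show (d : Additive (Gamma0 N) →+ ℤ) a = (n : ℤ) • ((d : Additive (Gamma0 N) →+ ℤ) a / n)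
      rw [smul_eq_mul, Int.mul_ediv_cancel' (hdvd a)]
    have hrepr : ∀ j, b.repr d j = ((u j : ℕ) : ℤ) - ((u' j : ℕ) : ℤ) := by
      intro j
      rw [hd, map_sub, Finsupp.sub_apply]
      simp only [χL]
      rw [b.repr_sum_self, b.repr_sum_self]
    funext j
    have h1 := hrepr j
    rw [hmul, map_zsmul, Finsupp.smul_apply, smul_eq_mul] at h1
    have h2 : ((u' j : ℕ) : ℤ) ≡ ((u j : ℕ) : ℤ) [ZMOD (n : ℤ)] :=
      Int.modEq_iff_dvd.mpr ⟨_, h1.symm⟩
    have h3 := Int.natCast_modEq_iff.mp h2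
    exact Fin.ext (Nat.ModEq.eq_of_lt_of_lt h3 (u' j).2 (u j).2).symm
  have hcard1 : Nat.card (cl_E N (ZMod n)) ≤ n ^ s := by
    have h1 : n ^ (Nat.card (Q N) + 2) ≤ n ^ (s
        + (Nat.card (orbitRel.Quotient (Subgroup.zpowers (S : SL(2, ℤ))) (Q N))
        + Nat.card (orbitRel.Quotient (Subgroup.zpowers (T : SL(2, ℤ))) (Q N))
        + Nat.card (orbitRel.Quotient (Subgroup.zpowers ((S : SL(2, ℤ)) * T)) (Q N)))) :=
      Nat.pow_le_pow_right hn (by omega)
    rw [pow_add n s] at h1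
    exact Nat.le_of_mul_le_mul_right (hcard.trans h1) (Nat.pow_pos hn)
  have hbij : Function.Bijective ι :=
    hι.bijective_of_nat_card_le (by rw [Nat.card_fun, Nat.card_fin, Nat.card_fin]; exact hcard1)
  obtain ⟨u, hu⟩ := hbij.2 ⟨psi, hpar, h12⟩
  refine ⟨(χL u : Additive (Gamma0 N) →+ ℤ), (χL u).2, fun g => ?_⟩
  exact congrArg (fun e : cl_E N (ZMod n) => (e : Additive (Gamma0 N) →+ ZMod n) g) hu

end Main

end Fermat.Agent.S16
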