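import Mathlib
import Fermat.Agent.S16.Defs

/-!
# S16, package GAUSS: the quaternary Gauss sum

For an even quaternary lattice `A` of determinant `p ^ 2`, an odd prime `d ≠ p` and `b` prime to
`d`: `∑_{g mod d} e(b Q(g) / d) = d ^ 2`, `Q(g) = gᵀ A g / 2`.  Proof: diagonalise the reduction
of `A` over `ZMod d`; every one-variable sum is `χ(a) G` with `χ` the quadratic character and `G`
the quadratic Gauss sum, `G ^ 2 = χ(-1) d`, and the determinant is a square.
-/

set_option autoImplicit false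

namespace Fermat.Agent.S16

open Finset

/-- the quadratic character of `ZMod d` with complex values -/
noncomputable def gs_chi (d : ℕ) [Fact d.Prime] : MulChar (ZMod d) ℂ :=
  (quadraticChar (ZMod d)).ringHomComp (Int.castRingHom ℂ)

theorem gs_chi_apply (d : ℕ) [Fact d.Prime] (a : ZMod d) :
    gs_chi d a = ((quadraticChar (ZMod d) a : ℤ) : ℂ) := rfl

theorem gs_chi_isQuadratic (d : ℕ) [Fact d.Prime] : (gs_chi d).IsQuadratic :=
  (quadraticChar_isQuadratic (ZMod d)).comp _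

theorem gs_chi_ne_one (d : ℕ) [Fact d.Prime] (hd2 : d ≠ 2) : gs_chi d ≠ 1 := by
  have hF : ringChar (ZMod d) ≠ 2 := by rwa [ZMod.ringChar_zmod_n]
  exact (MulChar.ringHomComp_ne_one_iff (RingHom.injective_int _)).mpr (quadraticChar_ne_one hF)

/-- one-variable quadratic Gauss sum -/
theorem gs_sum_sq (d : ℕ) [Fact d.Prime] (hd2 : d ≠ 2) (a : ZMod d) (ha : a ≠ 0) :
    ∑ t : ZMod d, ZMod.stdAddChar (a * t ^ 2)
      = gs_chi d a * gaussSum (gs_chi d) (ZMod.stdAddChar (N := d)) := by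
  classical
  have hF : ringChar (ZMod d) ≠ 2 := by rwa [ZMod.ringChar_zmod_n]
  set ψ : AddChar (ZMod d) ℂ := ZMod.stdAddChar (N := d) with hψ
  have hprim : ψ.IsPrimitive := ZMod.isPrimitive_stdAddChar d
  -- fibrewise
  have h1 : ∑ t : ZMod d, ψ (a * t ^ 2)
      = ∑ s : ZMod d, ((quadraticChar (ZMod d) s : ℤ) + 1 : ℂ) * ψ (a * s) := by
    have e1 : ∀ t : ZMod d, ψ (a * t ^ 2) = ∑ s : ZMod d, if t ^ 2 = s then ψ (a * s) else 0 := by
      intro t
      rw [Finset.sum_ite_eq]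
      simp
    simp_rw [e1]
    rw [Finset.sum_comm]
    refine Finset.sum_congr rfl fun s _ => ?_
    rw [← Finset.sum_filter, Finset.sum_const, nsmul_eq_mul]
    congr 1
    have h := quadraticChar_card_sqrts hF s
    have h' : ((#{x : ZMod d | x ^ 2 = s}.toFinset : ℕ) : ℂ)
        = ((quadraticChar (ZMod d) s : ℤ) : ℂ) + 1 := by
      have := congrArg (Int.cast : ℤ → ℂ) h
      push_cast at this
      exact this
    rw [← h']
    congr 2
    ext x
    simp
  rw [h1]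
  simp_rw [add_mul, one_mul]
  rw [Finset.sum_add_distrib]
  have h2 : ∑ s : ZMod d, ψ (a * s) = 0 := by
    have hne : ψ.mulShift a ≠ 1 := hprim ha
    have := AddChar.sum_eq_zero_of_ne_one hne
    simpa [AddChar.mulShift_apply] using this
  rw [h2, add_zero]
  have hu : IsUnit a := isUnit_iff_ne_zero.mpr ha
  obtain ⟨u, rfl⟩ := hu
  have h3 := gaussSum_mulShift (gs_chi d) ψ u
  have h4 : gaussSum (gs_chi d) (ψ.mulShift (u : ZMod d))
      = ∑ s : ZMod d, ((quadraticChar (ZMod d) s : ℤ) : ℂ) * ψ ((u : ZMod d) * s) := by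
    simp [gaussSum, AddChar.mulShift_apply, gs_chi_apply]
  rw [← h4, ← h3, ← mul_assoc]
  have h5 : gs_chi d (u : ZMod d) * gs_chi d (u : ZMod d) = 1 := by
    have := congrArg (fun χ : MulChar (ZMod d) ℂ => χ (u : ZMod d)) (gs_chi_isQuadratic d).sq_eq_one
    simpa [pow_two, MulChar.mul_apply, MulChar.one_apply_coe] using this
  rw [h5, one_mul]

/-- diagonalisation of a symmetric matrix by congruence -/
theorem gs_diag {K : Type*} [Field K] [Invertible (2 : K)] (M : Matrix (Fin 4) (Fin 4) K)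
    (hM : M.IsSymm) :
    ∃ (P : Matrix (Fin 4) (Fin 4) K) (w : Fin 4 → K), P.det ≠ 0 ∧
      P.transpose * M * P = Matrix.diagonal w := by
  classical
  set B : LinearMap.BilinForm K (Fin 4 → K) := Matrix.toBilin' M with hB
  have hBs : B.IsSymm := Matrix.isSymm_toBilin'_iff_isSymm.mpr hM
  obtain ⟨v, hv⟩ := LinearMap.BilinForm.exists_orthogonal_basis (LinearMap.BilinForm.isSymm_iff.mp hBs)
  have hr : Module.finrank K (Fin 4 → K) = 4 := Module.finrank_fin_fun K
  set v' : Module.Basis (Fin 4) K (Fin 4 → K) := v.reindex (finCongr hr) with hv'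
  have hortho : ∀ i j, i ≠ j → B (v' i) (v' j) = 0 := by
    intro i j hij
    have := hv (i := (finCongr hr).symm i) (j := (finCongr hr).symm j) (by simpa using hij)
    simpa [hv'] using this
  refine ⟨(Pi.basisFun K (Fin 4)).toMatrix v', fun i => B (v' i) (v' i), ?_, ?_⟩
  · have h := (Pi.basisFun K (Fin 4)).toMatrix_mul_toMatrix_flip v'
    intro h0
    have := congrArg Matrix.det h
    rw [Matrix.det_mul, h0, zero_mul, Matrix.det_one] at this
    exact zero_ne_one this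
  · have h := LinearMap.BilinForm.toMatrix_mul_basis_toMatrix (b := Pi.basisFun K (Fin 4)) v' B
    rw [LinearMap.BilinForm.toMatrix_basisFun, hB, LinearMap.BilinForm.toMatrix'_toBilin'] at h
    rw [h]
    ext i j
    rw [LinearMap.BilinForm.toMatrix_apply, Matrix.diagonal_apply]
    split_ifs with hij
    · subst hij; rfl
    · exact hortho i j hij


/-- quaternary Gauss sum over `ZMod d` for a symmetric matrix whose determinant is a nonzero
square -/
theorem gs_sum_quad (d : ℕ) [Fact d.Prime] (hd2 : d ≠ 2) (M : Matrix (Fin 4) (Fin 4) (ZMod d))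
    (hM : M.IsSymm) (r : ZMod d) (hr : r ≠ 0) (hdet : M.det = r ^ 2) (c : ZMod d) (hc : c ≠ 0) :
    ∑ x : Fin 4 → ZMod d, ZMod.stdAddChar (c * (x ⬝ᵥ M.mulVec x)) = (d : ℂ) ^ 2 := by
  classical
  have hdp : d.Prime := Fact.out
  have h2ne : (2 : ZMod d) ≠ 0 := by
    have : ((2 : ℕ) : ZMod d) ≠ 0 := by
      rw [Ne, ZMod.natCast_eq_zero_iff]
      intro h
      have := (Nat.prime_dvd_prime_iff_eq hdp Nat.prime_two).mp h
      exact hd2 this
    exact_mod_cast this
  have : Invertible (2 : ZMod d) := invertibleOfNonzero h2ne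
  obtain ⟨P, w, hP, hPM⟩ := gs_diag M hM
  set ψ : AddChar (ZMod d) ℂ := ZMod.stdAddChar (N := d) with hψ
  -- product of the diagonal entries
  have hw : ∏ i, w i = (P.det * r) ^ 2 := by
    have := congrArg Matrix.det hPM
    rw [Matrix.det_mul, Matrix.det_mul, Matrix.det_transpose, Matrix.det_diagonal, hdet] at this
    rw [← this]; ring
  have hwne : ∀ i, w i ≠ 0 := by
    intro i hi
    have h0 : ∏ i, w i = 0 := Finset.prod_eq_zero (Finset.mem_univ i) hi
    rw [hw] at h0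
    exact (pow_ne_zero 2 (mul_ne_zero hP hr)) h0
  -- change of variables
  have hbij : Function.Bijective (P.mulVec) := by
    have hinj : Function.Injective P.mulVec :=
      Matrix.mulVec_injective_iff_isUnit.mpr ((Matrix.isUnit_iff_isUnit_det P).mpr
        (isUnit_iff_ne_zero.mpr hP))
    exact Finite.injective_iff_bijective.mp hinj
  have hquad : ∀ y : Fin 4 → ZMod d,
      (P.mulVec y) ⬝ᵥ M.mulVec (P.mulVec y) = ∑ i, w i * y i ^ 2 := by
    intro y
    have e1 : (P.mulVec y) ⬝ᵥ M.mulVec (P.mulVec y)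
        = y ⬝ᵥ (P.transpose * M * P).mulVec y := by
      rw [← Matrix.mulVec_mulVec, ← Matrix.mulVec_mulVec, Matrix.dotProduct_mulVec y,
        Matrix.vecMul_transpose]
    rw [e1, hPM]
    simp only [dotProduct, Matrix.mulVec_diagonal]
    refine Finset.sum_congr rfl fun i _ => ?_
    ring
  have hstep1 : ∑ x : Fin 4 → ZMod d, ψ (c * (x ⬝ᵥ M.mulVec x))
      = ∑ y : Fin 4 → ZMod d, ψ (c * (P.mulVec y ⬝ᵥ M.mulVec (P.mulVec y))) :=
    (Function.Bijective.sum_comp hbij (fun x => ψ (c * (x ⬝ᵥ M.mulVec x)))).symm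
  rw [hstep1]
  have hstep2 : ∀ y : Fin 4 → ZMod d, ψ (c * (P.mulVec y ⬝ᵥ M.mulVec (P.mulVec y)))
      = ∏ i, ψ (c * w i * y i ^ 2) := by
    intro y
    rw [hquad y, Fin.sum_univ_four, Fin.prod_univ_four, mul_add, mul_add, mul_add,
      AddChar.map_add_eq_mul, AddChar.map_add_eq_mul, AddChar.map_add_eq_mul]
    simp only [mul_assoc]
  simp_rw [hstep2]
  have hstep3 : ∑ y : Fin 4 → ZMod d, ∏ i, ψ (c * w i * y i ^ 2)
      = ∏ i : Fin 4, ∑ t : ZMod d, ψ (c * w i * t ^ 2) := by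
    rw [Finset.prod_univ_sum (fun _ : Fin 4 => (Finset.univ : Finset (ZMod d)))
      (fun i t => ψ (c * w i * t ^ 2)), Fintype.piFinset_univ]
  rw [hstep3]
  have hstep4 : ∀ i : Fin 4, ∑ t : ZMod d, ψ (c * w i * t ^ 2)
      = gs_chi d (c * w i) * gaussSum (gs_chi d) ψ :=
    fun i => gs_sum_sq d hd2 (c * w i) (mul_ne_zero hc (hwne i))
  simp_rw [hstep4]
  rw [Finset.prod_mul_distrib, Finset.prod_const, ← map_prod, Finset.prod_mul_distrib,
    Finset.prod_const, hw]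
  simp only [Finset.card_univ, Fintype.card_fin]
  have hsq : c ^ 4 * (P.det * r) ^ 2 = (c ^ 2 * (P.det * r)) ^ 2 := by ring
  have hne : c ^ 2 * (P.det * r) ≠ 0 := mul_ne_zero (pow_ne_zero 2 hc) (mul_ne_zero hP hr)
  have hchi1 : gs_chi d (c ^ 4 * (P.det * r) ^ 2) = 1 := by
    rw [hsq, gs_chi_apply, quadraticChar_sq_one' hne]; simp
  rw [hchi1, one_mul]
  have hG := gaussSum_sq (gs_chi_ne_one d hd2) (gs_chi_isQuadratic d) (ZMod.isPrimitive_stdAddChar d)
  have hG4 : gaussSum (gs_chi d) ψ ^ 4 = (gaussSum (gs_chi d) ψ ^ 2) ^ 2 := by ring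
  rw [hG4, hG, ZMod.card, mul_pow]
  have hm1 : gs_chi d (-1) ^ 2 = 1 := by
    have := congrArg (fun χ : MulChar (ZMod d) ℂ => χ (-1 : ZMod d))
      (gs_chi_isQuadratic d).sq_eq_one
    simp only [pow_two, MulChar.mul_apply] at this
    rw [MulChar.one_apply (isUnit_one.neg)] at this
    rw [pow_two]; exact this
  rw [hm1, one_mul]

/-- the quadratic form of an even symmetric integral matrix takes even values -/
theorem gs_even (A : Matrix (Fin 4) (Fin 4) ℤ) (hs : A.IsSymm) (he : ∀ i, Even (A i i))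
    (v : Fin 4 → ℤ) : Even (v ⬝ᵥ A.mulVec v) := by
  obtain ⟨k0, h00⟩ := he 0
  obtain ⟨k1, h11⟩ := he 1
  obtain ⟨k2, h22⟩ := he 2
  obtain ⟨k3, h33⟩ := he 3
  have s10 : A 1 0 = A 0 1 := hs.apply 0 1
  have s20 : A 2 0 = A 0 2 := hs.apply 0 2
  have s30 : A 3 0 = A 0 3 := hs.apply 0 3
  have s21 : A 2 1 = A 1 2 := hs.apply 1 2
  have s31 : A 3 1 = A 1 3 := hs.apply 1 3
  have s32 : A 3 2 = A 2 3 := hs.apply 2 3
  refine ⟨k0 * v 0 ^ 2 + k1 * v 1 ^ 2 + k2 * v 2 ^ 2 + k3 * v 3 ^ 2 + A 0 1 * v 0 * v 1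
    + A 0 2 * v 0 * v 2 + A 0 3 * v 0 * v 3 + A 1 2 * v 1 * v 2 + A 1 3 * v 1 * v 3
    + A 2 3 * v 2 * v 3, ?_⟩
  simp only [dotProduct, Matrix.mulVec, Fin.sum_univ_four]
  linear_combination v 0 ^ 2 * h00 + v 1 ^ 2 * h11 + v 2 ^ 2 * h22 + v 3 ^ 2 * h33
    + v 0 * v 1 * s10 + v 0 * v 2 * s20 + v 0 * v 3 * s30 + v 1 * v 2 * s21 + v 1 * v 3 * s31
    + v 2 * v 3 * s32

/-- the bijection `Fin d ≃ ZMod d` -/
def gs_equiv (d : ℕ) [NeZero d] : Fin d ≃ ZMod d where
  toFun g := ((g : ℕ) : ZMod d)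
  invFun x := ⟨x.val, ZMod.val_lt x⟩
  left_inv g := Fin.ext (ZMod.val_natCast_of_lt g.isLt)
  right_inv x := ZMod.natCast_zmod_val x

/-- **Quaternary Gauss sum**: for an even quaternary lattice of determinant `p²`, an odd prime
`d ≠ p` and `b` prime to `d`, `∑_{g mod d} e(b Q(g) / d) = d²`. -/
theorem gaussSum_quat (p : ℕ) [Fact p.Prime] (A B : Matrix (Fin 4) (Fin 4) ℤ)
    (hAB : IsQuatLattice p A B) (d : ℕ) (hd : d.Prime) (hd2 : d ≠ 2) (hdp : d ≠ p) (b : ℤ)
    (hb : ¬ (d : ℤ) ∣ b) :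
    ∑ g : Fin 4 → Fin d, Complex.exp (Real.pi * Complex.I * (b : ℂ) *
        ((((fun i => ((g i : ℕ) : ℤ)) ⬝ᵥ A.mulVec (fun i => ((g i : ℕ) : ℤ)) : ℤ) : ℂ)) / d)
      = (d : ℂ) ^ 2 := by
  classical
  have : Fact d.Prime := ⟨hd⟩
  have hp : p.Prime := Fact.out
  obtain ⟨hsymm, heven, -, -, hdet⟩ := hAB
  set M : Matrix (Fin 4) (Fin 4) (ZMod d) := A.map (Int.castRingHom (ZMod d)) with hMdef
  have hM : M.IsSymm := hsymm.map _
  have hdetM : M.det = ((p : ℕ) : ZMod d) ^ 2 := by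
    have h1 : M.det = (Int.castRingHom (ZMod d)) A.det := by
      rw [RingHom.map_det]; rfl
    rw [h1, hdet]; simp
  have hr : ((p : ℕ) : ZMod d) ≠ 0 := by
    rw [Ne, ZMod.natCast_eq_zero_iff]
    intro h
    exact hdp ((Nat.prime_dvd_prime_iff_eq hd hp).mp h)
  have h2ne : (2 : ZMod d) ≠ 0 := by
    have : ((2 : ℕ) : ZMod d) ≠ 0 := by
      rw [Ne, ZMod.natCast_eq_zero_iff]
      intro h
      exact hd2 ((Nat.prime_dvd_prime_iff_eq hd Nat.prime_two).mp h)
    exact_mod_cast this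
  have hbne : ((b : ℤ) : ZMod d) ≠ 0 := by
    rw [Ne, ZMod.intCast_zmod_eq_zero_iff_dvd]
    exact hb
  set c : ZMod d := (b : ZMod d) * (2 : ZMod d)⁻¹ with hc
  have hcne : c ≠ 0 := mul_ne_zero hbne (inv_ne_zero h2ne)
  rw [← gs_sum_quad d hd2 M hM _ hr hdetM c hcne]
  refine Fintype.sum_equiv (Equiv.piCongrRight fun _ => gs_equiv d) _ _ fun g => ?_
  set v : Fin 4 → ℤ := fun i => ((g i : ℕ) : ℤ) with hv
  obtain ⟨m, hm⟩ := gs_even A hsymm heven v
  have hx : (Equiv.piCongrRight fun _ => gs_equiv d) g = fun i => ((v i : ℤ) : ZMod d) := by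
    funext i
    simp [gs_equiv, hv]
  have hcast : (((v ⬝ᵥ A.mulVec v : ℤ)) : ZMod d)
      = (fun i => ((v i : ℤ) : ZMod d)) ⬝ᵥ M.mulVec (fun i => ((v i : ℤ) : ZMod d)) := by
    simp only [dotProduct, Matrix.mulVec, Fin.sum_univ_four, hMdef, Matrix.map_apply]
    push_cast
    rfl
  have harg : c * ((fun i => ((v i : ℤ) : ZMod d)) ⬝ᵥ M.mulVec (fun i => ((v i : ℤ) : ZMod d)))
      = ((b * m : ℤ) : ZMod d) := by
    rw [← hcast, hm, hc]
    push_cast
    field_simp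
    ring
  rw [hx, harg, ZMod.stdAddChar_coe, hm]
  congr 1
  push_cast
  ring

end Fermat.Agent.S16
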