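import Mathlib
import Fermat.Agent.S16.Defs

/-!
# S16, package LATTICE: existence of an even quaternary lattice of level `p`

For every odd prime `p` there are integer matrices `A`, `B` with `IsQuatLattice p A B`
(`A` even, symmetric, positive definite, `det A = p ^ 2`, `A * B = p`).

* `p ≡ 3 mod 4`: `A = B₀ ⊕ B₀`, `B₀ = [[2, 1], [1, (p + 1) / 2]]`.
* `p ≡ 1 mod 4`: Dirichlet's theorem and quadratic reciprocity give a prime `q ≡ 3 mod 4`
  and `a` with `q ∣ 1 + p a ^ 2`; then `A` is the Gram matrix of the basis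
  `(1 + j) / 2, (i + i j) / 2, (j + a i j) / q, i j` of a maximal order of the quaternion algebra
  `i ^ 2 = - p`, `j ^ 2 = - q`.
-/

set_option autoImplicit false

open Matrix

namespace Fermat.Agent.S16

/-- The determinant of an explicit `4 × 4` matrix. -/
theorem lat_det_of (a b c d e f g h i j k l m n o q : ℤ) :
    (!![a, b, c, d; e, f, g, h; i, j, k, l; m, n, o, q] : Matrix (Fin 4) (Fin 4) ℤ).det =
      a * (f * (k * q - l * o) - g * (j * q - l * n) + h * (j * o - k * n))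
      - b * (e * (k * q - l * o) - g * (i * q - l * m) + h * (i * o - k * m))
      + c * (e * (j * q - l * n) - f * (i * q - l * m) + h * (i * n - j * m))
      - d * (e * (j * o - k * n) - f * (i * o - k * m) + g * (i * n - j * m)) := by
  rw [Matrix.det_succ_row_zero]
  simp [Fin.sum_univ_succ, Matrix.det_fin_three, Fin.succAbove, Matrix.submatrix]
  ring

/-- A symmetric integer matrix with even diagonal takes even values. -/
theorem lat_qf_even (A : Matrix (Fin 4) (Fin 4) ℤ) (hs : A.IsSymm) (he : ∀ i, Even (A i i))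
    (x : Fin 4 → ℤ) : Even (x ⬝ᵥ A.mulVec x) := by
  have h := fun i j => hs.apply i j
  obtain ⟨k0, hk0⟩ := he 0
  obtain ⟨k1, hk1⟩ := he 1
  obtain ⟨k2, hk2⟩ := he 2
  obtain ⟨k3, hk3⟩ := he 3
  refine ⟨k0 * x 0 ^ 2 + k1 * x 1 ^ 2 + k2 * x 2 ^ 2 + k3 * x 3 ^ 2 + A 0 1 * x 0 * x 1
    + A 0 2 * x 0 * x 2 + A 0 3 * x 0 * x 3 + A 1 2 * x 1 * x 2 + A 1 3 * x 1 * x 3
    + A 2 3 * x 2 * x 3, ?_⟩
  simp only [dotProduct, Matrix.mulVec, Fin.sum_univ_four]
  rw [h 0 1, h 0 2, h 0 3, h 1 2, h 1 3, h 2 3, hk0, hk1, hk2, hk3]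
  ring

/-- consequences of the definition used by the other theta packages -/
theorem IsQuatLattice.even_B {p : ℕ} [Fact p.Prime] {A B : Matrix (Fin 4) (Fin 4) ℤ}
    (hAB : IsQuatLattice p A B) (hp : p ≠ 2) :
    B.IsSymm ∧ (∀ i, Even (B i i)) ∧ B * A = (p : ℤ) • (1 : Matrix (Fin 4) (Fin 4) ℤ) := by
  obtain ⟨hsym, heven, -, hmul, hdet⟩ := hAB
  have hpp : p.Prime := Fact.out
  have hp0 : (p : ℤ) ≠ 0 := by exact_mod_cast hpp.ne_zero
  have hdet0 : A.det ≠ 0 := by rw [hdet]; exact pow_ne_zero 2 hp0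
  have hinj : Function.Injective (fun X : Matrix (Fin 4) (Fin 4) ℤ => A.det • X) :=
    smul_right_injective _ hdet0
  have hBA : B * A = (p : ℤ) • (1 : Matrix (Fin 4) (Fin 4) ℤ) := by
    apply hinj
    show A.det • (B * A) = A.det • ((p : ℤ) • (1 : Matrix (Fin 4) (Fin 4) ℤ))
    have h0 : A * (B * A) = A * ((p : ℤ) • (1 : Matrix (Fin 4) (Fin 4) ℤ)) := by
      rw [← Matrix.mul_assoc, hmul, Matrix.smul_mul, Matrix.one_mul, Matrix.mul_smul,
        Matrix.mul_one]
    have h1 : A.adjugate * A * (B * A)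
        = A.adjugate * A * ((p : ℤ) • (1 : Matrix (Fin 4) (Fin 4) ℤ)) := by
      rw [Matrix.mul_assoc, Matrix.mul_assoc, h0]
    rw [Matrix.adjugate_mul, Matrix.smul_mul, Matrix.one_mul, Matrix.smul_mul,
      Matrix.one_mul] at h1
    exact h1
  have hBsym : B.IsSymm := by
    have h1 : Bᵀ * A = B * A := by
      rw [hBA]
      have h2 : (A * B)ᵀ = ((p : ℤ) • (1 : Matrix (Fin 4) (Fin 4) ℤ))ᵀ := by rw [hmul]
      rw [Matrix.transpose_mul, hsym.eq] at h2
      rw [h2]; simp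
    have h3 : Bᵀ * A * A.adjugate = B * A * A.adjugate := by rw [h1]
    rw [Matrix.mul_assoc, Matrix.mul_assoc, Matrix.mul_adjugate, Matrix.mul_smul,
      Matrix.mul_smul, Matrix.mul_one, Matrix.mul_one] at h3
    exact hinj h3
  refine ⟨hBsym, fun i => ?_, hBA⟩
  have h1 : B * A * B = (p : ℤ) • B := by rw [hBA]; simp
  have h2 : (p : ℤ) * B i i = (fun j => B i j) ⬝ᵥ A.mulVec (fun j => B i j) := by
    have h3 := congrFun (congrFun h1 i) i
    rw [Matrix.smul_apply, smul_eq_mul] at h3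
    rw [← h3]
    simp only [Matrix.mul_apply, dotProduct, Matrix.mulVec, Finset.sum_mul, Finset.mul_sum]
    rw [Finset.sum_comm]
    refine Finset.sum_congr rfl fun j _ => Finset.sum_congr rfl fun k _ => ?_
    rw [hBsym.apply i k]
    ring
  have h4 : Even ((p : ℤ) * B i i) := by rw [h2]; exact lat_qf_even A hsym heven _
  rcases Int.even_mul.mp h4 with h5 | h5
  · exfalso
    have h6 : Even p := by exact_mod_cast h5
    exact hp ((Nat.Prime.even_iff hpp).mp h6)
  · exact h5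

/-- Positive definiteness of the real matrix attached to a symmetric integer matrix, from
positivity of the explicit quadratic form. -/
theorem lat_posDef_of (A : Matrix (Fin 4) (Fin 4) ℤ) (hs : A.IsSymm)
    (h : ∀ x : Fin 4 → ℝ, x ≠ 0 → 0 < ∑ i, ∑ j, x i * ((A i j : ℤ) : ℝ) * x j) :
    (A.map (Int.cast : ℤ → ℝ)).PosDef := by
  refine Matrix.PosDef.of_dotProduct_mulVec_pos ?_ ?_
  · ext i j
    simp [Matrix.conjTranspose_apply, Matrix.map_apply, hs.apply i j]
  · intro x hx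
    have h1 := h x hx
    have h2 : star x ⬝ᵥ ((A.map (Int.cast : ℤ → ℝ)) *ᵥ x)
        = ∑ i, ∑ j, x i * ((A i j : ℤ) : ℝ) * x j := by
      simp only [dotProduct, Matrix.mulVec, Matrix.map_apply, Finset.mul_sum, Pi.star_apply,
        star_trivial, mul_assoc]
    rw [h2]
    exact h1

/-- A nonzero vector of `Fin 4 → ℝ` has a nonzero coordinate. -/
theorem lat_exists_ne (x : Fin 4 → ℝ) (hx : x ≠ 0) :
    x 0 ≠ 0 ∨ x 1 ≠ 0 ∨ x 2 ≠ 0 ∨ x 3 ≠ 0 := by
  by_contra hcon
  simp only [not_or, not_not] at hcon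
  obtain ⟨h0, h1, h2, h3⟩ := hcon
  apply hx
  ext i
  fin_cases i
  · exact h0
  · exact h1
  · exact h2
  · exact h3

/-- The case `p ≡ 3 mod 4`: two copies of the binary form of discriminant `- p`. -/
theorem lat_exists_three (p : ℕ) [Fact p.Prime] (hp : p % 4 = 3) :
    ∃ A B : Matrix (Fin 4) (Fin 4) ℤ, IsQuatLattice p A B := by
  obtain ⟨k, hk⟩ : ∃ k : ℤ, (p : ℤ) = 4 * k - 1 := ⟨((p / 4 + 1 : ℕ) : ℤ), by push_cast; omega⟩
  have hk0 : 0 < k := by
    have : (0 : ℤ) < p := by exact_mod_cast (Fact.out : p.Prime).pos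
    omega
  refine ⟨!![2, 1, 0, 0; 1, 2 * k, 0, 0; 0, 0, 2, 1; 0, 0, 1, 2 * k],
    !![2 * k, -1, 0, 0; -1, 2, 0, 0; 0, 0, 2 * k, -1; 0, 0, -1, 2], ?_, ?_, ?_, ?_, ?_⟩
  · ext i j
    fin_cases i <;> fin_cases j <;> rfl
  · intro i
    fin_cases i <;> simp
  · refine lat_posDef_of _ ?_ ?_
    · ext i j
      fin_cases i <;> fin_cases j <;> rfl
    · intro x hx
      have hkR : (0 : ℝ) < (k : ℝ) := by exact_mod_cast hk0
      have key : ∑ i, ∑ j, x i * (((!![2, 1, 0, 0; 1, 2 * k, 0, 0; 0, 0, 2, 1; 0, 0, 1, 2 * k] :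
            Matrix (Fin 4) (Fin 4) ℤ) i j : ℤ) : ℝ) * x j
          = ((2 * x 0 + x 1) ^ 2 + (4 * (k : ℝ) - 1) * x 1 ^ 2
            + (2 * x 2 + x 3) ^ 2 + (4 * (k : ℝ) - 1) * x 3 ^ 2) / 2 := by
        simp [Fin.sum_univ_four]
        ring
      rw [key]
      have hk1 : (0 : ℝ) < 4 * (k : ℝ) - 1 := by
        have : (1 : ℝ) ≤ (k : ℝ) := by exact_mod_cast hk0
        linarith
      rcases lat_exists_ne x hx with h0 | h1 | h2 | h3
      · by_cases h1 : x 1 = 0
        · have : 0 < (2 * x 0 + x 1) ^ 2 := by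
            rw [h1, add_zero]; positivity
          positivity
        · have : 0 < (4 * (k : ℝ) - 1) * x 1 ^ 2 := by positivity
          positivity
      · have : 0 < (4 * (k : ℝ) - 1) * x 1 ^ 2 := by positivity
        positivity
      · by_cases h3 : x 3 = 0
        · have : 0 < (2 * x 2 + x 3) ^ 2 := by
            rw [h3, add_zero]; positivity
          positivity
        · have : 0 < (4 * (k : ℝ) - 1) * x 3 ^ 2 := by positivity
          positivity
      · have : 0 < (4 * (k : ℝ) - 1) * x 3 ^ 2 := by positivity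
        positivity
  · ext i j
    fin_cases i <;> fin_cases j <;>
      simp [Matrix.mul_apply, Fin.sum_univ_four, hk] <;> ring
  · rw [lat_det_of, hk]
    ring

/-- The case `p ≡ 1 mod 4`, given an auxiliary `q = 4 k - 1` and `a` with `q ∣ 1 + p a ^ 2`:
the Gram matrix of the basis `(1 + j) / 2, (i + i j) / 2, (j + a i j) / q, i j` of a maximal
order in the quaternion algebra `i ^ 2 = - p`, `j ^ 2 = - q`. -/
theorem lat_exists_one_of (p : ℕ) [Fact p.Prime] (k a r : ℤ) (hk : 0 < k)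
    (hr : (4 * k - 1) * r = 1 + (p : ℤ) * a ^ 2) :
    ∃ A B : Matrix (Fin 4) (Fin 4) ℤ, IsQuatLattice p A B := by
  have hp0 : (0 : ℤ) < (p : ℤ) := by exact_mod_cast (Fact.out : p.Prime).pos
  obtain ⟨P, hP⟩ : ∃ P : ℤ, (p : ℤ) = P := ⟨_, rfl⟩
  rw [hP] at hr hp0
  refine ⟨!![2 * k, 0, 1, 0;
             0, P * (2 * k), P * a, P * (4 * k - 1);
             1, P * a, 2 * r, 2 * (P * a);
             0, P * (4 * k - 1), 2 * (P * a), 2 * (P * (4 * k - 1))],
    !![2 * P, 0, -(P * (4 * k - 1)), P * a;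
       0, 2, 0, -1;
       -(P * (4 * k - 1)), 0, P * (4 * k - 1) * (2 * k), -(P * a * (2 * k));
       P * a, -1, -(P * a * (2 * k)), r * (2 * k)], ?_, ?_, ?_, ?_, ?_⟩
  · ext i j
    fin_cases i <;> fin_cases j <;> rfl
  · intro i
    fin_cases i
    · exact ⟨k, by simp; ring⟩
    · exact ⟨P * k, by simp; ring⟩
    · exact ⟨r, by simp; ring⟩
    · exact ⟨P * (4 * k - 1), by simp; ring⟩
  · refine lat_posDef_of _ ?_ ?_
    · ext i j
      fin_cases i <;> fin_cases j <;> rfl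
    · intro x hx
      have hkR : (1 : ℝ) ≤ (k : ℝ) := by exact_mod_cast hk
      have hPR : (0 : ℝ) < (P : ℝ) := by exact_mod_cast hp0
      have hrR : (4 * (k : ℝ) - 1) * (r : ℝ) = 1 + (P : ℝ) * (a : ℝ) ^ 2 := by exact_mod_cast hr
      have hq : (0 : ℝ) < 4 * (k : ℝ) - 1 := by linarith
      have key : (4 * (k : ℝ) - 1) * ∑ i, ∑ j, x i * (((!![2 * k, 0, 1, 0;
             0, P * (2 * k), P * a, P * (4 * k - 1);
             1, P * a, 2 * r, 2 * (P * a);
             0, P * (4 * k - 1), 2 * (P * a), 2 * (P * (4 * k - 1))] :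
            Matrix (Fin 4) (Fin 4) ℤ) i j : ℤ) : ℝ) * x j
          = (4 * (k : ℝ) - 1) / 2 * x 0 ^ 2 + (P : ℝ) * (4 * (k : ℝ) - 1) / 2 * x 1 ^ 2
            + 2 * ((4 * (k : ℝ) - 1) * x 0 / 2 + x 2) ^ 2
            + 2 * (P : ℝ) * ((4 * (k : ℝ) - 1) * x 1 / 2 + (a : ℝ) * x 2
                + (4 * (k : ℝ) - 1) * x 3) ^ 2 := by
        simp [Fin.sum_univ_four]
        linear_combination (2 * x 2 ^ 2) * hrR
      have hpos : 0 < (4 * (k : ℝ) - 1) / 2 * x 0 ^ 2 + (P : ℝ) * (4 * (k : ℝ) - 1) / 2 * x 1 ^ 2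
            + 2 * ((4 * (k : ℝ) - 1) * x 0 / 2 + x 2) ^ 2
            + 2 * (P : ℝ) * ((4 * (k : ℝ) - 1) * x 1 / 2 + (a : ℝ) * x 2
                + (4 * (k : ℝ) - 1) * x 3) ^ 2 := by
        by_cases h0 : x 0 = 0
        · by_cases h1 : x 1 = 0
          · by_cases h2 : x 2 = 0
            · have h3 : x 3 ≠ 0 := by
                rcases lat_exists_ne x hx with h | h | h | h
                · exact absurd h0 h
                · exact absurd h1 h
                · exact absurd h2 h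
                · exact h
              rw [h0, h1, h2]
              have : 0 < 2 * (P : ℝ) * ((4 * (k : ℝ) - 1) * x 3) ^ 2 := by positivity
              simpa using this
            · have : 0 < 2 * ((4 * (k : ℝ) - 1) * x 0 / 2 + x 2) ^ 2 := by
                rw [h0]; simp; positivity
              positivity
          · have : 0 < (P : ℝ) * (4 * (k : ℝ) - 1) / 2 * x 1 ^ 2 := by positivity
            positivity
        · have : 0 < (4 * (k : ℝ) - 1) / 2 * x 0 ^ 2 := by positivity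
          positivity
      rw [← key] at hpos
      exact (mul_pos_iff_of_pos_left hq).mp hpos
  · rw [hP]
    ext i j
    fin_cases i <;> fin_cases j <;>
      simp [Matrix.mul_apply, Fin.sum_univ_four] <;>
      first
        | ring1
        | linear_combination (P * (2 * k)) * hr
        | linear_combination (-2 * P) * hr
        | linear_combination (4 * P * k) * hr
  · rw [lat_det_of, hP]
    linear_combination (4 * k * P ^ 2) * hr

/-- Dirichlet + quadratic reciprocity: for a prime `p ≡ 1 mod 4` there are `q = 4 k - 1 > 0`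
and `a` with `q ∣ 1 + p a ^ 2`. -/
theorem lat_exists_aux (p : ℕ) [hpf : Fact p.Prime] (hp4 : p % 4 = 1) :
    ∃ k a r : ℤ, 0 < k ∧ (4 * k - 1) * r = 1 + (p : ℤ) * a ^ 2 := by
  have hpp : p.Prime := hpf.out
  have hp2 : p ≠ 2 := by
    rintro rfl
    simp at hp4
  -- a non-square `n₀` mod `p`
  obtain ⟨n₀, hn₀⟩ := FiniteField.exists_nonsquare (F := ZMod p)
    (by rw [ZMod.ringChar_zmod_n]; exact hp2)
  -- a residue class mod `4 p` which is `3` mod `4` and `n₀` mod `p`
  have hcop : Nat.Coprime 4 p := by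
    have h2 : Nat.Coprime 2 p := (Nat.coprime_primes Nat.prime_two hpp).mpr (Ne.symm hp2)
    exact Nat.Coprime.pow_left 2 h2
  obtain ⟨c, hc4, hcp⟩ := Nat.chineseRemainder hcop 3 n₀.val
  have hc4' : c % 4 = 3 := hc4
  have hcz : (c : ZMod p) = n₀ := by
    have h1 : (c : ZMod p) = (n₀.val : ZMod p) := (ZMod.natCast_eq_natCast_iff c n₀.val p).mpr hcp
    rw [h1, ZMod.natCast_zmod_val]
  have hcp0 : ¬ p ∣ c := by
    intro hdvd
    have h1 : (c : ZMod p) = 0 := (ZMod.natCast_eq_zero_iff c p).mpr hdvd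
    rw [hcz] at h1
    exact hn₀ (h1 ▸ IsSquare.zero)
  have hcu : IsCoprime (c : ℤ) ((4 * p : ℕ) : ℤ) := by
    rw [Nat.isCoprime_iff_coprime]
    apply Nat.Coprime.mul_right
    · have h2 : Nat.Coprime c 2 := by
        rw [Nat.coprime_two_right, Nat.odd_iff]
        omega
      exact Nat.Coprime.pow_right 2 h2
    · exact ((Nat.Prime.coprime_iff_not_dvd hpp).mpr hcp0).symm
  obtain ⟨q, -, hq, hqc⟩ := Nat.forall_exists_prime_gt_and_zmodEq p (q := 4 * p) (a := (c : ℤ))
    (by have := hpp.pos; omega) hcu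
  have hqc' : q ≡ c [MOD 4 * p] := by exact_mod_cast hqc
  have hq4 : q % 4 = 3 := by
    have h1 : q ≡ c [MOD 4] := hqc'.of_mul_right p
    have h2 : q % 4 = c % 4 := h1
    omega
  have hqn : (q : ZMod p) = n₀ := by
    have h1 : q ≡ c [MOD p] := hqc'.of_mul_left 4
    rw [← hcz]
    exact (ZMod.natCast_eq_natCast_iff q c p).mpr h1
  have hqf : Fact q.Prime := ⟨hq⟩
  have hq2 : q ≠ 2 := by
    rintro rfl
    simp at hq4
  -- `p` is not a square mod `q`
  have hnsq : ¬ IsSquare ((p : ℕ) : ZMod q) := by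
    rw [← ZMod.exists_sq_eq_prime_iff_of_mod_four_eq_one hp4 hq2, hqn]
    exact hn₀
  -- `-1` is not a square mod `q`
  have hneg : ¬ IsSquare (-1 : ZMod q) := by
    rw [ZMod.exists_sq_eq_neg_one_iff]
    simp [hq4]
  -- hence `- p` is a square mod `q`
  have hpq0 : ((p : ℕ) : ZMod q) ≠ 0 := fun h0 => hnsq (h0 ▸ IsSquare.zero)
  have hsq : IsSquare (-((p : ℕ) : ZMod q)) := by
    rw [← quadraticChar_one_iff_isSquare (neg_ne_zero.mpr hpq0)]
    have h1 : quadraticChar (ZMod q) (-((p : ℕ) : ZMod q))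
        = quadraticChar (ZMod q) (-1) * quadraticChar (ZMod q) ((p : ℕ) : ZMod q) := by
      rw [← map_mul]; simp
    rw [h1, quadraticChar_neg_one_iff_not_isSquare.mpr hneg,
      quadraticChar_neg_one_iff_not_isSquare.mpr hnsq]
    norm_num
  obtain ⟨b, hb⟩ := hsq
  have hb0 : b ≠ 0 := by
    rintro rfl
    simp at hb
    exact hpq0 hb
  -- `1 + p * (b⁻¹) ^ 2 = 0` in `ZMod q`
  have hzero : (1 : ZMod q) + ((p : ℕ) : ZMod q) * (b⁻¹) ^ 2 = 0 := by
    have h1 : ((p : ℕ) : ZMod q) = -(b * b) := by rw [← hb]; ring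
    rw [h1]
    field_simp
    ring
  have hdvd : (q : ℤ) ∣ 1 + (p : ℤ) * ((b⁻¹).val : ℤ) ^ 2 := by
    rw [← ZMod.intCast_zmod_eq_zero_iff_dvd]
    push_cast
    rw [ZMod.natCast_zmod_val]
    exact hzero
  obtain ⟨r, hr⟩ := hdvd
  refine ⟨((q / 4 + 1 : ℕ) : ℤ), ((b⁻¹).val : ℤ), r, by positivity, ?_⟩
  have hq' : (4 * ((q / 4 + 1 : ℕ) : ℤ) - 1) = (q : ℤ) := by
    push_cast
    omega
  rw [hq', hr]

/-- **LATTICE**: for every odd prime `p` there is an even positive definite quaternary lattice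
of determinant `p ^ 2` and level `p`. -/
theorem exists_quatLattice (p : ℕ) [Fact p.Prime] (hp : p ≠ 2) :
    ∃ A B : Matrix (Fin 4) (Fin 4) ℤ, IsQuatLattice p A B := by
  have hodd : p % 2 = 1 := (Fact.out : p.Prime).eq_two_or_odd.resolve_left hp
  have h4 : p % 4 = 1 ∨ p % 4 = 3 := by omega
  rcases h4 with h | h
  · obtain ⟨k, a, r, hk, hr⟩ := lat_exists_aux p h
    exact lat_exists_one_of p k a r hk hr
  · exact lat_exists_three p h

end Fermat.Agent.S16
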