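/-
S16 project, package LOWER (core): from the Eisenstein series `e` and the theta series `Θ` of
weight 2 and level `p` (given as data) construct
* `G ∈ M₂(Γ₀(p))` with integral higher coefficients and constant term `gcd(p-1,12)/24`;
* a cusp form `f` with `a_k(f) ≡ σ'(k) mod n`, `n = (p-1)/gcd(p-1,12)`.
-/
import Mathlib
import Fermat.Agent.S16.Defs
import Fermat.Prelude.Thm_CongruenceSubgroup_one_mem_strictPeriods_Gamma0

set_option autoImplicit false

open UpperHalfPlane ModularForm CongruenceSubgroup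
open scoped MatrixGroups Manifold

namespace Fermat.Agent.S16

theorem lower_qCoeff_add (p : ℕ) (F G : ModularForm (Gamma0 p) 2) (k : ℕ) :
    ModularFormClass.qCoeff (⇑(F + G)) k
      = ModularFormClass.qCoeff (⇑F) k + ModularFormClass.qCoeff (⇑G) k := by
  unfold ModularFormClass.qCoeff
  rw [FunLike.coe_add, ModularForm.qExpansion_add one_pos
    (CongruenceSubgroup.one_mem_strictPeriods_Gamma0 p), map_add]

theorem lower_qCoeff_sub (p : ℕ) (F G : ModularForm (Gamma0 p) 2) (k : ℕ) :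
    ModularFormClass.qCoeff (⇑(F - G)) k
      = ModularFormClass.qCoeff (⇑F) k - ModularFormClass.qCoeff (⇑G) k := by
  unfold ModularFormClass.qCoeff
  rw [FunLike.coe_sub, ModularForm.qExpansion_sub one_pos
    (CongruenceSubgroup.one_mem_strictPeriods_Gamma0 p), map_sub]

theorem lower_qCoeff_smul (p : ℕ) (c : ℂ) (F : ModularForm (Gamma0 p) 2) (k : ℕ) :
    ModularFormClass.qCoeff (⇑(c • F)) k = c * ModularFormClass.qCoeff (⇑F) k := by
  unfold ModularFormClass.qCoeff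
  rw [FunLike.coe_smul, ModularForm.qExpansion_smul one_pos
    (CongruenceSubgroup.one_mem_strictPeriods_Gamma0 p), PowerSeries.coeff_smul, smul_eq_mul]

/-- `gcd(p-1,12) * n = p - 1`. -/
theorem lower_gcd_mul_numerator (p : ℕ) :
    Nat.gcd (p - 1) 12 * ModularCurve.eisensteinNumerator p = p - 1 := by
  unfold ModularCurve.eisensteinNumerator
  exact Nat.mul_div_cancel' (Nat.gcd_dvd_left _ _)

/-- **LOWER (core).**  From `e` (constant term `(p-1)/24`, integral higher coefficients) and `Θ`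
(constant term `1`, even higher coefficients) we get a form with constant term
`gcd(p-1,12)/24` and integral higher coefficients. -/
theorem lower_core (p : ℕ) (hp : 1 ≤ p)
    (e : ModularForm (Gamma0 p) 2)
    (he0 : ModularFormClass.qCoeff (⇑e) 0 = ((p : ℂ) - 1) / 24)
    (hek : ∀ k : ℕ, 1 ≤ k → ∃ m : ℤ, ModularFormClass.qCoeff (⇑e) k = (m : ℂ))
    (Θ : ModularForm (Gamma0 p) 2)
    (hΘ0 : ModularFormClass.qCoeff (⇑Θ) 0 = 1)
    (hΘk : ∀ k : ℕ, 1 ≤ k → ∃ m : ℤ, ModularFormClass.qCoeff (⇑Θ) k = 2 * (m : ℂ)) :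
    ∃ G : ModularForm (Gamma0 p) 2,
      (∀ k : ℕ, 1 ≤ k → ∃ m : ℤ, ModularFormClass.qCoeff (⇑G) k = (m : ℂ)) ∧
      ModularFormClass.qCoeff (⇑G) 0 = (Nat.gcd (p - 1) 12 : ℂ) / 24 := by
  -- Bezout: gcd(p-1,12) = (p-1) x + 12 y
  have hbez : ((Nat.gcd (p - 1) 12 : ℕ) : ℤ)
      = ((p - 1 : ℕ) : ℤ) * Nat.gcdA (p - 1) 12 + ((12 : ℕ) : ℤ) * Nat.gcdB (p - 1) 12 :=
    Nat.gcd_eq_gcd_ab (p - 1) 12
  set x : ℤ := Nat.gcdA (p - 1) 12 with hx
  set y : ℤ := Nat.gcdB (p - 1) 12 with hy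
  have hbezC : ((Nat.gcd (p - 1) 12 : ℕ) : ℂ) = ((p : ℂ) - 1) * (x : ℂ) + 12 * (y : ℂ) := by
    have h := congrArg (fun t : ℤ => (t : ℂ)) hbez
    simp only [Int.cast_add, Int.cast_mul, Int.cast_natCast] at h
    rw [h, Nat.cast_sub hp]
    push_cast
    ring
  refine ⟨(x : ℂ) • e + ((y : ℂ) / 2) • Θ, ?_, ?_⟩
  · intro k hk
    obtain ⟨m₁, hm₁⟩ := hek k hk
    obtain ⟨m₂, hm₂⟩ := hΘk k hk
    refine ⟨x * m₁ + y * m₂, ?_⟩
    rw [lower_qCoeff_add, lower_qCoeff_smul, lower_qCoeff_smul, hm₁, hm₂]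
    push_cast
    ring
  · rw [lower_qCoeff_add, lower_qCoeff_smul, lower_qCoeff_smul, he0, hΘ0, hbezC]
    ring

/-- **LOWER (core), cusp form.**  If `G` has integral higher coefficients and constant term
`gcd(p-1,12)/24`, then `e - n G` has constant term `0`; if it is a cusp form `f`, then
`a_k(f) ≡ a_k(e) mod n`. -/
theorem lower_cusp_congr_core (p : ℕ) (hp : 1 ≤ p)
    (e : ModularForm (Gamma0 p) 2)
    (he0 : ModularFormClass.qCoeff (⇑e) 0 = ((p : ℂ) - 1) / 24)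
    (G : ModularForm (Gamma0 p) 2)
    (hGk : ∀ k : ℕ, 1 ≤ k → ∃ m : ℤ, ModularFormClass.qCoeff (⇑G) k = (m : ℂ))
    (hG0 : ModularFormClass.qCoeff (⇑G) 0 = (Nat.gcd (p - 1) 12 : ℂ) / 24)
    (hcusp : ∀ H : ModularForm (Gamma0 p) 2, ModularFormClass.qCoeff (⇑H) 0 = 0 →
      ∃ f : CuspForm (Gamma0 p) 2, (⇑f : ℍ → ℂ) = ⇑H) :
    ∃ f : CuspForm (Gamma0 p) 2, ∀ k : ℕ, 1 ≤ k → ∃ j : ℤ,
      ModularFormClass.qCoeff (⇑f) k = ModularFormClass.qCoeff (⇑e) k
        + (ModularCurve.eisensteinNumerator p : ℂ) * (j : ℂ) := by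
  set n := ModularCurve.eisensteinNumerator p with hn
  have hmul : ((Nat.gcd (p - 1) 12 : ℕ) : ℂ) * (n : ℂ) = (p : ℂ) - 1 := by
    have h := lower_gcd_mul_numerator p
    have h2 := congrArg (fun t : ℕ => (t : ℂ)) h
    simp only [Nat.cast_mul] at h2
    rw [h2, Nat.cast_sub hp]
    push_cast
    ring
  have h0 : ModularFormClass.qCoeff (⇑(e - (n : ℂ) • G)) 0 = 0 := by
    rw [lower_qCoeff_sub, lower_qCoeff_smul, he0, hG0, ← hmul]
    ring
  obtain ⟨f, hf⟩ := hcusp _ h0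
  refine ⟨f, fun k hk => ?_⟩
  obtain ⟨m, hm⟩ := hGk k hk
  refine ⟨-m, ?_⟩
  rw [hf, lower_qCoeff_sub, lower_qCoeff_smul, hm]
  push_cast
  ring

end Fermat.Agent.S16
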