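/-
S16 project, theta route glue: an integral cusp form congruent to the Eisenstein series modulo
`n = eisensteinNumerator p` gives the lower-bound hypothesis `hLB` of `red_main`.
-/
import Mathlib
import Fermat.Agent.S16.Defs
import Fermat.Agent.S16.Eis
import Fermat.Agent.S16.Reduction

set_option autoImplicit false

open ModularCurve CuspForm ModularFormClass CongruenceSubgroup

namespace Fermat.Agent.S16

/-- `sigmaP p i = redSigma p i` for `i ≥ 1`. -/
theorem lower_sigmaP_eq_redSigma (p : ℕ) [Fact p.Prime] (i : ℕ) (hi : 1 ≤ i) :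
    (sigmaP p i : ℤ) = redSigma p i := by
  rw [eis_sigmaP_eq p i (by omega), redSigma]

/-- **Theta route glue.**  A cusp form `f` of weight 2 and level `p` with
`a_k(f) ≡ σ'(k) mod n` for all `k ≥ 1` yields the lower bound `hLB` of `red_main`. -/
theorem lower_hLB_of_form (p : ℕ) [Fact p.Prime] (f : CuspForm (Gamma0 p) 2)
    (hf : ∀ k : ℕ, 1 ≤ k → ∃ j : ℤ,
      ModularFormClass.qCoeff (⇑f) k
        = (sigmaP p k : ℂ) + (ModularCurve.eisensteinNumerator p : ℂ) * (j : ℂ)) :
    ∀ P : HeckeAlg, heckeEvalForms p 2 P = 0 →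
      (eisensteinNumerator p : ℤ) ∣ MvPolynomial.aeval (eisensteinSystem p) P := by
  intro P hP
  have h := red_dvd_of_form p (eisensteinNumerator p) f (fun i hi => by
    obtain ⟨j, hj⟩ := hf i hi
    refine ⟨j, ?_⟩
    rw [hj, ← lower_sigmaP_eq_redSigma p i hi]
    push_cast
    ring) P ((red_psi_eq_zero_iff p P).mpr hP)
  exact h

end Fermat.Agent.S16
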