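import Mathlib
import Fermat.Agent.S16.BiExp
import Fermat.Agent.S16.NormOrder

/-!
# Norm to level one for `BiNice` functions

Wrappers of `nl1_exists`, `nl1_mod`, `nl1_order_contra` in the language of `BiExp.lean`
(`BiNice p k F`, companion `biExpComp p k F`).
-/

set_option autoImplicit false

open UpperHalfPlane ModularForm Filter
open scoped MatrixGroups Manifold

namespace Fermat.Agent.S16

theorem nl1_exists_biNice (p : ℕ) [Fact p.Prime] (k : ℤ) (F : ℍ → ℂ) (hF : BiNice p k F) :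
    ∃ N : ModularForm 𝒮ℒ (k * (p + 1)),
      (∀ z, N z = F z *
        ∏ j ∈ Finset.range p, (F ∣[k] (ModularGroup.S * ModularGroup.T ^ j)) z) ∧
      qExpansion 1 N = qExpansion 1 F * psNorm p (qExpansion 1 (biExpComp p k F)) :=
  have hp : p ≠ 0 := (Fact.out : p.Prime).ne_zero
  nl1_exists p k F (biExpComp p k F) hF.holo hF.inv hF.bdd (hF.comp hp).bdd
    (fun t t' h => biExpComp_spec hp k F t t' h)

theorem nl1_mod_biNice (p : ℕ) [Fact p.Prime] (hp : p ≠ 0) (k : ℤ) (F : ℍ → ℂ)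
    (hF : BiNice p k F)
    (O : Subring ℂ) (ζ : ℂ) (hζ : IsPrimitiveRoot ζ p) (hζO : ζ ∈ O)
    (J : AddSubgroup ℂ) (hJ : ∀ a ∈ O, ∀ x ∈ J, a * x ∈ J)
    (a0 b0 : PowerSeries ℂ) (ha : PsIn O (qExpansion 1 F))
    (hb : PsIn O (qExpansion 1 (biExpComp p k F)))
    (hb0 : PsIn O b0) (h1 : PsCong J (qExpansion 1 F) a0)
    (h2 : PsCong J (qExpansion 1 (biExpComp p k F)) (PowerSeries.expand p hp b0)) :
    ∃ N : ModularForm 𝒮ℒ (k * (p + 1)),
      (∀ z, N z = F z *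
        ∏ j ∈ Finset.range p, (F ∣[k] (ModularGroup.S * ModularGroup.T ^ j)) z) ∧
      PsIn O (qExpansion 1 N) ∧ PsCong J (qExpansion 1 N) (a0 * b0 ^ p) :=
  nl1_mod p hp k F (biExpComp p k F) hF.holo hF.inv hF.bdd (hF.comp hp).bdd
    (fun t t' h => biExpComp_spec hp k F t t' h) O ζ hζ hζO J hJ a0 b0 ha hb hb0 h1 h2

/-- **Order-count contradiction for `BiNice` functions of weight `< 12`.** -/
theorem nl1_order_contra_biNice (p : ℕ) [Fact p.Prime] (hp : p ≠ 0) (k : ℤ) (hk : k < 12)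
    (F : ℍ → ℂ) (hF : BiNice p k F)
    (O : Subring ℂ) (ζ : ℂ) (hζ : IsPrimitiveRoot ζ p) (hζO : ζ ∈ O)
    (J : AddSubgroup ℂ) (hJ : ∀ a ∈ O, ∀ x ∈ J, a * x ∈ J)
    (a0 b0 : PowerSeries ℂ) (ha : PsIn O (qExpansion 1 F))
    (hb : PsIn O (qExpansion 1 (biExpComp p k F)))
    (hb0 : PsIn O b0) (h1 : PsCong J (qExpansion 1 F) a0)
    (h2 : PsCong J (qExpansion 1 (biExpComp p k F)) (PowerSeries.expand p hp b0))
    (ha00 : PowerSeries.constantCoeff a0 = 0) (hb00 : PowerSeries.constantCoeff b0 = 0) :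
    PowerSeries.coeff 1 a0 * PowerSeries.coeff 1 b0 ^ p ∈ J :=
  nl1_order_contra p hp k hk F (biExpComp p k F) hF.holo hF.inv hF.bdd (hF.comp hp).bdd
    (fun t t' h => biExpComp_spec hp k F t t' h) O ζ hζ hζO J hJ a0 b0 ha hb hb0 h1 h2 ha00 hb00

end Fermat.Agent.S16
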