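import Mathlib

/-!
# S16, package POISSON (core): one-variable Gaussian Poisson summation with a shift, and
summability of Gaussian sums over `ℤⁿ`

* `poi_one_dim` : `∑_t exp(-π s (u t + ρ)² + 2π β t)
    = |v| / s^(1/2) * ∑_m exp(-(π/s) (v (m + iβ))² + 2π i v (m + iβ) ρ)` for `u v = 1`;
* `poi_summable_gauss`, `poi_summable_x`, `poi_summable_m` : summability of Gaussian sums over
  `ℤⁿ` for a matrix with a left inverse.
-/

set_option autoImplicit false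

open Complex Real Matrix

namespace Fermat.Agent.S16

/-- one-variable real Gaussian sums converge. -/
theorem poi_summable_one (c : ℝ) (hc : 0 < c) (l : ℝ) :
    Summable fun t : ℤ => Real.exp (-π * c * (t : ℝ) ^ 2 + 2 * π * l * t) := by
  have h := ((summable_jacobiTheta₂_term_iff (-(l : ℂ) * I) (c * I)).mpr (by simpa using hc)).norm
  refine h.congr fun t => ?_
  rw [norm_jacobiTheta₂_term]
  congr 1
  simp
  ring

/-- norm of a one-variable complex Gaussian term. -/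
theorem poi_norm_one (a b : ℂ) (t : ℤ) :
    ‖cexp (-π * a * (t : ℂ) ^ 2 + 2 * π * b * t)‖
      = Real.exp (-π * a.re * (t : ℝ) ^ 2 + 2 * π * b.re * t) := by
  rw [Complex.norm_exp]
  congr 1
  have h1 : (-(π : ℂ) * a * (t : ℂ) ^ 2 + 2 * π * b * t)
      = ((-π * (t : ℝ) ^ 2 : ℝ) : ℂ) * a + ((2 * π * (t : ℝ) : ℝ) : ℂ) * b := by
    push_cast; ring
  rw [h1, Complex.add_re, Complex.re_ofReal_mul, Complex.re_ofReal_mul]
  ring

/-- one-variable complex Gaussian sums converge. -/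
theorem poi_summable_one_c (a b : ℂ) (ha : 0 < a.re) :
    Summable fun t : ℤ => cexp (-π * a * (t : ℂ) ^ 2 + 2 * π * b * t) := by
  apply Summable.of_norm
  refine (poi_summable_one a.re ha b.re).congr fun t => ?_
  rw [poi_norm_one]

theorem poi_cpow_half (s : ℂ) (hs : s ≠ 0) (u : ℝ) (hu : u ≠ 0) :
    (s * ((u : ℂ) ^ 2)) ^ (1 / 2 : ℂ) = s ^ (1 / 2 : ℂ) * (|u| : ℝ) := by
  have hu2 : 0 < u ^ 2 := by positivity
  have h1 : s * ((u : ℂ) ^ 2) = ((u ^ 2 : ℝ) : ℂ) * s := by push_cast; ring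
  have hne : ((u ^ 2 : ℝ) : ℂ) * s ≠ 0 := mul_ne_zero (by exact_mod_cast hu2.ne') hs
  rw [h1, Complex.cpow_def_of_ne_zero hne, Complex.log_ofReal_mul hu2 hs, add_mul, Complex.exp_add,
    Complex.cpow_def_of_ne_zero hs, mul_comm]
  congr 1
  have h2 : (|u| : ℝ) = Real.exp (Real.log (u ^ 2) * (1 / 2)) := by
    rw [Real.log_pow, Nat.cast_ofNat, ← Real.log_abs, mul_one_div, mul_div_cancel_left₀ _ two_ne_zero,
      Real.exp_log (abs_pos.mpr hu)]
  rw [h2]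
  push_cast
  ring_nf

theorem poi_one_dim (s : ℂ) (hs : 0 < s.re) (u v : ℝ) (huv : u * v = 1) (β ρ : ℂ) :
    ∑' t : ℤ, cexp (-π * s * ((u : ℂ) * t + ρ) ^ 2 + 2 * π * β * t)
      = ((|v| : ℝ) : ℂ) / s ^ (1 / 2 : ℂ) *
        ∑' m : ℤ, cexp (-(π / s) * ((v : ℂ) * (m + I * β)) ^ 2
          + 2 * π * I * v * (m + I * β) * ρ) := by
  have hu : u ≠ 0 := left_ne_zero_of_mul_eq_one huv
  have hv : v ≠ 0 := right_ne_zero_of_mul_eq_one huv
  have hs0 : s ≠ 0 := by rintro rfl; simp at hs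
  have huc : (u : ℂ) ≠ 0 := by exact_mod_cast hu
  have ha : 0 < (s * (u : ℂ) ^ 2).re := by
    have : s * (u : ℂ) ^ 2 = ((u ^ 2 : ℝ) : ℂ) * s := by push_cast; ring
    rw [this, Complex.re_ofReal_mul]; positivity
  have h1 : ∀ t : ℤ, cexp (-π * s * ((u : ℂ) * t + ρ) ^ 2 + 2 * π * β * t)
      = cexp (-π * (s * (u : ℂ) ^ 2) * (t : ℂ) ^ 2 + 2 * π * (β - s * u * ρ) * t)
        * cexp (-π * s * ρ ^ 2) := by
    intro t; rw [← Complex.exp_add]; congr 1; ring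
  simp_rw [h1]
  rw [tsum_mul_right, Complex.tsum_exp_neg_quadratic ha, poi_cpow_half s hs0 u hu]
  rw [mul_assoc, ← tsum_mul_right]
  have hv' : (v : ℂ) = 1 / (u : ℂ) := by
    rw [eq_div_iff huc]; exact_mod_cast (mul_comm v u).trans huv
  congr 1
  · have : (|v| : ℝ) = 1 / |u| := by
      rw [eq_div_iff (abs_ne_zero.mpr hu), ← abs_mul, mul_comm, huv, abs_one]
    rw [this]; push_cast; field_simp
  · refine tsum_congr fun m => ?_
    rw [← Complex.exp_add]; congr 1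
    rw [hv']
    have hI : I ^ 2 = -1 := I_sq
    field_simp
    linear_combination (-(s ^ 2 * (u : ℂ) ^ 2 * ρ ^ 2)) * hI

/-- the `cons` equivalence `ℤ × ℤⁿ ≃ ℤⁿ⁺¹`. -/
def poiCons (n : ℕ) : ℤ × (Fin n → ℤ) ≃ (Fin (n + 1) → ℤ) := Fin.consEquiv (fun _ => ℤ)

theorem poiCons_apply (n : ℕ) (p : ℤ × (Fin n → ℤ)) : poiCons n p = Fin.cons p.1 p.2 := rfl

/-- finite products of summable nonnegative families are summable on `ℤⁿ`. -/
theorem poi_summable_prod (n : ℕ) (g : Fin n → ℤ → ℝ) (hg : ∀ i, Summable (g i))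
    (hg0 : ∀ i x, 0 ≤ g i x) : Summable fun x : Fin n → ℤ => ∏ i, g i (x i) := by
  induction n with
  | zero => exact Summable.of_finite
  | succ n ih =>
    rw [← (poiCons n).summable_iff]
    have hA : Summable (g 0) := hg 0
    have hB : Summable fun x : Fin n → ℤ => ∏ i : Fin n, g i.succ (x i) :=
      ih (fun i => g i.succ) (fun i => hg i.succ) (fun i x => hg0 i.succ x)
    have hA0 : (0 : ℤ → ℝ) ≤ g 0 := fun x => hg0 0 x
    have hB0 : (0 : (Fin n → ℤ) → ℝ) ≤ fun x : Fin n → ℤ => ∏ i : Fin n, g i.succ (x i) :=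
      fun x => Finset.prod_nonneg fun i _ => hg0 i.succ (x i)
    have h1 := Summable.mul_of_nonneg hA hB hA0 hB0
    refine h1.congr fun p => ?_
    simp only [Function.comp_apply, poiCons_apply, Fin.prod_univ_succ, Fin.cons_zero,
      Fin.cons_succ]

/-- Gaussian sums over `ℤⁿ` converge, for any matrix with a left inverse. -/
theorem poi_summable_gauss (n : ℕ) (M N : Matrix (Fin n) (Fin n) ℝ) (hNM : N * M = 1)
    (c : ℝ) (hc : 0 < c) (l : Fin n → ℝ) :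
    Summable fun x : Fin n → ℤ =>
      Real.exp (-π * c * ∑ i, (∑ j, M i j * (x j : ℝ)) ^ 2 + 2 * π * ∑ i, l i * (x i : ℝ)) := by
  set K : ℝ := ∑ k, ∑ i, N k i ^ 2 + 1 with hK
  have hKpos : 0 < K := by
    have : 0 ≤ ∑ k, ∑ i, N k i ^ 2 :=
      Finset.sum_nonneg fun k _ => Finset.sum_nonneg fun i _ => sq_nonneg _
    linarith
  -- the key inequality
  have hkey : ∀ x : Fin n → ℤ,
      ∑ k, (x k : ℝ) ^ 2 ≤ K * ∑ i, (∑ j, M i j * (x j : ℝ)) ^ 2 := by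
    intro x
    set y : Fin n → ℝ := fun i => ∑ j, M i j * (x j : ℝ) with hy
    have hS : 0 ≤ ∑ i, y i ^ 2 := Finset.sum_nonneg fun i _ => sq_nonneg _
    have hx : ∀ k, (x k : ℝ) = ∑ i, N k i * y i := by
      intro k
      have h := congrFun (congrArg (fun A : Matrix (Fin n) (Fin n) ℝ => A.mulVec (fun j => (x j : ℝ)))
        hNM) k
      simp only [Matrix.one_mulVec] at h
      rw [← h, ← Matrix.mulVec_mulVec]
      rfl
    have h1 : ∀ k, (x k : ℝ) ^ 2 ≤ (∑ i, N k i ^ 2) * ∑ i, y i ^ 2 := by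
      intro k
      rw [hx k]
      exact Finset.sum_mul_sq_le_sq_mul_sq _ _ _
    calc ∑ k, (x k : ℝ) ^ 2 ≤ ∑ k, (∑ i, N k i ^ 2) * ∑ i, y i ^ 2 :=
          Finset.sum_le_sum fun k _ => h1 k
      _ = (∑ k, ∑ i, N k i ^ 2) * ∑ i, y i ^ 2 := by rw [Finset.sum_mul]
      _ ≤ K * ∑ i, y i ^ 2 := by
          apply mul_le_mul_of_nonneg_right _ hS
          rw [hK]; linarith
  have hsum := poi_summable_prod n
    (fun i t => Real.exp (-π * (c / K) * (t : ℝ) ^ 2 + 2 * π * l i * t))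
    (fun i => poi_summable_one (c / K) (div_pos hc hKpos) (l i)) (fun i t => (Real.exp_pos _).le)
  refine Summable.of_nonneg_of_le (fun x => (Real.exp_pos _).le) (fun x => ?_) hsum
  rw [← Real.exp_sum]
  apply Real.exp_le_exp.mpr
  rw [Finset.sum_add_distrib, ← Finset.mul_sum]
  have h2 := hkey x
  have h3 : -π * c * ∑ i, (∑ j, M i j * (x j : ℝ)) ^ 2 ≤ -π * (c / K) * ∑ k, (x k : ℝ) ^ 2 := by
    have h4 : (∑ k, (x k : ℝ) ^ 2) / K ≤ ∑ i, (∑ j, M i j * (x j : ℝ)) ^ 2 := by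
      rw [div_le_iff₀ hKpos]; linarith
    have h5 : -π * (c / K) * ∑ k, (x k : ℝ) ^ 2 = -(π * c) * ((∑ k, (x k : ℝ) ^ 2) / K) := by
      field_simp
    rw [h5]
    have hpc : 0 < π * c := mul_pos Real.pi_pos hc
    nlinarith
  have h6 : (2 * π * ∑ i, l i * (x i : ℝ)) = ∑ i, 2 * π * l i * (x i : ℝ) := by
    rw [Finset.mul_sum]; exact Finset.sum_congr rfl fun i _ => by ring
  rw [h6]
  linarith

/-- norm of an `n`-variable Gaussian term. -/
theorem poi_norm_term (n : ℕ) (M : Matrix (Fin n) (Fin n) ℝ) (s : ℂ) (b : Fin n → ℂ)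
    (x : Fin n → ℤ) :
    ‖cexp (-π * s * ∑ i, (∑ j, (M i j : ℂ) * (x j : ℂ)) ^ 2 + 2 * π * ∑ i, b i * (x i : ℂ))‖
      = Real.exp (-π * s.re * ∑ i, (∑ j, M i j * (x j : ℝ)) ^ 2
          + 2 * π * ∑ i, (b i).re * (x i : ℝ)) := by
  rw [Complex.norm_exp]
  congr 1
  have e1 : ((-π * ∑ i, (∑ j, M i j * (x j : ℝ)) ^ 2 : ℝ) : ℂ)
      = -(π : ℂ) * ∑ i, (∑ j, (M i j : ℂ) * (x j : ℂ)) ^ 2 := by
    push_cast; ring
  have e2 : ∑ i, ((2 * π * (x i : ℝ) : ℝ) : ℂ) * b i = 2 * π * ∑ i, b i * (x i : ℂ) := by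
    rw [Finset.mul_sum]
    exact Finset.sum_congr rfl fun i _ => by push_cast; ring
  have h1 : (-(π : ℂ) * s * ∑ i, (∑ j, (M i j : ℂ) * (x j : ℂ)) ^ 2
        + 2 * π * ∑ i, b i * (x i : ℂ))
      = ((-π * ∑ i, (∑ j, M i j * (x j : ℝ)) ^ 2 : ℝ) : ℂ) * s
        + ∑ i, ((2 * π * (x i : ℝ) : ℝ) : ℂ) * b i := by
    rw [e1, e2]; ring
  have e3 : ∑ i, (2 * π * (x i : ℝ)) * (b i).re = 2 * π * ∑ i, (b i).re * (x i : ℝ) := by
    rw [Finset.mul_sum]
    exact Finset.sum_congr rfl fun i _ => by ring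
  rw [h1, Complex.add_re, Complex.re_ofReal_mul, Complex.re_sum]
  simp only [Complex.re_ofReal_mul]
  rw [e3]
  ring

/-- the `x`-side sums converge. -/
theorem poi_summable_x (n : ℕ) (M N : Matrix (Fin n) (Fin n) ℝ) (hNM : N * M = 1)
    (s : ℂ) (hs : 0 < s.re) (b : Fin n → ℂ) :
    Summable fun x : Fin n → ℤ =>
      cexp (-π * s * ∑ i, (∑ j, (M i j : ℂ) * (x j : ℂ)) ^ 2 + 2 * π * ∑ i, b i * (x i : ℂ)) := by
  apply Summable.of_norm
  refine (poi_summable_gauss n M N hNM s.re hs (fun i => (b i).re)).congr fun x => ?_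
  rw [poi_norm_term]

/-- rewriting the `m`-side term as an `x`-side term. -/
theorem poi_m_term (n : ℕ) (M : Matrix (Fin n) (Fin n) ℝ) (s : ℂ) (hs : s ≠ 0) (b : Fin n → ℂ)
    (m : Fin n → ℤ) :
    cexp (-(π / s) * ∑ i, (∑ j, (M i j : ℂ) * ((m j : ℂ) + I * b j)) ^ 2)
      = cexp ((π / s) * ∑ i, (∑ j, (M i j : ℂ) * b j) ^ 2) *
        cexp (-π * (1 / s) * ∑ i, (∑ j, (M i j : ℂ) * (m j : ℂ)) ^ 2
          + 2 * π * ∑ j, (∑ i, (-(I / s) * ∑ k, (M i k : ℂ) * b k) * (M i j : ℂ)) * (m j : ℂ)) := by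
  rw [← Complex.exp_add]
  congr 1
  have h1 : ∀ i, (∑ j, (M i j : ℂ) * ((m j : ℂ) + I * b j))
      = (∑ j, (M i j : ℂ) * (m j : ℂ)) + I * ∑ j, (M i j : ℂ) * b j := by
    intro i
    rw [Finset.mul_sum, ← Finset.sum_add_distrib]
    exact Finset.sum_congr rfl fun j _ => by ring
  have h2 : (∑ j, (∑ i, (-(I / s) * ∑ k, (M i k : ℂ) * b k) * (M i j : ℂ)) * (m j : ℂ))
      = ∑ i, (-(I / s) * ∑ k, (M i k : ℂ) * b k) * ∑ j, (M i j : ℂ) * (m j : ℂ) := by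
    simp_rw [Finset.sum_mul, Finset.mul_sum]
    rw [Finset.sum_comm]
    exact Finset.sum_congr rfl fun i _ => Finset.sum_congr rfl fun j _ => by ring
  rw [h2]
  simp_rw [h1]
  rw [Finset.mul_sum, Finset.mul_sum, Finset.mul_sum, Finset.mul_sum, ← Finset.sum_add_distrib,
    ← Finset.sum_add_distrib]
  refine Finset.sum_congr rfl fun i _ => ?_
  have hI : I ^ 2 = -1 := I_sq
  field_simp
  linear_combination (-(∑ j, (M i j : ℂ) * b j) ^ 2) * hI

/-- the `m`-side sums converge. -/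
theorem poi_summable_m (n : ℕ) (M N : Matrix (Fin n) (Fin n) ℝ) (hNM : N * M = 1)
    (s : ℂ) (hs : 0 < s.re) (b : Fin n → ℂ) :
    Summable fun m : Fin n → ℤ =>
      cexp (-(π / s) * ∑ i, (∑ j, (M i j : ℂ) * ((m j : ℂ) + I * b j)) ^ 2) := by
  have hs0 : s ≠ 0 := by rintro rfl; simp at hs
  have hs' : 0 < (1 / s).re := by
    rw [one_div, Complex.inv_re]
    exact div_pos hs (Complex.normSq_pos.mpr hs0)
  have h := (poi_summable_x n M N hNM (1 / s) hs'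
    (fun j => ∑ i, (-(I / s) * ∑ k, (M i k : ℂ) * b k) * (M i j : ℂ))).mul_left
    (cexp ((π / s) * ∑ i, (∑ j, (M i j : ℂ) * b j) ^ 2))
  refine h.congr fun m => ?_
  rw [poi_m_term n M s hs0 b m]

end Fermat.Agent.S16
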