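import Mathlib

namespace Fermat.Agent.S16

open Matrix

/-- The entries of the `LDL` diagonal of a real positive definite matrix are positive. -/
theorem poiTri_diag_pos (n : ℕ) (A : Matrix (Fin n) (Fin n) ℝ) (hA : A.PosDef) (i : Fin n) :
    0 < LDL.diagEntries hA i := by
  have hinv : Function.Injective (LDL.lowerInv hA).vecMul := by
    have hu : IsUnit (LDL.lowerInv hA) := isUnit_of_invertible _
    exact Matrix.vecMul_injective_of_isUnit hu
  have hpd : (LDL.lowerInv hA * A * (LDL.lowerInv hA)ᴴ).PosDef :=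
    hA.mul_mul_conjTranspose_same hinv
  rw [← LDL.diag_eq_lowerInv_conj] at hpd
  have := hpd.diag_pos (i := i)
  simpa [LDL.diag] using this

theorem poi_exists_tri (n : ℕ) (A : Matrix (Fin n) (Fin n) ℝ) (hA : A.PosDef) :
    ∃ U V : Matrix (Fin n) (Fin n) ℝ, (∀ i j, i < j → V i j = 0) ∧ U * Vᵀ = 1 ∧
      Uᵀ * U = A ∧ Vᵀ * V = A⁻¹ ∧ (∏ i, |V i i|) * Real.sqrt A.det = 1 := by
  classical
  set Li := LDL.lowerInv hA with hLi
  set d := LDL.diagEntries hA with hd
  have hdpos : ∀ i, 0 < d i := poiTri_diag_pos n A hA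
  have hD : Matrix.diagonal d = Li * A * Liᵀ := by
    have := LDL.diag_eq_lowerInv_conj hA
    simpa [LDL.diag, conjTranspose_eq_transpose_of_trivial] using this
  set s : Fin n → ℝ := fun i => (Real.sqrt (d i))⁻¹ with hs
  have hs2 : ∀ i, s i * d i * s i = 1 := by
    intro i
    have h1 : Real.sqrt (d i) ≠ 0 := (Real.sqrt_pos.mpr (hdpos i)).ne'
    have h2 : Real.sqrt (d i) * Real.sqrt (d i) = d i := Real.mul_self_sqrt (hdpos i).le
    simp only [hs]
    field_simp
    nlinarith [h2]
  set V : Matrix (Fin n) (Fin n) ℝ := Matrix.diagonal s * Li with hV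
  have hVapp : ∀ i j, V i j = s i * Li i j := by
    intro i j
    simp [hV, Matrix.diagonal_mul]
  have hVAVt : V * A * Vᵀ = 1 := by
    have : V * A * Vᵀ = Matrix.diagonal s * (Li * A * Liᵀ) * Matrix.diagonal s := by
      simp only [hV, Matrix.transpose_mul, Matrix.diagonal_transpose, Matrix.mul_assoc]
    rw [this, ← hD, Matrix.diagonal_mul_diagonal, Matrix.diagonal_mul_diagonal]
    rw [← Matrix.diagonal_one]
    congr 1
    funext i
    exact hs2 i
  have hAsymm : Aᵀ = A := by
    have := hA.isHermitian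
    simpa [Matrix.IsHermitian, conjTranspose_eq_transpose_of_trivial] using this
  refine ⟨V * A, V, ?_, hVAVt, ?_, ?_, ?_⟩
  · intro i j hij
    rw [hVapp, hLi, LDL.lowerInv_triangular hA hij, mul_zero]
  · -- Uᵀ * U = A
    have h1 : Vᵀ * (V * A) = 1 := by
      have : (V * A) * Vᵀ = 1 := hVAVt
      exact mul_eq_one_comm.mp this
    calc (V * A)ᵀ * (V * A) = Aᵀ * (Vᵀ * (V * A)) := by
            rw [Matrix.transpose_mul, Matrix.mul_assoc]
      _ = A := by rw [h1, Matrix.mul_one, hAsymm]
  · have h1 : Vᵀ * (V * A) = 1 := by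
      have : (V * A) * Vᵀ = 1 := hVAVt
      exact mul_eq_one_comm.mp this
    have h2 : (Vᵀ * V) * A = 1 := by rw [Matrix.mul_assoc]; exact h1
    exact (Matrix.inv_eq_left_inv h2).symm
  · have hdet : V.det * A.det * V.det = 1 := by
      have := congrArg Matrix.det hVAVt
      simpa [Matrix.det_mul, Matrix.det_transpose] using this
    have hVtri : V.IsLowerTriangular := by
      intro i j hij
      have hij' : i < j := OrderDual.toDual_lt_toDual.mp hij
      rw [hVapp, hLi, LDL.lowerInv_triangular hA hij', mul_zero]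
    have hVdet : V.det = ∏ i, V i i := Matrix.det_of_isLowerTriangular V hVtri
    have hApos : 0 < A.det := hA.det_pos
    have habs : (∏ i, |V i i|) = |V.det| := by
      rw [hVdet, Finset.abs_prod]
    rw [habs]
    have hsq : (|V.det| * Real.sqrt A.det) ^ 2 = 1 := by
      rw [mul_pow, sq_abs, Real.sq_sqrt hApos.le]
      nlinarith [hdet]
    have hnn : 0 ≤ |V.det| * Real.sqrt A.det :=
      mul_nonneg (abs_nonneg _) (Real.sqrt_nonneg _)
    nlinarith [hsq, hnn, sq_nonneg (|V.det| * Real.sqrt A.det - 1)]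

end Fermat.Agent.S16
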