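import Mathlib
import Fermat.Agent.S16.PoissonCore
import Fermat.Agent.S16.PoissonTri

/-!
# S16, package POISSON: Gaussian Poisson summation in `n` variables with a linear term

`poisson_gauss` : for a real positive definite `A`, `0 < s.re` and `b ∈ ℂⁿ`,
`∑_x exp(-π s xᵀAx + 2π b·x) = (s^(1/2))^(-n) (det A)^(-1/2) ∑_m exp(-(π/s) (m+ib)ᵀA⁻¹(m+ib))`.

Proof: induction on `n` in triangular coordinates (`poi_tri`): for `V` lower triangular and
`U * Vᵀ = 1`, peel off the variable `x₀` with the one-variable formula `poi_one_dim`; the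
remaining quadratic form is the truncation and only the linear term changes.  The passage from
`A` to `(U, V)` is `poi_exists_tri` (LDL decomposition, file `PoissonTri.lean`).
-/

set_option autoImplicit false

open Complex Real Matrix

namespace Fermat.Agent.S16

theorem poi_summable_phi (s : ℂ) (hs : 0 < s.re) (v : ℝ) (hv : v ≠ 0) (β : ℂ) :
    Summable fun m : ℤ => cexp (-(π / s) * ((v : ℂ) * (m + I * β)) ^ 2) := by
  have hs0 : s ≠ 0 := by rintro rfl; simp at hs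
  have ha : 0 < ((v : ℂ) ^ 2 / s).re := by
    have : (v : ℂ) ^ 2 / s = ((v ^ 2 : ℝ) : ℂ) * s⁻¹ := by push_cast; ring
    rw [this, Complex.re_ofReal_mul, Complex.inv_re]
    exact mul_pos (by positivity) (div_pos hs (Complex.normSq_pos.mpr hs0))
  have h := (poi_summable_one_c ((v : ℂ) ^ 2 / s) (-(I * (v : ℂ) ^ 2 * β / s)) ha).mul_left
    (cexp (π * (v : ℂ) ^ 2 * β ^ 2 / s))
  refine h.congr fun m => ?_
  rw [← Complex.exp_add]; congr 1
  have hI : I ^ 2 = -1 := I_sq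
  field_simp
  linear_combination ((v : ℂ) ^ 2 * β ^ 2) * hI

/-- entries of `U * Vᵀ = 1`. -/
theorem poi_entries {n : ℕ} {U V : Matrix (Fin n) (Fin n) ℝ} (hUV : U * Vᵀ = 1) (i k : Fin n) :
    ∑ j, U i j * V k j = if i = k then 1 else 0 := by
  have := congrFun (congrFun hUV i) k
  simpa [Matrix.mul_apply, Matrix.transpose_apply, Matrix.one_apply] using this

theorem poi_step_facts {n : ℕ} {U V : Matrix (Fin (n + 1)) (Fin (n + 1)) ℝ}
    (hV : ∀ i j, i < j → V i j = 0) (hUV : U * Vᵀ = 1) :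
    U 0 0 * V 0 0 = 1 ∧ (∀ i : Fin n, U i.succ 0 = 0) ∧
    (∀ i : Fin n, V i.succ 0 = -V 0 0 * ∑ j : Fin n, V i.succ j.succ * U 0 j.succ) ∧
    ((Matrix.of fun i j : Fin n => U i.succ j.succ) * (Matrix.of fun i j : Fin n => V i.succ j.succ)ᵀ
      = 1) := by
  have key := poi_entries hUV
  have hV0 : ∀ j : Fin n, V 0 j.succ = 0 := fun j => hV 0 j.succ (Fin.succ_pos j)
  have h00 : U 0 0 * V 0 0 = 1 := by
    have := key 0 0
    rw [Fin.sum_univ_succ] at this
    simpa [hV0] using this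
  have hv0 : V 0 0 ≠ 0 := right_ne_zero_of_mul_eq_one h00
  have hU0 : ∀ i : Fin n, U i.succ 0 = 0 := by
    intro i
    have := key i.succ 0
    rw [Fin.sum_univ_succ] at this
    simp only [hV0, mul_zero, Finset.sum_const_zero, add_zero, Fin.succ_ne_zero, if_false] at this
    exact (mul_eq_zero.mp this).resolve_right hv0
  refine ⟨h00, hU0, ?_, ?_⟩
  · intro i
    have := key 0 i.succ
    rw [Fin.sum_univ_succ] at this
    have hne : (0 : Fin (n + 1)) ≠ i.succ := (Fin.succ_ne_zero i).symm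
    simp only [hne, if_false] at this
    have h2 : ∑ j : Fin n, V i.succ j.succ * U 0 j.succ = ∑ j : Fin n, U 0 j.succ * V i.succ j.succ :=
      Finset.sum_congr rfl fun j _ => mul_comm _ _
    rw [h2]
    have h3 : V i.succ 0 = V 0 0 * (U 0 0 * V i.succ 0) := by
      rw [← mul_assoc, mul_comm (V 0 0), h00, one_mul]
    rw [h3]
    linear_combination V 0 0 * this
  · ext i k
    have := key i.succ k.succ
    rw [Fin.sum_univ_succ, hU0 i, zero_mul, zero_add] at this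
    simp only [Matrix.mul_apply, Matrix.transpose_apply, Matrix.of_apply, Matrix.one_apply,
      Fin.succ_inj] at this ⊢
    exact this


/-- Gaussian Poisson summation in triangular coordinates. -/
theorem poi_tri (n : ℕ) : ∀ (U V : Matrix (Fin n) (Fin n) ℝ), (∀ i j, i < j → V i j = 0) →
    U * Vᵀ = 1 → ∀ (s : ℂ), 0 < s.re → ∀ (b : Fin n → ℂ),
    ∑' x : Fin n → ℤ, cexp (-π * s * ∑ i, (∑ j, (U i j : ℂ) * (x j : ℂ)) ^ 2
        + 2 * π * ∑ i, b i * (x i : ℂ))
      = ((∏ i, |V i i| : ℝ) : ℂ) / (s ^ (1 / 2 : ℂ)) ^ n *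
        ∑' m : Fin n → ℤ,
          cexp (-(π / s) * ∑ i, (∑ j, (V i j : ℂ) * ((m j : ℂ) + I * b j)) ^ 2) := by
  induction n with
  | zero =>
    intro U V hV hUV s hs b
    simp
  | succ n ih =>
    intro U V hV hUV s hs b
    obtain ⟨h00, hU0, hVi0, hUV'⟩ := poi_step_facts hV hUV
    have hV0 : ∀ j : Fin n, V 0 j.succ = 0 := fun j => hV 0 j.succ (Fin.succ_pos j)
    have hs0 : s ≠ 0 := by rintro rfl; simp at hs
    have hv0 : V 0 0 ≠ 0 := right_ne_zero_of_mul_eq_one h00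
    set U' : Matrix (Fin n) (Fin n) ℝ := Matrix.of fun i j => U i.succ j.succ with hU'
    set V' : Matrix (Fin n) (Fin n) ℝ := Matrix.of fun i j => V i.succ j.succ with hV'def
    have hV' : ∀ i j : Fin n, i < j → V' i j = 0 :=
      fun i j h => hV _ _ (Fin.succ_lt_succ_iff.mpr h)
    have hVU : Vᵀ * U = 1 := mul_eq_one_comm.mp hUV
    have hUV2 : Uᵀ * V = 1 := by
      have := congrArg Matrix.transpose hVU
      simpa [Matrix.transpose_mul] using this
    have hVU' : V'ᵀ * U' = 1 := mul_eq_one_comm.mp hUV'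
    -- notation
    set f : (Fin (n + 1) → ℤ) → ℂ := fun x =>
      cexp (-π * s * ∑ i, (∑ j, (U i j : ℂ) * (x j : ℂ)) ^ 2 + 2 * π * ∑ i, b i * (x i : ℂ))
      with hf
    set g : (Fin (n + 1) → ℤ) → ℂ := fun m =>
      cexp (-(π / s) * ∑ i, (∑ j, (V i j : ℂ) * ((m j : ℂ) + I * b j)) ^ 2) with hg
    set ρ : (Fin n → ℤ) → ℂ := fun x' => ∑ j, (U 0 j.succ : ℂ) * (x' j : ℂ) with hρ
    set E : (Fin n → ℂ) → (Fin n → ℤ) → ℂ := fun c x' =>
      cexp (-π * s * ∑ i, (∑ j, (U' i j : ℂ) * (x' j : ℂ)) ^ 2 + 2 * π * ∑ i, c i * (x' i : ℂ))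
      with hE
    set μ : ℤ → ℂ := fun m => (m : ℂ) + I * b 0 with hμ
    set bb : ℤ → Fin n → ℂ := fun m i => b i.succ + I * (V 0 0 : ℂ) * μ m * (U 0 i.succ : ℂ)
      with hbb
    set F : ℤ → (Fin n → ℤ) → ℂ := fun m x' => ((|V 0 0| : ℝ) : ℂ) / s ^ (1 / 2 : ℂ) *
      (cexp (-(π / s) * ((V 0 0 : ℂ) * μ m) ^ 2) * E (bb m) x') with hF
    -- (1) `f` on `cons`
    have hf_cons : ∀ (t : ℤ) (x' : Fin n → ℤ), f (Fin.cons t x')
        = cexp (-π * s * ((U 0 0 : ℂ) * t + ρ x') ^ 2 + 2 * π * b 0 * t)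
          * E (fun i => b i.succ) x' := by
      intro t x'
      simp only [hf, hE, hρ]
      rw [← Complex.exp_add]; congr 1
      simp only [Fin.sum_univ_succ, Fin.cons_zero, Fin.cons_succ, hU0, Complex.ofReal_zero,
        zero_mul, zero_add, hU', Matrix.of_apply]
      ring
    -- (2) the one-variable step
    have h1d : ∀ x' : Fin n → ℤ, ∑' t : ℤ, f (Fin.cons t x') = ∑' m : ℤ, F m x' := by
      intro x'
      simp_rw [hf_cons]
      rw [tsum_mul_right, poi_one_dim s hs (U 0 0) (V 0 0) h00 (b 0) (ρ x'), mul_assoc,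
        ← tsum_mul_right, ← tsum_mul_left]
      refine tsum_congr fun m => ?_
      simp only [hF]
      congr 1
      simp only [hE, hbb, hμ, hρ]
      rw [← Complex.exp_add, ← Complex.exp_add]; congr 1
      have : ∑ i, (b i.succ + I * (V 0 0 : ℂ) * ((m : ℂ) + I * b 0) * (U 0 i.succ : ℂ))
            * (x' i : ℂ)
          = ∑ i, b i.succ * (x' i : ℂ)
            + I * (V 0 0 : ℂ) * ((m : ℂ) + I * b 0) * ∑ j, (U 0 j.succ : ℂ) * (x' j : ℂ) := by
        rw [Finset.mul_sum, ← Finset.sum_add_distrib]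
        exact Finset.sum_congr rfl fun i _ => by ring
      rw [this]; ring
    -- summabilities
    have hfs : Summable f := poi_summable_x (n + 1) U Vᵀ hVU s hs b
    have hf2 : Summable (fun p : ℤ × (Fin n → ℤ) => f (Fin.cons p.1 p.2)) :=
      ((poiCons n).summable_iff (f := f)).mpr hfs
    have hgs : Summable g := poi_summable_m (n + 1) V Uᵀ hUV2 s hs b
    have hg2 : Summable (fun p : ℤ × (Fin n → ℤ) => g (Fin.cons p.1 p.2)) :=
      ((poiCons n).summable_iff (f := g)).mpr hgs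
    have hFs : Summable (fun p : ℤ × (Fin n → ℤ) => F p.1 p.2) := by
      have hφ := (poi_summable_phi s hs (V 0 0) hv0 (b 0)).norm
      have hG := poi_summable_gauss n U' V'ᵀ hVU' s.re hs
        (fun i => (b i.succ).re - V 0 0 * (b 0).re * U 0 i.succ)
      have hprod := (Summable.mul_of_nonneg hφ hG (fun m => norm_nonneg _)
        (fun x => (Real.exp_pos _).le)).mul_left ‖((|V 0 0| : ℝ) : ℂ) / s ^ (1 / 2 : ℂ)‖
      apply Summable.of_norm
      refine hprod.congr fun p => ?_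
      simp only [hF, hE]
      rw [norm_mul, norm_mul, poi_norm_term]
      have hre : ∀ i, (bb p.1 i).re = (b i.succ).re - V 0 0 * (b 0).re * U 0 i.succ := by
        intro i
        simp [hbb, hμ]
        ring
      simp only [hre, hμ]
    -- (3) the induction hypothesis
    have hIH : ∀ m : ℤ, ∑' x' : Fin n → ℤ, E (bb m) x'
        = ((∏ i, |V' i i| : ℝ) : ℂ) / (s ^ (1 / 2 : ℂ)) ^ n *
          ∑' m' : Fin n → ℤ,
            cexp (-(π / s) * ∑ i, (∑ j, (V' i j : ℂ) * ((m' j : ℂ) + I * bb m j)) ^ 2) :=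
      fun m => ih U' V' hV' hUV' s hs (bb m)
    -- (4) `g` on `cons`
    have hg_cons : ∀ (m : ℤ) (m' : Fin n → ℤ), g (Fin.cons m m')
        = cexp (-(π / s) * ((V 0 0 : ℂ) * μ m) ^ 2) *
          cexp (-(π / s) * ∑ i, (∑ j, (V' i j : ℂ) * ((m' j : ℂ) + I * bb m j)) ^ 2) := by
      intro m m'
      simp only [hg]
      rw [← Complex.exp_add]; congr 1
      rw [Fin.sum_univ_succ, mul_add]
      congr 1
      · congr 2
        rw [Fin.sum_univ_succ]
        simp [hV0, hμ]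
      · congr 1
        refine Finset.sum_congr rfl fun i _ => ?_
        congr 1
        rw [Fin.sum_univ_succ]
        simp only [Fin.cons_zero, Fin.cons_succ]
        rw [hVi0 i]
        simp only [hbb, hV'def, Matrix.of_apply, hμ]
        push_cast
        have hI : I * I = -1 := I_mul_I
        rw [Finset.mul_sum, Finset.sum_mul, ← Finset.sum_add_distrib]
        refine Finset.sum_congr rfl fun j _ => ?_
        linear_combination (-((V i.succ j.succ : ℂ) * (V 0 0 : ℂ) * ((m : ℂ) + I * b 0)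
          * (U 0 j.succ : ℂ))) * hI
    -- (5) the constant
    have hsq : s ^ (1 / 2 : ℂ) ≠ 0 := by
      rw [Ne, Complex.cpow_eq_zero_iff]; tauto
    have hκ : ((∏ i : Fin (n + 1), |V i i| : ℝ) : ℂ) / (s ^ (1 / 2 : ℂ)) ^ (n + 1)
        = ((|V 0 0| : ℝ) : ℂ) / s ^ (1 / 2 : ℂ) *
          (((∏ i, |V' i i| : ℝ) : ℂ) / (s ^ (1 / 2 : ℂ)) ^ n) := by
      rw [Fin.prod_univ_succ]
      simp only [hV'def, Matrix.of_apply]
      push_cast
      field_simp
      ring
    calc ∑' x, f x = ∑' p : ℤ × (Fin n → ℤ), f (Fin.cons p.1 p.2) :=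
          ((poiCons n).tsum_eq f).symm
      _ = ∑' t : ℤ, ∑' x' : Fin n → ℤ, f (Fin.cons t x') := Summable.tsum_prod hf2
      _ = ∑' x' : Fin n → ℤ, ∑' t : ℤ, f (Fin.cons t x') :=
          (Summable.tsum_comm (f := fun t x' => f (Fin.cons t x')) hf2).symm
      _ = ∑' x' : Fin n → ℤ, ∑' m : ℤ, F m x' := tsum_congr h1d
      _ = ∑' m : ℤ, ∑' x' : Fin n → ℤ, F m x' := Summable.tsum_comm (f := F) hFs
      _ = ∑' m : ℤ, ((∏ i : Fin (n + 1), |V i i| : ℝ) : ℂ) / (s ^ (1 / 2 : ℂ)) ^ (n + 1) *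
            ∑' m' : Fin n → ℤ, g (Fin.cons m m') := by
          refine tsum_congr fun m => ?_
          simp only [hF]
          rw [tsum_mul_left, tsum_mul_left, hIH m, hκ]
          simp_rw [hg_cons]
          rw [tsum_mul_left]
          ring
      _ = ((∏ i : Fin (n + 1), |V i i| : ℝ) : ℂ) / (s ^ (1 / 2 : ℂ)) ^ (n + 1) *
            ∑' p : ℤ × (Fin n → ℤ), g (Fin.cons p.1 p.2) := by
          rw [tsum_mul_left, Summable.tsum_prod hg2]
      _ = ((∏ i : Fin (n + 1), |V i i| : ℝ) : ℂ) / (s ^ (1 / 2 : ℂ)) ^ (n + 1) * ∑' m, g m := by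
          rw [← (poiCons n).tsum_eq g]; rfl


/-- a quadratic form with Gram matrix `Uᵀ U` as a sum of squares. -/
theorem poi_quad {n : ℕ} {A U : Matrix (Fin n) (Fin n) ℝ} (h : Uᵀ * U = A) (w : Fin n → ℂ) :
    ∑ i, ∑ j, w i * (A i j : ℂ) * w j = ∑ k, (∑ j, (U k j : ℂ) * w j) ^ 2 := by
  have hA : ∀ i j, A i j = ∑ k, U k i * U k j := by
    intro i j
    rw [← h]
    simp [Matrix.mul_apply, Matrix.transpose_apply]
  calc ∑ i, ∑ j, w i * (A i j : ℂ) * w j
      = ∑ i, ∑ j, ∑ k, (U k i : ℂ) * w i * ((U k j : ℂ) * w j) := by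
        refine Finset.sum_congr rfl fun i _ => Finset.sum_congr rfl fun j _ => ?_
        rw [hA i j]
        push_cast
        rw [Finset.mul_sum, Finset.sum_mul]
        exact Finset.sum_congr rfl fun k _ => by ring
    _ = ∑ i, ∑ k, ∑ j, (U k i : ℂ) * w i * ((U k j : ℂ) * w j) :=
        Finset.sum_congr rfl fun i _ => Finset.sum_comm
    _ = ∑ k, ∑ i, ∑ j, (U k i : ℂ) * w i * ((U k j : ℂ) * w j) := Finset.sum_comm
    _ = ∑ k, (∑ j, (U k j : ℂ) * w j) ^ 2 := by
        refine Finset.sum_congr rfl fun k _ => ?_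
        rw [sq, Finset.sum_mul_sum]

/-- **Gaussian Poisson summation** in `n` variables with a linear term. -/
theorem poisson_gauss (n : ℕ) (A : Matrix (Fin n) (Fin n) ℝ) (hA : A.PosDef) (s : ℂ)
    (hs : 0 < s.re) (b : Fin n → ℂ) :
    Summable (fun x : Fin n → ℤ => Complex.exp (-Real.pi * s * (∑ i, ∑ j, (x i : ℂ) * (A i j : ℂ) * (x j : ℂ))
        + 2 * Real.pi * ∑ i, b i * (x i : ℂ))) ∧
    Summable (fun m : Fin n → ℤ => Complex.exp (-(Real.pi / s) *
        ∑ i, ∑ j, ((m i : ℂ) + Complex.I * b i) * (A⁻¹ i j : ℂ) * ((m j : ℂ) + Complex.I * b j))) ∧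
    ∑' x : Fin n → ℤ, Complex.exp (-Real.pi * s * (∑ i, ∑ j, (x i : ℂ) * (A i j : ℂ) * (x j : ℂ))
        + 2 * Real.pi * ∑ i, b i * (x i : ℂ))
      = 1 / ((s ^ (1 / 2 : ℂ)) ^ n * (Real.sqrt A.det : ℂ)) *
        ∑' m : Fin n → ℤ, Complex.exp (-(Real.pi / s) *
          ∑ i, ∑ j, ((m i : ℂ) + Complex.I * b i) * (A⁻¹ i j : ℂ) * ((m j : ℂ) + Complex.I * b j)) := by
  obtain ⟨U, V, hV, hUV, hUA, hVA, hdet⟩ := poi_exists_tri n A hA
  have hVU : Vᵀ * U = 1 := mul_eq_one_comm.mp hUV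
  have hUV2 : Uᵀ * V = 1 := by
    have := congrArg Matrix.transpose hVU
    simpa [Matrix.transpose_mul] using this
  have hx : ∀ x : Fin n → ℤ, (∑ i, ∑ j, (x i : ℂ) * (A i j : ℂ) * (x j : ℂ))
      = ∑ k, (∑ j, (U k j : ℂ) * (x j : ℂ)) ^ 2 := fun x => poi_quad hUA (fun i => (x i : ℂ))
  have hm : ∀ m : Fin n → ℤ,
      (∑ i, ∑ j, ((m i : ℂ) + Complex.I * b i) * (A⁻¹ i j : ℂ) * ((m j : ℂ) + Complex.I * b j))
      = ∑ k, (∑ j, (V k j : ℂ) * ((m j : ℂ) + Complex.I * b j)) ^ 2 :=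
    fun m => poi_quad hVA (fun i => (m i : ℂ) + Complex.I * b i)
  simp_rw [hx, hm]
  refine ⟨poi_summable_x n U Vᵀ hVU s hs b, poi_summable_m n V Uᵀ hUV2 s hs b, ?_⟩
  rw [poi_tri n U V hV hUV s hs b]
  congr 1
  have hsq : s ^ (1 / 2 : ℂ) ≠ 0 := by
    have hs0 : s ≠ 0 := by rintro rfl; simp at hs
    rw [Ne, Complex.cpow_eq_zero_iff]; tauto
  have hdet0 : Real.sqrt A.det ≠ 0 := by
    intro h0
    rw [h0, mul_zero] at hdet
    exact zero_ne_one hdet
  have hprod : ((∏ i, |V i i| : ℝ) : ℂ) = 1 / (Real.sqrt A.det : ℂ) := by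
    rw [eq_div_iff (by exact_mod_cast hdet0)]
    exact_mod_cast hdet
  rw [hprod]
  field_simp

end Fermat.Agent.S16
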