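import Mathlib
import Fermat.Agent.S16.Defs

/-!
# S16, theta route: arithmetic halves of the transformation law (package THTRANS)

* `tha_reduce_prime`: Dirichlet reduction.  A `T`-invariant function is invariant (weight 2)
  under all of `Γ₀(p)` as soon as it is invariant under the matrices of `Γ₀(p)` whose lower
  right entry is an odd prime different from `p`.
* `tha_twisted_gauss`: completing the square modulo `d`.  For `γ = [[a, b], [p c', d]]` with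
  `b p c' ≡ -1 (mod d)` the twisted sum
  `∑_{g mod d} e((b Q(g) + m·g - c' (mᵀ B m / 2)) / d)` equals the Gauss sum
  `∑_{g mod d} e(b Q(g) / d)` (given as hypothesis `hG` in the shape of `gaussSum_quat`).
-/

set_option autoImplicit false

open UpperHalfPlane ModularForm CongruenceSubgroup
open scoped MatrixGroups Manifold

namespace Fermat.Agent.S16


/-- invariance under `T` gives invariance under all powers of `T`. -/
theorem tha_slash_T_zpow (k : ℤ) (F : ℍ → ℂ) (hT : F ∣[k] ModularGroup.T = F) (n : ℤ) :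
    F ∣[k] (ModularGroup.T ^ n) = F := by
  have hTi : F ∣[k] (ModularGroup.T⁻¹) = F := by
    conv_lhs => rw [← hT]
    rw [← SlashAction.slash_mul, mul_inv_cancel, SlashAction.slash_one]
  induction n using Int.induction_on with
  | zero => rw [zpow_zero, SlashAction.slash_one]
  | succ i ih => rw [zpow_add_one, SlashAction.slash_mul, ih, hT]
  | pred i ih => rw [zpow_sub_one, SlashAction.slash_mul, ih, hTi]

/-- a `T`-invariant function is invariant under every `γ` with `γ 1 0 = 0` (weight 2). -/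
theorem tha_slash_of_c_eq_zero (F : ℍ → ℂ) (hT : F ∣[(2 : ℤ)] ModularGroup.T = F)
    (γ : SL(2, ℤ)) (hc : γ 1 0 = 0) : F ∣[(2 : ℤ)] γ = F := by
  obtain ⟨n, hn⟩ := ModularGroup.exists_eq_T_zpow_of_c_eq_zero hc
  have had := γ.det_coe
  replace had : γ 0 0 * γ 1 1 = 1 := by rw [Matrix.det_fin_two, hc] at had; lia
  have hd : (γ 1 1) ^ 2 = 1 := by
    rcases Int.eq_one_or_neg_one_of_mul_eq_one' had with (⟨_, hd⟩ | ⟨_, hd⟩) <;> rw [hd] <;> norm_num
  obtain ⟨g, hg⟩ : ∃ g : SL(2, ℤ), g = ModularGroup.T ^ n := ⟨_, rfl⟩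
  have hgF : F ∣[(2 : ℤ)] g = F := by rw [hg]; exact tha_slash_T_zpow 2 F hT n
  have hg10 : g 1 0 = 0 := by rw [hg, ModularGroup.coe_T_zpow]; simp
  have hg11 : g 1 1 = 1 := by rw [hg, ModularGroup.coe_T_zpow]; simp
  funext z
  have h1 := congrFun hgF z
  rw [SL_slash_apply] at h1 ⊢
  rw [hn z, ← hg]
  have hden1 : denom g z = 1 := by
    rw [ModularGroup.denom_apply, hg10, hg11]
    simp
  have hden2 : denom γ z ^ 2 = 1 := by
    rw [ModularGroup.denom_apply, hc]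
    simp only [Int.cast_zero, zero_mul, zero_add]
    exact_mod_cast hd
  rw [hden1] at h1
  rw [zpow_neg, zpow_ofNat, hden2]
  simpa using h1

/-- **Dirichlet reduction**: to prove `Γ₀(p)`-invariance (weight 2) of a `T`-invariant function it
suffices to treat the matrices whose lower right entry is an odd prime different from `p`. -/
theorem tha_reduce_prime (p : ℕ) [Fact p.Prime] (F : ℍ → ℂ)
    (hT : F ∣[(2 : ℤ)] ModularGroup.T = F)
    (hprime : ∀ γ : SL(2, ℤ), γ ∈ Gamma0 p → ∀ d : ℕ, d.Prime → d ≠ 2 → d ≠ p →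
      γ 1 1 = (d : ℤ) → F ∣[(2 : ℤ)] γ = F) :
    ∀ γ : SL(2, ℤ), γ ∈ Gamma0 p → F ∣[(2 : ℤ)] γ = F := by
  intro γ hγ
  by_cases hc : γ 1 0 = 0
  · exact tha_slash_of_c_eq_zero F hT γ hc
  · have had := γ.det_coe
    rw [Matrix.det_fin_two] at had
    have hcop : IsCoprime (γ 1 1) ((γ 1 0).natAbs : ℤ) := by
      have h1 : IsCoprime (γ 1 1) (γ 1 0) := ⟨γ 0 0, -γ 0 1, by linarith⟩
      rcases Int.natAbs_eq (γ 1 0) with h | h
      · rw [← h]; exact h1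
      · have : ((γ 1 0).natAbs : ℤ) = -γ 1 0 := by lia
        rw [this]
        exact h1.neg_right
    obtain ⟨q, hq, hqp, hqmod⟩ := Nat.forall_exists_prime_gt_and_zmodEq (max 2 p)
      (q := (γ 1 0).natAbs) (a := γ 1 1) (Int.natAbs_ne_zero.mpr hc) hcop
    have hq2 : q ≠ 2 := by
      have := le_max_left 2 p
      omega
    have hqp' : q ≠ p := by
      have := le_max_right 2 p
      omega
    -- `q = γ 1 1 + γ 1 0 * k`
    have hdvd : (γ 1 0) ∣ (q : ℤ) - γ 1 1 := by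
      have := (Int.modEq_iff_dvd.mp hqmod.symm)
      exact Int.natAbs_dvd.mp this
    obtain ⟨k, hk⟩ := hdvd
    set γ' : SL(2, ℤ) := γ * ModularGroup.T ^ k with hγ'
    have e10 : γ' 1 0 = γ 1 0 := by
      rw [hγ', Matrix.SpecialLinearGroup.coe_mul, ModularGroup.coe_T_zpow, Matrix.mul_apply,
        Fin.sum_univ_two]
      simp
    have e11 : γ' 1 1 = (q : ℤ) := by
      rw [hγ', Matrix.SpecialLinearGroup.coe_mul, ModularGroup.coe_T_zpow, Matrix.mul_apply,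
        Fin.sum_univ_two]
      simp
      linarith
    have hmem : γ' ∈ Gamma0 p := by
      rw [Gamma0_mem] at hγ ⊢
      rw [e10]
      exact hγ
    have h1 := hprime γ' hmem q hqp hq2 hqp' e11
    have h2 : γ = γ' * ModularGroup.T ^ (-k) := by
      rw [hγ', mul_assoc, ← zpow_add, add_neg_cancel, zpow_zero, mul_one]
    rw [h2, SlashAction.slash_mul, h1, tha_slash_T_zpow 2 F hT]

/-- `xᵀ A x` is even for a symmetric integer matrix with even diagonal. -/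
theorem tha_even_quad (A : Matrix (Fin 4) (Fin 4) ℤ) (hs : A.IsSymm) (he : ∀ i, Even (A i i))
    (x : Fin 4 → ℤ) : Even (x ⬝ᵥ A.mulVec x) := by
  obtain ⟨a0, h0⟩ := he 0
  obtain ⟨a1, h1⟩ := he 1
  obtain ⟨a2, h2⟩ := he 2
  obtain ⟨a3, h3⟩ := he 3
  have s10 : A 1 0 = A 0 1 := hs.apply 0 1
  have s20 : A 2 0 = A 0 2 := hs.apply 0 2
  have s30 : A 3 0 = A 0 3 := hs.apply 0 3
  have s21 : A 2 1 = A 1 2 := hs.apply 1 2
  have s31 : A 3 1 = A 1 3 := hs.apply 1 3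
  have s32 : A 3 2 = A 2 3 := hs.apply 2 3
  simp only [dotProduct, Matrix.mulVec, Fin.sum_univ_four]
  rw [h0, h1, h2, h3, s10, s20, s30, s21, s31, s32]
  exact ⟨a0 * x 0 ^ 2 + a1 * x 1 ^ 2 + a2 * x 2 ^ 2 + a3 * x 3 ^ 2 + A 0 1 * x 0 * x 1
    + A 0 2 * x 0 * x 2 + A 0 3 * x 0 * x 3 + A 1 2 * x 1 * x 2 + A 1 3 * x 1 * x 3
    + A 2 3 * x 2 * x 3, by ring⟩

/-- `exp(π i N / d)` for even `N` through the standard additive character of `ZMod d`. -/
theorem tha_exp_eq (d : ℕ) [Fact d.Prime] (hd2 : d ≠ 2) (N : ℤ) (hN : Even N) :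
    Complex.exp (Real.pi * Complex.I * (N : ℂ) / d)
      = ZMod.stdAddChar ((2 : ZMod d)⁻¹ * (N : ZMod d)) := by
  obtain ⟨N₂, rfl⟩ := hN
  have h2 : (2 : ZMod d) ≠ 0 := by
    have hd : d.Prime := Fact.out
    intro h
    have h' : ((2 : ℕ) : ZMod d) = 0 := by exact_mod_cast h
    rw [ZMod.natCast_eq_zero_iff] at h'
    exact hd2 ((Nat.prime_dvd_prime_iff_eq hd Nat.prime_two).mp h')
  have e : (2 : ZMod d)⁻¹ * ((N₂ + N₂ : ℤ) : ZMod d) = (N₂ : ZMod d) := by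
    push_cast
    field_simp
    ring
  rw [e, ZMod.stdAddChar_coe]
  congr 1
  push_cast
  ring

/-- completing the square over a field. -/
theorem tha_complete_square {K : Type*} [Field K] (A B : Matrix (Fin 4) (Fin 4) K)
    (hA : A.IsSymm) (P bb cc : K) (hAB : A * B = P • (1 : Matrix (Fin 4) (Fin 4) K))
    (hP : P ≠ 0) (hbb : bb ≠ 0) (h : bb * (P * cc) + 1 = 0) (u m : Fin 4 → K) :
    bb * (u ⬝ᵥ A.mulVec u) + 2 * (m ⬝ᵥ u) - cc * (m ⬝ᵥ B.mulVec m)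
      = bb * ((u + (bb⁻¹ * P⁻¹) • B.mulVec m) ⬝ᵥ A.mulVec (u + (bb⁻¹ * P⁻¹) • B.mulVec m)) := by
  set t : Fin 4 → K := (bb⁻¹ * P⁻¹) • B.mulVec m with ht
  have hAt : A.mulVec t = bb⁻¹ • m := by
    rw [ht, Matrix.mulVec_smul, Matrix.mulVec_mulVec, hAB, Matrix.smul_mulVec, Matrix.one_mulVec,
      smul_smul]
    congr 1
    field_simp
  have hsymm : t ⬝ᵥ A.mulVec u = u ⬝ᵥ A.mulVec t := by
    rw [Matrix.dotProduct_mulVec, ← Matrix.mulVec_transpose, hA.eq, dotProduct_comm]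
  have hBm : (B.mulVec m) ⬝ᵥ m = m ⬝ᵥ B.mulVec m := dotProduct_comm _ _
  have h1 : u ⬝ᵥ A.mulVec t = bb⁻¹ * (m ⬝ᵥ u) := by
    rw [hAt, dotProduct_smul, smul_eq_mul, dotProduct_comm]
  have h2 : t ⬝ᵥ A.mulVec t = bb⁻¹ * (bb⁻¹ * P⁻¹) * (m ⬝ᵥ B.mulVec m) := by
    rw [hAt, dotProduct_smul, smul_eq_mul, ht, smul_dotProduct, smul_eq_mul, hBm]
    ring
  rw [Matrix.mulVec_add, add_dotProduct, dotProduct_add, dotProduct_add, hsymm, h1, h2]
  have hcc : cc = -(bb⁻¹ * P⁻¹) := by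
    field_simp
    linear_combination h
  rw [hcc]
  field_simp
  ring

theorem tha_iota_bij (d : ℕ) [NeZero d] :
    Function.Bijective (fun j : Fin d => ((j : ℕ) : ZMod d)) := by
  rw [Fintype.bijective_iff_injective_and_card]
  refine ⟨?_, by rw [Fintype.card_fin, ZMod.card]⟩
  intro j j' h
  simp only at h
  rw [ZMod.natCast_eq_natCast_iff'] at h
  rw [Nat.mod_eq_of_lt j.isLt, Nat.mod_eq_of_lt j'.isLt] at h
  exact Fin.ext h

theorem tha_sum_iota (d : ℕ) [NeZero d] (Ψ : (Fin 4 → ZMod d) → ℂ) :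
    ∑ g : Fin 4 → Fin d, Ψ (fun i => ((g i : ℕ) : ZMod d)) = ∑ u : Fin 4 → ZMod d, Ψ u :=
  ((tha_iota_bij d).comp_left (α := Fin 4)).sum_comp Ψ

/-- **The twisted quaternary Gauss sum** (completing the square modulo `d`). -/
theorem tha_twisted_gauss (p : ℕ) [Fact p.Prime] (A B : Matrix (Fin 4) (Fin 4) ℤ)
    (hAB : IsQuatLattice p A B)
    (hB : B.IsSymm ∧ (∀ i, Even (B i i)) ∧ B * A = (p : ℤ) • (1 : Matrix (Fin 4) (Fin 4) ℤ))
    (d : ℕ) (hd : d.Prime) (hd2 : d ≠ 2) (hdp : d ≠ p) (b c' : ℤ)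
    (hbc : (d : ℤ) ∣ b * ((p : ℤ) * c') + 1)
    (hG : ∑ g : Fin 4 → Fin d, Complex.exp (Real.pi * Complex.I * (b : ℂ) *
        ((((fun i => ((g i : ℕ) : ℤ)) ⬝ᵥ A.mulVec (fun i => ((g i : ℕ) : ℤ)) : ℤ) : ℂ)) / d)
      = (d : ℂ) ^ 2)
    (m : Fin 4 → ℤ) :
    ∑ g : Fin 4 → Fin d, Complex.exp (Real.pi * Complex.I *
        (((b * ((fun i => ((g i : ℕ) : ℤ)) ⬝ᵥ A.mulVec (fun i => ((g i : ℕ) : ℤ)))
          + 2 * (m ⬝ᵥ (fun i => ((g i : ℕ) : ℤ))) - c' * (m ⬝ᵥ B.mulVec m) : ℤ)) : ℂ) / d)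
      = (d : ℂ) ^ 2 := by
  have : Fact d.Prime := ⟨hd⟩
  have hp : p.Prime := Fact.out
  obtain ⟨hAs, hAe, -, hABeq, -⟩ := hAB
  obtain ⟨hBs, hBe, -⟩ := hB
  set f : ℤ →+* ZMod d := Int.castRingHom (ZMod d) with hf
  set A' : Matrix (Fin 4) (Fin 4) (ZMod d) := A.map f with hA'
  set B' : Matrix (Fin 4) (Fin 4) (ZMod d) := B.map f with hB'
  set m' : Fin 4 → ZMod d := f ∘ m with hm'
  set t : Fin 4 → ZMod d := ((b : ZMod d)⁻¹ * (p : ZMod d)⁻¹) • B'.mulVec m' with ht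
  set Ψ : (Fin 4 → ZMod d) → ℂ := fun u =>
    ZMod.stdAddChar ((2 : ZMod d)⁻¹ * ((b : ZMod d) * (u ⬝ᵥ A'.mulVec u))) with hΨ
  have hP : (p : ZMod d) ≠ 0 := by
    intro h
    rw [ZMod.natCast_eq_zero_iff] at h
    exact hdp ((Nat.prime_dvd_prime_iff_eq hd hp).mp h)
  have hrel : (b : ZMod d) * ((p : ZMod d) * (c' : ZMod d)) + 1 = 0 := by
    have := (ZMod.intCast_zmod_eq_zero_iff_dvd _ d).mpr hbc
    push_cast at this
    exact this
  have hbb : (b : ZMod d) ≠ 0 := by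
    intro h0
    rw [h0] at hrel
    simp at hrel
  have hA's : A'.IsSymm := hAs.map f
  have hA'B' : A' * B' = (p : ZMod d) • (1 : Matrix (Fin 4) (Fin 4) (ZMod d)) := by
    rw [hA', hB', ← Matrix.map_mul, hABeq]
    ext i j
    rw [Matrix.map_apply, Matrix.smul_apply, Matrix.smul_apply, Matrix.one_apply,
      Matrix.one_apply]
    by_cases hij : i = j
    · simp [hij, hf]
    · simp [hij, hf]
  have hq : ∀ (x : Fin 4 → ℤ) (M : Matrix (Fin 4) (Fin 4) ℤ),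
      ((x ⬝ᵥ M.mulVec x : ℤ) : ZMod d) = (f ∘ x) ⬝ᵥ (M.map f).mulVec (f ∘ x) := by
    intro x M
    have h1 := RingHom.map_dotProduct f x (M.mulVec x)
    rw [show f ∘ (M.mulVec x) = (M.map f).mulVec (f ∘ x) from
      funext (fun i => RingHom.map_mulVec f M x i)] at h1
    exact h1
  have hι : ∀ g : Fin 4 → Fin d, (f ∘ fun i => ((g i : ℕ) : ℤ))
      = fun i => ((g i : ℕ) : ZMod d) := by
    intro g
    funext i
    simp [hf]
  have key1 : ∀ g : Fin 4 → Fin d, Complex.exp (Real.pi * Complex.I *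
        (((b * ((fun i => ((g i : ℕ) : ℤ)) ⬝ᵥ A.mulVec (fun i => ((g i : ℕ) : ℤ)))
          + 2 * (m ⬝ᵥ (fun i => ((g i : ℕ) : ℤ))) - c' * (m ⬝ᵥ B.mulVec m) : ℤ)) : ℂ) / d)
      = Ψ ((fun i => ((g i : ℕ) : ZMod d)) + t) := by
    intro g
    have hev : Even (b * ((fun i => ((g i : ℕ) : ℤ)) ⬝ᵥ A.mulVec (fun i => ((g i : ℕ) : ℤ)))
          + 2 * (m ⬝ᵥ (fun i => ((g i : ℕ) : ℤ))) - c' * (m ⬝ᵥ B.mulVec m)) :=
      (((tha_even_quad A hAs hAe _).mul_left b).add (even_two_mul _)).sub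
        ((tha_even_quad B hBs hBe m).mul_left c')
    rw [tha_exp_eq d hd2 _ hev, hΨ]
    simp only
    congr 2
    rw [ht, ← tha_complete_square A' B' hA's (p : ZMod d) (b : ZMod d) (c' : ZMod d) hA'B' hP hbb
      hrel]
    have e1 := hq (fun i => ((g i : ℕ) : ℤ)) A
    have e2 := hq m B
    have e3 := RingHom.map_dotProduct f m (fun i => ((g i : ℕ) : ℤ))
    rw [hι g] at e1 e3
    push_cast
    rw [e1, e2]
    rw [show ((m ⬝ᵥ (fun i => ((g i : ℕ) : ℤ)) : ℤ) : ZMod d)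
      = m' ⬝ᵥ (fun i => ((g i : ℕ) : ZMod d)) from e3]
  have key2 : ∀ g : Fin 4 → Fin d, Complex.exp (Real.pi * Complex.I * (b : ℂ) *
        ((((fun i => ((g i : ℕ) : ℤ)) ⬝ᵥ A.mulVec (fun i => ((g i : ℕ) : ℤ)) : ℤ) : ℂ)) / d)
      = Ψ (fun i => ((g i : ℕ) : ZMod d)) := by
    intro g
    have hev : Even (b * ((fun i => ((g i : ℕ) : ℤ)) ⬝ᵥ A.mulVec (fun i => ((g i : ℕ) : ℤ)))) :=
      (tha_even_quad A hAs hAe _).mul_left b
    have h1 := tha_exp_eq d hd2 _ hev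
    have e1 := hq (fun i => ((g i : ℕ) : ℤ)) A
    rw [hι g] at e1
    rw [hΨ]
    simp only
    rw [← e1]
    push_cast at h1 ⊢
    rw [← h1]
    congr 1
    ring
  rw [Finset.sum_congr rfl (fun g _ => key1 g)]
  rw [tha_sum_iota d (fun u => Ψ (u + t))]
  rw [Fintype.sum_equiv (Equiv.addRight t) (fun u => Ψ (u + t)) Ψ (fun u => rfl)]
  rw [← tha_sum_iota d Ψ, ← hG]
  exact Finset.sum_congr rfl (fun g _ => (key2 g).symm)

end Fermat.Agent.S16
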