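import Mathlib
import Fermat.Agent.S16.Defs

/-!
# S16, package THTRANS-A (core): theta inversion from Gaussian Poisson summation

Everything here is proved from the *statement* `thinv_Poisson4` of the 4-variable Gaussian Poisson
summation formula (package POISSON, `poisson_gauss` at `n = 4`), taken as a hypothesis.
`Fermat/Agent/S16/ThetaInv.lean` instantiates it.
-/

set_option autoImplicit false

open UpperHalfPlane ModularForm CongruenceSubgroup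
open scoped MatrixGroups Manifold

namespace Fermat.Agent.S16

open Matrix in
/-- The statement of the Gaussian Poisson summation formula with a linear term, in 4 variables
(`poisson_gauss` for `n = 4`). -/
def thinv_Poisson4 : Prop :=
  ∀ (A : Matrix (Fin 4) (Fin 4) ℝ) (_hA : A.PosDef) (s : ℂ) (_hs : 0 < s.re) (b : Fin 4 → ℂ),
    Summable (fun x : Fin 4 → ℤ => Complex.exp (-Real.pi * s * (∑ i, ∑ j, (x i : ℂ) * (A i j : ℂ) * (x j : ℂ))
        + 2 * Real.pi * ∑ i, b i * (x i : ℂ))) ∧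
    Summable (fun m : Fin 4 → ℤ => Complex.exp (-(Real.pi / s) *
        ∑ i, ∑ j, ((m i : ℂ) + Complex.I * b i) * (A⁻¹ i j : ℂ) * ((m j : ℂ) + Complex.I * b j))) ∧
    ∑' x : Fin 4 → ℤ, Complex.exp (-Real.pi * s * (∑ i, ∑ j, (x i : ℂ) * (A i j : ℂ) * (x j : ℂ))
        + 2 * Real.pi * ∑ i, b i * (x i : ℂ))
      = 1 / ((s ^ (1 / 2 : ℂ)) ^ 4 * (Real.sqrt A.det : ℂ)) *
        ∑' m : Fin 4 → ℤ, Complex.exp (-(Real.pi / s) *
          ∑ i, ∑ j, ((m i : ℂ) + Complex.I * b i) * (A⁻¹ i j : ℂ) * ((m j : ℂ) + Complex.I * b j))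

section algebra

variable {n : Type*} [Fintype n]

open Matrix

theorem thinv_quad (x y : n → ℂ) (M : Matrix n n ℂ) :
    ∑ i, ∑ j, x i * M i j * y j = x ⬝ᵥ M *ᵥ y := by
  simp [dotProduct, mulVec, Finset.mul_sum, mul_assoc]

theorem thinv_quad_expand (A : Matrix n n ℂ) (hA : Aᵀ = A) (y v : n → ℂ) :
    (y + v) ⬝ᵥ A *ᵥ (y + v) = y ⬝ᵥ A *ᵥ y + 2 * ((A *ᵥ v) ⬝ᵥ y) + v ⬝ᵥ A *ᵥ v := by
  have h1 : v ⬝ᵥ A *ᵥ y = (A *ᵥ v) ⬝ᵥ y := by
    rw [dotProduct_mulVec, ← mulVec_transpose, hA]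
  have h2 : y ⬝ᵥ A *ᵥ v = (A *ᵥ v) ⬝ᵥ y := dotProduct_comm _ _
  rw [mulVec_add, dotProduct_add, add_dotProduct, add_dotProduct, h1, h2]
  ring

theorem thinv_dual_expand [DecidableEq n] (A B : Matrix n n ℂ) (hA : Aᵀ = A) (c : ℂ)
    (hAB : A * B = c • (1 : Matrix n n ℂ)) (hBA : B * A = c • (1 : Matrix n n ℂ))
    (m v : n → ℂ) (t : ℂ) :
    (m + t • (A *ᵥ v)) ⬝ᵥ B *ᵥ (m + t • (A *ᵥ v))
      = m ⬝ᵥ B *ᵥ m + 2 * t * c * (m ⬝ᵥ v) + t ^ 2 * c * (v ⬝ᵥ A *ᵥ v) := by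
  have h1 : B *ᵥ (m + t • (A *ᵥ v)) = B *ᵥ m + (t * c) • v := by
    rw [mulVec_add, mulVec_smul, mulVec_mulVec, hBA, smul_mulVec, one_mulVec, smul_smul]
  have h2 : (A *ᵥ v) ⬝ᵥ (B *ᵥ m) = c * (m ⬝ᵥ v) := by
    rw [← vecMul_transpose, ← dotProduct_mulVec, hA, mulVec_mulVec, hAB, smul_mulVec,
      one_mulVec, dotProduct_smul, smul_eq_mul, dotProduct_comm]
  have h3 : (A *ᵥ v) ⬝ᵥ v = v ⬝ᵥ A *ᵥ v := dotProduct_comm _ _
  rw [h1, dotProduct_add, add_dotProduct, add_dotProduct, smul_dotProduct, smul_dotProduct,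
    dotProduct_smul, dotProduct_smul, h2, h3]
  simp only [smul_eq_mul]
  ring

end algebra

section main

open Matrix

variable (p : ℕ) [Fact p.Prime] (A B : Matrix (Fin 4) (Fin 4) ℤ)

theorem thinv_cast_quad (M : Matrix (Fin 4) (Fin 4) ℤ) (m : Fin 4 → ℤ) :
    ((m ⬝ᵥ M.mulVec m : ℤ) : ℂ)
      = (fun i => (m i : ℂ)) ⬝ᵥ (M.map (Int.cast : ℤ → ℂ)) *ᵥ (fun i => (m i : ℂ)) := by
  simp [dotProduct, mulVec]

omit [Fact p.Prime] in
/-- `A_K * B_K = p` over any commutative ring. -/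
theorem thinv_map_mul (K : Type*) [CommRing K] (hAB : IsQuatLattice p A B) :
    A.map (Int.cast : ℤ → K) * B.map (Int.cast : ℤ → K) = (p : K) • (1 : Matrix (Fin 4) (Fin 4) K) := by
  ext i j
  have h := congrFun (congrFun hAB.2.2.2.1 i) j
  simp only [Matrix.mul_apply] at h
  have h2 := congrArg (Int.cast : ℤ → K) h
  push_cast at h2
  simp only [Matrix.mul_apply, Matrix.map_apply, Matrix.smul_apply, Matrix.one_apply]
  rw [h2]
  simp [Matrix.smul_apply, Matrix.one_apply]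

theorem thinv_map_mul' (K : Type*) [Field K] [CharZero K] (hAB : IsQuatLattice p A B) :
    B.map (Int.cast : ℤ → K) * A.map (Int.cast : ℤ → K) = (p : K) • (1 : Matrix (Fin 4) (Fin 4) K) := by
  have hp : (p : K) ≠ 0 := Nat.cast_ne_zero.mpr (Fact.out : p.Prime).ne_zero
  have h1 : A.map (Int.cast : ℤ → K) * ((p : K)⁻¹ • B.map (Int.cast : ℤ → K)) = 1 := by
    rw [Matrix.mul_smul, thinv_map_mul p A B K hAB, smul_smul, inv_mul_cancel₀ hp, one_smul]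
  have h2 := mul_eq_one_comm.mp h1
  rw [Matrix.smul_mul] at h2
  have h3 := congrArg (fun M => (p : K) • M) h2
  simpa [smul_smul, mul_inv_cancel₀ hp] using h3

theorem thinv_inv_real (hAB : IsQuatLattice p A B) :
    (A.map (Int.cast : ℤ → ℝ))⁻¹ = (p : ℝ)⁻¹ • B.map (Int.cast : ℤ → ℝ) := by
  have hp : (p : ℝ) ≠ 0 := Nat.cast_ne_zero.mpr (Fact.out : p.Prime).ne_zero
  apply Matrix.inv_eq_right_inv
  rw [Matrix.mul_smul, thinv_map_mul p A B ℝ hAB, smul_smul, inv_mul_cancel₀ hp, one_smul]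

omit [Fact p.Prime] in
theorem thinv_det_real (hAB : IsQuatLattice p A B) :
    (A.map (Int.cast : ℤ → ℝ)).det = (p : ℝ) ^ 2 := by
  have h := (Int.castRingHom ℝ).map_det A
  rw [RingHom.mapMatrix_apply, Int.coe_castRingHom] at h
  rw [← h, hAB.2.2.2.2]
  simp

omit [Fact p.Prime] in
theorem thinv_symm_C (hAB : IsQuatLattice p A B) :
    (A.map (Int.cast : ℤ → ℂ))ᵀ = A.map (Int.cast : ℤ → ℂ) := by
  rw [← Matrix.transpose_map, hAB.1.eq]

end main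

section inversion

open Matrix

theorem thinv_s_re (w : ℍ) : 0 < (Complex.I / (w : ℂ)).re := by
  rw [Complex.div_re]
  simp only [Complex.I_re, Complex.I_im, zero_mul, zero_div, one_mul, zero_add]
  exact div_pos w.im_pos (Complex.normSq_pos.mpr w.ne_zero)

theorem thinv_alg1 (π s w Qy Avy Qv : ℂ) (hs : s = Complex.I / w) :
    π * Complex.I * (Qy + 2 * Avy + Qv) * (-1 / w)
      = -π * s * Qv + (-π * s * Qy + 2 * π * (-s * Avy)) := by
  rw [hs]; ring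

theorem thinv_alg2 (π s w P M mv Qv : ℂ) (hw : w = Complex.I / s) (hs0 : s ≠ 0) (hP : P ≠ 0) :
    -(π / s) * (P⁻¹ * (M + 2 * (-(Complex.I * s)) * P * mv + (-(Complex.I * s)) ^ 2 * P * Qv))
      = -(-π * s * Qv) + (π * Complex.I * M * w / P + 2 * π * Complex.I * mv) := by
  have h1 : (-(Complex.I * s)) ^ 2 = -s ^ 2 := by rw [neg_sq, mul_pow, Complex.I_sq]; ring
  have h2 : π * Complex.I * M * w / P = -(π * M / (s * P)) := by
    rw [hw, show π * Complex.I * M * (Complex.I / s) / P = π * M * (Complex.I * Complex.I) / (s * P) by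
      field_simp, Complex.I_mul_I]
    ring
  rw [h1, h2]
  field_simp
  ring

theorem thinv_pref (s w : ℂ) (p : ℕ) (hs : s = Complex.I / w) (hw : w ≠ 0) (hp : p ≠ 0) :
    1 / ((s ^ (1 / 2 : ℂ)) ^ 4 * ((Real.sqrt ((p : ℝ) ^ 2) : ℝ) : ℂ)) = -(w ^ 2 / p) := by
  have hp' : (p : ℂ) ≠ 0 := Nat.cast_ne_zero.mpr hp
  have h1 : (s ^ (1 / 2 : ℂ)) ^ 4 = s ^ 2 := by
    rw [← Complex.cpow_nat_mul]
    norm_num
  have h2 : Real.sqrt ((p : ℝ) ^ 2) = p := Real.sqrt_sq (Nat.cast_nonneg p)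
  rw [h1, h2, hs, div_pow, Complex.I_sq]
  push_cast
  field_simp

variable (p : ℕ) [Fact p.Prime] (A B : Matrix (Fin 4) (Fin 4) ℤ)

/-- **Shifted theta inversion**, from 4-variable Gaussian Poisson summation. -/
theorem thinv_inversion_core (hP : thinv_Poisson4) (hAB : IsQuatLattice p A B) (w : ℍ)
    (v : Fin 4 → ℝ) :
    Summable (fun y : Fin 4 → ℤ => Complex.exp (Real.pi * Complex.I *
        (∑ i, ∑ j, ((y i : ℂ) + (v i : ℂ)) * (A i j : ℂ) * ((y j : ℂ) + (v j : ℂ))) * (-1 / (w : ℂ)))) ∧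
    Summable (fun m : Fin 4 → ℤ => Complex.exp (Real.pi * Complex.I * ((m ⬝ᵥ B.mulVec m : ℤ) : ℂ) * (w : ℂ) / p
        + 2 * Real.pi * Complex.I * ∑ i, (m i : ℂ) * (v i : ℂ))) ∧
    ∑' y : Fin 4 → ℤ, Complex.exp (Real.pi * Complex.I *
        (∑ i, ∑ j, ((y i : ℂ) + (v i : ℂ)) * (A i j : ℂ) * ((y j : ℂ) + (v j : ℂ))) * (-1 / (w : ℂ)))
      = -((w : ℂ) ^ 2 / p) * ∑' m : Fin 4 → ℤ,
          Complex.exp (Real.pi * Complex.I * ((m ⬝ᵥ B.mulVec m : ℤ) : ℂ) * (w : ℂ) / p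
            + 2 * Real.pi * Complex.I * ∑ i, (m i : ℂ) * (v i : ℂ)) := by
  set AC : Matrix (Fin 4) (Fin 4) ℂ := A.map (Int.cast : ℤ → ℂ) with hAC
  set BC : Matrix (Fin 4) (Fin 4) ℂ := B.map (Int.cast : ℤ → ℂ) with hBC
  set vC : Fin 4 → ℂ := fun i => (v i : ℂ) with hvC
  set s : ℂ := Complex.I / (w : ℂ) with hs
  have hw : (w : ℂ) ≠ 0 := w.ne_zero
  have hs0 : s ≠ 0 := div_ne_zero Complex.I_ne_zero hw
  have hws : (w : ℂ) = Complex.I / s := by rw [hs]; field_simp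
  have hp0 : p ≠ 0 := (Fact.out : p.Prime).ne_zero
  have hp : (p : ℂ) ≠ 0 := Nat.cast_ne_zero.mpr hp0
  set b : Fin 4 → ℂ := fun i => -s * (AC *ᵥ vC) i with hb
  obtain ⟨h1, h2, h3⟩ := hP (A.map (Int.cast : ℤ → ℝ)) hAB.2.2.1 s (thinv_s_re w) b
  set K : ℂ := Complex.exp (-Real.pi * s * (vC ⬝ᵥ AC *ᵥ vC)) with hK
  have hK0 : K ≠ 0 := Complex.exp_ne_zero _
  have T1 : ∀ y : Fin 4 → ℤ, Complex.exp (Real.pi * Complex.I *
        (∑ i, ∑ j, ((y i : ℂ) + (v i : ℂ)) * (A i j : ℂ) * ((y j : ℂ) + (v j : ℂ))) * (-1 / (w : ℂ)))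
      = K * Complex.exp (-Real.pi * s *
          (∑ i, ∑ j, (y i : ℂ) * ((A.map (Int.cast : ℤ → ℝ)) i j : ℂ) * (y j : ℂ))
        + 2 * Real.pi * ∑ i, b i * (y i : ℂ)) := by
    intro y
    rw [hK, ← Complex.exp_add]
    congr 1
    have e1 : ∑ i, ∑ j, ((y i : ℂ) + (v i : ℂ)) * (A i j : ℂ) * ((y j : ℂ) + (v j : ℂ))
        = ((fun i => (y i : ℂ)) + vC) ⬝ᵥ AC *ᵥ ((fun i => (y i : ℂ)) + vC) := by
      rw [← thinv_quad]; rfl
    have e2 : ∑ i, ∑ j, (y i : ℂ) * ((A.map (Int.cast : ℤ → ℝ)) i j : ℂ) * (y j : ℂ)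
        = (fun i => (y i : ℂ)) ⬝ᵥ AC *ᵥ (fun i => (y i : ℂ)) := by
      rw [← thinv_quad]; simp [hAC]
    have e3 : ∑ i, b i * (y i : ℂ) = -s * ((AC *ᵥ vC) ⬝ᵥ (fun i => (y i : ℂ))) := by
      simp [hb, dotProduct, Finset.mul_sum, mul_assoc]
    rw [e1, e2, e3, thinv_quad_expand AC (thinv_symm_C p A B hAB)]
    exact thinv_alg1 _ _ _ _ _ _ hs
  have T2 : ∀ m : Fin 4 → ℤ, Complex.exp (-(Real.pi / s) *
        ∑ i, ∑ j, ((m i : ℂ) + Complex.I * b i) * (((A.map (Int.cast : ℤ → ℝ))⁻¹ i j : ℝ) : ℂ)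
          * ((m j : ℂ) + Complex.I * b j))
      = K⁻¹ * Complex.exp (Real.pi * Complex.I * ((m ⬝ᵥ B.mulVec m : ℤ) : ℂ) * (w : ℂ) / p
        + 2 * Real.pi * Complex.I * ∑ i, (m i : ℂ) * (v i : ℂ)) := by
    intro m
    rw [hK, ← Complex.exp_neg, ← Complex.exp_add]
    congr 1
    have e1 : ∑ i, ∑ j, ((m i : ℂ) + Complex.I * b i) * (((A.map (Int.cast : ℤ → ℝ))⁻¹ i j : ℝ) : ℂ)
          * ((m j : ℂ) + Complex.I * b j)
        = (p : ℂ)⁻¹ * (((fun i => (m i : ℂ)) + (-(Complex.I * s)) • (AC *ᵥ vC)) ⬝ᵥ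
            BC *ᵥ ((fun i => (m i : ℂ)) + (-(Complex.I * s)) • (AC *ᵥ vC))) := by
      rw [← thinv_quad, Finset.mul_sum]
      refine Finset.sum_congr rfl fun i _ => ?_
      rw [Finset.mul_sum]
      refine Finset.sum_congr rfl fun j _ => ?_
      rw [thinv_inv_real p A B hAB]
      simp only [hb, hBC, Matrix.smul_apply, Matrix.map_apply, smul_eq_mul, Pi.add_apply,
        Pi.smul_apply]
      push_cast
      ring
    have e4 : ∑ i, (m i : ℂ) * (v i : ℂ) = (fun i => (m i : ℂ)) ⬝ᵥ vC := rfl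
    rw [e1, thinv_dual_expand AC BC (thinv_symm_C p A B hAB) (p : ℂ) (thinv_map_mul p A B ℂ hAB)
      (thinv_map_mul' p A B ℂ hAB), thinv_cast_quad, e4]
    exact thinv_alg2 _ _ _ _ _ _ _ hws hs0 hp
  have S1 : Summable (fun y : Fin 4 → ℤ => Complex.exp (Real.pi * Complex.I *
        (∑ i, ∑ j, ((y i : ℂ) + (v i : ℂ)) * (A i j : ℂ) * ((y j : ℂ) + (v j : ℂ))) * (-1 / (w : ℂ)))) :=
    (h1.mul_left K).congr fun y => (T1 y).symm
  have T2' : ∀ m : Fin 4 → ℤ, Complex.exp (Real.pi * Complex.I * ((m ⬝ᵥ B.mulVec m : ℤ) : ℂ) * (w : ℂ) / p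
        + 2 * Real.pi * Complex.I * ∑ i, (m i : ℂ) * (v i : ℂ))
      = K * Complex.exp (-(Real.pi / s) *
        ∑ i, ∑ j, ((m i : ℂ) + Complex.I * b i) * (((A.map (Int.cast : ℤ → ℝ))⁻¹ i j : ℝ) : ℂ)
          * ((m j : ℂ) + Complex.I * b j)) := by
    intro m
    rw [T2 m, ← mul_assoc, mul_inv_cancel₀ hK0, one_mul]
  have S2 : Summable (fun m : Fin 4 → ℤ => Complex.exp (Real.pi * Complex.I * ((m ⬝ᵥ B.mulVec m : ℤ) : ℂ) * (w : ℂ) / p
        + 2 * Real.pi * Complex.I * ∑ i, (m i : ℂ) * (v i : ℂ))) :=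
    (h2.mul_left K).congr fun m => (T2' m).symm
  refine ⟨S1, S2, ?_⟩
  rw [tsum_congr T1, tsum_mul_left, h3, tsum_congr T2, tsum_mul_left, thinv_det_real p A B hAB,
    thinv_pref s w p hs hw hp0]
  field_simp

omit [Fact p.Prime] in
/-- summability of the theta series, from Gaussian Poisson summation (only its first,
summability, part is used). -/
theorem thinv_summable_core (hP : thinv_Poisson4) (hAB : IsQuatLattice p A B) (z : ℍ) :
    Summable (fun x : Fin 4 → ℤ =>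
      Complex.exp (Real.pi * Complex.I * ((x ⬝ᵥ A.mulVec x : ℤ) : ℂ) * (z : ℂ))) := by
  have hs : 0 < (-(Complex.I * (z : ℂ))).re := by simp [z.im_pos]
  obtain ⟨h1, -, -⟩ := hP (A.map (Int.cast : ℤ → ℝ)) hAB.2.2.1 (-(Complex.I * z)) hs 0
  refine h1.congr fun x => ?_
  congr 1
  rw [thinv_cast_quad, ← thinv_quad]
  simp only [Pi.zero_apply, zero_mul, Finset.sum_const_zero, mul_zero, add_zero, Matrix.map_apply]
  push_cast
  ring

/-- behaviour of the theta function at the cusp `0`. -/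
theorem thinv_S_core (hP : thinv_Poisson4) (hAB : IsQuatLattice p A B) (z : ℍ) :
    ((thetaFun A) ∣[(2 : ℤ)] ModularGroup.S) z = - (p : ℂ)⁻¹ *
      ∑' m : Fin 4 → ℤ, Complex.exp (Real.pi * Complex.I * ((m ⬝ᵥ B.mulVec m : ℤ) : ℂ) * (z : ℂ) / p) := by
  obtain ⟨-, -, h3⟩ := thinv_inversion_core p A B hP hAB z 0
  have hz : (z : ℂ) ≠ 0 := z.ne_zero
  have hp : (p : ℂ) ≠ 0 := Nat.cast_ne_zero.mpr (Fact.out : p.Prime).ne_zero
  rw [ModularForm.SL_slash_apply, ModularGroup.denom_S, thetaFun]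
  have e1 : ∀ x : Fin 4 → ℤ, Complex.exp (Real.pi * Complex.I * ((x ⬝ᵥ A.mulVec x : ℤ) : ℂ)
        * ((ModularGroup.S • z : ℍ) : ℂ))
      = Complex.exp (Real.pi * Complex.I * (∑ i, ∑ j, ((x i : ℂ) + (((0 : Fin 4 → ℝ) i : ℝ) : ℂ))
          * (A i j : ℂ) * ((x j : ℂ) + (((0 : Fin 4 → ℝ) j : ℝ) : ℂ))) * (-1 / (z : ℂ))) := by
    intro x
    congr 1
    rw [UpperHalfPlane.modular_S_smul, thinv_cast_quad, ← thinv_quad]
    simp only [Pi.zero_apply, Complex.ofReal_zero, add_zero, Matrix.map_apply]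
    rw [show (-(z : ℂ))⁻¹ = -1 / (z : ℂ) by rw [inv_neg, neg_div, one_div]]
  have e2 : ∀ m : Fin 4 → ℤ, Complex.exp (Real.pi * Complex.I * ((m ⬝ᵥ B.mulVec m : ℤ) : ℂ) * (z : ℂ) / p
        + 2 * Real.pi * Complex.I * ∑ i, (m i : ℂ) * (((0 : Fin 4 → ℝ) i : ℝ) : ℂ))
      = Complex.exp (Real.pi * Complex.I * ((m ⬝ᵥ B.mulVec m : ℤ) : ℂ) * (z : ℂ) / p) := by
    intro m
    simp
  rw [tsum_congr e1, h3, tsum_congr e2, _root_.zpow_neg]
  have h2 : ((z : ℂ) ^ (2 : ℤ)) = (z : ℂ) ^ 2 := by norm_cast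
  rw [h2]
  field_simp

end inversion

end Fermat.Agent.S16
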