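import Mathlib
import Fermat.Agent.S16.Defs
import Fermat.Agent.S16.Poisson
import Fermat.Agent.S16.ThetaInvCore

/-!
# S16, package THTRANS-A: theta inversion, summability of the theta series, the cusp `0`

Instantiation of `ThetaInvCore.lean` with the Gaussian Poisson summation formula
`poisson_gauss` (package POISSON).
-/

set_option autoImplicit false

open UpperHalfPlane ModularForm CongruenceSubgroup
open scoped MatrixGroups Manifold

namespace Fermat.Agent.S16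

theorem thinv_poisson4 : thinv_Poisson4 := fun A hA s hs b => poisson_gauss 4 A hA s hs b

/-- shifted inversion formula: `∑_y e(Q(y+v)(-1/w)) = -(w²/p) ∑_m e(Q*(m) w + m·v)`,
`Q(x) = xᵀAx/2`, `Q*(m) = mᵀBm/(2p)`. -/
theorem theta_inversion (p : ℕ) [Fact p.Prime] (A B : Matrix (Fin 4) (Fin 4) ℤ)
    (hAB : IsQuatLattice p A B) (w : ℍ) (v : Fin 4 → ℝ) :
    Summable (fun y : Fin 4 → ℤ => Complex.exp (Real.pi * Complex.I *
        (∑ i, ∑ j, ((y i : ℂ) + (v i : ℂ)) * (A i j : ℂ) * ((y j : ℂ) + (v j : ℂ))) * (-1 / (w : ℂ)))) ∧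
    Summable (fun m : Fin 4 → ℤ => Complex.exp (Real.pi * Complex.I * ((m ⬝ᵥ B.mulVec m : ℤ) : ℂ) * (w : ℂ) / p
        + 2 * Real.pi * Complex.I * ∑ i, (m i : ℂ) * (v i : ℂ))) ∧
    ∑' y : Fin 4 → ℤ, Complex.exp (Real.pi * Complex.I *
        (∑ i, ∑ j, ((y i : ℂ) + (v i : ℂ)) * (A i j : ℂ) * ((y j : ℂ) + (v j : ℂ))) * (-1 / (w : ℂ)))
      = -((w : ℂ) ^ 2 / p) * ∑' m : Fin 4 → ℤ,
          Complex.exp (Real.pi * Complex.I * ((m ⬝ᵥ B.mulVec m : ℤ) : ℂ) * (w : ℂ) / p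
            + 2 * Real.pi * Complex.I * ∑ i, (m i : ℂ) * (v i : ℂ)) :=
  thinv_inversion_core p A B thinv_poisson4 hAB w v

/-- summability of the theta series itself (so `thetaFun` is an honest sum) -/
theorem thetaFun_summable (p : ℕ) [Fact p.Prime] (A B : Matrix (Fin 4) (Fin 4) ℤ)
    (hAB : IsQuatLattice p A B) (z : ℍ) :
    Summable (fun x : Fin 4 → ℤ =>
      Complex.exp (Real.pi * Complex.I * ((x ⬝ᵥ A.mulVec x : ℤ) : ℂ) * (z : ℂ))) :=
  thinv_summable_core p A B thinv_poisson4 hAB z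

/-- behaviour at the cusp 0 -/
theorem thetaFun_S (p : ℕ) [Fact p.Prime] (A B : Matrix (Fin 4) (Fin 4) ℤ)
    (hAB : IsQuatLattice p A B) (z : ℍ) :
    ((thetaFun A) ∣[(2 : ℤ)] ModularGroup.S) z = - (p : ℂ)⁻¹ *
      ∑' m : Fin 4 → ℤ, Complex.exp (Real.pi * Complex.I * ((m ⬝ᵥ B.mulVec m : ℤ) : ℂ) * (z : ℂ) / p) :=
  thinv_S_core p A B thinv_poisson4 hAB z

end Fermat.Agent.S16
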