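import Mathlib
import Fermat.Agent.S16.Defs

/-!
# S16, theta route: transformation of the quaternary theta series under `Γ₀(p)` (core)

`thetaFun A (γ z) = (c z + d)² thetaFun A z` for `γ ∈ Γ₀(p)`, from the shifted inversion formula
(package THTRANS-A), the quaternary Gauss sum (package GAUSS) and Dirichlet's theorem.
All inputs of the other packages are hypotheses here; `ThetaTransform.lean` feeds them in.
-/

set_option autoImplicit false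

open UpperHalfPlane ModularForm CongruenceSubgroup
open scoped MatrixGroups Manifold

namespace Fermat.Agent.S16

/-- `xᵀ A x` -/
def thtQ (A : Matrix (Fin 4) (Fin 4) ℤ) (x : Fin 4 → ℤ) : ℤ := x ⬝ᵥ A.mulVec x

theorem tht_dot_symm {R : Type*} [CommRing R] (A : Matrix (Fin 4) (Fin 4) R) (hA : A.IsSymm)
    (x y : Fin 4 → R) : x ⬝ᵥ A.mulVec y = y ⬝ᵥ A.mulVec x := by
  rw [Matrix.dotProduct_mulVec, ← Matrix.mulVec_transpose, hA.eq, dotProduct_comm]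

theorem thtQ_add_smul (A : Matrix (Fin 4) (Fin 4) ℤ) (hA : A.IsSymm) (g y : Fin 4 → ℤ) (d : ℤ) :
    thtQ A (g + d • y) = thtQ A g + 2 * d * (y ⬝ᵥ A.mulVec g) + d ^ 2 * thtQ A y := by
  unfold thtQ
  rw [Matrix.mulVec_add, Matrix.mulVec_smul, add_dotProduct, dotProduct_add, dotProduct_add,
    smul_dotProduct, smul_dotProduct, dotProduct_smul, dotProduct_smul,
    tht_dot_symm A hA g y]
  simp only [smul_eq_mul]
  ring

theorem thtQ_even (A : Matrix (Fin 4) (Fin 4) ℤ) (hA : A.IsSymm) (hev : ∀ i, Even (A i i))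
    (y : Fin 4 → ℤ) : Even (thtQ A y) := by
  obtain ⟨k0, hk0⟩ := hev 0
  obtain ⟨k1, hk1⟩ := hev 1
  obtain ⟨k2, hk2⟩ := hev 2
  obtain ⟨k3, hk3⟩ := hev 3
  have h10 : A 1 0 = A 0 1 := hA.apply 0 1
  have h20 : A 2 0 = A 0 2 := hA.apply 0 2
  have h30 : A 3 0 = A 0 3 := hA.apply 0 3
  have h21 : A 2 1 = A 1 2 := hA.apply 1 2
  have h31 : A 3 1 = A 1 3 := hA.apply 1 3
  have h32 : A 3 2 = A 2 3 := hA.apply 2 3
  refine ⟨k0 * y 0 ^ 2 + k1 * y 1 ^ 2 + k2 * y 2 ^ 2 + k3 * y 3 ^ 2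
    + A 0 1 * y 0 * y 1 + A 0 2 * y 0 * y 2 + A 0 3 * y 0 * y 3
    + A 1 2 * y 1 * y 2 + A 1 3 * y 1 * y 3 + A 2 3 * y 2 * y 3, ?_⟩
  simp only [thtQ, dotProduct, Matrix.mulVec, Fin.sum_univ_four]
  linear_combination (y 0 ^ 2) * hk0 + (y 1 ^ 2) * hk1 + (y 2 ^ 2) * hk2 + (y 3 ^ 2) * hk3
    + (y 0 * y 1) * h10 + (y 0 * y 2) * h20 + (y 0 * y 3) * h30
    + (y 1 * y 2) * h21 + (y 1 * y 3) * h31 + (y 2 * y 3) * h32

theorem thtQ_cast (A : Matrix (Fin 4) (Fin 4) ℤ) (x : Fin 4 → ℤ) :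
    ((thtQ A x : ℤ) : ℂ) = ∑ i, ∑ j, (x i : ℂ) * (A i j : ℂ) * (x j : ℂ) := by
  simp only [thtQ, dotProduct, Matrix.mulVec]
  push_cast
  refine Finset.sum_congr rfl fun i _ => ?_
  rw [Finset.mul_sum]
  refine Finset.sum_congr rfl fun j _ => ?_
  ring

theorem tht_vadd (A : Matrix (Fin 4) (Fin 4) ℤ) (hA : A.IsSymm) (hev : ∀ i, Even (A i i))
    (k : ℤ) (z : ℍ) : thetaFun A ((k : ℝ) +ᵥ z) = thetaFun A z := by
  unfold thetaFun
  refine tsum_congr fun x => ?_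
  obtain ⟨m, hm⟩ := thtQ_even A hA hev x
  have hx : (x ⬝ᵥ A.mulVec x : ℤ) = m + m := hm
  rw [hx, UpperHalfPlane.coe_vadd]
  have h1 : (Real.pi : ℂ) * Complex.I * ((m + m : ℤ) : ℂ) * (((k : ℝ) : ℂ) + (z : ℂ))
      = Real.pi * Complex.I * ((m + m : ℤ) : ℂ) * (z : ℂ) + ((m * k : ℤ) : ℂ) * (2 * Real.pi * Complex.I) := by
    push_cast
    ring
  rw [h1, Complex.exp_add, Complex.exp_int_mul_two_pi_mul_I, mul_one]

/-- the decomposition `x = g + d y` of `ℤ⁴` -/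
noncomputable def thtSplit (d : ℕ) [NeZero d] :
    (Fin 4 → ℤ) ≃ (Fin 4 → Fin d) × (Fin 4 → ℤ) :=
  ((Equiv.piCongrRight (fun _ : Fin 4 => Int.divModEquiv d)).trans
    (Equiv.arrowProdEquivProdArrow (Fin 4) (fun _ => ℤ) (fun _ => Fin d))).trans (Equiv.prodComm _ _)

theorem thtSplit_symm_apply (d : ℕ) [NeZero d] (g : Fin 4 → Fin d) (y : Fin 4 → ℤ) (i : Fin 4) :
    (thtSplit d).symm (g, y) i = ((g i : ℕ) : ℤ) + (d : ℤ) * y i := by
  simp [thtSplit, Int.divModEquiv, mul_comm, add_comm]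

theorem tht_tsum_split (d : ℕ) [NeZero d] (f : (Fin 4 → ℤ) → ℂ) (hf : Summable f) :
    ∑' x, f x = ∑ g : Fin 4 → Fin d, ∑' y : Fin 4 → ℤ,
      f (fun i => ((g i : ℕ) : ℤ) + (d : ℤ) * y i) := by
  have h1 : Summable (f ∘ (thtSplit d).symm) := (Equiv.summable_iff (thtSplit d).symm).mpr hf
  have h2 : ∑' x, f x = ∑' c, (f ∘ (thtSplit d).symm) c :=
    (Equiv.tsum_eq (thtSplit d).symm f).symm
  rw [h2, h1.tsum_prod' (fun g => h1.prod_factor g), tsum_fintype]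
  refine Finset.sum_congr rfl fun g _ => tsum_congr fun y => ?_
  simp only [Function.comp_apply]
  congr 1
  funext i
  exact thtSplit_symm_apply d g y i

theorem tht_summable_split (d : ℕ) [NeZero d] (f : (Fin 4 → ℤ) → ℂ) (hf : Summable f)
    (g : Fin 4 → Fin d) :
    Summable (fun y : Fin 4 → ℤ => f (fun i => ((g i : ℕ) : ℤ) + (d : ℤ) * y i)) := by
  have h1 : Summable (f ∘ (thtSplit d).symm) := (Equiv.summable_iff (thtSplit d).symm).mpr hf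
  have h2 := h1.prod_factor g
  refine h2.congr fun y => ?_
  simp only [Function.comp_apply]
  congr 1
  funext i
  exact thtSplit_symm_apply d g y i

/-- the inversion formula of package THTRANS-A (`theta_inversion`), as a hypothesis -/
def ThtInv (p : ℕ) (A B : Matrix (Fin 4) (Fin 4) ℤ) : Prop :=
  ∀ (w : ℍ) (v : Fin 4 → ℝ),
    Summable (fun y : Fin 4 → ℤ => Complex.exp (Real.pi * Complex.I *
        (∑ i, ∑ j, ((y i : ℂ) + (v i : ℂ)) * (A i j : ℂ) * ((y j : ℂ) + (v j : ℂ))) * (-1 / (w : ℂ)))) ∧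
    Summable (fun m : Fin 4 → ℤ => Complex.exp (Real.pi * Complex.I * ((m ⬝ᵥ B.mulVec m : ℤ) : ℂ) * (w : ℂ) / p
        + 2 * Real.pi * Complex.I * ∑ i, (m i : ℂ) * (v i : ℂ))) ∧
    ∑' y : Fin 4 → ℤ, Complex.exp (Real.pi * Complex.I *
        (∑ i, ∑ j, ((y i : ℂ) + (v i : ℂ)) * (A i j : ℂ) * ((y j : ℂ) + (v j : ℂ))) * (-1 / (w : ℂ)))
      = -((w : ℂ) ^ 2 / p) * ∑' m : Fin 4 → ℤ,
          Complex.exp (Real.pi * Complex.I * ((m ⬝ᵥ B.mulVec m : ℤ) : ℂ) * (w : ℂ) / p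
            + 2 * Real.pi * Complex.I * ∑ i, (m i : ℂ) * (v i : ℂ))

theorem tht_coe_S_smul (z : ℍ) : ((ModularGroup.S • z : ℍ) : ℂ) = (-(z : ℂ))⁻¹ := by
  rw [UpperHalfPlane.modular_S_smul]

theorem tht_exp_identity (Qx Qg N M a b c d z w : ℂ) (hd : d ≠ 0) (hz : z ≠ 0)
    (hcz : c * z + d ≠ 0) (hdet : a * d - b * c = 1)
    (hQ : Qx = Qg + 2 * d * N + d ^ 2 * (M + M)) (hw : w = -(c / d) + (-z)⁻¹) :
    Real.pi * Complex.I * Qx * ((a * z + b) / (c * z + d))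
      = Real.pi * Complex.I * b * Qg / d + Real.pi * Complex.I * (Qx / d ^ 2) * (-1 / w)
        + (b * N + b * d * M) * (2 * Real.pi * Complex.I) := by
  have hw' : w = -(c * z + d) / (d * z) := by
    rw [hw]; field_simp; ring
  have hw2 : -1 / w = d * z / (c * z + d) := by
    rw [hw']; field_simp
  have ha : a = (1 + b * c) / d := by
    field_simp; linear_combination hdet
  rw [hw2, hQ, ha]
  field_simp
  ring

/-- the dual series at `-1/z` in terms of `thetaFun A z` -/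
theorem tht_dual_sum (p : ℕ) (hp0 : p ≠ 0) (A B : Matrix (Fin 4) (Fin 4) ℤ)
    (hinv : ThtInv p A B) (z : ℍ) :
    ∑' m : Fin 4 → ℤ, Complex.exp (Real.pi * Complex.I * ((m ⬝ᵥ B.mulVec m : ℤ) : ℂ)
        * ((ModularGroup.S • z : ℍ) : ℂ) / p)
      = -(p : ℂ) * (z : ℂ) ^ 2 * thetaFun A z := by
  obtain ⟨-, -, h3⟩ := hinv (ModularGroup.S • z) 0
  have hz : (z : ℂ) ≠ 0 := UpperHalfPlane.ne_zero z
  have hp : (p : ℂ) ≠ 0 := by exact_mod_cast hp0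
  have hL : ∀ y : Fin 4 → ℤ, Complex.exp (Real.pi * Complex.I *
        (∑ i, ∑ j, ((y i : ℂ) + (((0 : Fin 4 → ℝ) i : ℝ) : ℂ)) * (A i j : ℂ)
          * ((y j : ℂ) + (((0 : Fin 4 → ℝ) j : ℝ) : ℂ))) * (-1 / ((ModularGroup.S • z : ℍ) : ℂ)))
      = Complex.exp (Real.pi * Complex.I * ((y ⬝ᵥ A.mulVec y : ℤ) : ℂ) * (z : ℂ)) := by
    intro y
    have := thtQ_cast A y
    unfold thtQ at this
    rw [this, tht_coe_S_smul]
    simp only [Pi.zero_apply, Complex.ofReal_zero, add_zero]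
    congr 1
    field_simp
  have hR : ∀ m : Fin 4 → ℤ, Complex.exp (Real.pi * Complex.I * ((m ⬝ᵥ B.mulVec m : ℤ) : ℂ)
        * ((ModularGroup.S • z : ℍ) : ℂ) / p
        + 2 * Real.pi * Complex.I * ∑ i, (m i : ℂ) * (((0 : Fin 4 → ℝ) i : ℝ) : ℂ))
      = Complex.exp (Real.pi * Complex.I * ((m ⬝ᵥ B.mulVec m : ℤ) : ℂ)
        * ((ModularGroup.S • z : ℍ) : ℂ) / p) := by
    intro m
    simp
  rw [tsum_congr hL, tsum_congr hR] at h3
  unfold thetaFun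
  rw [h3, tht_coe_S_smul]
  field_simp

/-- the point `w = -c/d - 1/z` -/
noncomputable def thtW (c : ℤ) (d : ℕ) (z : ℍ) : ℍ := (-(c : ℝ) / d : ℝ) +ᵥ (ModularGroup.S • z)

theorem thtW_coe (c : ℤ) (d : ℕ) (z : ℍ) :
    ((thtW c d z : ℍ) : ℂ) = -((c : ℂ) / d) + (-(z : ℂ))⁻¹ := by
  rw [thtW, UpperHalfPlane.coe_vadd, tht_coe_S_smul]
  push_cast
  ring

theorem tht_denom_ne (c : ℤ) (d : ℕ) (hd : d ≠ 0) (z : ℍ) : (c : ℂ) * z + d ≠ 0 := by
  intro h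
  have him := congrArg Complex.im h
  have hre := congrArg Complex.re h
  simp at him hre
  rcases him with hc | hz
  · rw [hc] at hre
    simp at hre
    exact hd hre
  · exact (UpperHalfPlane.im_pos z).ne' hz

theorem tht_term (A : Matrix (Fin 4) (Fin 4) ℤ) (hA : A.IsSymm) (hev : ∀ i, Even (A i i))
    (d : ℕ) (hd : d ≠ 0) (a b c : ℤ) (hdet : a * d - b * c = 1) (z : ℍ)
    (g : Fin 4 → Fin d) (y : Fin 4 → ℤ) :
    Complex.exp (Real.pi * Complex.I *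
        ((thtQ A (fun i => ((g i : ℕ) : ℤ) + (d : ℤ) * y i) : ℤ) : ℂ)
        * (((a : ℂ) * z + b) / ((c : ℂ) * z + d)))
    = Complex.exp (Real.pi * Complex.I * (b : ℂ)
          * ((thtQ A (fun i => ((g i : ℕ) : ℤ)) : ℤ) : ℂ) / d) *
      Complex.exp (Real.pi * Complex.I *
        (∑ i, ∑ j, ((y i : ℂ) + ((((g i : ℕ) : ℝ) / d : ℝ) : ℂ)) * (A i j : ℂ)
          * ((y j : ℂ) + ((((g j : ℕ) : ℝ) / d : ℝ) : ℂ))) * (-1 / ((thtW c d z : ℍ) : ℂ))) := by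
  have hdC : (d : ℂ) ≠ 0 := by exact_mod_cast hd
  have hx : (fun i => ((g i : ℕ) : ℤ) + (d : ℤ) * y i)
      = (fun i => ((g i : ℕ) : ℤ)) + (d : ℤ) • y := by
    funext i; simp
  obtain ⟨M, hM⟩ := thtQ_even A hA hev y
  have hQ := thtQ_add_smul A hA (fun i => ((g i : ℕ) : ℤ)) y (d : ℤ)
  rw [← hx, hM] at hQ
  have hQC : ((thtQ A (fun i => ((g i : ℕ) : ℤ) + (d : ℤ) * y i) : ℤ) : ℂ)
      = ((thtQ A (fun i => ((g i : ℕ) : ℤ)) : ℤ) : ℂ)
        + 2 * (d : ℂ) * ((y ⬝ᵥ A.mulVec (fun i => ((g i : ℕ) : ℤ)) : ℤ) : ℂ)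
        + (d : ℂ) ^ 2 * ((M : ℂ) + (M : ℂ)) := by
    rw [hQ]; push_cast; ring
  have hS : (∑ i, ∑ j, ((y i : ℂ) + ((((g i : ℕ) : ℝ) / d : ℝ) : ℂ)) * (A i j : ℂ)
          * ((y j : ℂ) + ((((g j : ℕ) : ℝ) / d : ℝ) : ℂ)))
      = ((thtQ A (fun i => ((g i : ℕ) : ℤ) + (d : ℤ) * y i) : ℤ) : ℂ) / (d : ℂ) ^ 2 := by
    rw [thtQ_cast, Finset.sum_div]
    refine Finset.sum_congr rfl fun i _ => ?_
    rw [Finset.sum_div]
    refine Finset.sum_congr rfl fun j _ => ?_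
    push_cast
    field_simp
    ring
  have hdetC : (a : ℂ) * (d : ℂ) - (b : ℂ) * (c : ℂ) = 1 := by exact_mod_cast hdet
  have key := tht_exp_identity
    ((thtQ A (fun i => ((g i : ℕ) : ℤ) + (d : ℤ) * y i) : ℤ) : ℂ)
    ((thtQ A (fun i => ((g i : ℕ) : ℤ)) : ℤ) : ℂ)
    ((y ⬝ᵥ A.mulVec (fun i => ((g i : ℕ) : ℤ)) : ℤ) : ℂ) (M : ℂ) a b c d z
    ((thtW c d z : ℍ) : ℂ) hdC (UpperHalfPlane.ne_zero z) (tht_denom_ne c d hd z) hdetC hQC
    (thtW_coe c d z)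
  rw [key, hS, Complex.exp_add, Complex.exp_add]
  have h1 : ((b : ℂ) * ((y ⬝ᵥ A.mulVec (fun i => ((g i : ℕ) : ℤ)) : ℤ) : ℂ) + (b : ℂ) * (d : ℂ) * (M : ℂ))
      = ((b * (y ⬝ᵥ A.mulVec (fun i => ((g i : ℕ) : ℤ))) + b * d * M : ℤ) : ℂ) := by
    push_cast; ring
  rw [h1, Complex.exp_int_mul_two_pi_mul_I, mul_one]



theorem tht_step_inner (p : ℕ) (A B : Matrix (Fin 4) (Fin 4) ℤ) (hA : A.IsSymm)
    (hev : ∀ i, Even (A i i))
    (hinv : ThtInv p A B)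
    (d : ℕ) (hd : d ≠ 0) (a b c : ℤ) (hdet : a * d - b * c = 1) (z : ℍ)
    (g : Fin 4 → Fin d) :
    ∑' y : Fin 4 → ℤ, Complex.exp (Real.pi * Complex.I *
        ((thtQ A (fun i => ((g i : ℕ) : ℤ) + (d : ℤ) * y i) : ℤ) : ℂ)
        * (((a : ℂ) * z + b) / ((c : ℂ) * z + d)))
      = Complex.exp (Real.pi * Complex.I * (b : ℂ)
            * ((thtQ A (fun i => ((g i : ℕ) : ℤ)) : ℤ) : ℂ) / d) *
        (-(((thtW c d z : ℍ) : ℂ) ^ 2 / p) * ∑' m : Fin 4 → ℤ,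
          Complex.exp (Real.pi * Complex.I * ((m ⬝ᵥ B.mulVec m : ℤ) : ℂ)
              * ((thtW c d z : ℍ) : ℂ) / p
            + 2 * Real.pi * Complex.I * ∑ i, (m i : ℂ) * ((((g i : ℕ) : ℝ) / d : ℝ) : ℂ))) := by
  rw [tsum_congr (fun y => tht_term A hA hev d hd a b c hdet z g y), tsum_mul_left]
  congr 1
  exact (hinv (thtW c d z) (fun i => ((g i : ℕ) : ℝ) / d)).2.2

/-- the theta series at `γ z`, after splitting mod `d` and inverting each class -/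
theorem tht_step (p : ℕ) (A B : Matrix (Fin 4) (Fin 4) ℤ) (hA : A.IsSymm)
    (hev : ∀ i, Even (A i i))
    (hsum : ∀ z : ℍ, Summable (fun x : Fin 4 → ℤ =>
      Complex.exp (Real.pi * Complex.I * ((x ⬝ᵥ A.mulVec x : ℤ) : ℂ) * (z : ℂ))))
    (hinv : ThtInv p A B)
    (d : ℕ) [NeZero d] (a b c : ℤ) (hdet : a * d - b * c = 1) (z z' : ℍ)
    (hz' : (z' : ℂ) = ((a : ℂ) * z + b) / ((c : ℂ) * z + d)) :
    thetaFun A z' = -(((thtW c d z : ℍ) : ℂ) ^ 2 / p) *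
      ∑' m : Fin 4 → ℤ,
        (∑ g : Fin 4 → Fin d, Complex.exp (Real.pi * Complex.I * (b : ℂ)
            * ((thtQ A (fun i => ((g i : ℕ) : ℤ)) : ℤ) : ℂ) / d) *
          Complex.exp (Real.pi * Complex.I * ((m ⬝ᵥ B.mulVec m : ℤ) : ℂ)
              * ((thtW c d z : ℍ) : ℂ) / p
            + 2 * Real.pi * Complex.I * ∑ i, (m i : ℂ) * ((((g i : ℕ) : ℝ) / d : ℝ) : ℂ))) := by
  have hd : d ≠ 0 := NeZero.ne d
  have h0 : thetaFun A z' = ∑ g : Fin 4 → Fin d, ∑' y : Fin 4 → ℤ,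
      Complex.exp (Real.pi * Complex.I *
        ((thtQ A (fun i => ((g i : ℕ) : ℤ) + (d : ℤ) * y i) : ℤ) : ℂ)
        * (((a : ℂ) * z + b) / ((c : ℂ) * z + d))) := by
    rw [← hz']
    have := tht_tsum_split d (fun x : Fin 4 → ℤ =>
      Complex.exp (Real.pi * Complex.I * ((x ⬝ᵥ A.mulVec x : ℤ) : ℂ) * (z' : ℂ))) (hsum z')
    simp only [thtQ]
    exact this
  rw [h0, Finset.sum_congr rfl (fun g _ => tht_step_inner p A B hA hev hinv d hd a b c hdet z g)]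
  have hs : ∀ g ∈ (Finset.univ : Finset (Fin 4 → Fin d)), Summable (fun m : Fin 4 → ℤ =>
      Complex.exp (Real.pi * Complex.I * (b : ℂ)
            * ((thtQ A (fun i => ((g i : ℕ) : ℤ)) : ℤ) : ℂ) / d) *
          Complex.exp (Real.pi * Complex.I * ((m ⬝ᵥ B.mulVec m : ℤ) : ℂ)
              * ((thtW c d z : ℍ) : ℂ) / p
            + 2 * Real.pi * Complex.I * ∑ i, (m i : ℂ) * ((((g i : ℕ) : ℝ) / d : ℝ) : ℂ))) :=
    fun g _ => ((hinv (thtW c d z) (fun i => ((g i : ℕ) : ℝ) / d)).2.1).mul_left _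
  rw [Summable.tsum_finsetSum hs, Finset.mul_sum]
  refine Finset.sum_congr rfl fun g _ => ?_
  rw [tsum_mul_left]
  ring

/-! ### The Gauss sum does not depend on the linear term -/

theorem tht_two_ne_zero (d : ℕ) [Fact d.Prime] (hd2 : d ≠ 2) : (2 : ZMod d) ≠ 0 := by
  intro h
  have h2 : ((2 : ℕ) : ZMod d) = 0 := by exact_mod_cast h
  rw [ZMod.natCast_eq_zero_iff] at h2
  exact hd2 ((Nat.prime_dvd_prime_iff_eq (Fact.out : d.Prime) Nat.prime_two).mp h2)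

/-- `e(E/(2d))` for an even integer `E`, via the standard additive character of `ZMod d` -/
theorem tht_exp_even (d : ℕ) [Fact d.Prime] (hd2 : d ≠ 2) (E : ℤ) (hE : Even E) :
    Complex.exp (Real.pi * Complex.I * (E : ℂ) / d)
      = ZMod.stdAddChar ((2 : ZMod d)⁻¹ * (E : ZMod d)) := by
  obtain ⟨k, rfl⟩ := hE
  have h2 := tht_two_ne_zero d hd2
  have h3 : (2 : ZMod d)⁻¹ * ((k + k : ℤ) : ZMod d) = (k : ZMod d) := by
    push_cast
    field_simp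
    ring
  rw [h3, ZMod.stdAddChar_coe]
  congr 1
  push_cast
  ring

theorem tht_cast_dot (d : ℕ) (A : Matrix (Fin 4) (Fin 4) ℤ) (x y : Fin 4 → ℤ) :
    ((x ⬝ᵥ A.mulVec y : ℤ) : ZMod d) = (fun i => (x i : ZMod d)) ⬝ᵥ
      (A.map (Int.cast : ℤ → ZMod d)).mulVec (fun i => (y i : ZMod d)) := by
  simp only [dotProduct, Matrix.mulVec, Matrix.map_apply]
  push_cast
  rfl

theorem tht_cast_dot' (d : ℕ) (x y : Fin 4 → ℤ) :
    ((x ⬝ᵥ y : ℤ) : ZMod d) = (fun i => (x i : ZMod d)) ⬝ᵥ (fun i => (y i : ZMod d)) := by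
  simp only [dotProduct]
  push_cast
  rfl

theorem tht_quad_shift {R : Type*} [CommRing R] (A B : Matrix (Fin 4) (Fin 4) R) (hA : A.IsSymm)
    (P bb cc : R) (hAB : A * B = P • (1 : Matrix (Fin 4) (Fin 4) R)) (hbc : -(bb * P * cc) = 1)
    (g m : Fin 4 → R) :
    bb * ((g + (-cc) • B.mulVec m) ⬝ᵥ A.mulVec (g + (-cc) • B.mulVec m))
      = bb * (g ⬝ᵥ A.mulVec g) - cc * (m ⬝ᵥ B.mulVec m) + 2 * (m ⬝ᵥ g) := by
  have h1 : A.mulVec (B.mulVec m) = P • m := by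
    rw [Matrix.mulVec_mulVec, hAB, Matrix.smul_mulVec, Matrix.one_mulVec]
  have h2 : B.mulVec m ⬝ᵥ A.mulVec g = P * (m ⬝ᵥ g) := by
    rw [tht_dot_symm A hA (B.mulVec m) g, h1, dotProduct_smul, smul_eq_mul, dotProduct_comm]
  rw [Matrix.mulVec_add, Matrix.mulVec_smul, h1, add_dotProduct, dotProduct_add, dotProduct_add,
    smul_dotProduct, smul_dotProduct, dotProduct_smul, dotProduct_smul, dotProduct_smul,
    dotProduct_smul, h2, dotProduct_comm g m, dotProduct_comm (B.mulVec m) m]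
  simp only [smul_eq_mul]
  linear_combination (2 * (m ⬝ᵥ g) - cc * (m ⬝ᵥ B.mulVec m)) * hbc

theorem tht_fin_cast_bijective (d : ℕ) [NeZero d] :
    Function.Bijective (fun k : Fin d => (((k : ℕ) : ℤ) : ZMod d)) := by
  rw [Fintype.bijective_iff_injective_and_card]
  refine ⟨?_, by simp [ZMod.card]⟩
  intro k₁ k₂ h
  simp only [Int.cast_natCast] at h
  rw [ZMod.natCast_eq_natCast_iff', Nat.mod_eq_of_lt k₁.isLt, Nat.mod_eq_of_lt k₂.isLt] at h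
  exact Fin.ext h

/-- the Gauss-sum summand as a function on `(ZMod d)⁴` -/
noncomputable def thtF (A : Matrix (Fin 4) (Fin 4) ℤ) (d : ℕ) [NeZero d] (b : ℤ)
    (x : Fin 4 → ZMod d) : ℂ :=
  ZMod.stdAddChar ((2 : ZMod d)⁻¹ * ((b : ZMod d) *
    (x ⬝ᵥ (A.map (Int.cast : ℤ → ZMod d)).mulVec x)))

theorem tht_sum_fin (d : ℕ) [NeZero d] (F : (Fin 4 → ZMod d) → ℂ) (t : Fin 4 → ZMod d) :
    ∑ g : Fin 4 → Fin d, F ((fun i => (((g i : ℕ) : ℤ) : ZMod d)) + t) = ∑ x, F x := by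
  let e : (Fin 4 → Fin d) ≃ (Fin 4 → ZMod d) :=
    (Equiv.piCongrRight (fun _ : Fin 4 => Equiv.ofBijective _ (tht_fin_cast_bijective d))).trans
      (Equiv.addRight t)
  exact Fintype.sum_equiv e _ _ (fun g => rfl)

theorem tht_gauss_term0 (A : Matrix (Fin 4) (Fin 4) ℤ) (hA : A.IsSymm)
    (hevA : ∀ i, Even (A i i)) (d : ℕ) [Fact d.Prime] (hd2 : d ≠ 2) (b : ℤ)
    (g : Fin 4 → Fin d) :
    Complex.exp (Real.pi * Complex.I * (b : ℂ)
            * ((thtQ A (fun i => ((g i : ℕ) : ℤ)) : ℤ) : ℂ) / d)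
      = thtF A d b ((fun i => (((g i : ℕ) : ℤ) : ZMod d)) + 0) := by
  have hE : Even (b * thtQ A (fun i => ((g i : ℕ) : ℤ))) := (thtQ_even A hA hevA _).mul_left b
  have h1 := tht_exp_even d hd2 _ hE
  rw [add_zero]
  unfold thtF
  unfold thtQ at h1 ⊢
  rw [← tht_cast_dot, ← Int.cast_mul, ← h1]
  congr 1
  push_cast
  ring

theorem tht_gauss_term1 (p : ℕ) (A B : Matrix (Fin 4) (Fin 4) ℤ) (hA : A.IsSymm)
    (hevA : ∀ i, Even (A i i)) (hAB : A * B = (p : ℤ) • (1 : Matrix (Fin 4) (Fin 4) ℤ))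
    (hB : B.IsSymm) (hevB : ∀ i, Even (B i i))
    (d : ℕ) [Fact d.Prime] (hd2 : d ≠ 2) (b c' : ℤ) (hbc : ((-(b * p * c') : ℤ) : ZMod d) = 1)
    (m : Fin 4 → ℤ) (g : Fin 4 → Fin d) :
    Complex.exp (Real.pi * Complex.I * (b : ℂ)
            * ((thtQ A (fun i => ((g i : ℕ) : ℤ)) : ℤ) : ℂ) / d) *
          Complex.exp (-(Real.pi * Complex.I * (c' : ℂ) * ((m ⬝ᵥ B.mulVec m : ℤ) : ℂ) / d)
            + 2 * Real.pi * Complex.I * ∑ i, (m i : ℂ) * ((((g i : ℕ) : ℝ) / d : ℝ) : ℂ))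
      = thtF A d b ((fun i => (((g i : ℕ) : ℤ) : ZMod d)) +
          (-(c' : ZMod d)) • (B.map (Int.cast : ℤ → ZMod d)).mulVec (fun i => (m i : ZMod d))) := by
  have hE : Even (b * thtQ A (fun i => ((g i : ℕ) : ℤ)) - c' * (m ⬝ᵥ B.mulVec m)
      + 2 * (m ⬝ᵥ (fun i => ((g i : ℕ) : ℤ)))) :=
    (((thtQ_even A hA hevA _).mul_left b).sub ((thtQ_even B hB hevB m).mul_left c')).add
      (even_two_mul _)
  have h1 := tht_exp_even d hd2 _ hE
  have hABd : (A.map (Int.cast : ℤ → ZMod d)) * (B.map (Int.cast : ℤ → ZMod d))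
      = (p : ZMod d) • (1 : Matrix (Fin 4) (Fin 4) (ZMod d)) := by
    ext i j
    have h := congrFun (congrFun hAB i) j
    simp only [Matrix.mul_apply, Matrix.smul_apply, Matrix.one_apply, Matrix.map_apply,
      smul_eq_mul] at h ⊢
    have h' := congrArg (Int.cast : ℤ → ZMod d) h
    push_cast at h'
    exact h'
  have hbc' : -((b : ZMod d) * (p : ZMod d) * (c' : ZMod d)) = 1 := by
    rw [← hbc]; push_cast; ring
  have hAd : (A.map (Int.cast : ℤ → ZMod d)).IsSymm := by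
    ext i j
    simp only [Matrix.transpose_apply, Matrix.map_apply]
    rw [hA.apply]
  unfold thtF
  rw [tht_quad_shift _ _ hAd _ _ _ hABd hbc', ← tht_cast_dot, ← tht_cast_dot, ← tht_cast_dot']
  have h2 : (b : ZMod d) * ((thtQ A (fun i => ((g i : ℕ) : ℤ)) : ℤ) : ZMod d)
      - (c' : ZMod d) * ((m ⬝ᵥ B.mulVec m : ℤ) : ZMod d)
      + 2 * ((m ⬝ᵥ (fun i => ((g i : ℕ) : ℤ)) : ℤ) : ZMod d)
      = ((b * thtQ A (fun i => ((g i : ℕ) : ℤ)) - c' * (m ⬝ᵥ B.mulVec m)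
      + 2 * (m ⬝ᵥ (fun i => ((g i : ℕ) : ℤ))) : ℤ) : ZMod d) := by
    push_cast; ring
  unfold thtQ at h2 h1 ⊢
  rw [h2, ← h1, ← Complex.exp_add]
  congr 1
  have h3 : ∑ i, (m i : ℂ) * ((((g i : ℕ) : ℝ) / d : ℝ) : ℂ)
      = ((m ⬝ᵥ (fun i => ((g i : ℕ) : ℤ)) : ℤ) : ℂ) / d := by
    simp only [dotProduct]
    push_cast
    rw [Finset.sum_div]
    refine Finset.sum_congr rfl fun i _ => ?_
    ring
  rw [h3]
  push_cast
  ring

theorem tht_gauss_shift (p : ℕ) (A B : Matrix (Fin 4) (Fin 4) ℤ) (hA : A.IsSymm)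
    (hevA : ∀ i, Even (A i i)) (hAB : A * B = (p : ℤ) • (1 : Matrix (Fin 4) (Fin 4) ℤ))
    (hB : B.IsSymm) (hevB : ∀ i, Even (B i i))
    (d : ℕ) [Fact d.Prime] (hd2 : d ≠ 2) (b c' : ℤ) (hbc : ((-(b * p * c') : ℤ) : ZMod d) = 1)
    (m : Fin 4 → ℤ) :
    ∑ g : Fin 4 → Fin d, Complex.exp (Real.pi * Complex.I * (b : ℂ)
            * ((thtQ A (fun i => ((g i : ℕ) : ℤ)) : ℤ) : ℂ) / d) *
          Complex.exp (-(Real.pi * Complex.I * (c' : ℂ) * ((m ⬝ᵥ B.mulVec m : ℤ) : ℂ) / d)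
            + 2 * Real.pi * Complex.I * ∑ i, (m i : ℂ) * ((((g i : ℕ) : ℝ) / d : ℝ) : ℂ))
      = ∑ g : Fin 4 → Fin d, Complex.exp (Real.pi * Complex.I * (b : ℂ)
            * ((thtQ A (fun i => ((g i : ℕ) : ℤ)) : ℤ) : ℂ) / d) := by
  rw [Finset.sum_congr rfl (fun g _ => tht_gauss_term1 p A B hA hevA hAB hB hevB d hd2 b c' hbc m g),
    Finset.sum_congr rfl (fun g _ => tht_gauss_term0 A hA hevA d hd2 b g),
    tht_sum_fin, tht_sum_fin]

theorem tht_prime_case (p : ℕ) (hp0 : p ≠ 0) (A B : Matrix (Fin 4) (Fin 4) ℤ) (hA : A.IsSymm)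
    (hevA : ∀ i, Even (A i i)) (hAB : A * B = (p : ℤ) • (1 : Matrix (Fin 4) (Fin 4) ℤ))
    (hB : B.IsSymm) (hevB : ∀ i, Even (B i i))
    (hsum : ∀ z : ℍ, Summable (fun x : Fin 4 → ℤ =>
      Complex.exp (Real.pi * Complex.I * ((x ⬝ᵥ A.mulVec x : ℤ) : ℂ) * (z : ℂ))))
    (hinv : ThtInv p A B)
    (d : ℕ) [Fact d.Prime] (hd2 : d ≠ 2) (a b c' : ℤ)
    (hgauss : ∑ g : Fin 4 → Fin d, Complex.exp (Real.pi * Complex.I * (b : ℂ)
            * ((thtQ A (fun i => ((g i : ℕ) : ℤ)) : ℤ) : ℂ) / d) = (d : ℂ) ^ 2)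
    (hdet : a * d - b * (p * c') = 1) (z z' : ℍ)
    (hz' : (z' : ℂ) = ((a : ℂ) * z + b) / (((p * c' : ℤ) : ℂ) * z + d)) :
    thetaFun A z' = ((((p * c' : ℤ) : ℂ) * z + d) ^ 2) * thetaFun A z := by
  have : NeZero d := ⟨(Fact.out : d.Prime).ne_zero⟩
  have hd : (d : ℂ) ≠ 0 := by exact_mod_cast (Fact.out : d.Prime).ne_zero
  have hp : (p : ℂ) ≠ 0 := by exact_mod_cast hp0
  have hz : (z : ℂ) ≠ 0 := UpperHalfPlane.ne_zero z
  have hstep := tht_step p A B hA hevA hsum hinv d a b (p * c') hdet z z' hz'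
  have hbc : ((-(b * p * c') : ℤ) : ZMod d) = 1 := by
    have h : -(b * p * c') = 1 - a * d := by linarith
    rw [h]; push_cast; simp
  have hw := thtW_coe (p * c') d z
  have hterm : ∀ m : Fin 4 → ℤ,
      (∑ g : Fin 4 → Fin d, Complex.exp (Real.pi * Complex.I * (b : ℂ)
            * ((thtQ A (fun i => ((g i : ℕ) : ℤ)) : ℤ) : ℂ) / d) *
          Complex.exp (Real.pi * Complex.I * ((m ⬝ᵥ B.mulVec m : ℤ) : ℂ)
              * ((thtW (p * c') d z : ℍ) : ℂ) / p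
            + 2 * Real.pi * Complex.I * ∑ i, (m i : ℂ) * ((((g i : ℕ) : ℝ) / d : ℝ) : ℂ)))
      = (d : ℂ) ^ 2 * Complex.exp (Real.pi * Complex.I * ((m ⬝ᵥ B.mulVec m : ℤ) : ℂ)
        * ((ModularGroup.S • z : ℍ) : ℂ) / p) := by
    intro m
    have h1 : ∀ g : Fin 4 → Fin d,
        Complex.exp (Real.pi * Complex.I * (b : ℂ)
            * ((thtQ A (fun i => ((g i : ℕ) : ℤ)) : ℤ) : ℂ) / d) *
          Complex.exp (Real.pi * Complex.I * ((m ⬝ᵥ B.mulVec m : ℤ) : ℂ)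
              * ((thtW (p * c') d z : ℍ) : ℂ) / p
            + 2 * Real.pi * Complex.I * ∑ i, (m i : ℂ) * ((((g i : ℕ) : ℝ) / d : ℝ) : ℂ))
        = (Complex.exp (Real.pi * Complex.I * (b : ℂ)
            * ((thtQ A (fun i => ((g i : ℕ) : ℤ)) : ℤ) : ℂ) / d) *
          Complex.exp (-(Real.pi * Complex.I * (c' : ℂ) * ((m ⬝ᵥ B.mulVec m : ℤ) : ℂ) / d)
            + 2 * Real.pi * Complex.I * ∑ i, (m i : ℂ) * ((((g i : ℕ) : ℝ) / d : ℝ) : ℂ)))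
          * Complex.exp (Real.pi * Complex.I * ((m ⬝ᵥ B.mulVec m : ℤ) : ℂ)
              * ((ModularGroup.S • z : ℍ) : ℂ) / p) := by
      intro g
      have hexp : Complex.exp (Real.pi * Complex.I * ((m ⬝ᵥ B.mulVec m : ℤ) : ℂ)
              * ((thtW (p * c') d z : ℍ) : ℂ) / p
            + 2 * Real.pi * Complex.I * ∑ i, (m i : ℂ) * ((((g i : ℕ) : ℝ) / d : ℝ) : ℂ))
          = Complex.exp (-(Real.pi * Complex.I * (c' : ℂ) * ((m ⬝ᵥ B.mulVec m : ℤ) : ℂ) / d)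
            + 2 * Real.pi * Complex.I * ∑ i, (m i : ℂ) * ((((g i : ℕ) : ℝ) / d : ℝ) : ℂ))
          * Complex.exp (Real.pi * Complex.I * ((m ⬝ᵥ B.mulVec m : ℤ) : ℂ)
              * ((ModularGroup.S • z : ℍ) : ℂ) / p) := by
        rw [← Complex.exp_add]
        congr 1
        rw [hw, tht_coe_S_smul]
        generalize (∑ i, (m i : ℂ) * ((((g i : ℕ) : ℝ) / d : ℝ) : ℂ)) = Sg
        push_cast
        field_simp
        ring
      rw [hexp]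
      exact (mul_assoc _ _ _).symm
    rw [Finset.sum_congr rfl (fun g _ => h1 g), ← Finset.sum_mul,
      tht_gauss_shift p A B hA hevA hAB hB hevB d hd2 b c' hbc m, hgauss]
  rw [hstep, tsum_congr hterm, tsum_mul_left, tht_dual_sum p hp0 A B hinv z, hw]
  push_cast
  field_simp
  ring

theorem tht_prime_slash (p : ℕ) (hp0 : p ≠ 0) (A B : Matrix (Fin 4) (Fin 4) ℤ) (hA : A.IsSymm)
    (hevA : ∀ i, Even (A i i)) (hAB : A * B = (p : ℤ) • (1 : Matrix (Fin 4) (Fin 4) ℤ))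
    (hB : B.IsSymm) (hevB : ∀ i, Even (B i i))
    (hsum : ∀ z : ℍ, Summable (fun x : Fin 4 → ℤ =>
      Complex.exp (Real.pi * Complex.I * ((x ⬝ᵥ A.mulVec x : ℤ) : ℂ) * (z : ℂ))))
    (hinv : ThtInv p A B)
    (d : ℕ) [Fact d.Prime] (hd2 : d ≠ 2) (γ : SL(2, ℤ)) (c' : ℤ)
    (hγc : γ 1 0 = p * c') (hγd : γ 1 1 = d)
    (hgauss : ∑ g : Fin 4 → Fin d, Complex.exp (Real.pi * Complex.I * ((γ 0 1 : ℤ) : ℂ)
            * ((thtQ A (fun i => ((g i : ℕ) : ℤ)) : ℤ) : ℂ) / d) = (d : ℂ) ^ 2) :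
    thetaFun A ∣[(2 : ℤ)] γ = thetaFun A := by
  have hd0 : d ≠ 0 := (Fact.out : d.Prime).ne_zero
  ext z
  rw [SL_slash_apply, ModularGroup.denom_apply]
  have hdet : γ 0 0 * d - γ 0 1 * (p * c') = 1 := by
    have h := γ.det_coe
    rw [Matrix.det_fin_two] at h
    rw [← hγd, ← hγc]
    linarith
  have hz' : ((γ • z : ℍ) : ℂ)
      = ((γ 0 0 : ℂ) * z + (γ 0 1 : ℂ)) / (((p * c' : ℤ) : ℂ) * z + d) := by
    rw [UpperHalfPlane.coe_specialLinearGroup_apply]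
    simp [hγc, hγd]
  rw [tht_prime_case p hp0 A B hA hevA hAB hB hevB hsum hinv d hd2 (γ 0 0) (γ 0 1) c' hgauss hdet
    z (γ • z) hz', hγc, hγd]
  have hne := tht_denom_ne (p * c') d hd0 z
  push_cast at hne ⊢
  field_simp

theorem tht_T_slash (A : Matrix (Fin 4) (Fin 4) ℤ) (hA : A.IsSymm) (hev : ∀ i, Even (A i i))
    (n : ℤ) : thetaFun A ∣[(2 : ℤ)] (ModularGroup.T ^ n) = thetaFun A := by
  ext z
  rw [SL_slash_apply, ModularGroup.denom_apply, UpperHalfPlane.modular_T_zpow_smul,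
    ModularGroup.coe_T_zpow, tht_vadd A hA hev n z]
  simp

theorem tht_exists_prime (c d : ℤ) (hc : c ≠ 0) (hcd : IsCoprime c d) (N : ℕ) :
    ∃ (P : ℕ) (k : ℤ), P.Prime ∧ N < P ∧ (P : ℤ) = c * k + d := by
  have : NeZero c.natAbs := ⟨Int.natAbs_ne_zero.mpr hc⟩
  have hu : IsUnit ((d : ZMod c.natAbs)) := by
    rw [ZMod.coe_int_isUnit_iff_isCoprime]
    have h1 : IsCoprime (c.natAbs : ℤ) d := by
      rcases Int.natAbs_eq c with h | h
      · rw [← h]; exact hcd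
      · have h2 : ((c.natAbs : ℕ) : ℤ) = -c := by omega
        rw [h2]; exact hcd.neg_left
    exact h1
  obtain ⟨P, hPN, hP, hPd⟩ := Nat.forall_exists_prime_gt_and_eq_mod hu N
  have h3 : ((d : ℤ) : ZMod c.natAbs) = ((P : ℤ) : ZMod c.natAbs) := by
    rw [← hPd]; simp
  rw [ZMod.intCast_eq_intCast_iff_dvd_sub] at h3
  obtain ⟨k, hk⟩ := Int.natAbs_dvd.mp h3
  exact ⟨P, k, hP, hPN, by linarith⟩

theorem thetaFun_slash_core (p : ℕ) [Fact p.Prime] (A B : Matrix (Fin 4) (Fin 4) ℤ)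
    (hA : A.IsSymm) (hevA : ∀ i, Even (A i i))
    (hAB : A * B = (p : ℤ) • (1 : Matrix (Fin 4) (Fin 4) ℤ))
    (hB : B.IsSymm) (hevB : ∀ i, Even (B i i))
    (hsum : ∀ z : ℍ, Summable (fun x : Fin 4 → ℤ =>
      Complex.exp (Real.pi * Complex.I * ((x ⬝ᵥ A.mulVec x : ℤ) : ℂ) * (z : ℂ))))
    (hinv : ThtInv p A B)
    (hgauss : ∀ (d : ℕ), d.Prime → d ≠ 2 → d ≠ p → ∀ b : ℤ, ¬ (d : ℤ) ∣ b →
      ∑ g : Fin 4 → Fin d, Complex.exp (Real.pi * Complex.I * (b : ℂ) *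
        ((((fun i => ((g i : ℕ) : ℤ)) ⬝ᵥ A.mulVec (fun i => ((g i : ℕ) : ℤ)) : ℤ) : ℂ)) / d)
      = (d : ℂ) ^ 2)
    (γ : SL(2, ℤ)) (hγ : γ ∈ Gamma0 p) : thetaFun A ∣[(2 : ℤ)] γ = thetaFun A := by
  have hp0 : p ≠ 0 := (Fact.out : p.Prime).ne_zero
  rw [Gamma0_mem] at hγ
  obtain ⟨c', hc'⟩ := (ZMod.intCast_zmod_eq_zero_iff_dvd _ _).mp hγ
  have hdet := γ.det_coe
  rw [Matrix.det_fin_two] at hdet
  by_cases hc : γ 1 0 = 0
  · -- translations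
    rw [hc, mul_zero, sub_zero] at hdet
    ext z
    rw [SL_slash_apply, ModularGroup.denom_apply, hc]
    rcases Int.eq_one_or_neg_one_of_mul_eq_one' hdet with ⟨h00, h11⟩ | ⟨h00, h11⟩
    · have hz : γ • z = ((γ 0 1 : ℤ) : ℝ) +ᵥ z := by
        apply UpperHalfPlane.ext
        rw [UpperHalfPlane.coe_specialLinearGroup_apply, UpperHalfPlane.coe_vadd]
        simp [hc, h00, h11]
        ring
      rw [hz, tht_vadd A hA hevA, h11]
      simp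
    · have hz : γ • z = ((-(γ 0 1) : ℤ) : ℝ) +ᵥ z := by
        apply UpperHalfPlane.ext
        rw [UpperHalfPlane.coe_specialLinearGroup_apply, UpperHalfPlane.coe_vadd]
        simp [hc, h00, h11]
        ring
      rw [hz, tht_vadd A hA hevA, h11]
      simp
  · have hcop : IsCoprime (γ 1 0) (γ 1 1) := ⟨-γ 0 1, γ 0 0, by linarith⟩
    obtain ⟨P, k, hP, hPN, hPk⟩ := tht_exists_prime (γ 1 0) (γ 1 1) hc hcop (max 2 p)
    have : Fact P.Prime := ⟨hP⟩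
    have hP2 : P ≠ 2 := by
      have := le_max_left 2 p
      omega
    have hPp : P ≠ p := by
      have := le_max_right 2 p
      omega
    have h10 : (γ * ModularGroup.T ^ k) 1 0 = γ 1 0 := by
      simp [Matrix.mul_apply, Fin.sum_univ_two, ModularGroup.coe_T_zpow]
    have h11 : (γ * ModularGroup.T ^ k) 1 1 = γ 1 0 * k + γ 1 1 := by
      simp [Matrix.mul_apply, Fin.sum_univ_two, ModularGroup.coe_T_zpow]
    have key : thetaFun A ∣[(2 : ℤ)] (γ * ModularGroup.T ^ k) = thetaFun A := by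
      refine tht_prime_slash p hp0 A B hA hevA hAB hB hevB hsum hinv P hP2
        (γ * ModularGroup.T ^ k) c' (h10.trans hc') (h11.trans hPk.symm) ?_
      refine hgauss P hP hP2 hPp _ ?_
      intro hdvd
      have hdet' := (γ * ModularGroup.T ^ k).det_coe
      rw [Matrix.det_fin_two, h11, ← hPk] at hdet'
      have h1 : (P : ℤ) ∣ 1 := by
        rw [← hdet']
        exact dvd_sub (Dvd.intro_left _ rfl) (Dvd.dvd.mul_right hdvd _)
      have h2 : (P : ℤ) = 1 ∨ (P : ℤ) = -1 := Int.isUnit_iff.mp (isUnit_of_dvd_one h1)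
      have h3 := hP.two_le
      omega
    have hγk : γ = (γ * ModularGroup.T ^ k) * ModularGroup.T ^ (-k) := by
      rw [mul_assoc, ← zpow_add, add_neg_cancel, zpow_zero, mul_one]
    rw [hγk, SlashAction.slash_mul, key, tht_T_slash A hA hevA]

end Fermat.Agent.S16
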