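import Fermat.Agent.S16.ThetaFormCore
import Fermat.Agent.S16.Lattice
import Fermat.Agent.S16.ThetaInv
import Fermat.Agent.S16.GaussSum
import Fermat.Agent.S16.ThetaTransformCore

/-!
# S16, package THFORM: the theta series of an even quaternary lattice of level `p`

`exists_theta`: for every prime `p ≥ 5` there is a modular form `Θ` of weight 2 on `Γ₀(p)` with
constant term `1` and even higher `q`-coefficients (theta series of an even positive definite
quaternary lattice of determinant `p²` and level `p`).  Assembly of `ThetaFormCore`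
(holomorphy, `q`-expansion, boundedness at the cusps), `Lattice` (existence of the lattice),
`ThetaInv` (inversion formula, summability, cusp `0`), `GaussSum` and `ThetaTransformCore`
(`Γ₀(p)`-invariance).
-/

set_option autoImplicit false

open UpperHalfPlane ModularForm CongruenceSubgroup
open scoped MatrixGroups Manifold

namespace Fermat.Agent.S16

/-- `Γ₀(p)`-invariance of the theta series (assembly of the landed theta packages). -/
theorem thf_thetaFun_slash (p : ℕ) [Fact p.Prime] (hp : p ≠ 2) (A B : Matrix (Fin 4) (Fin 4) ℤ)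
    (hAB : IsQuatLattice p A B) (γ : SL(2, ℤ)) (hγ : γ ∈ Gamma0 p) :
    (thetaFun A) ∣[(2 : ℤ)] γ = thetaFun A := by
  obtain ⟨hB, hevB, -⟩ := hAB.even_B hp
  exact thetaFun_slash_core p A B hAB.1 hAB.2.1 hAB.2.2.2.1 hB hevB
    (thetaFun_summable p A B hAB) (fun w v => theta_inversion p A B hAB w v)
    (fun d hd hd2 hdp b hb => gaussSum_quat p A B hAB d hd hd2 hdp b hb) γ hγ

theorem exists_theta (p : ℕ) [Fact p.Prime] (hp5 : 5 ≤ p) : ∃ Θ : ModularForm (Gamma0 p) 2,
    ModularFormClass.qCoeff (⇑Θ) 0 = 1 ∧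
    ∀ k : ℕ, 1 ≤ k → ∃ m : ℤ, ModularFormClass.qCoeff (⇑Θ) k = 2 * (m : ℂ) := by
  have hp2 : p ≠ 2 := by omega
  obtain ⟨A, B, hAB⟩ := exists_quatLattice p hp2
  obtain ⟨Θ, -, h0, h1⟩ := thf_exists_theta_core p A B hAB (thetaFun_summable p A B hAB)
    (fun z => by simpa using (theta_inversion p A B hAB z (fun _ => 0)).2.1)
    (thf_thetaFun_slash p hp2 A B hAB) (thetaFun_S p A B hAB)
  exact ⟨Θ, h0, h1⟩

end Fermat.Agent.S16
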