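import Mathlib
import Fermat.Prelude.Thm_CongruenceSubgroup_one_mem_strictPeriods_Gamma0
import Fermat.Agent.S16.Defs

set_option autoImplicit false

open UpperHalfPlane ModularForm CongruenceSubgroup
open scoped MatrixGroups Manifold

namespace Fermat.Agent.S16

theorem thf_pos {A : Matrix (Fin 4) (Fin 4) ℤ} (hA : (A.map (Int.cast : ℤ → ℝ)).PosDef)
    {x : Fin 4 → ℤ} (hx : x ≠ 0) : 0 < x ⬝ᵥ A.mulVec x := by
  have hx' : (fun i => (x i : ℝ)) ≠ 0 := by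
    intro h
    apply hx
    funext i
    have := congrFun h i
    simpa using this
  have h1 := hA.dotProduct_mulVec_pos hx'
  have h2 : star (fun i => (x i : ℝ)) ⬝ᵥ (A.map (Int.cast : ℤ → ℝ)).mulVec (fun i => (x i : ℝ))
      = ((x ⬝ᵥ A.mulVec x : ℤ) : ℝ) := by
    simp [dotProduct, Matrix.mulVec, Matrix.map_apply]
  rw [h2] at h1
  exact_mod_cast h1

theorem thf_nonneg {A : Matrix (Fin 4) (Fin 4) ℤ} (hA : (A.map (Int.cast : ℤ → ℝ)).PosDef)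
    (x : Fin 4 → ℤ) : 0 ≤ x ⬝ᵥ A.mulVec x := by
  by_cases hx : x = 0
  · subst hx; simp
  · exact (thf_pos hA hx).le

theorem thf_eq_zero_iff {A : Matrix (Fin 4) (Fin 4) ℤ} (hA : (A.map (Int.cast : ℤ → ℝ)).PosDef)
    (x : Fin 4 → ℤ) : x ⬝ᵥ A.mulVec x = 0 ↔ x = 0 := by
  constructor
  · intro h
    by_contra hx
    exact (thf_pos hA hx).ne' h
  · rintro rfl; simp

theorem thf_even {A : Matrix (Fin 4) (Fin 4) ℤ} (hs : A.IsSymm) (he : ∀ i, Even (A i i))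
    (x : Fin 4 → ℤ) : Even (x ⬝ᵥ A.mulVec x) := by
  obtain ⟨c0, h0⟩ := he 0
  obtain ⟨c1, h1⟩ := he 1
  obtain ⟨c2, h2⟩ := he 2
  obtain ⟨c3, h3⟩ := he 3
  have s10 : A 1 0 = A 0 1 := hs.apply 0 1
  have s20 : A 2 0 = A 0 2 := hs.apply 0 2
  have s30 : A 3 0 = A 0 3 := hs.apply 0 3
  have s21 : A 2 1 = A 1 2 := hs.apply 1 2
  have s31 : A 3 1 = A 1 3 := hs.apply 1 3
  have s32 : A 3 2 = A 2 3 := hs.apply 2 3
  refine ⟨c0 * x 0 ^ 2 + c1 * x 1 ^ 2 + c2 * x 2 ^ 2 + c3 * x 3 ^ 2 + A 0 1 * x 0 * x 1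
    + A 0 2 * x 0 * x 2 + A 0 3 * x 0 * x 3 + A 1 2 * x 1 * x 2 + A 1 3 * x 1 * x 3
    + A 2 3 * x 2 * x 3, ?_⟩
  simp only [dotProduct, Matrix.mulVec, Fin.sum_univ_four]
  rw [h0, h1, h2, h3, s10, s20, s30, s21, s31, s32]
  ring

theorem thf_neg (A : Matrix (Fin 4) (Fin 4) ℤ) (x : Fin 4 → ℤ) :
    (-x) ⬝ᵥ A.mulVec (-x) = x ⬝ᵥ A.mulVec x := by
  simp [Matrix.mulVec_neg]

/-- the exponent map `x ↦ Q(x) / 2` -/
def thfG (A : Matrix (Fin 4) (Fin 4) ℤ) (x : Fin 4 → ℤ) : ℕ := (x ⬝ᵥ A.mulVec x).toNat / 2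

/-- representation numbers -/
noncomputable def thfR (A : Matrix (Fin 4) (Fin 4) ℤ) (c : ℕ) : ℕ := Nat.card ↑(thfG A ⁻¹' {c})

theorem thf_two_mul_G {A : Matrix (Fin 4) (Fin 4) ℤ} (hs : A.IsSymm) (he : ∀ i, Even (A i i))
    (hA : (A.map (Int.cast : ℤ → ℝ)).PosDef) (x : Fin 4 → ℤ) :
    ((2 * thfG A x : ℕ) : ℤ) = x ⬝ᵥ A.mulVec x := by
  have h1 := thf_nonneg hA x
  obtain ⟨r, hr⟩ := thf_even hs he x
  unfold thfG
  omega

theorem thfG_eq_zero_iff {A : Matrix (Fin 4) (Fin 4) ℤ} (hs : A.IsSymm) (he : ∀ i, Even (A i i))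
    (hA : (A.map (Int.cast : ℤ → ℝ)).PosDef) (x : Fin 4 → ℤ) : thfG A x = 0 ↔ x = 0 := by
  rw [← thf_eq_zero_iff hA x, ← thf_two_mul_G hs he hA x]
  omega

theorem thfR_zero {A : Matrix (Fin 4) (Fin 4) ℤ} (hs : A.IsSymm) (he : ∀ i, Even (A i i))
    (hA : (A.map (Int.cast : ℤ → ℝ)).PosDef) : thfR A 0 = 1 := by
  have h : thfG A ⁻¹' {0} = {0} := by
    ext x
    simp [thfG_eq_zero_iff hs he hA]
  unfold thfR
  rw [h]
  simp

theorem thfR_even {A : Matrix (Fin 4) (Fin 4) ℤ} (hs : A.IsSymm) (he : ∀ i, Even (A i i))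
    (hA : (A.map (Int.cast : ℤ → ℝ)).PosDef) (k : ℕ) (hk : 1 ≤ k) : Even (thfR A k) := by
  unfold thfR
  by_cases hfin : (thfG A ⁻¹' {k}).Finite
  · rw [Nat.card_coe_set_eq, Set.ncard_eq_toFinset_card _ hfin]
    rw [← ZMod.natCast_eq_zero_iff_even, Finset.card_eq_sum_ones, Nat.cast_sum]
    refine Finset.sum_involution (fun a _ => -a) ?_ ?_ ?_ ?_
    · intro a _
      simp only [Nat.cast_one]
      decide
    · intro a ha _ h
      have ha' : thfG A a = k := by simpa using ha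
      have h0 : a = 0 := by
        funext i
        have := congrFun h i
        simp only [Pi.neg_apply, Pi.zero_apply] at this ⊢
        omega
      rw [h0, (thfG_eq_zero_iff hs he hA 0).mpr rfl] at ha'
      omega
    · intro a ha
      have ha' : thfG A a = k := by simpa using ha
      simp only [Set.Finite.mem_toFinset, Set.mem_preimage, Set.mem_singleton_iff]
      rw [← ha']
      unfold thfG
      rw [thf_neg]
    · intro a _
      simp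
  · have : Infinite ↑(thfG A ⁻¹' {k}) := Set.infinite_coe_iff.mpr hfin
    rw [Nat.card_eq_zero_of_infinite]
    exact Even.zero

/-- the general term of the theta series is a power of the `q`-parameter -/
theorem thf_term_eq {A : Matrix (Fin 4) (Fin 4) ℤ} (hs : A.IsSymm) (he : ∀ i, Even (A i i))
    (hA : (A.map (Int.cast : ℤ → ℝ)).PosDef) (x : Fin 4 → ℤ) (z : ℂ) :
    Complex.exp (Real.pi * Complex.I * ((x ⬝ᵥ A.mulVec x : ℤ) : ℂ) * z)
      = Function.Periodic.qParam 1 z ^ thfG A x := by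
  rw [← thf_two_mul_G hs he hA x, Function.Periodic.qParam, ← Complex.exp_nat_mul]
  congr 1
  push_cast
  ring

/-- the `q`-expansion of the theta series -/
theorem thf_hasSum {A : Matrix (Fin 4) (Fin 4) ℤ} (hs : A.IsSymm) (he : ∀ i, Even (A i i))
    (hA : (A.map (Int.cast : ℤ → ℝ)).PosDef)
    (hsum : ∀ z : ℍ, Summable (fun x : Fin 4 → ℤ =>
      Complex.exp (Real.pi * Complex.I * ((x ⬝ᵥ A.mulVec x : ℤ) : ℂ) * (z : ℂ))))
    (τ : ℍ) :
    HasSum (fun m : ℕ => (thfR A m : ℂ) • Function.Periodic.qParam 1 (τ : ℂ) ^ m) (thetaFun A τ) := by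
  have h1 : HasSum (fun x : Fin 4 → ℤ =>
      Complex.exp (Real.pi * Complex.I * ((x ⬝ᵥ A.mulVec x : ℤ) : ℂ) * (τ : ℂ))) (thetaFun A τ) :=
    (hsum τ).hasSum
  have h2 := h1.tsum_fiberwise (thfG A)
  have h3 : (fun c : ℕ => ∑' b : ↑(thfG A ⁻¹' {c}),
      Complex.exp (Real.pi * Complex.I * (((b : Fin 4 → ℤ) ⬝ᵥ A.mulVec b : ℤ) : ℂ) * (τ : ℂ)))
      = fun m : ℕ => (thfR A m : ℂ) • Function.Periodic.qParam 1 (τ : ℂ) ^ m := by
    funext c
    have h4 : ∀ b : ↑(thfG A ⁻¹' {c}),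
        Complex.exp (Real.pi * Complex.I * (((b : Fin 4 → ℤ) ⬝ᵥ A.mulVec b : ℤ) : ℂ) * (τ : ℂ))
          = Function.Periodic.qParam 1 (τ : ℂ) ^ c := by
      rintro ⟨b, hb⟩
      have hb' : thfG A b = c := by simpa using hb
      rw [thf_term_eq hs he hA, hb']
    rw [tsum_congr h4, tsum_const, thfR, nsmul_eq_mul, smul_eq_mul]
  rw [h3] at h2
  exact h2

theorem thf_norm_term (n : ℤ) (z : ℂ) :
    ‖Complex.exp (Real.pi * Complex.I * (n : ℂ) * z)‖ = Real.exp (-(Real.pi * n * z.im)) := by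
  rw [Complex.norm_exp]
  congr 1
  simp [Complex.mul_re, Complex.mul_im]

/-- holomorphy of the theta series -/
theorem thf_mdiff {A : Matrix (Fin 4) (Fin 4) ℤ}
    (hA : (A.map (Int.cast : ℤ → ℝ)).PosDef)
    (hsum : ∀ z : ℍ, Summable (fun x : Fin 4 → ℤ =>
      Complex.exp (Real.pi * Complex.I * ((x ⬝ᵥ A.mulVec x : ℤ) : ℂ) * (z : ℂ)))) :
    MDiff (thetaFun A) := by
  rw [UpperHalfPlane.mdifferentiable_iff]
  intro z0 hz0
  have hz0' : 0 < z0.im := hz0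
  set δ : ℝ := z0.im / 2 with hδ
  have hδ0 : 0 < δ := by positivity
  set U : Set ℂ := {z : ℂ | δ < z.im} with hU
  have hUo : IsOpen U := isOpen_lt continuous_const Complex.continuous_im
  have hz0U : z0 ∈ U := by
    show δ < z0.im
    rw [hδ]; linarith
  let w0 : ℍ := ⟨(δ : ℂ) * Complex.I, by simpa using hδ0⟩
  have hu : Summable (fun x : Fin 4 → ℤ => Real.exp (-(Real.pi * (x ⬝ᵥ A.mulVec x : ℤ) * δ))) := by
    have h := (hsum w0).norm
    refine h.congr fun x => ?_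
    rw [thf_norm_term]
    simp [w0]
  have hd : DifferentiableOn ℂ (fun w : ℂ => ∑' x : Fin 4 → ℤ,
      Complex.exp (Real.pi * Complex.I * ((x ⬝ᵥ A.mulVec x : ℤ) : ℂ) * w)) U := by
    refine Complex.differentiableOn_tsum_of_summable_norm hu (fun x => ?_) hUo (fun x w hw => ?_)
    · exact (Complex.differentiable_exp.comp
        (differentiable_id.const_mul _)).differentiableOn
    · rw [thf_norm_term]
      apply Real.exp_le_exp.mpr
      have h1 : (0 : ℝ) ≤ ((x ⬝ᵥ A.mulVec x : ℤ) : ℝ) := by exact_mod_cast thf_nonneg hA x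
      have h2 : δ < w.im := hw
      have h3 : Real.pi * ((x ⬝ᵥ A.mulVec x : ℤ) : ℝ) * δ ≤ Real.pi * ((x ⬝ᵥ A.mulVec x : ℤ) : ℝ) * w.im :=
        mul_le_mul_of_nonneg_left h2.le (mul_nonneg Real.pi_pos.le h1)
      linarith
  have hd' : DifferentiableOn ℂ (thetaFun A ∘ ofComplex) U := by
    refine hd.congr fun w hw => ?_
    have hw' : 0 < w.im := lt_trans hδ0 hw
    simp only [Function.comp_apply, ofComplex_apply_of_im_pos hw', thetaFun]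
  exact (hd'.differentiableAt (hUo.mem_nhds hz0U)).differentiableWithinAt

/-- a holomorphic function, invariant under `Γ₀(p)` in weight `k` and bounded at all cusps, is
a modular form -/
theorem thf_mkForm (p : ℕ) [NeZero p] (k : ℤ) (F : ℍ → ℂ) (hol : MDiff F)
    (inv : ∀ γ ∈ Gamma0 p, F ∣[k] γ = F)
    (bdd : ∀ γ : SL(2, ℤ), IsBoundedAtImInfty (F ∣[k] γ)) :
    ∃ g : ModularForm (Gamma0 p) k, (⇑g : ℍ → ℂ) = F :=
  ⟨{ toFun := F
     slash_action_eq' := by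
       intro γ hγ
       obtain ⟨g, hg, rfl⟩ := Subgroup.mem_map.mp hγ
       exact inv g hg
     holo' := hol
     bdd_at_cusps' := by
       intro c hc
       rw [Subgroup.IsArithmetic.isCusp_iff_isCusp_SL2Z] at hc
       rw [OnePoint.isBoundedAt_iff_forall_SL2Z hc]
       intro γ _
       exact bdd γ }, rfl⟩

/-- coset decomposition `SL(2, ℤ) = Γ₀(p) ∪ ⋃ⱼ Γ₀(p) S Tʲ` -/
theorem thf_coset (p : ℕ) [Fact p.Prime] (γ : SL(2, ℤ)) :
    γ ∈ Gamma0 p ∨ ∃ g ∈ Gamma0 p, ∃ j : ℤ, γ = g * (ModularGroup.S * ModularGroup.T ^ j) := by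
  by_cases hc : ((γ 1 0 : ℤ) : ZMod p) = 0
  · exact Or.inl (Gamma0_mem.mpr hc)
  · right
    obtain ⟨j, hj⟩ := ZMod.intCast_surjective
      (((γ 1 1 : ℤ) : ZMod p) * ((γ 1 0 : ℤ) : ZMod p)⁻¹)
    refine ⟨γ * (ModularGroup.S * ModularGroup.T ^ j)⁻¹, ?_, j, by group⟩
    rw [Gamma0_mem]
    have h1 : ((γ * (ModularGroup.S * ModularGroup.T ^ j)⁻¹ : SL(2, ℤ)) 1 0 : ℤ)
        = γ 1 0 * j - γ 1 1 := by
      rw [Matrix.SpecialLinearGroup.coe_mul, Matrix.SpecialLinearGroup.coe_inv,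
        Matrix.SpecialLinearGroup.coe_mul, ModularGroup.coe_S, ModularGroup.coe_T_zpow]
      simp [Matrix.mul_apply, Fin.sum_univ_two, Matrix.adjugate_fin_two]
      ring
    rw [h1]
    push_cast
    rw [hj, mul_comm (((γ 1 1 : ℤ) : ZMod p)), ← mul_assoc, mul_inv_cancel₀ hc, one_mul, sub_self]

/-- nonnegativity of the dual form -/
theorem thf_dual_nonneg {p : ℕ} (hp : 0 < p) {A B : Matrix (Fin 4) (Fin 4) ℤ}
    (hA : (A.map (Int.cast : ℤ → ℝ)).PosDef)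
    (hAB : A * B = (p : ℤ) • (1 : Matrix (Fin 4) (Fin 4) ℤ))
    (m : Fin 4 → ℤ) : 0 ≤ m ⬝ᵥ B.mulVec m := by
  have h1 := thf_nonneg hA (B.mulVec m)
  have h2 : A.mulVec (B.mulVec m) = (p : ℤ) • m := by
    rw [Matrix.mulVec_mulVec, hAB, Matrix.smul_mulVec, Matrix.one_mulVec]
  rw [h2, dotProduct_smul, dotProduct_comm, smul_eq_mul] at h1
  have hp' : (0 : ℤ) < p := by exact_mod_cast hp
  exact nonneg_of_mul_nonneg_right h1 hp'

theorem thf_norm_term_div (n : ℤ) (z : ℂ) (p : ℕ) :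
    ‖Complex.exp (Real.pi * Complex.I * (n : ℂ) * z / p)‖
      = Real.exp (-(Real.pi * n * z.im / p)) := by
  rw [Complex.norm_exp]
  congr 1
  have : (Real.pi * Complex.I * (n : ℂ) * z / p : ℂ)
      = ((Real.pi * n / p : ℝ) : ℂ) * (Complex.I * z) := by
    push_cast; ring
  rw [this, Complex.re_ofReal_mul]
  simp
  ring

/-- boundedness of `Θ ∣ S` -/
theorem thf_bdd_S {p : ℕ} (hp : 0 < p) {A B : Matrix (Fin 4) (Fin 4) ℤ}
    (hA : (A.map (Int.cast : ℤ → ℝ)).PosDef)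
    (hAB : A * B = (p : ℤ) • (1 : Matrix (Fin 4) (Fin 4) ℤ))
    (hsumB : ∀ z : ℍ, Summable (fun m : Fin 4 → ℤ =>
      Complex.exp (Real.pi * Complex.I * ((m ⬝ᵥ B.mulVec m : ℤ) : ℂ) * (z : ℂ) / p)))
    (hS : ∀ z : ℍ, ((thetaFun A) ∣[(2 : ℤ)] ModularGroup.S) z = - (p : ℂ)⁻¹ *
      ∑' m : Fin 4 → ℤ, Complex.exp (Real.pi * Complex.I * ((m ⬝ᵥ B.mulVec m : ℤ) : ℂ) * (z : ℂ) / p)) :
    ∃ C : ℝ, ∀ z : ℍ, 1 ≤ z.im → ‖((thetaFun A) ∣[(2 : ℤ)] ModularGroup.S) z‖ ≤ C := by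
  refine ⟨(p : ℝ)⁻¹ * ∑' m : Fin 4 → ℤ,
    ‖Complex.exp (Real.pi * Complex.I * ((m ⬝ᵥ B.mulVec m : ℤ) : ℂ) * ((UpperHalfPlane.I : ℍ) : ℂ) / p)‖,
    fun z hz => ?_⟩
  rw [hS z, norm_mul, norm_neg, norm_inv, Complex.norm_natCast]
  refine mul_le_mul_of_nonneg_left ?_ (by positivity)
  refine (norm_tsum_le_tsum_norm (hsumB z).norm).trans ?_
  refine Summable.tsum_le_tsum (fun m => ?_) (hsumB z).norm (hsumB UpperHalfPlane.I).norm
  rw [thf_norm_term_div, thf_norm_term_div]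
  apply Real.exp_le_exp.mpr
  have h1 : (0 : ℝ) ≤ ((m ⬝ᵥ B.mulVec m : ℤ) : ℝ) := by
    exact_mod_cast thf_dual_nonneg hp hA hAB m
  have h2 : (UpperHalfPlane.I : ℂ).im = 1 := by simp
  rw [h2]
  have h3 : (1 : ℝ) ≤ (z : ℂ).im := hz
  have hp' : (0 : ℝ) < p := by exact_mod_cast hp
  have h4 : Real.pi * ((m ⬝ᵥ B.mulVec m : ℤ) : ℝ) * 1 / p
      ≤ Real.pi * ((m ⬝ᵥ B.mulVec m : ℤ) : ℝ) * (z : ℂ).im / p := by
    apply div_le_div_of_nonneg_right _ hp'.le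
    exact mul_le_mul_of_nonneg_left h3 (mul_nonneg Real.pi_pos.le h1)
  linarith

/-- slashing with a power of `T` preserves bounds on `1 ≤ Im z` -/
theorem thf_bdd_slash_T (f : ℍ → ℂ) (k : ℤ) (C : ℝ) (hf : ∀ z : ℍ, 1 ≤ z.im → ‖f z‖ ≤ C)
    (j : ℤ) : IsBoundedAtImInfty (f ∣[k] (ModularGroup.T ^ j)) := by
  rw [isBoundedAtImInfty_iff]
  refine ⟨C, 1, fun z hz => ?_⟩
  rw [ModularForm.SL_slash_apply]
  have h1 : denom (ModularGroup.T ^ j : SL(2, ℤ)) (z : ℂ) = 1 := by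
    rw [ModularGroup.denom_apply, ModularGroup.coe_T_zpow]
    simp
  rw [h1, one_zpow, mul_one]
  apply hf
  rw [UpperHalfPlane.modular_T_zpow_smul, UpperHalfPlane.vadd_im]
  exact hz

/-- boundedness of all slashes -/
theorem thf_bdd_all (p : ℕ) [Fact p.Prime] (F : ℍ → ℂ) (k : ℤ)
    (hslash : ∀ γ ∈ Gamma0 p, F ∣[k] γ = F) (hbdd : IsBoundedAtImInfty F)
    (hbS : ∃ C : ℝ, ∀ z : ℍ, 1 ≤ z.im → ‖(F ∣[k] ModularGroup.S) z‖ ≤ C) (γ : SL(2, ℤ)) :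
    IsBoundedAtImInfty (F ∣[k] γ) := by
  rcases thf_coset p γ with h | ⟨g, hg, j, rfl⟩
  · rw [hslash γ h]; exact hbdd
  · obtain ⟨C, hC⟩ := hbS
    rw [SlashAction.slash_mul, hslash g hg, SlashAction.slash_mul]
    exact thf_bdd_slash_T _ k C hC j

/-- **Core of THFORM**: the theta series of an even quaternary lattice of level `p` is a modular
form of weight 2 on `Γ₀(p)` with constant term `1` and even higher coefficients, given its
transformation behaviour. -/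
theorem thf_exists_theta_core (p : ℕ) [Fact p.Prime] (A B : Matrix (Fin 4) (Fin 4) ℤ)
    (hAB : IsQuatLattice p A B)
    (hsum : ∀ z : ℍ, Summable (fun x : Fin 4 → ℤ =>
      Complex.exp (Real.pi * Complex.I * ((x ⬝ᵥ A.mulVec x : ℤ) : ℂ) * (z : ℂ))))
    (hsumB : ∀ z : ℍ, Summable (fun m : Fin 4 → ℤ =>
      Complex.exp (Real.pi * Complex.I * ((m ⬝ᵥ B.mulVec m : ℤ) : ℂ) * (z : ℂ) / p)))
    (hslash : ∀ γ ∈ Gamma0 p, (thetaFun A) ∣[(2 : ℤ)] γ = thetaFun A)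
    (hS : ∀ z : ℍ, ((thetaFun A) ∣[(2 : ℤ)] ModularGroup.S) z = - (p : ℂ)⁻¹ *
      ∑' m : Fin 4 → ℤ, Complex.exp (Real.pi * Complex.I * ((m ⬝ᵥ B.mulVec m : ℤ) : ℂ) * (z : ℂ) / p)) :
    ∃ Θ : ModularForm (Gamma0 p) 2,
      (⇑Θ : ℍ → ℂ) = thetaFun A ∧
      ModularFormClass.qCoeff (⇑Θ) 0 = 1 ∧
      ∀ k : ℕ, 1 ≤ k → ∃ m : ℤ, ModularFormClass.qCoeff (⇑Θ) k = 2 * (m : ℂ) := by
  obtain ⟨hs, he, hA, hABp, -⟩ := hAB
  have hp : p.Prime := Fact.out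
  have : NeZero p := ⟨hp.ne_zero⟩
  have hq : ∀ τ : ℍ, HasSum (fun m : ℕ => (thfR A m : ℂ) • Function.Periodic.qParam 1 (τ : ℂ) ^ m)
      (thetaFun A τ) := thf_hasSum hs he hA hsum
  have hbdd : IsBoundedAtImInfty (thetaFun A) :=
    isBoundedAtImInfty_of_hasSum_qExpansion one_pos hq
  have hbS := thf_bdd_S hp.pos hA hABp hsumB hS
  obtain ⟨Θ, hΘ⟩ := thf_mkForm p 2 (thetaFun A) (thf_mdiff hA hsum) hslash
    (thf_bdd_all p (thetaFun A) 2 hslash hbdd hbS)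
  have hq' : ∀ τ : ℍ, HasSum (fun m : ℕ => (thfR A m : ℂ) • Function.Periodic.qParam 1 (τ : ℂ) ^ m)
      (Θ τ) := by
    intro τ
    rw [hΘ]
    exact hq τ
  have hcoeff : ∀ m : ℕ, (thfR A m : ℂ) = ModularFormClass.qCoeff (⇑Θ) m := fun m =>
    ModularFormClass.qExpansion_coeff_unique one_pos
      (CongruenceSubgroup.one_mem_strictPeriods_Gamma0 p) hq' m
  refine ⟨Θ, hΘ, ?_, fun k hk => ?_⟩
  · rw [← hcoeff 0, thfR_zero hs he hA, Nat.cast_one]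
  · obtain ⟨r, hr⟩ := thfR_even hs he hA k hk
    refine ⟨(r : ℤ), ?_⟩
    rw [← hcoeff k, hr]
    push_cast
    ring

end Fermat.Agent.S16
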