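import Mathlib
import Fermat.Agent.S16.Defs
import Fermat.Agent.S16.ThetaTransformCore
import Fermat.Agent.S16.ThetaInv
import Fermat.Agent.S16.GaussSum
import Fermat.Agent.S16.Lattice

/-!
# S16, theta route: `Γ₀(p)`-invariance of the quaternary theta series

`thetaFun_slash`: the wrapper of `thetaFun_slash_core` with the inversion formula (`ThetaInv.lean`),
the quaternary Gauss sum (`GaussSum.lean`) and the lattice facts (`Lattice.lean`) plugged in.
-/

set_option autoImplicit false

open UpperHalfPlane ModularForm CongruenceSubgroup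
open scoped MatrixGroups Manifold

namespace Fermat.Agent.S16

theorem thetaFun_slash (p : ℕ) [Fact p.Prime] (hp : p ≠ 2) (A B : Matrix (Fin 4) (Fin 4) ℤ)
    (hAB : IsQuatLattice p A B) (γ : SL(2, ℤ)) (hγ : γ ∈ Gamma0 p) :
    (thetaFun A) ∣[(2 : ℤ)] γ = thetaFun A := by
  obtain ⟨hBs, hBe, -⟩ := hAB.even_B hp
  exact thetaFun_slash_core p A B hAB.1 hAB.2.1 hAB.2.2.2.1 hBs hBe
    (thetaFun_summable p A B hAB) (fun w v => theta_inversion p A B hAB w v)
    (fun d hd hd2 hdp b hb => gaussSum_quat p A B hAB d hd hd2 hdp b hb) γ hγ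

end Fermat.Agent.S16
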