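import Mathlib
import Fermat.Prelude.Def_ModularCurve_PeriodMap

/-!
# S16, lower bound: two cusps

A homomorphism `χ : Γ₀(p) → A` that vanishes on `-1`, on `T` and on `S T^p S⁻¹` vanishes on every
element of trace `±2`, i.e. lies in `parabolicHoms`.

Proof: an element `γ` of `SL(2, ℤ)` of trace `2` is `k T^m k⁻¹` (complete a primitive fixed vector
to a basis); `k ∈ Γ₀(p)` or `k ∈ Γ₀(p) S T^j`; in the second case `S T^m S⁻¹ ∈ Γ₀(p)` forces
`p ∣ m`.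
-/

set_option autoImplicit false

open scoped MatrixGroups
open CongruenceSubgroup ModularGroup Matrix.SpecialLinearGroup

namespace Fermat.Agent.S16

/-- An element of `SL(2, ℤ)` with first column `(1, 0)` is a power of `T`. -/
theorem tc_eq_T_zpow (M : SL(2, ℤ)) (h00 : M 0 0 = 1) (h10 : M 1 0 = 0) : M = T ^ (M 0 1) := by
  have hdet := M.det_coe
  rw [Matrix.det_fin_two] at hdet
  rw [h00, h10] at hdet
  have h11 : M 1 1 = 1 := by linarith
  ext i j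
  rw [coe_T_zpow]
  fin_cases i <;> fin_cases j <;> simp [h00, h10, h11]

/-- An element of `SL(2, ℤ)` of trace `2` is conjugate to a power of `T`. -/
theorem tc_exists_conj (γ : SL(2, ℤ)) (htr : γ 0 0 + γ 1 1 = 2) :
    ∃ (k : SL(2, ℤ)) (m : ℤ), γ = k * T ^ m * k⁻¹ := by
  have hdet := γ.det_coe
  rw [Matrix.det_fin_two] at hdet
  by_cases hc : γ 1 0 = 0
  · refine ⟨1, γ 0 1, ?_⟩
    have h00 : γ 0 0 = 1 := by
      rw [hc, mul_zero, sub_zero] at hdet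
      have h2 : (γ 0 0 - 1) ^ 2 = 0 := by linear_combination γ 0 0 * htr - hdet
      have h3 := pow_eq_zero_iff (two_ne_zero) |>.1 h2
      linarith
    rw [one_mul, inv_one, mul_one]
    exact tc_eq_T_zpow γ h00 hc
  · have hg : 0 < Int.gcd (γ 0 0 - 1) (γ 1 0) := Int.gcd_pos_of_ne_zero_right _ hc
    obtain ⟨v1, v2, hcop, hv1, hv2⟩ := Int.exists_gcd_one hg
    obtain ⟨x, y, hxy⟩ := Int.isCoprime_iff_gcd_eq_one.2 hcop
    set g0 : ℤ := (Int.gcd (γ 0 0 - 1) (γ 1 0) : ℤ) with hg0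
    have hg0' : g0 ≠ 0 := by
      rw [hg0]; exact_mod_cast hg.ne'
    have h1 : γ 0 0 * v1 + γ 0 1 * v2 = v1 := by
      have h : g0 * (γ 0 0 * v1 + γ 0 1 * v2 - v1) = 0 := by
        linear_combination (-(γ 0 0 - 1)) * hv1 + (-(γ 0 1)) * hv2 + γ 0 0 * htr - hdet
      have := (mul_eq_zero.1 h).resolve_left hg0'
      linarith
    have h2 : γ 1 0 * v1 + γ 1 1 * v2 = v2 := by
      have h : g0 * (γ 1 0 * v1 + γ 1 1 * v2 - v2) = 0 := by
        linear_combination (-(γ 1 0)) * hv1 + (-(γ 1 1 - 1)) * hv2 + γ 1 0 * htr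
      have := (mul_eq_zero.1 h).resolve_left hg0'
      linarith
    let k : SL(2, ℤ) := ⟨!![v1, -y; v2, x], by
      rw [Matrix.det_fin_two_of]; linarith⟩
    have hk00 : k 0 0 = v1 := rfl
    have hk10 : k 1 0 = v2 := rfl
    have hcol : ∀ j, (γ * k) j 0 = k j 0 := by
      intro j
      rw [coe_mul, Matrix.mul_apply, Fin.sum_univ_two, hk00, hk10]
      fin_cases j
      · exact h1
      · exact h2
    have hM : ∀ i, (k⁻¹ * γ * k) i 0 = (1 : SL(2, ℤ)) i 0 := by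
      intro i
      have e1 : (k⁻¹ * γ * k) i 0 = (k⁻¹ * (γ * k)) i 0 := by rw [mul_assoc]
      rw [e1, coe_mul, Matrix.mul_apply, Fin.sum_univ_two, hcol 0, hcol 1]
      have e2 : (k⁻¹ * k) i 0 = (1 : SL(2, ℤ)) i 0 := by rw [inv_mul_cancel]
      rw [coe_mul, Matrix.mul_apply, Fin.sum_univ_two] at e2
      exact e2
    have h00 : (k⁻¹ * γ * k) 0 0 = 1 := by rw [hM 0]; simp
    have h10 : (k⁻¹ * γ * k) 1 0 = 0 := by rw [hM 1]; simp
    refine ⟨k, (k⁻¹ * γ * k) 0 1, ?_⟩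
    rw [← tc_eq_T_zpow _ h00 h10]
    group

/-- Coset representatives of `Γ₀(p)` in `SL(2, ℤ)`: `1` and `S T^j`. -/
theorem tc_coset (p : ℕ) [Fact p.Prime] (k : SL(2, ℤ)) :
    k ∈ Gamma0 p ∨ ∃ (j : ℤ) (γ₁ : SL(2, ℤ)), γ₁ ∈ Gamma0 p ∧ k = γ₁ * (S * T ^ j) := by
  by_cases hk : ((k 1 0 : ℤ) : ZMod p) = 0
  · exact Or.inl (Gamma0_mem.mpr hk)
  · right
    -- choose `j` with `k 1 0 * j = k 1 1` modulo `p`
    obtain ⟨j, hj⟩ := ZMod.intCast_surjective (((k 1 1 : ℤ) : ZMod p) * ((k 1 0 : ℤ) : ZMod p)⁻¹)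
    let R : SL(2, ℤ) := ⟨!![j, 1; -1, 0], by rw [Matrix.det_fin_two_of]; ring⟩
    have hR : R * (S * T ^ j) = 1 := by
      ext a b
      rw [coe_mul, coe_mul, coe_T_zpow, coe_S]
      fin_cases a <;> fin_cases b <;> simp [R, Matrix.mul_apply, Fin.sum_univ_two]
    refine ⟨j, k * R, ?_, ?_⟩
    · rw [Gamma0_mem]
      have e : (k * R) 1 0 = k 1 0 * j - k 1 1 := by
        rw [coe_mul, Matrix.mul_apply, Fin.sum_univ_two]
        simp [R]
        ring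
      rw [e]
      push_cast
      rw [hj, mul_comm, mul_assoc, inv_mul_cancel₀ hk, mul_one, sub_self]
    · rw [mul_assoc, hR, mul_one]

/-- `S T^m S⁻¹ = [[1, 0], [-m, 1]]`. -/
theorem tc_conj_S_apply (m : ℤ) : (S * T ^ m * S⁻¹) 1 0 = -m := by
  have h : S * T ^ m * S⁻¹ = ⟨!![1, 0; -m, 1], by rw [Matrix.det_fin_two_of]; ring⟩ := by
    rw [mul_inv_eq_iff_eq_mul]
    ext a b
    rw [coe_mul, coe_mul, coe_T_zpow, coe_S]
    fin_cases a <;> fin_cases b <;> simp [Matrix.mul_apply, Fin.sum_univ_two]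
  rw [h]
  rfl

theorem tc_conj_S_mem (p : ℕ) : S * T ^ p * S⁻¹ ∈ Gamma0 p := by
  rw [Gamma0_mem]
  have := tc_conj_S_apply (p : ℤ)
  rw [zpow_natCast] at this
  rw [this]
  simp

theorem tc_T_mem (p : ℕ) : T ∈ Gamma0 p := by
  rw [Gamma0_mem]
  simp [ModularGroup.T]

theorem tc_neg_one_mem (p : ℕ) : (-1 : SL(2, ℤ)) ∈ Gamma0 p := by
  rw [Gamma0_mem]
  simp

/-- A homomorphism on `Γ₀(p)` vanishing on `-1`, `T` and `S T^p S⁻¹` is parabolic. -/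
theorem tc_mem_parabolicHoms (p : ℕ) [Fact p.Prime] {A : Type*} [AddCommGroup A]
    (chi : Additive (Gamma0 p) →+ A)
    (hneg : ∀ g : Gamma0 p, (g : SL(2, ℤ)) = -1 → chi (Additive.ofMul g) = 0)
    (hT : ∀ g : Gamma0 p, (g : SL(2, ℤ)) = T → chi (Additive.ofMul g) = 0)
    (hT0 : ∀ g : Gamma0 p, (g : SL(2, ℤ)) = S * T ^ p * S⁻¹ → chi (Additive.ofMul g) = 0) :
    chi ∈ ModularCurve.Period.parabolicHoms ℤ (Gamma0 p) A := by
  have hp : p.Prime := Fact.out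
  -- multiplicative version of `chi`
  let f : Gamma0 p →* Multiplicative A := AddMonoidHom.toMultiplicativeRight chi
  have hf : ∀ g : Gamma0 p, chi (Additive.ofMul g) = Multiplicative.toAdd (f g) := fun g => rfl
  have hfneg : f ⟨-1, tc_neg_one_mem p⟩ = 1 := by
    apply Multiplicative.toAdd.injective
    rw [← hf]; exact hneg _ rfl
  have hfT : f ⟨T, tc_T_mem p⟩ = 1 := by
    apply Multiplicative.toAdd.injective
    rw [← hf]; exact hT _ rfl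
  have hfT0 : f ⟨S * T ^ p * S⁻¹, tc_conj_S_mem p⟩ = 1 := by
    apply Multiplicative.toAdd.injective
    rw [← hf]; exact hT0 _ rfl
  -- the case of trace `2`
  have key : ∀ γ : Gamma0 p, (γ : SL(2, ℤ)) 0 0 + (γ : SL(2, ℤ)) 1 1 = 2 → f γ = 1 := by
    intro γ htr
    obtain ⟨k, m, hkm⟩ := tc_exists_conj (γ : SL(2, ℤ)) htr
    rcases tc_coset p k with hk | ⟨j, γ₁, hγ₁, hkj⟩
    · -- `k ∈ Γ₀(p)`
      have e : γ = ⟨k, hk⟩ * ⟨T, tc_T_mem p⟩ ^ m * ⟨k, hk⟩⁻¹ := by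
        apply Subtype.ext
        rw [hkm]
        simp
      rw [e, map_mul, map_mul, map_zpow, hfT, one_zpow, mul_one, map_inv, mul_inv_cancel]
    · -- `k = γ₁ S T^j`
      have e0 : (γ : SL(2, ℤ)) = γ₁ * (S * T ^ m * S⁻¹) * γ₁⁻¹ := by
        rw [hkm, hkj]
        group
      have hmem : S * T ^ m * S⁻¹ ∈ Gamma0 p := by
        have : S * T ^ m * S⁻¹ = γ₁⁻¹ * (γ : SL(2, ℤ)) * γ₁ := by
          rw [e0]; group
        rw [this]
        exact (Gamma0 p).mul_mem ((Gamma0 p).mul_mem ((Gamma0 p).inv_mem hγ₁) γ.2) hγ₁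
      have hpm : (p : ℤ) ∣ m := by
        rw [Gamma0_mem, tc_conj_S_apply] at hmem
        have h0 : ((m : ℤ) : ZMod p) = 0 := by
          push_cast at hmem
          exact neg_eq_zero.mp hmem
        exact (ZMod.intCast_zmod_eq_zero_iff_dvd _ _).1 h0
      obtain ⟨q, rfl⟩ := hpm
      have e1 : S * T ^ ((p : ℤ) * q) * S⁻¹ = (S * T ^ p * S⁻¹) ^ q := by
        rw [conj_zpow, zpow_mul, zpow_natCast]
      have e : γ = ⟨γ₁, hγ₁⟩ * ⟨S * T ^ p * S⁻¹, tc_conj_S_mem p⟩ ^ q * ⟨γ₁, hγ₁⟩⁻¹ := by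
        apply Subtype.ext
        rw [e0, e1]
        simp
      rw [e, map_mul, map_mul, map_zpow, hfT0, one_zpow, mul_one, map_inv, mul_inv_cancel]
  rw [ModularCurve.Period.mem_parabolicHoms_iff]
  intro γ hγ
  rw [Matrix.trace_fin_two] at hγ
  have hγ' : ((γ : SL(2, ℤ)) 0 0 + (γ : SL(2, ℤ)) 1 1 - 2) *
      ((γ : SL(2, ℤ)) 0 0 + (γ : SL(2, ℤ)) 1 1 + 2) = 0 := by
    have : ((γ : SL(2, ℤ)) : Matrix (Fin 2) (Fin 2) ℤ) 0 0 +
        ((γ : SL(2, ℤ)) : Matrix (Fin 2) (Fin 2) ℤ) 1 1 =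
        (γ : SL(2, ℤ)) 0 0 + (γ : SL(2, ℤ)) 1 1 := rfl
    rw [this] at hγ
    linear_combination hγ
  rw [hf]
  rcases mul_eq_zero.1 hγ' with h | h
  · rw [key γ (by linarith)]; rfl
  · -- trace `-2`: use `-γ`
    have hmem : -(γ : SL(2, ℤ)) ∈ Gamma0 p := by
      have : -(γ : SL(2, ℤ)) = (-1 : SL(2, ℤ)) * γ := by simp
      rw [this]
      exact (Gamma0 p).mul_mem (tc_neg_one_mem p) γ.2
    have htr : ((⟨-(γ : SL(2, ℤ)), hmem⟩ : Gamma0 p) : SL(2, ℤ)) 0 0 +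
        ((⟨-(γ : SL(2, ℤ)), hmem⟩ : Gamma0 p) : SL(2, ℤ)) 1 1 = 2 := by
      show (-(γ : SL(2, ℤ))) 0 0 + (-(γ : SL(2, ℤ))) 1 1 = 2
      rw [Matrix.SpecialLinearGroup.coe_neg]
      simp only [Matrix.neg_apply]
      linarith
    have e : γ = ⟨-1, tc_neg_one_mem p⟩ * ⟨-(γ : SL(2, ℤ)), hmem⟩ := by
      apply Subtype.ext
      simp
    have h1 := key _ htr
    rw [e, map_mul, hfneg, h1, one_mul]
    rfl

end Fermat.Agent.S16
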